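import Mathlib
import Fermat.Agent.S37.Final
import Fermat.Agent.S37.K5Pic
import Fermat.Agent.S37.RedTwoInst

/-!
# S29 / S42 (item 87), leaf ES-TORS: Eichler–Shimura and unramifiedness on torsion of `J₀(N)`

For a prime `ℓ ∤ N`, a valuation ring `A` of `ℚ̄` over `ℓ`, and `x ∈ J₀(N)` killed by some `k`
prime to `ℓ`:

* `FA_S29_ES_inertia` : `τ • x = x` for `τ` in the inertia group of `A`;
* `FA_S29_ES_frob` : `σ • σ • x − T_ℓ (σ • x) + ℓ • x = 0` for every Frobenius element `σ` at `A`.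

Both are unconditional (they use the leaves of S37: K2, K4, K5 and the reduction inputs).
`FA_S29_ES_inertia_pow`, `FA_S29_ES_frob_pow` are the `p`-power torsion forms.
-/

set_option autoImplicit false
set_option linter.unusedSectionVars false
set_option linter.unusedVariables false
set_option linter.style.haveILetI false
set_option synthInstance.maxHeartbeats 400000
set_option maxHeartbeats 1000000

noncomputable section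

namespace Fermat.Agent.S29

open AlgebraicCurve ModularCurve Fermat.Agent.S37

variable (N : ℕ) [NeZero N]

/-- The Galois action preserves `k`-torsion. -/
theorem FA_S29_ES_nsmul_smul (σ : AlgebraicClosure ℚ ≃ₐ[ℚ] AlgebraicClosure ℚ) (k : ℕ)
    (x : JZero N) (hkx : k • x = 0) : k • (σ • x) = 0 := by
  have h := map_nsmul (DistribSMul.toAddMonoidHom (JZero N) σ) k x
  rw [hkx, map_zero] at h
  exact h.symm

/-- Injectivity of `red` on torsion prime to `ℓ`. -/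
theorem FA_S29_ES_inj {ℓ : ℕ} (hℓ : ℓ.Prime) (hℓN : ¬ ℓ ∣ N)
    (A : ValuationSubring (AlgebraicClosure ℚ)) (hA : A.LiesOverPrime ℓ)
    (k : ℕ) (hk : ¬ ℓ ∣ k) (x : JZero N) (hkx : k • x = 0)
    (hred : FA_S37_SG_red N (FA_S37_SG_M ℓ) A x = 0) : x = 0 := by
  obtain ⟨r, hr, hM⟩ := FA_S37_SG_M_sq ℓ
  exact FA_S37_SG_K4_gen N (FA_S37_SG_M ℓ) hℓ hℓN A hA r hr hM (FA_S37_SG_M_not_dvd hℓ)
    (FA_S37_RTI_hRED N ℓ hℓ hℓN A hA) k hk x hkx hred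

/-- **Inertia acts trivially on torsion prime to `ℓ`.** -/
theorem FA_S29_ES_inertia {ℓ : ℕ} (hℓ : ℓ.Prime) (hℓN : ¬ ℓ ∣ N)
    (A : ValuationSubring (AlgebraicClosure ℚ)) (hA : A.LiesOverPrime ℓ)
    (τ : AlgebraicClosure ℚ ≃ₐ[ℚ] AlgebraicClosure ℚ) (hτ : τ ∈ A.inertiaSubgroupIn ℚ)
    (k : ℕ) (hk : ¬ ℓ ∣ k) (x : JZero N) (hkx : k • x = 0) : τ • x = x := by
  have h0 : τ • x - x = 0 := by
    refine FA_S29_ES_inj N hℓ hℓN A hA k hk _ ?_ ?_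
    · rw [nsmul_sub, FA_S29_ES_nsmul_smul N τ k x hkx, hkx, sub_zero]
    · rw [map_sub, FA_S37_FIN_K2 N _ A τ hτ x, sub_self]
  exact sub_eq_zero.mp h0

/-- **The Eichler–Shimura relation on torsion prime to `ℓ`.** -/
theorem FA_S29_ES_frob {ℓ : ℕ} (hℓ : ℓ.Prime) (hℓN : ¬ ℓ ∣ N)
    (A : ValuationSubring (AlgebraicClosure ℚ)) (hA : A.LiesOverPrime ℓ)
    (σ : AlgebraicClosure ℚ ≃ₐ[ℚ] AlgebraicClosure ℚ) (hσ : A.IsFrobeniusAt σ ℓ)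
    (k : ℕ) (hk : ¬ ℓ ∣ k) (x : JZero N) (hkx : k • x = 0) :
    σ • σ • x - heckeOperatorBar N ⟨ℓ, hℓ⟩ (σ • x) + ℓ • x = 0 := by
  refine FA_S29_ES_inj N hℓ hℓN A hA k hk _ ?_ ?_
  · have h0 : k • (σ • x) = 0 := FA_S29_ES_nsmul_smul N σ k x hkx
    have h1 : k • (σ • σ • x) = 0 := FA_S29_ES_nsmul_smul N σ k _ h0
    have h2 : k • (heckeOperatorBar N ⟨ℓ, hℓ⟩ (σ • x)) = 0 := by
      rw [← map_nsmul, h0, map_zero]
    have h3 : k • (ℓ • x) = 0 := by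
      rw [smul_comm k ℓ x, hkx, smul_zero]
    rw [nsmul_add, nsmul_sub, h1, h2, h3, sub_zero, add_zero]
  · exact FA_S37_K5_main N ℓ hℓ hℓN A hA (FA_S37_RTI_hRED N ℓ hℓ hℓN A hA) σ hσ x

/-- `p`-power torsion form of `FA_S29_ES_inertia` (`ℓ ∤ N p`). -/
theorem FA_S29_ES_inertia_pow {ℓ : ℕ} (hℓ : ℓ.Prime) (p : ℕ) (hℓNp : ¬ ℓ ∣ N * p)
    (A : ValuationSubring (AlgebraicClosure ℚ)) (hA : A.LiesOverPrime ℓ)
    (τ : AlgebraicClosure ℚ ≃ₐ[ℚ] AlgebraicClosure ℚ) (hτ : τ ∈ A.inertiaSubgroupIn ℚ)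
    (x : JZero N) (hx : ∃ m : ℕ, p ^ m • x = 0) : τ • x = x := by
  obtain ⟨m, hm⟩ := hx
  have hℓN : ¬ ℓ ∣ N := fun hd => hℓNp (Dvd.dvd.mul_right hd p)
  have hℓp : ¬ ℓ ∣ p ^ m := fun hd => hℓNp (Dvd.dvd.mul_left (hℓ.dvd_of_dvd_pow hd) N)
  exact FA_S29_ES_inertia N hℓ hℓN A hA τ hτ (p ^ m) hℓp x hm

/-- `p`-power torsion form of `FA_S29_ES_frob` (`ℓ ∤ N p`). -/
theorem FA_S29_ES_frob_pow {ℓ : ℕ} (hℓ : ℓ.Prime) (p : ℕ) (hℓNp : ¬ ℓ ∣ N * p)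
    (A : ValuationSubring (AlgebraicClosure ℚ)) (hA : A.LiesOverPrime ℓ)
    (σ : AlgebraicClosure ℚ ≃ₐ[ℚ] AlgebraicClosure ℚ) (hσ : A.IsFrobeniusAt σ ℓ)
    (x : JZero N) (hx : ∃ m : ℕ, p ^ m • x = 0) :
    σ • σ • x - heckeOperatorBar N ⟨ℓ, hℓ⟩ (σ • x) + ℓ • x = 0 := by
  obtain ⟨m, hm⟩ := hx
  have hℓN : ¬ ℓ ∣ N := fun hd => hℓNp (Dvd.dvd.mul_right hd p)
  have hℓp : ¬ ℓ ∣ p ^ m := fun hd => hℓNp (Dvd.dvd.mul_left (hℓ.dvd_of_dvd_pow hd) N)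
  exact FA_S29_ES_frob N hℓ hℓN A hA σ hσ (p ^ m) hℓp x hm

end Fermat.Agent.S29

end
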