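import Mathlib

/-!
# S29, leaf L10 (abstract part): the Galois module cut out by a Hecke eigenvector

`G` a group acting additively on an abelian group `J'`, commuting with additive endomorphisms
`T' i`; `k₀` a field; `x ∈ k₀ ⊗[ℤ] J'` nonzero with `(1 ⊗ T' i) x = c i • x`; all `G`-orbits in
`J'` finite.  Then `V := U ⊓ W ⊆ k₀ ⊗[ℤ] J'` (`U` = span of `1 ⊗ S`, `S` a finite `G`-stable
set, `W` = common eigenspace) is a nonzero finite-dimensional `G`-stable subspace, and: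

* an element of `G` fixing the finitely many elements of `S` acts trivially on `V`;
* a relation `σ² y - T' i (σ y) + m y = 0` on `J'` gives `ρ(σ)² - c i ρ(σ) + m = 0` on `V`.
-/

set_option autoImplicit false
set_option linter.unusedSectionVars false
set_option linter.unusedVariables false
set_option linter.style.haveILetI false

noncomputable section

namespace Fermat.Agent.S29

open scoped TensorProduct

section act

variable {G : Type*} [Group G] (k₀ : Type*) [Field k₀] {J' : Type*} [AddCommGroup J']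
  [DistribMulAction G J']

/-- The action of `G` on `k₀ ⊗ J'`. -/
def FA_S29_EM_act (σ : G) : k₀ ⊗[ℤ] J' →ₗ[k₀] k₀ ⊗[ℤ] J' :=
  (DistribSMul.toAddMonoidHom J' σ).toIntLinearMap.baseChange k₀

/-- The base change of an additive endomorphism. -/
def FA_S29_EM_TX (T : J' →+ J') : k₀ ⊗[ℤ] J' →ₗ[k₀] k₀ ⊗[ℤ] J' :=
  T.toIntLinearMap.baseChange k₀

variable {k₀}

theorem FA_S29_EM_act_tmul (σ : G) (a : k₀) (y : J') :
    FA_S29_EM_act k₀ σ (a ⊗ₜ[ℤ] y) = a ⊗ₜ[ℤ] (σ • y) := by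
  unfold FA_S29_EM_act
  rw [LinearMap.baseChange_tmul]
  rfl

theorem FA_S29_EM_TX_tmul (T : J' →+ J') (a : k₀) (y : J') :
    FA_S29_EM_TX k₀ T (a ⊗ₜ[ℤ] y) = a ⊗ₜ[ℤ] (T y) := by
  unfold FA_S29_EM_TX
  rw [LinearMap.baseChange_tmul]
  rfl

theorem FA_S29_EM_ext {f g : k₀ ⊗[ℤ] J' →ₗ[k₀] k₀ ⊗[ℤ] J'}
    (h : ∀ (a : k₀) (y : J'), f (a ⊗ₜ[ℤ] y) = g (a ⊗ₜ[ℤ] y)) : f = g := by
  refine LinearMap.ext fun z => ?_
  induction z using TensorProduct.induction_on with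
  | zero => rw [map_zero, map_zero]
  | tmul a y => exact h a y
  | add u v hu hv => rw [map_add, map_add, hu, hv]

theorem FA_S29_EM_act_one : FA_S29_EM_act k₀ (1 : G) = (LinearMap.id : k₀ ⊗[ℤ] J' →ₗ[k₀] _) := by
  refine FA_S29_EM_ext fun a y => ?_
  rw [FA_S29_EM_act_tmul, one_smul]
  rfl

theorem FA_S29_EM_act_mul (σ τ : G) :
    FA_S29_EM_act k₀ (σ * τ)
      = (FA_S29_EM_act k₀ σ).comp (FA_S29_EM_act k₀ τ : k₀ ⊗[ℤ] J' →ₗ[k₀] _) := by
  refine FA_S29_EM_ext fun a y => ?_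
  rw [LinearMap.comp_apply, FA_S29_EM_act_tmul, FA_S29_EM_act_tmul, FA_S29_EM_act_tmul, mul_smul]

theorem FA_S29_EM_act_TX (T : J' →+ J') (hT : ∀ (σ : G) (y : J'), T (σ • y) = σ • T y) (σ : G)
    (z : k₀ ⊗[ℤ] J') :
    FA_S29_EM_TX k₀ T (FA_S29_EM_act k₀ σ z) = FA_S29_EM_act k₀ σ (FA_S29_EM_TX k₀ T z) := by
  have h : (FA_S29_EM_TX k₀ T).comp (FA_S29_EM_act k₀ σ)
      = (FA_S29_EM_act k₀ σ).comp (FA_S29_EM_TX k₀ T) := by
    refine FA_S29_EM_ext fun a y => ?_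
    rw [LinearMap.comp_apply, LinearMap.comp_apply, FA_S29_EM_act_tmul, FA_S29_EM_TX_tmul,
      FA_S29_EM_TX_tmul, FA_S29_EM_act_tmul, hT]
  exact congrArg (fun F : k₀ ⊗[ℤ] J' →ₗ[k₀] k₀ ⊗[ℤ] J' => F z) h

/-- Every tensor lies in the span of finitely many `1 ⊗ y`. -/
theorem FA_S29_EM_mem_span (x : k₀ ⊗[ℤ] J') :
    ∃ S₀ : Finset J', x ∈ Submodule.span k₀ ((fun y : J' => (1 : k₀) ⊗ₜ[ℤ] y) '' (S₀ : Set J')) := by
  classical
  induction x using TensorProduct.induction_on with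
  | zero => exact ⟨∅, Submodule.zero_mem _⟩
  | tmul a y =>
    refine ⟨{y}, ?_⟩
    have e : a ⊗ₜ[ℤ] y = a • ((1 : k₀) ⊗ₜ[ℤ] y) := by
      rw [TensorProduct.smul_tmul', smul_eq_mul, mul_one]
    rw [e]
    refine Submodule.smul_mem _ _ (Submodule.subset_span ⟨y, ?_, rfl⟩)
    simp
  | add u v hu hv =>
    obtain ⟨S₁, h₁⟩ := hu
    obtain ⟨S₂, h₂⟩ := hv
    refine ⟨S₁ ∪ S₂, Submodule.add_mem _ ?_ ?_⟩
    · refine Submodule.span_mono ?_ h₁
      refine Set.image_mono ?_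
      intro y hy
      simp only [Finset.coe_union, Set.mem_union]
      exact Or.inl hy
    · refine Submodule.span_mono ?_ h₂
      refine Set.image_mono ?_
      intro y hy
      simp only [Finset.coe_union, Set.mem_union]
      exact Or.inr hy

/-- The quadratic relation on `k₀ ⊗ J'`. -/
theorem FA_S29_EM_rel (T : J' →+ J') (σ : G) (m : ℤ)
    (h : ∀ y : J', σ • σ • y - T (σ • y) + m • y = 0) (z : k₀ ⊗[ℤ] J') :
    FA_S29_EM_act k₀ σ (FA_S29_EM_act k₀ σ z) - FA_S29_EM_TX k₀ T (FA_S29_EM_act k₀ σ z)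
      + (m : k₀) • z = 0 := by
  induction z using TensorProduct.induction_on with
  | zero => simp
  | tmul a y =>
    rw [FA_S29_EM_act_tmul, FA_S29_EM_act_tmul, FA_S29_EM_TX_tmul]
    have e : (m : k₀) • (a ⊗ₜ[ℤ] y) = a ⊗ₜ[ℤ] (m • y) := by
      rw [Int.cast_smul_eq_zsmul, TensorProduct.tmul_smul]
    rw [e, ← TensorProduct.tmul_sub, ← TensorProduct.tmul_add, h, TensorProduct.tmul_zero]
  | add u v hu hv =>
    have : FA_S29_EM_act k₀ σ (FA_S29_EM_act k₀ σ (u + v))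
        - FA_S29_EM_TX k₀ T (FA_S29_EM_act k₀ σ (u + v)) + (m : k₀) • (u + v)
        = (FA_S29_EM_act k₀ σ (FA_S29_EM_act k₀ σ u)
            - FA_S29_EM_TX k₀ T (FA_S29_EM_act k₀ σ u) + (m : k₀) • u)
          + (FA_S29_EM_act k₀ σ (FA_S29_EM_act k₀ σ v)
            - FA_S29_EM_TX k₀ T (FA_S29_EM_act k₀ σ v) + (m : k₀) • v) := by
      simp only [map_add, smul_add]
      abel
    rw [this, hu, hv, add_zero]

end act

/-- **L10, abstract part.** -/
theorem FA_S29_EM_main {G : Type*} [Group G] {k₀ : Type} [Field k₀]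
    {J' : Type} [AddCommGroup J'] [DistribMulAction G J']
    {I : Type*} (T' : I → J' →+ J')
    (hcomm : ∀ (i : I) (σ : G) (y : J'), T' i (σ • y) = σ • T' i y)
    (c : I → k₀) (x : k₀ ⊗[ℤ] J') (hx0 : x ≠ 0)
    (hx : ∀ i, FA_S29_EM_TX k₀ (T' i) x = c i • x)
    (hfin : ∀ y : J', (Set.range fun σ : G => σ • y).Finite) :
    ∃ (V : Type) (_ : AddCommGroup V) (_ : Module k₀ V) (_ : Module.Finite k₀ V)
      (_ : Nontrivial V) (ρ : G →* Module.End k₀ V),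
      (∃ S : Finset J', ∀ σ : G, (∀ y ∈ S, σ • y = y) → ρ σ = 1) ∧
      (∀ (σ : G) (i : I) (m : ℤ), (∀ y : J', σ • σ • y - T' i (σ • y) + m • y = 0) →
          ρ σ * ρ σ - c i • ρ σ + (m : k₀) • (1 : Module.End k₀ V) = 0) := by
  classical
  obtain ⟨S₀, hS₀⟩ := FA_S29_EM_mem_span x
  -- the orbit closure
  set S : Finset J' := S₀.biUnion fun y => (hfin y).toFinset with hS
  have hS₀S : ∀ y ∈ S₀, y ∈ S := by
    intro y hy
    rw [hS, Finset.mem_biUnion]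
    refine ⟨y, hy, ?_⟩
    rw [Set.Finite.mem_toFinset]
    exact ⟨1, one_smul _ _⟩
  have hSG : ∀ (σ : G), ∀ y ∈ S, σ • y ∈ S := by
    intro σ y hy
    rw [hS, Finset.mem_biUnion] at hy ⊢
    obtain ⟨y₀, hy₀, hy⟩ := hy
    rw [Set.Finite.mem_toFinset] at hy
    obtain ⟨τ, rfl⟩ := hy
    refine ⟨y₀, hy₀, ?_⟩
    rw [Set.Finite.mem_toFinset]
    exact ⟨σ * τ, mul_smul _ _ _⟩
  set gen : Set (k₀ ⊗[ℤ] J') := (fun y : J' => (1 : k₀) ⊗ₜ[ℤ] y) '' (S : Set J') with hgen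
  set U : Submodule k₀ (k₀ ⊗[ℤ] J') := Submodule.span k₀ gen with hU
  have hxU : x ∈ U := by
    refine Submodule.span_mono ?_ hS₀
    exact Set.image_mono fun y hy => hS₀S y hy
  have hUG : ∀ (σ : G), ∀ z ∈ U, FA_S29_EM_act k₀ σ z ∈ U := by
    intro σ
    have hle : U ≤ U.comap (FA_S29_EM_act k₀ σ) := by
      rw [hU, Submodule.span_le]
      rintro _ ⟨y, hy, rfl⟩
      show FA_S29_EM_act k₀ σ ((1 : k₀) ⊗ₜ[ℤ] y) ∈ Submodule.span k₀ gen
      rw [FA_S29_EM_act_tmul]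
      exact Submodule.subset_span ⟨σ • y, hSG σ y hy, rfl⟩
    exact fun z hz => hle hz
  -- the common eigenspace
  let W : Submodule k₀ (k₀ ⊗[ℤ] J') :=
    { carrier := {z | ∀ i, FA_S29_EM_TX k₀ (T' i) z = c i • z}
      zero_mem' := fun i => by rw [map_zero, smul_zero]
      add_mem' := fun {a b} ha hb i => by rw [map_add, ha i, hb i, smul_add]
      smul_mem' := fun r a ha i => by rw [map_smul, ha i, smul_comm] }
  have hxW : x ∈ W := hx
  have hWG : ∀ (σ : G), ∀ z ∈ W, FA_S29_EM_act k₀ σ z ∈ W := by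
    intro σ z hz i
    rw [FA_S29_EM_act_TX (T' i) (hcomm i) σ z, hz i, map_smul]
  set V : Submodule k₀ (k₀ ⊗[ℤ] J') := U ⊓ W with hV
  have hVG : ∀ (σ : G), ∀ z ∈ V, FA_S29_EM_act k₀ σ z ∈ V :=
    fun σ z hz => ⟨hUG σ z hz.1, hWG σ z hz.2⟩
  haveI hUfin : Module.Finite k₀ U :=
    FiniteDimensional.span_of_finite k₀ (Set.Finite.image _ S.finite_toSet)
  haveI hVfin : Module.Finite k₀ V := Submodule.finiteDimensional_inf_left U W
  haveI hVnt : Nontrivial V := by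
    refine ⟨⟨⟨x, hxU, hxW⟩, 0, ?_⟩⟩
    intro h
    exact hx0 (congrArg Subtype.val h)
  let ρ : G →* Module.End k₀ V :=
    { toFun := fun σ => (FA_S29_EM_act k₀ σ).restrict (hVG σ)
      map_one' := by
        refine LinearMap.ext fun z => Subtype.ext ?_
        show FA_S29_EM_act k₀ (1 : G) z.1 = z.1
        rw [FA_S29_EM_act_one]
        rfl
      map_mul' := by
        intro σ τ
        refine LinearMap.ext fun z => Subtype.ext ?_
        show FA_S29_EM_act k₀ (σ * τ) z.1 = FA_S29_EM_act k₀ σ (FA_S29_EM_act k₀ τ z.1)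
        rw [FA_S29_EM_act_mul]
        rfl }
  have hρ : ∀ (σ : G) (z : V), ((ρ σ z : V) : k₀ ⊗[ℤ] J') = FA_S29_EM_act k₀ σ z.1 :=
    fun σ z => rfl
  refine ⟨V, inferInstance, inferInstance, hVfin, hVnt, ρ, ⟨S, ?_⟩, ?_⟩
  · intro σ hσ
    refine LinearMap.ext fun z => Subtype.ext ?_
    rw [hρ]
    show FA_S29_EM_act k₀ σ z.1 = z.1
    have hz : z.1 ∈ U := z.2.1
    have heq : Set.EqOn (FA_S29_EM_act k₀ σ) (LinearMap.id : k₀ ⊗[ℤ] J' →ₗ[k₀] _) gen := by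
      rintro _ ⟨y, hy, rfl⟩
      show FA_S29_EM_act k₀ σ ((1 : k₀) ⊗ₜ[ℤ] y) = (1 : k₀) ⊗ₜ[ℤ] y
      rw [FA_S29_EM_act_tmul, hσ y hy]
    exact LinearMap.eqOn_span heq hz
  · intro σ i m h
    refine LinearMap.ext fun z => Subtype.ext ?_
    have h1 := FA_S29_EM_rel (k₀ := k₀) (T' i) σ m h z.1
    have h2 : FA_S29_EM_TX k₀ (T' i) (FA_S29_EM_act k₀ σ z.1)
        = c i • FA_S29_EM_act k₀ σ z.1 := (hVG σ z.1 z.2).2 i
    rw [h2] at h1
    simp only [LinearMap.add_apply, LinearMap.sub_apply, LinearMap.smul_apply,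
      Module.End.mul_apply, Module.End.one_apply, LinearMap.zero_apply,
      Submodule.coe_add, Submodule.coe_sub, Submodule.coe_smul, Submodule.coe_zero, hρ]
    exact h1

end Fermat.Agent.S29
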