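import Fermat.Agent.S29.AlgMain

/-!
# S29/S42, leaf L9 (file AlgFinal): powers, base change, and the consumer interface

* `FA_S29_ALG_pow`: `f² - t f + δ = 0` ⟹ `(fⁿ)² - t' fⁿ + δⁿ = 0` for some `t'`.
* `FA_S29_ALG_residual`: the consumer form of `FA_S29_ALG_main`: a representation
  `ρ' : G →* End_k (Fin 2 → k)` over ANY field `k` receiving `k₀` (algebraically closed), with
  exact characteristic polynomials, traces and determinants.
-/

set_option autoImplicit false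
set_option linter.unusedSectionVars false
set_option linter.unusedVariables false

noncomputable section

namespace Fermat.Agent.S29

open Polynomial Matrix

/-- Powers of a quadratic element are quadratic, with constant term the power. -/
theorem FA_S29_ALG_pow {k : Type*} [Field k] [IsAlgClosed k] {E : Type*} [Ring E] [Algebra k E]
    (f : E) (t δ : k) (h : f * f - t • f + δ • (1 : E) = 0) (n : ℕ) :
    ∃ t' : k, f ^ n * f ^ n - t' • f ^ n + (δ ^ n) • (1 : E) = 0 := by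
  obtain ⟨α, β, -, hαβ, hfac⟩ := FA_S29_ALG_factor f t δ h
  refine ⟨α ^ n + β ^ n, ?_⟩
  have h1 : (X - C α : k[X]) ∣ X ^ n - C (α ^ n) := by
    rw [map_pow]; exact sub_dvd_pow_sub_pow _ _ n
  have h2 : (X - C β : k[X]) ∣ X ^ n - C (β ^ n) := by
    rw [map_pow]; exact sub_dvd_pow_sub_pow _ _ n
  obtain ⟨R, hR⟩ := mul_dvd_mul h1 h2
  have h3 := congrArg (Polynomial.aeval f) hR
  simp only [map_mul, map_sub, map_pow, Polynomial.aeval_X, Polynomial.aeval_C,
    Algebra.algebraMap_eq_smul_one] at h3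
  rw [hfac, zero_mul] at h3
  simp only [_root_.smul_pow, one_pow] at h3
  have e : (f ^ n - α ^ n • (1 : E)) * (f ^ n - β ^ n • (1 : E)) =
      f ^ n * f ^ n - (α ^ n + β ^ n) • f ^ n + ((α * β) ^ n) • (1 : E) := by
    simp only [sub_mul, mul_sub, smul_mul_assoc, mul_smul_comm, mul_one, one_mul, smul_sub,
      smul_smul, add_smul, mul_pow]
    module
  rw [← hαβ, ← e]
  exact h3

/-- Trace and determinant from the characteristic polynomial of a 2 × 2 matrix. -/
theorem FA_S29_ALG_tr_det_of_charpoly {k : Type*} [Field k] (M : Matrix (Fin 2) (Fin 2) k)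
    (t δ : k) (h : M.charpoly = X ^ 2 - C t * X + C δ) : M.trace = t ∧ M.det = δ := by
  rw [Matrix.charpoly_fin_two] at h
  have h1 := congrArg (fun p : k[X] => p.coeff 1) h
  have h0 := congrArg (fun p : k[X] => p.coeff 0) h
  simp only [coeff_add, coeff_sub, coeff_X_pow, coeff_C_mul, coeff_X_one,
    coeff_X_zero, coeff_C] at h1 h0
  norm_num at h1 h0
  exact ⟨h1, h0⟩

variable {G : Type*} [Group G]

/-- From matrices over `k₀` to endomorphisms of `Fin 2 → k`. -/
def FA_S29_ALG_toEnd {k₀ : Type*} [Field k₀] {k : Type*} [Field k] (ι : k₀ →+* k)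
    (R : G →* Matrix (Fin 2) (Fin 2) k₀) : G →* Module.End k (Fin 2 → k) :=
  ((Matrix.toLinAlgEquiv' : Matrix (Fin 2) (Fin 2) k ≃ₐ[k] Module.End k (Fin 2 → k)) :
      Matrix (Fin 2) (Fin 2) k →* Module.End k (Fin 2 → k)).comp
    (((ι.mapMatrix : Matrix (Fin 2) (Fin 2) k₀ →+* Matrix (Fin 2) (Fin 2) k) :
      Matrix (Fin 2) (Fin 2) k₀ →* Matrix (Fin 2) (Fin 2) k).comp R)

theorem FA_S29_ALG_toEnd_apply {k₀ : Type*} [Field k₀] {k : Type*} [Field k] (ι : k₀ →+* k)
    (R : G →* Matrix (Fin 2) (Fin 2) k₀) (g : G) :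
    FA_S29_ALG_toEnd ι R g = Matrix.toLin' ((R g).map ι) := rfl

theorem FA_S29_ALG_toEnd_charpoly {k₀ : Type*} [Field k₀] {k : Type*} [Field k] (ι : k₀ →+* k)
    (R : G →* Matrix (Fin 2) (Fin 2) k₀) (g : G) (t δ : k₀)
    (h : (R g).charpoly = X ^ 2 - C t * X + C δ) :
    LinearMap.charpoly (FA_S29_ALG_toEnd ι R g) = X ^ 2 - C (ι t) * X + C (ι δ) := by
  rw [FA_S29_ALG_toEnd_apply, Matrix.charpoly_toLin', Matrix.charpoly_map, h]
  simp

theorem FA_S29_ALG_toEnd_trace {k₀ : Type*} [Field k₀] {k : Type*} [Field k] (ι : k₀ →+* k)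
    (R : G →* Matrix (Fin 2) (Fin 2) k₀) (g : G) (t δ : k₀)
    (h : (R g).charpoly = X ^ 2 - C t * X + C δ) :
    LinearMap.trace k (Fin 2 → k) (FA_S29_ALG_toEnd ι R g) = ι t := by
  obtain ⟨h1, -⟩ := FA_S29_ALG_tr_det_of_charpoly (R g) t δ h
  rw [FA_S29_ALG_toEnd_apply, Matrix.trace_toLin'_eq, ← h1]
  simp [Matrix.trace_fin_two]

theorem FA_S29_ALG_toEnd_det {k₀ : Type*} [Field k₀] {k : Type*} [Field k] (ι : k₀ →+* k)
    (R : G →* Matrix (Fin 2) (Fin 2) k₀) (g : G) (t δ : k₀)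
    (h : (R g).charpoly = X ^ 2 - C t * X + C δ) :
    LinearMap.det (FA_S29_ALG_toEnd ι R g) = ι δ := by
  obtain ⟨-, h2⟩ := FA_S29_ALG_tr_det_of_charpoly (R g) t δ h
  rw [FA_S29_ALG_toEnd_apply, LinearMap.det_toLin', ← h2]
  simp [Matrix.det_fin_two]

theorem FA_S29_ALG_toEnd_one {k₀ : Type*} [Field k₀] {k : Type*} [Field k] (ι : k₀ →+* k)
    (R : G →* Matrix (Fin 2) (Fin 2) k₀) (g : G) (h : R g = 1) :
    FA_S29_ALG_toEnd ι R g = 1 := by
  show FA_S29_ALG_toEnd ι R g = 1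
  unfold FA_S29_ALG_toEnd
  simp only [MonoidHom.comp_apply, h, map_one]

/-- **Consumer form of leaf L9.**  `k₀` algebraically closed, `ι : k₀ →+* k` any field
extension, `V ≠ 0` a finite-dimensional representation of `G` over `k₀` with quadratic
relations `ρ g ^ 2 - t ρ g + d g = 0`.  Then there is a representation `ρ'` of `G` on
`Fin 2 → k`, trivial on `ker ρ ∩ ker d`, such that for every `g` and every `t` for which the
relation holds on `V`: charpoly `= X² - ι t X + ι (d g)`, trace `= ι t`, det `= ι (d g)`. -/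
theorem FA_S29_ALG_residual {k₀ : Type*} [Field k₀] [IsAlgClosed k₀] {k : Type*} [Field k]
    (ι : k₀ →+* k) {V : Type*} [AddCommGroup V] [Module k₀ V] [Module.Finite k₀ V] [Nontrivial V]
    (ρ : G →* Module.End k₀ V) (d : G →* k₀ˣ)
    (hquad : ∀ g : G, ∃ t : k₀,
      ρ g * ρ g - t • ρ g + ((d g : k₀ˣ) : k₀) • (1 : Module.End k₀ V) = 0) :
    ∃ ρ' : G →* Module.End k (Fin 2 → k),
      (∀ g : G, ρ g = 1 → d g = 1 → ρ' g = 1) ∧
      ∀ (g : G) (t : k₀),
        ρ g * ρ g - t • ρ g + ((d g : k₀ˣ) : k₀) • (1 : Module.End k₀ V) = 0 →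
        LinearMap.charpoly (ρ' g) = X ^ 2 - C (ι t) * X + C (ι ((d g : k₀ˣ) : k₀)) ∧
        LinearMap.trace k (Fin 2 → k) (ρ' g) = ι t ∧
        LinearMap.det (ρ' g) = ι ((d g : k₀ˣ) : k₀) := by
  obtain ⟨R, hR1, hR2⟩ := FA_S29_ALG_main ρ d hquad
  refine ⟨FA_S29_ALG_toEnd ι R, fun g h1 h2 => FA_S29_ALG_toEnd_one ι R g (hR1 g h1 h2),
    fun g t ht => ⟨?_, ?_, ?_⟩⟩
  · exact FA_S29_ALG_toEnd_charpoly ι R g t _ (hR2 g t ht)
  · exact FA_S29_ALG_toEnd_trace ι R g t _ (hR2 g t ht)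
  · exact FA_S29_ALG_toEnd_det ι R g t _ (hR2 g t ht)

/-- The hypothesis `hquad` from generators of cyclic subgroups: if every `g` is a power of
some `f` satisfying a quadratic relation with constant term `d f`, then every `g` satisfies
a quadratic relation with constant term `d g`. -/
theorem FA_S29_ALG_hquad_of_powers {k : Type*} [Field k] [IsAlgClosed k] {V : Type*}
    [AddCommGroup V] [Module k V] (ρ : G →* Module.End k V) (d : G →* kˣ)
    (h : ∀ g : G, ∃ (f : G) (n : ℕ) (t : k), g = f ^ n ∧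
      ρ f * ρ f - t • ρ f + ((d f : kˣ) : k) • (1 : Module.End k V) = 0) :
    ∀ g : G, ∃ t : k,
      ρ g * ρ g - t • ρ g + ((d g : kˣ) : k) • (1 : Module.End k V) = 0 := by
  intro g
  obtain ⟨f, n, t, rfl, hf⟩ := h g
  obtain ⟨t', ht'⟩ := FA_S29_ALG_pow (ρ f) t _ hf n
  refine ⟨t', ?_⟩
  rw [map_pow, map_pow, Units.val_pow_eq_pow_val]
  exact ht'

end Fermat.Agent.S29
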