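import Mathlib
import Fermat.Agent.S14.GlueCyc
import Fermat.Agent.S37.Frob
import Fermat.Prelude.Def_GaloisRep_Residual

/-!
# S29, glue leaf CYC: the mod `p` cyclotomic character at Frobenius and inertia elements

* `FA_S29_CY_frob` : `χ_p(τ) = ℓ` for every Frobenius element `τ` at a valuation subring of `ℚ̄`
  over a prime `ℓ ≠ p`.
* `FA_S29_CY_inertia` : `χ_p(σ) = 1` for `σ` in the inertia group at `ℓ ≠ p`.
* `FA_S29_CY_finiteLevel` : `χ_p` factors through a finite extension of `ℚ`.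
* `FA_S29_CY_d` : the character with values in a field `k` of characteristic `p`.
-/

set_option autoImplicit false
set_option linter.unusedSectionVars false
set_option linter.unusedVariables false
set_option linter.style.haveILetI false

open scoped Pointwise

namespace Fermat.Agent.S29

noncomputable section

local notation "Qb" => AlgebraicClosure ℚ
local notation "Γ" => (AlgebraicClosure ℚ ≃ₐ[ℚ] AlgebraicClosure ℚ)

open Fermat.Agent.Lib Fermat.Agent.S14 Fermat.Agent.S37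

/-- Roots of unity lie in every valuation subring. -/
theorem FA_S29_CY_mem (A : ValuationSubring Qb) {n : ℕ} (hn : n ≠ 0) {ζ : Qb} (hζ : ζ ^ n = 1) :
    ζ ∈ A := by
  rcases A.mem_or_inv_mem ζ with h | h
  · exact h
  · have h1 : ζ = ζ⁻¹ ^ (n - 1) := by
      have hζ0 : ζ ≠ 0 := by
        rintro rfl
        rw [zero_pow hn] at hζ
        exact zero_ne_one hζ
      have h2 : ζ * ζ ^ (n - 1) = 1 := by
        rw [← pow_succ', Nat.sub_add_cancel (Nat.pos_of_ne_zero hn), hζ]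
      rw [inv_pow]
      exact eq_inv_of_mul_eq_one_left h2
    rw [h1]
    exact A.pow_mem h _

/-- If `1 - η` is a nonunit of `A` for a `p`-th root of unity `η ≠ 1`, then `p` is a nonunit. -/
theorem FA_S29_CY_p_mem (A : ValuationSubring Qb) {p : ℕ} (hp : p.Prime) {η : Qb}
    (hη : η ^ p = 1) (hη1 : η ≠ 1) (hmem : 1 - η ∈ A.nonunits) : (p : Qb) ∈ A.nonunits := by
  have hηA : η ∈ A := FA_S29_CY_mem A hp.ne_zero hη
  have hsum : ∑ k ∈ Finset.range p, η ^ k = 0 := by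
    have h := mul_neg_geom_sum η p
    rw [hη, sub_self] at h
    rcases mul_eq_zero.mp h with h | h
    · exact absurd (sub_eq_zero.mp h).symm hη1
    · simpa using h
  have hp' : (p : Qb) = ∑ k ∈ Finset.range p, (1 - η ^ k) := by
    rw [Finset.sum_sub_distrib, hsum, sub_zero]
    simp
  rw [hp']
  have hterm : ∀ k : ℕ, 1 - η ^ k ∈ A.nonunits := by
    intro k
    have h := mul_neg_geom_sum η k
    rw [← h]
    have hs : ∑ i ∈ Finset.range k, η ^ i ∈ A := A.toSubring.sum_mem fun i _ => A.pow_mem hηA i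
    rw [ValuationSubring.mem_nonunits_iff] at hmem ⊢
    rw [map_mul]
    have h1 : A.valuation (∑ i ∈ Finset.range k, η ^ i) ≤ 1 := (A.valuation_le_one_iff _).mpr hs
    calc A.valuation (1 - η) * A.valuation (∑ i ∈ Finset.range k, η ^ i)
        ≤ A.valuation (1 - η) * 1 := by gcongr
      _ = A.valuation (1 - η) := mul_one _
      _ < 1 := hmem
  have hadd : ∀ (s : Finset ℕ), ∑ k ∈ s, (1 - η ^ k) ∈ A.nonunits := by
    intro s
    classical
    induction s using Finset.induction_on with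
    | empty =>
      rw [Finset.sum_empty, ValuationSubring.mem_nonunits_iff, map_zero]
      exact zero_lt_one
    | insert a s ha ih =>
      rw [Finset.sum_insert ha]
      have h1 := hterm a
      rw [ValuationSubring.mem_nonunits_iff] at h1 ih ⊢
      exact Valuation.map_add_lt _ h1 ih
  exact hadd _

/-- Reduction modulo a valuation subring over `ℓ ≠ p` is injective on `p`-th roots of unity. -/
theorem FA_S29_CY_inj (A : ValuationSubring Qb) {p ℓ : ℕ} (hp : p.Prime) (hℓ : ℓ.Prime)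
    (hne : ℓ ≠ p) (hA : A.LiesOverPrime ℓ) {ζ : Qb} (hζ : ζ ^ p = 1) (a b : ℕ)
    (h : ζ ^ a - ζ ^ b ∈ A.nonunits) : ζ ^ a = ζ ^ b := by
  by_contra hab
  have hζA : ζ ∈ A := FA_S29_CY_mem A hp.ne_zero hζ
  set η : Qb := ζ ^ a * ζ ^ ((p - 1) * b) with hη
  have hb1 : ζ ^ b * ζ ^ ((p - 1) * b) = 1 := by
    rw [← pow_add]
    have : b + (p - 1) * b = p * b := by
      have := Nat.sub_add_cancel hp.one_le
      nlinarith [this]
    rw [this, pow_mul, hζ, one_pow]
  have hηp : η ^ p = 1 := by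
    rw [hη, mul_pow, ← pow_mul, ← pow_mul, mul_comm a p, mul_comm ((p - 1) * b) p, pow_mul,
      pow_mul ζ p, hζ, one_pow, one_pow, one_mul]
  have hη1 : η ≠ 1 := by
    intro h1
    apply hab
    have : ζ ^ a * ζ ^ ((p - 1) * b) = ζ ^ b * ζ ^ ((p - 1) * b) := by rw [hb1]; exact h1
    have hne0 : ζ ^ ((p - 1) * b) ≠ 0 := by
      intro h0
      rw [h0, mul_zero] at hb1
      exact zero_ne_one hb1
    exact mul_right_cancel₀ hne0 this
  have hmem : 1 - η ∈ A.nonunits := by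
    have h1 : 1 - η = -((ζ ^ a - ζ ^ b) * ζ ^ ((p - 1) * b)) := by
      rw [hη, sub_mul, hb1]
      ring
    rw [h1, ValuationSubring.mem_nonunits_iff, Valuation.map_neg, map_mul]
    rw [ValuationSubring.mem_nonunits_iff] at h
    have h2 : A.valuation (ζ ^ ((p - 1) * b)) ≤ 1 :=
      (A.valuation_le_one_iff _).mpr (A.pow_mem hζA _)
    calc A.valuation (ζ ^ a - ζ ^ b) * A.valuation (ζ ^ ((p - 1) * b))
        ≤ A.valuation (ζ ^ a - ζ ^ b) * 1 := by gcongr
      _ = A.valuation (ζ ^ a - ζ ^ b) := mul_one _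
      _ < 1 := h
  have hpA : (p : Qb) ∈ A.nonunits := FA_S29_CY_p_mem A hp hηp hη1 hmem
  have hℓA : (ℓ : Qb) ∈ A.nonunits := hA
  have hcop : IsCoprime (p : ℤ) (ℓ : ℤ) :=
    Nat.isCoprime_iff_coprime.mpr ((Nat.coprime_primes hp hℓ).mpr (Ne.symm hne))
  obtain ⟨u, v, huv⟩ := hcop
  have h1 : (1 : Qb) = (u : Qb) * (p : Qb) + (v : Qb) * (ℓ : Qb) := by
    have := congrArg (fun z : ℤ => (z : Qb)) huv
    simp only [Int.cast_add, Int.cast_mul, Int.cast_natCast, Int.cast_one] at this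
    exact this.symm
  have hint : ∀ z : ℤ, A.valuation (z : Qb) ≤ 1 := fun z =>
    (A.valuation_le_one_iff _).mpr (intCast_mem A z)
  rw [ValuationSubring.mem_nonunits_iff] at hpA hℓA
  have h2 : A.valuation (1 : Qb) < 1 := by
    rw [h1]
    apply Valuation.map_add_lt
    · rw [map_mul]
      calc A.valuation (u : Qb) * A.valuation (p : Qb) ≤ 1 * A.valuation (p : Qb) := by
            gcongr
            exact hint u
        _ = A.valuation (p : Qb) := one_mul _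
        _ < 1 := hpA
    · rw [map_mul]
      calc A.valuation (v : Qb) * A.valuation (ℓ : Qb) ≤ 1 * A.valuation (ℓ : Qb) := by
            gcongr
            exact hint v
        _ = A.valuation (ℓ : Qb) := one_mul _
        _ < 1 := hℓA
  rw [map_one] at h2
  exact lt_irrefl _ h2

/-- Two elements of `A` with the same residue differ by a nonunit. -/
theorem FA_S29_CY_sub_mem (A : ValuationSubring Qb) (x y : A)
    (h : IsLocalRing.residue A x = IsLocalRing.residue A y) : (x : Qb) - (y : Qb) ∈ A.nonunits := by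
  have h1 : IsLocalRing.residue A (x - y) = 0 := by rw [map_sub, h, sub_self]
  have h2 : x - y ∈ IsLocalRing.maximalIdeal A := (IsLocalRing.residue_eq_zero_iff _).mp h1
  rw [ValuationSubring.mem_nonunits_iff_exists_mem_maximalIdeal]
  exact ⟨(x - y).2, h2⟩

variable (p : ℕ) [hpF : Fact p.Prime]

/-- A Frobenius element at `ℓ ≠ p` raises `p`-th roots of unity to the `ℓ`-th power. -/
theorem FA_S29_CY_frob_zeta {ℓ : ℕ} (hℓ : ℓ.Prime) (hne : ℓ ≠ p) (A : ValuationSubring Qb)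
    (hA : A.LiesOverPrime ℓ) (τ : Γ) (hτ : A.IsFrobeniusAt τ ℓ) {ζ : Qb} (hζ : ζ ^ p = 1) :
    τ ζ = ζ ^ ℓ := by
  obtain ⟨hτD, hτx⟩ := hτ
  have hζA : ζ ∈ A := FA_S29_CY_mem A hpF.out.ne_zero hζ
  have h1 := hτx (IsLocalRing.residue A ⟨ζ, hζA⟩)
  rw [← IsLocalRing.ResidueField.residue_smul, ← map_pow] at h1
  have h2 := FA_S29_CY_sub_mem A _ _ h1
  have h3 : (((⟨τ, hτD⟩ : A.decompositionSubgroup ℚ) • (⟨ζ, hζA⟩ : A) : A) : Qb) = τ ζ := rfl
  rw [h3] at h2
  have h4 : (((⟨ζ, hζA⟩ : A) ^ ℓ : A) : Qb) = ζ ^ ℓ := rfl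
  rw [h4, FA_S14_glue_cyc_spec τ hζ] at h2
  rw [FA_S14_glue_cyc_spec τ hζ]
  exact FA_S29_CY_inj A hpF.out hℓ hne hA hζ _ _ h2

/-- **CYC (Frobenius)**: the mod `p` cyclotomic character of a Frobenius element at `ℓ ≠ p`
is `ℓ`. -/
theorem FA_S29_CY_frob {ℓ : ℕ} (hℓ : ℓ.Prime) (hne : ℓ ≠ p) (A : ValuationSubring Qb)
    (hA : A.LiesOverPrime ℓ) (τ : Γ) (hτ : A.IsFrobeniusAt τ ℓ) :
    ((ExtCitation.cycloChar p τ : (ZMod p)ˣ) : ZMod p) = (ℓ : ZMod p) := by
  obtain ⟨ζ, hζ⟩ := FA_S14_glue_exists_zeta p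
  exact (FA_S14_glue_cyc_eq τ hζ ℓ (FA_S29_CY_frob_zeta p hℓ hne A hA τ hτ hζ.pow_eq_one)).symm

/-- **CYC (inertia)**: the mod `p` cyclotomic character is trivial on inertia at `ℓ ≠ p`. -/
theorem FA_S29_CY_inertia {ℓ : ℕ} (hℓ : ℓ.Prime) (hne : ℓ ≠ p) (A : ValuationSubring Qb)
    (hA : A.LiesOverPrime ℓ) (σ : Γ) (hσ : σ ∈ A.inertiaSubgroupIn ℚ) :
    ExtCitation.cycloChar p σ = 1 := by
  obtain ⟨ζ, hζ⟩ := FA_S14_glue_exists_zeta p
  obtain ⟨hσD, hσx⟩ := FA_S37_FR_inertia_iff.mp hσ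
  have hζA : ζ ∈ A := FA_S29_CY_mem A hpF.out.ne_zero hζ.pow_eq_one
  have h1 := hσx (IsLocalRing.residue A ⟨ζ, hζA⟩)
  rw [← IsLocalRing.ResidueField.residue_smul] at h1
  have h2 := FA_S29_CY_sub_mem A _ _ h1
  have h3 : (((⟨σ, hσD⟩ : A.decompositionSubgroup ℚ) • (⟨ζ, hζA⟩ : A) : A) : Qb) = σ ζ := rfl
  rw [h3] at h2
  have h4 : ((⟨ζ, hζA⟩ : A) : Qb) = ζ ^ 1 := (pow_one ζ).symm
  rw [h4, FA_S14_glue_cyc_spec σ hζ.pow_eq_one] at h2
  have h5 := FA_S29_CY_inj A hpF.out hℓ hne hA hζ.pow_eq_one _ _ h2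
  rw [FA_S14_glue_cyc_ker σ hζ, FA_S14_glue_cyc_spec σ hζ.pow_eq_one, h5, pow_one]

/-- **CYC (finite level)**: the mod `p` cyclotomic character factors through `ℚ(ζ_p)`. -/
theorem FA_S29_CY_finiteLevel : GaloisFactorsThroughFiniteLevel (ExtCitation.cycloChar p) := by
  obtain ⟨ζ, hζ⟩ := FA_S14_glue_exists_zeta p
  refine ⟨IntermediateField.adjoin ℚ {ζ}, ?_, fun σ hσ => ?_⟩
  · haveI : Algebra.IsAlgebraic ℚ Qb := FA_isAlgebraic_Qb
    haveI : Algebra.IsIntegral ℚ Qb := Algebra.IsAlgebraic.isIntegral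
    exact IntermediateField.adjoin.finiteDimensional
      (Algebra.IsIntegral.isIntegral (R := ℚ) ζ)
  · rw [FA_S14_glue_cyc_ker σ hζ]
    exact hσ ζ (IntermediateField.mem_adjoin_simple_self ℚ ζ)

/-- The mod `p` cyclotomic character with values in a field of characteristic `p`. -/
def FA_S29_CY_d (k : Type*) [Field k] [CharP k p] : Γ →* kˣ :=
  (Units.map ((ZMod.castHom (dvd_refl p) k : ZMod p →+* k) : ZMod p →* k)).comp
    (ExtCitation.cycloChar p)

theorem FA_S29_CY_d_frob (k : Type*) [Field k] [CharP k p] {ℓ : ℕ} (hℓ : ℓ.Prime) (hne : ℓ ≠ p)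
    (A : ValuationSubring Qb) (hA : A.LiesOverPrime ℓ) (τ : Γ) (hτ : A.IsFrobeniusAt τ ℓ) :
    ((FA_S29_CY_d p k τ : kˣ) : k) = (ℓ : k) := by
  show (ZMod.castHom (dvd_refl p) k) ((ExtCitation.cycloChar p τ : (ZMod p)ˣ) : ZMod p) = _
  rw [FA_S29_CY_frob p hℓ hne A hA τ hτ, map_natCast]

theorem FA_S29_CY_d_inertia (k : Type*) [Field k] [CharP k p] {ℓ : ℕ} (hℓ : ℓ.Prime)
    (hne : ℓ ≠ p) (A : ValuationSubring Qb) (hA : A.LiesOverPrime ℓ) (σ : Γ)
    (hσ : σ ∈ A.inertiaSubgroupIn ℚ) : FA_S29_CY_d p k σ = 1 := by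
  show Units.map _ (ExtCitation.cycloChar p σ) = 1
  rw [FA_S29_CY_inertia p hℓ hne A hA σ hσ, map_one]

theorem FA_S29_CY_d_finiteLevel (k : Type) [Field k] [CharP k p] :
    GaloisFactorsThroughFiniteLevel (FA_S29_CY_d p k) := by
  obtain ⟨L, hL, h⟩ := FA_S29_CY_finiteLevel p
  refine ⟨L, hL, fun σ hσ => ?_⟩
  show Units.map _ (ExtCitation.cycloChar p σ) = 1
  rw [h σ hσ, map_one]

end

end Fermat.Agent.S29
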