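import Mathlib
import Fermat.Agent.S37.Frob

/-!
# S29, leaf L8d: Frobenius density in the prelude's language

* `FA_S29_FT_abs` : `L` a number field with Galois group `G`, `j : L → ℚ̄`, `r : Gal(ℚ̄/ℚ) → G`
  the restriction, `P` an unramified prime of `L` over `p` with `r g` in its decomposition group
  ⟹ there are a valuation subring `A` of `ℚ̄` over `p` and a Frobenius element `τ` at `A`
  (prelude: `ValuationSubring.IsFrobeniusAt`) with `r g = (r τ) ^ b`.
* `FA_S29_FT_main` : the final form `FA_S29_FD_main` of the Frobenius density theorem, from the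
  output `FA_S29_FT_Target` of leaves L8b + L8c.
-/

set_option autoImplicit false
set_option linter.unusedSectionVars false
set_option linter.style.haveILetI false
set_option linter.unusedVariables false

open scoped NumberField Pointwise
open Fermat.Agent.Lib Fermat.Agent.S37

namespace Fermat.Agent.S29
noncomputable section

local notation "Qb" => AlgebraicClosure ℚ
local notation "Γ" => (AlgebraicClosure ℚ ≃ₐ[ℚ] AlgebraicClosure ℚ)
local notation "Zb" => integralClosure ℤ (AlgebraicClosure ℚ)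

section abs
variable {L : Type} [Field L] [NumberField L] [iL : Algebra ℚ L] {G : Type} [Group G] [Finite G]
  [MulSemiringAction G L] [IsGaloisGroup G ℚ L]

/-- The embedding `𝓞 L → ℤ̄` induced by an embedding `L → ℚ̄`. -/
def FA_S29_FT_iota (j : L →+* Qb) : 𝓞 L →+* Zb :=
  (j.comp (algebraMap (𝓞 L) L)).codRestrict Zb
    (fun x => map_isIntegral_int j x.isIntegral_coe)

theorem FA_S29_FT_iota_coe (j : L →+* Qb) (x : 𝓞 L) :
    ((FA_S29_FT_iota j x : Zb) : Qb) = j (x : L) := rfl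

theorem FA_S29_FT_iota_injective (j : L →+* Qb) : Function.Injective (FA_S29_FT_iota j) := by
  intro x y h
  have h1 := congrArg Subtype.val h
  rw [FA_S29_FT_iota_coe, FA_S29_FT_iota_coe] at h1
  exact NumberField.RingOfIntegers.ext (j.injective h1)

theorem FA_S29_FT_iota_smul (j : L →+* Qb) (r : Γ →* G)
    (hr : ∀ (σ : Γ) (x : L), j (r σ • x) = σ (j x)) (σ : Γ) (x : 𝓞 L) :
    FA_S29_FT_iota j (r σ • x) = σ • FA_S29_FT_iota j x := by
  apply Subtype.ext
  have e : (((σ • FA_S29_FT_iota j x : Zb)) : Qb) = σ • ((FA_S29_FT_iota j x : Zb) : Qb) := rfl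
  rw [e, FA_S29_FT_iota_coe, FA_S29_FT_iota_coe]
  have e2 : ((r σ • x : 𝓞 L) : L) = r σ • (x : L) := rfl
  rw [e2, hr]
  rfl

/-- Trivial inertia from ramification index one. -/
theorem FA_S29_FT_inertia_eq_bot (p : ℕ) [hp : Fact (Nat.Prime p)] (P : Ideal (𝓞 L)) [P.IsMaximal]
    [P.LiesOver (Ideal.span {(p : ℤ)})]
    (he : (Ideal.span {(p : ℤ)}).ramificationIdxIn (𝓞 L) = 1) (σ : G)
    (hσ : ∀ x : 𝓞 L, σ • x - x ∈ P) : σ = 1 := by
  obtain rfl : iL = DivisionRing.toRatAlgebra := Subsingleton.elim _ _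
  haveI : (Ideal.span {(p : ℤ)}).IsPrime := by
    rw [Ideal.span_singleton_prime (by exact_mod_cast hp.out.ne_zero)]
    exact Nat.prime_iff_prime_int.mp hp.out
  have hc : Nat.card (P.inertia G) = 1 := by
    rw [Ideal.card_inertia_eq_ramificationIdxIn (G := G) (Ideal.span {(p : ℤ)}) P, he]
  have hbot : P.inertia G = ⊥ := Subgroup.eq_bot_of_card_eq _ hc
  have hmem : σ ∈ P.inertia G := hσ
  rw [hbot] at hmem
  exact Subgroup.mem_bot.mp hmem

attribute [local instance] Ideal.Quotient.field in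
/-- An element of the decomposition group acts on the residue field as a power of Frobenius. -/
theorem FA_S29_FT_exists_pow (p : ℕ) [hp : Fact (Nat.Prime p)] (P : Ideal (𝓞 L)) [P.IsMaximal]
    [P.LiesOver (Ideal.span {(p : ℤ)})] (σ : G) (hσ : σ ∈ MulAction.stabilizer G P) :
    ∃ i : ℕ, ∀ x : 𝓞 L, σ • x - x ^ (p ^ i) ∈ P := by
  haveI : (Ideal.span {(p : ℤ)}).IsMaximal :=
    PrincipalIdealRing.isMaximal_of_irreducible
      (Nat.prime_iff_prime_int.mp hp.out).irreducible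
  have hchar : CharP (ℤ ⧸ Ideal.span {(p : ℤ)}) p := ringChar.of_eq <| Int.ringChar_idealQuot p
  have hP0 : P ≠ ⊥ := by
    intro h
    have h1 := Ideal.LiesOver.over (p := Ideal.span {(p : ℤ)}) (P := P)
    rw [h] at h1
    have h2 : (p : ℤ) ∈ Ideal.span {(p : ℤ)} := Ideal.mem_span_singleton_self _
    rw [h1, Ideal.mem_comap, Ideal.mem_bot] at h2
    have h3 : ((p : ℤ) : 𝓞 L) = 0 := h2
    have h4 : (p : ℤ) = 0 := by exact_mod_cast h3
    exact hp.out.ne_zero (by exact_mod_cast h4)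
  have hfin : Finite (𝓞 L ⧸ P) := Ring.HasFiniteQuotients.finiteQuotient hP0
  obtain ⟨i, hi⟩ := FiniteField.exists_forall_apply_eq_pow (ℤ ⧸ Ideal.span {(p : ℤ)}) p
    (𝓞 L ⧸ P) (Ideal.Quotient.stabilizerHom P (Ideal.span {(p : ℤ)}) G ⟨σ, hσ⟩)
  refine ⟨i, fun x => ?_⟩
  have h1 := hi (Ideal.Quotient.mk P x)
  rw [Ideal.Quotient.stabilizerHom_apply, Int.card_ideal_quot, ← map_pow] at h1
  exact Ideal.Quotient.eq.mp h1

/-- Powers of a Frobenius lift at `Q`. -/
theorem FA_S29_FT_frob_pow (p : ℕ) (Q : Ideal Zb) (τ : Γ) (hτQ : τ • Q = Q)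
    (hfrob : ∀ b : Zb, τ • b - b ^ p ∈ Q) (i : ℕ) :
    (τ ^ i) • Q = Q ∧ ∀ b : Zb, (τ ^ i) • b - b ^ (p ^ i) ∈ Q := by
  induction i with
  | zero => exact ⟨by simp, fun b => by simp⟩
  | succ i ih =>
    obtain ⟨ih1, ih2⟩ := ih
    refine ⟨by rw [pow_succ', mul_smul, ih1, hτQ], fun b => ?_⟩
    have e : (τ ^ (i + 1)) • b - b ^ (p ^ (i + 1))
        = τ • ((τ ^ i) • b - b ^ (p ^ i)) + (τ • (b ^ (p ^ i)) - (b ^ (p ^ i)) ^ p) := by
      rw [pow_succ', mul_smul, smul_sub, pow_succ, pow_mul]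
      ring
    rw [e]
    refine Q.add_mem ?_ (hfrob _)
    have := (Ideal.smul_mem_pointwise_smul_iff (a := τ) (S := Q)).mpr (ih2 b)
    rwa [hτQ] at this

/-- **L8d, abstract form.**  `L` a number field with Galois group `G`, embedded in `ℚ̄` by `j`,
`r : Gal(ℚ̄/ℚ) → G` the restriction.  If `P` is an unramified prime of `L` over `p` and
`r g` is in the decomposition group of `P`, then `r g` is a power of `r τ` for a Frobenius
element `τ` at some valuation subring of `ℚ̄` over `p`. -/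
theorem FA_S29_FT_abs (j : L →+* Qb) (r : Γ →* G)
    (hr : ∀ (σ : Γ) (x : L), j (r σ • x) = σ (j x))
    (p : ℕ) (hp : p.Prime) (P : Ideal (𝓞 L)) (hP : P.IsPrime)
    (hPp : P.LiesOver (Ideal.span {(p : ℤ)}))
    (he : (Ideal.span {(p : ℤ)}).ramificationIdxIn (𝓞 L) = 1)
    (g : Γ) (hg : r g ∈ MulAction.stabilizer G P) :
    ∃ (A : ValuationSubring Qb) (τ : Γ) (b : ℕ),
      A.LiesOverPrime p ∧ A.IsFrobeniusAt τ p ∧ r g = r τ ^ b := by
  classical
  haveI : Fact p.Prime := ⟨hp⟩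
  haveI := hP
  haveI := hPp
  have hpP : (p : 𝓞 L) ∈ P := by
    have h1 := Ideal.LiesOver.over (p := Ideal.span {(p : ℤ)}) (P := P)
    have h2 : (p : ℤ) ∈ Ideal.span {(p : ℤ)} := Ideal.mem_span_singleton_self _
    rw [h1, Ideal.mem_comap] at h2
    simpa using h2
  have hP0 : P ≠ ⊥ := by
    intro h
    rw [h, Ideal.mem_bot] at hpP
    exact hp.ne_zero (by exact_mod_cast hpP)
  haveI hPmax : P.IsMaximal := hP.isMaximal hP0
  -- the prime `Q` of `ℤ̄` over `P`
  letI : Algebra (𝓞 L) Zb := (FA_S29_FT_iota j).toAlgebra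
  haveI : IsScalarTower ℤ (𝓞 L) Zb :=
    IsScalarTower.of_algebraMap_eq fun n => RingHom.congr_fun
      (Subsingleton.elim (algebraMap ℤ Zb) ((algebraMap (𝓞 L) Zb).comp (algebraMap ℤ (𝓞 L)))) n
  haveI : Algebra.IsIntegral (𝓞 L) Zb :=
    ⟨fun b => (integralClosure.isIntegral b).tower_top⟩
  have hker : RingHom.ker (algebraMap (𝓞 L) Zb) ≤ P := by
    have hk : RingHom.ker (algebraMap (𝓞 L) Zb) = ⊥ :=
      (RingHom.injective_iff_ker_eq_bot _).mp (FA_S29_FT_iota_injective j)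
    rw [hk]
    exact bot_le
  obtain ⟨Q, hQmax, hQP⟩ := Ideal.exists_ideal_over_maximal_of_isIntegral (S := Zb) P hker
  haveI := hQmax
  haveI hQprime : Q.IsPrime := hQmax.isPrime
  have hmemQ : ∀ x : 𝓞 L, FA_S29_FT_iota j x ∈ Q ↔ x ∈ P := by
    intro x
    rw [← hQP, Ideal.mem_comap]
    rfl
  have hpQ : (p : Zb) ∈ Q := by
    have := (hmemQ (p : 𝓞 L)).mpr hpP
    rwa [map_natCast] at this
  obtain ⟨τ, hτQ, hfrob⟩ := FA_S37_FR_frob_Zb p hp Q hQmax hpQ
  refine ⟨FA_valSubring Q p hp.ne_zero hpQ, τ, ?_⟩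
  obtain ⟨i, hi⟩ := FA_S29_FT_exists_pow p P (r g) hg
  refine ⟨i, ?_, FA_S37_FR_isFrob_valSubring p hp Q hpQ τ hτQ hfrob, ?_⟩
  · refine FA_mem_nonunits_valSubring (p : Zb) 1 hpQ
      (fun h1 => hQprime.ne_top ((Ideal.eq_top_iff_one Q).mpr h1)) ?_
    push_cast
    ring
  · obtain ⟨hτi, hfrobi⟩ := FA_S29_FT_frob_pow p Q τ hτQ hfrob i
    have hτi' : (τ ^ i)⁻¹ • Q = Q := by
      conv_lhs => rw [← hτi]
      rw [inv_smul_smul]
    have hone : (r (τ ^ i))⁻¹ * r g = 1 := by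
      refine FA_S29_FT_inertia_eq_bot p P he _ fun x => ?_
      rw [← hmemQ, ← map_inv, ← map_mul, map_sub, FA_S29_FT_iota_smul j r hr]
      set y := FA_S29_FT_iota j x with hy
      have e : ((τ ^ i)⁻¹ * g) • y - y = (τ ^ i)⁻¹ • ((g • y - y ^ (p ^ i))
          - ((τ ^ i) • y - y ^ (p ^ i))) := by
        rw [mul_smul, smul_sub, smul_sub, smul_sub, inv_smul_smul]
        ring
      rw [e]
      have h1 : g • y - y ^ (p ^ i) ∈ Q := by
        have := (hmemQ _).mpr (hi x)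
        rwa [map_sub, FA_S29_FT_iota_smul j r hr, map_pow] at this
      have h2 := Q.sub_mem h1 (hfrobi y)
      have := (Ideal.smul_mem_pointwise_smul_iff (a := (τ ^ i)⁻¹) (S := Q)).mpr h2
      rwa [hτi'] at this
    rw [← map_pow]
    exact (inv_mul_eq_one.mp hone).symm

end abs

/-- The output of leaves L8b + L8c (helper7's `FA_S29_FD_exists`, verbatim). -/
def FA_S29_FT_Target : Prop :=
  ∀ (L : Type) [Field L] [NumberField L] (G : Type) [Group G] [Finite G]
    [MulSemiringAction G L] [IsGaloisGroup G ℚ L] (g : G) (S : Finset ℕ),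
    ∃ (p : ℕ) (P : Ideal (𝓞 L)), p.Prime ∧ p ∉ S ∧ P.IsPrime ∧
      P.LiesOver (Ideal.span {(p : ℤ)}) ∧
      (Ideal.span {(p : ℤ)}).ramificationIdxIn (𝓞 L) = 1 ∧
      MulAction.stabilizer G P = Subgroup.zpowers g

/-- The target with an arbitrary `ℚ`-algebra instance. -/
theorem FA_S29_FT_target' (hex : FA_S29_FT_Target)
    (L : Type) [Field L] [NumberField L] [iL : Algebra ℚ L] (G : Type) [Group G] [Finite G]
    [MulSemiringAction G L] [IsGaloisGroup G ℚ L] (g : G) (S : Finset ℕ) :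
    ∃ (p : ℕ) (P : Ideal (𝓞 L)), p.Prime ∧ p ∉ S ∧ P.IsPrime ∧
      P.LiesOver (Ideal.span {(p : ℤ)}) ∧
      (Ideal.span {(p : ℤ)}).ramificationIdxIn (𝓞 L) = 1 ∧
      MulAction.stabilizer G P = Subgroup.zpowers g := by
  obtain rfl : iL = DivisionRing.toRatAlgebra := Subsingleton.elim _ _
  exact hex L G g S

/-- **L8d**: the Frobenius density theorem in the prelude's language, from the existence of
an unramified prime with prescribed cyclic decomposition group. -/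
theorem FA_S29_FT_main (hex : FA_S29_FT_Target)
    (L : IntermediateField ℚ Qb) [FiniteDimensional ℚ L] [IsGalois ℚ L]
    (g : Γ) (S : Finset ℕ) :
    ∃ (ℓ : ℕ) (A : ValuationSubring Qb) (τ : Γ) (b : ℕ),
      ℓ.Prime ∧ ℓ ∉ S ∧ A.LiesOverPrime ℓ ∧ A.IsFrobeniusAt τ ℓ ∧ ∀ x ∈ L, g x = (τ ^ b) x := by
  haveI : NumberField ↥L := NumberField.of_module_finite ℚ ↥L
  obtain ⟨p, P, hp, hpS, hP, hPp, he, hstab⟩ :=
    FA_S29_FT_target' hex ↥L (↥L ≃ₐ[ℚ] ↥L) (AlgEquiv.restrictNormalHom ↥L g) S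
  have hr : ∀ (σ : Γ) (x : ↥L),
      (algebraMap ↥L Qb) ((AlgEquiv.restrictNormalHom ↥L σ) • x) = σ (algebraMap ↥L Qb x) :=
    fun σ x => AlgEquiv.restrictNormal_commutes σ ↥L x
  have hg : AlgEquiv.restrictNormalHom ↥L g ∈ MulAction.stabilizer (↥L ≃ₐ[ℚ] ↥L) P := by
    rw [hstab]
    exact Subgroup.mem_zpowers _
  obtain ⟨A, τ, b, hA, hτ, hb⟩ := FA_S29_FT_abs (algebraMap ↥L Qb)
    (AlgEquiv.restrictNormalHom ↥L) hr p hp P hP hPp he g hg
  refine ⟨p, A, τ, b, hp, hpS, hA, hτ, fun x hx => ?_⟩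
  rw [← map_pow] at hb
  have h1 := hr g ⟨x, hx⟩
  have h2 := hr (τ ^ b) ⟨x, hx⟩
  rw [hb] at h1
  exact h1.symm.trans h2

end
end Fermat.Agent.S29
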