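import Fermat.Agent.S29.FrobExist
import Fermat.Agent.S29.FrobTrans

/-!
# S29 long shot, leaf L8: the Frobenius density theorem (existence form), final statement

For a finite Galois extension `L/ℚ` inside `ℚ̄`, an element `g` of `Gal(ℚ̄/ℚ)` and a finite set
`S` of primes there are a prime `ℓ ∉ S`, a valuation subring `A` of `ℚ̄` over `ℓ` and a Frobenius
element `τ` at `A` such that `g` and a power of `τ` agree on `L`.
(L8a: `FrobZeta`, helper2; L8b + L8c: `FrobCount`, `FrobDens`, `FrobExist`, helper7;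
L8d: `FrobTrans`, helper2.)
-/

set_option autoImplicit false

namespace Fermat.Agent.S29

theorem FA_S29_FT_target_holds : FA_S29_FT_Target :=
  fun L _ _ G _ _ _ _ g S => FA_S29_FD_exists L G g S

/-- **L8, the Frobenius density theorem, existence form.** -/
theorem FA_S29_FD_main (L : IntermediateField ℚ (AlgebraicClosure ℚ)) [FiniteDimensional ℚ L]
    [IsGalois ℚ L] (g : AlgebraicClosure ℚ ≃ₐ[ℚ] AlgebraicClosure ℚ) (S : Finset ℕ) :
    ∃ (ℓ : ℕ) (A : ValuationSubring (AlgebraicClosure ℚ))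
      (τ : AlgebraicClosure ℚ ≃ₐ[ℚ] AlgebraicClosure ℚ) (b : ℕ),
      ℓ.Prime ∧ ℓ ∉ S ∧ A.LiesOverPrime ℓ ∧ A.IsFrobeniusAt τ ℓ ∧ ∀ x ∈ L, g x = (τ ^ b) x :=
  FA_S29_FT_main FA_S29_FT_target_holds L g S

end Fermat.Agent.S29
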