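import Mathlib
import Fermat.Prelude.Def_GaloisRep_Residual
import Fermat.Agent.S29.Cyc
import Fermat.Agent.S29.AlgFinal
import Fermat.Agent.S29.FrobMain

/-!
# S29/S42, leaf L11 (glue core): from a Galois module with Eichler–Shimura relations to a
two-dimensional representation with exact characteristic polynomials

`FA_S29_GL_core` : let `V ≠ 0` be a finite-dimensional `k₀`-representation of `Gal(ℚ̄/ℚ)`
(`k₀` algebraically closed of characteristic `p`) of finite level such that for every prime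
`ℓ ∤ B` (`p ∣ B ≠ 0`) inertia at `ℓ` acts trivially and every Frobenius element `τ` at `ℓ`
satisfies `τ² - t_ℓ τ + ℓ = 0`.  Then for every field `k` receiving `k₀` there is a
representation on `k²` of finite level, unramified outside `B`, with
`charpoly(τ) = X² - t_ℓ X + ℓ` at every Frobenius element `τ` at `ℓ ∤ B`.

Ingredients: L8 (`FA_S29_FD_main`), L9 (`FA_S29_ALG_residual`, `FA_S29_ALG_pow`), CYC.
-/

set_option autoImplicit false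
set_option linter.unusedSectionVars false
set_option linter.unusedVariables false
set_option linter.style.haveILetI false

namespace Fermat.Agent.S29

noncomputable section

local notation "Qb" => AlgebraicClosure ℚ
local notation "Γ" => (AlgebraicClosure ℚ ≃ₐ[ℚ] AlgebraicClosure ℚ)

open Fermat.Agent.Lib Polynomial

/-- Two finite levels have a common finite Galois level. -/
theorem FA_S29_GL_common_level (L₁ L₂ : IntermediateField ℚ Qb) [FiniteDimensional ℚ L₁]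
    [FiniteDimensional ℚ L₂] :
    ∃ L : IntermediateField ℚ Qb, FiniteDimensional ℚ L ∧ IsGalois ℚ L ∧ L₁ ≤ L ∧ L₂ ≤ L := by
  haveI : Algebra.IsAlgebraic ℚ Qb := FA_isAlgebraic_Qb
  haveI : IsAlgClosure ℚ Qb := FA_isAlgClosure_Qb
  haveI : Normal ℚ Qb := IsAlgClosure.normal ℚ Qb
  haveI : FiniteDimensional ℚ ↥(L₁ ⊔ L₂) := IntermediateField.finiteDimensional_sup L₁ L₂
  refine ⟨IntermediateField.normalClosure ℚ ↥(L₁ ⊔ L₂) Qb, ?_, ?_, ?_, ?_⟩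
  · exact normalClosure.is_finiteDimensional ℚ ↥(L₁ ⊔ L₂) Qb
  · haveI : Normal ℚ ↥(IntermediateField.normalClosure ℚ ↥(L₁ ⊔ L₂) Qb) :=
      normalClosure.normal ℚ ↥(L₁ ⊔ L₂) Qb
    exact ⟨⟩
  · exact le_sup_left.trans (IntermediateField.le_normalClosure _)
  · exact le_sup_right.trans (IntermediateField.le_normalClosure _)

/-- A representation of finite level only depends on the restriction to the level. -/
theorem FA_S29_GL_eq_of_level {M : Type} [Monoid M] (ρ : Γ →* M)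
    (L : IntermediateField ℚ Qb) (h : ∀ σ : Γ, (∀ x ∈ L, σ x = x) → ρ σ = 1)
    (g g' : Γ) (hgg' : ∀ x ∈ L, g x = g' x) : ρ g = ρ g' := by
  have h1 : ρ (g'⁻¹ * g) = 1 := by
    apply h
    intro x hx
    rw [AlgEquiv.mul_apply, hgg' x hx]
    exact g'.symm_apply_apply x
  have h2 : g = g' * (g'⁻¹ * g) := by group
  rw [h2, map_mul, h1, mul_one]

variable {p : ℕ} [hpF : Fact p.Prime]

set_option maxHeartbeats 1000000 in
/-- **L11, glue core.** -/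
theorem FA_S29_GL_core (B : ℕ) (hB : B ≠ 0) (hpB : p ∣ B)
    {k₀ : Type} [Field k₀] [IsAlgClosed k₀] [CharP k₀ p] {k : Type} [Field k] (ι : k₀ →+* k)
    {V : Type} [AddCommGroup V] [Module k₀ V] [Module.Finite k₀ V] [Nontrivial V]
    (ρ : Γ →* Module.End k₀ V) (hlev : GaloisFactorsThroughFiniteLevel ρ) (t : ℕ → k₀)
    (hin : ∀ ℓ : ℕ, ℓ.Prime → ¬ ℓ ∣ B → ∀ A : ValuationSubring Qb, A.LiesOverPrime ℓ →
      ∀ σ ∈ A.inertiaSubgroupIn ℚ, ρ σ = 1)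
    (hfr : ∀ ℓ : ℕ, ℓ.Prime → ¬ ℓ ∣ B → ∀ A : ValuationSubring Qb, A.LiesOverPrime ℓ →
      ∀ τ : Γ, A.IsFrobeniusAt τ ℓ →
        ρ τ * ρ τ - t ℓ • ρ τ + (ℓ : k₀) • (1 : Module.End k₀ V) = 0) :
    ∃ ρ' : Γ →* Module.End k (Fin 2 → k), GaloisFactorsThroughFiniteLevel ρ' ∧
      (∀ ℓ : ℕ, ℓ.Prime → ¬ ℓ ∣ B → ∀ A : ValuationSubring Qb, A.LiesOverPrime ℓ →
        ∀ σ ∈ A.inertiaSubgroupIn ℚ, ρ' σ = 1) ∧
      (∀ ℓ : ℕ, ℓ.Prime → ¬ ℓ ∣ B → ∀ A : ValuationSubring Qb, A.LiesOverPrime ℓ →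
        ∀ τ : Γ, A.IsFrobeniusAt τ ℓ →
          LinearMap.charpoly (ρ' τ) = X ^ 2 - C (ι (t ℓ)) * X + C ((ℓ : k)) ∧
          LinearMap.trace k (Fin 2 → k) (ρ' τ) = ι (t ℓ) ∧
          LinearMap.det (ρ' τ) = (ℓ : k)) := by
  classical
  have hne : ∀ ℓ : ℕ, ℓ.Prime → ¬ ℓ ∣ B → ℓ ≠ p := by
    rintro ℓ hℓ hℓB rfl
    exact hℓB hpB
  set d : Γ →* k₀ˣ := FA_S29_CY_d p k₀ with hd
  obtain ⟨L₁, hL₁, h1⟩ := hlev
  obtain ⟨L₂, hL₂, h2⟩ := FA_S29_CY_d_finiteLevel p k₀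
  obtain ⟨L, hL, hLG, hL₁L, hL₂L⟩ := FA_S29_GL_common_level L₁ L₂
  have hρL : ∀ σ : Γ, (∀ x ∈ L, σ x = x) → ρ σ = 1 := fun σ hσ => h1 σ fun x hx => hσ x (hL₁L hx)
  have hdL : ∀ σ : Γ, (∀ x ∈ L, σ x = x) → d σ = 1 := fun σ hσ => h2 σ fun x hx => hσ x (hL₂L hx)
  -- the relation at Frobenius elements, with constant term `d τ`
  have hfr' : ∀ ℓ : ℕ, ℓ.Prime → ¬ ℓ ∣ B → ∀ A : ValuationSubring Qb, A.LiesOverPrime ℓ →
      ∀ τ : Γ, A.IsFrobeniusAt τ ℓ →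
        ρ τ * ρ τ - t ℓ • ρ τ + ((d τ : k₀ˣ) : k₀) • (1 : Module.End k₀ V) = 0 := by
    intro ℓ hℓ hℓB A hA τ hτ
    rw [hd, FA_S29_CY_d_frob p k₀ hℓ (hne ℓ hℓ hℓB) A hA τ hτ]
    exact hfr ℓ hℓ hℓB A hA τ hτ
  have hquad : ∀ g : Γ, ∃ t' : k₀,
      ρ g * ρ g - t' • ρ g + ((d g : k₀ˣ) : k₀) • (1 : Module.End k₀ V) = 0 := by
    intro g
    obtain ⟨ℓ, A, τ, b, hℓ, hℓS, hA, hτ, hg⟩ := FA_S29_FD_main L g B.primeFactors
    have hℓB : ¬ ℓ ∣ B := fun h => hℓS (Nat.mem_primeFactors.mpr ⟨hℓ, h, hB⟩)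
    obtain ⟨t', ht'⟩ := FA_S29_ALG_pow (ρ τ) (t ℓ) _ (hfr' ℓ hℓ hℓB A hA τ hτ) b
    refine ⟨t', ?_⟩
    rw [FA_S29_GL_eq_of_level ρ L hρL g (τ ^ b) hg, FA_S29_GL_eq_of_level d L hdL g (τ ^ b) hg,
      map_pow, map_pow, Units.val_pow_eq_pow_val]
    exact ht'
  obtain ⟨ρ', hρ'1, hρ'2⟩ := FA_S29_ALG_residual ι ρ d hquad
  refine ⟨ρ', ⟨L, hL, fun σ hσ => hρ'1 σ (hρL σ hσ) (hdL σ hσ)⟩, ?_, ?_⟩
  · intro ℓ hℓ hℓB A hA σ hσ
    exact hρ'1 σ (hin ℓ hℓ hℓB A hA σ hσ)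
      (FA_S29_CY_d_inertia p k₀ hℓ (hne ℓ hℓ hℓB) A hA σ hσ)
  · intro ℓ hℓ hℓB A hA τ hτ
    have h3 := hρ'2 τ (t ℓ) (hfr' ℓ hℓ hℓB A hA τ hτ)
    have h4 : ι ((d τ : k₀ˣ) : k₀) = (ℓ : k) := by
      rw [hd, FA_S29_CY_d_frob p k₀ hℓ (hne ℓ hℓ hℓB) A hA τ hτ, map_natCast]
    rw [h4] at h3
    exact h3

end

end Fermat.Agent.S29
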