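import Mathlib
import Fermat.Prelude.Def_GaloisRep_Residual
import Fermat.Agent.S29.Glue

/-!
# S29/S42, leaf L11: the interface between the Galois module (L10) and the final statements

* `FA_S29_GL_Module N p g φ` : the OUTPUT of leaf L10 — a nonzero finite-dimensional
  `k₀`-representation of `Gal(ℚ̄/ℚ)` of finite level, unramified outside `N p`, on which every
  Frobenius element `τ` at `ℓ ∤ N p` satisfies `τ² - φ(a_ℓ) τ + ℓ = 0`.
* `FA_S29_GL_rep` : from it, for every field `k` receiving `k₀` (`k₀` algebraically closed of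
  characteristic `p`), a representation on `k²` with exact characteristic polynomials.
-/

set_option autoImplicit false
set_option linter.unusedSectionVars false
set_option linter.unusedVariables false
set_option linter.style.haveILetI false

namespace Fermat.Agent.S29

noncomputable section

local notation "Qb" => AlgebraicClosure ℚ
local notation "Γ" => (AlgebraicClosure ℚ ≃ₐ[ℚ] AlgebraicClosure ℚ)
local notation "Zbar" => integralClosure ℤ ℂ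

open Polynomial CongruenceSubgroup

/-- The output of leaf L10. -/
def FA_S29_GL_Module (N p : ℕ) (g : CuspForm (Gamma0 N) 2) {k₀ : Type} [Field k₀]
    (φ : Zbar →+* k₀) : Prop :=
  ∃ (V : Type) (_ : AddCommGroup V) (_ : Module k₀ V) (_ : Module.Finite k₀ V)
    (_ : Nontrivial V) (ρ : Γ →* Module.End k₀ V),
    GaloisFactorsThroughFiniteLevel ρ ∧
    (∀ ℓ : ℕ, ℓ.Prime → ¬ ℓ ∣ N * p → ∀ A : ValuationSubring Qb, A.LiesOverPrime ℓ →
      ∀ σ ∈ A.inertiaSubgroupIn ℚ, ρ σ = 1) ∧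
    (∀ ℓ : ℕ, ℓ.Prime → ¬ ℓ ∣ N * p → ∀ A : ValuationSubring Qb, A.LiesOverPrime ℓ →
      ∀ τ : Γ, A.IsFrobeniusAt τ ℓ → ∃ a : Zbar, (a : ℂ) = ModularFormClass.qCoeff ⇑g ℓ ∧
        ρ τ * ρ τ - φ a • ρ τ + (ℓ : k₀) • (1 : Module.End k₀ V) = 0)

/-- **L11**: the two-dimensional representation attached to the output of L10. -/
theorem FA_S29_GL_rep {N p : ℕ} (hN : N ≠ 0) (hp : p.Prime) {g : CuspForm (Gamma0 N) 2}
    {k₀ : Type} [Field k₀] [IsAlgClosed k₀] [CharP k₀ p] (φ : Zbar →+* k₀)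
    (hmod : FA_S29_GL_Module N p g φ) {k : Type} [Field k] (ι : k₀ →+* k) :
    ∃ ρ' : Γ →* Module.End k (Fin 2 → k), GaloisFactorsThroughFiniteLevel ρ' ∧
      (∀ ℓ : ℕ, ℓ.Prime → ¬ ℓ ∣ N * p → ∀ A : ValuationSubring Qb, A.LiesOverPrime ℓ →
        ∀ σ ∈ A.inertiaSubgroupIn ℚ, ρ' σ = 1) ∧
      (∀ ℓ : ℕ, ℓ.Prime → ¬ ℓ ∣ N * p → ∀ A : ValuationSubring Qb, A.LiesOverPrime ℓ →
        ∀ τ : Γ, A.IsFrobeniusAt τ ℓ → ∃ a : Zbar, (a : ℂ) = ModularFormClass.qCoeff ⇑g ℓ ∧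
          LinearMap.charpoly (ρ' τ) = X ^ 2 - C (ι (φ a)) * X + C ((ℓ : k)) ∧
          LinearMap.trace k (Fin 2 → k) (ρ' τ) = ι (φ a) ∧
          LinearMap.det (ρ' τ) = (ℓ : k)) := by
  classical
  haveI : Fact p.Prime := ⟨hp⟩
  obtain ⟨V, _, _, _, _, ρ, hlev, hin, hfr⟩ := hmod
  set t : ℕ → k₀ := fun ℓ =>
    if h : ∃ a : Zbar, (a : ℂ) = ModularFormClass.qCoeff ⇑g ℓ then φ h.choose else 0 with ht
  have htl : ∀ (ℓ : ℕ) (a : Zbar), (a : ℂ) = ModularFormClass.qCoeff ⇑g ℓ → t ℓ = φ a := by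
    intro ℓ a ha
    have h : ∃ a : Zbar, (a : ℂ) = ModularFormClass.qCoeff ⇑g ℓ := ⟨a, ha⟩
    simp only [ht, dif_pos h]
    congr 1
    exact Subtype.ext (h.choose_spec.trans ha.symm)
  obtain ⟨ρ', hρ'lev, hρ'in, hρ'fr⟩ := FA_S29_GL_core (p := p) (N * p)
    (Nat.mul_ne_zero hN hp.ne_zero) (Dvd.intro_left N rfl) ι ρ hlev t hin
    (by
      intro ℓ hℓ hℓB A hA τ hτ
      obtain ⟨a, ha, hrel⟩ := hfr ℓ hℓ hℓB A hA τ hτ
      rw [htl ℓ a ha]
      exact hrel)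
  refine ⟨ρ', hρ'lev, hρ'in, ?_⟩
  intro ℓ hℓ hℓB A hA τ hτ
  obtain ⟨a, ha, -⟩ := hfr ℓ hℓ hℓB A hA τ hτ
  have h := hρ'fr ℓ hℓ hℓB A hA τ hτ
  rw [htl ℓ a ha] at h
  exact ⟨a, ha, h⟩

end

end Fermat.Agent.S29
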