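import Fermat.Agent.S29.EigTensor
import Fermat.Agent.S29.EigModule
import Fermat.Agent.S29.ES
import Fermat.Agent.S29.GlueRep

/-!
# S29/S42, leaf L10, concrete assembly: the output `FA_S29_GL_Module` of L10 from

* `hAN` : the analytic map `Θ : H →+ J₀(N)` (`p Θ = 0`, `ker Θ ⊆ p H`, Hecke-equivariant);
* `hGH` : the Hecke operators on `J₀(N)` commute with the Galois action;
* `hSM` : every point of `J₀(N)` is fixed by the Galois group of a finite extension.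

`J' := J₀(N)[p]`, `X := k₀ ⊗[ℤ] J'`; the eigenvector is `FA_S29_EIG_bridge_tensor`, the module is
`FA_S29_EM_main`, the inertia and Frobenius relations are `FA_S29_ES_inertia`, `FA_S29_ES_frob`.
-/

set_option autoImplicit false
set_option linter.unusedSectionVars false
set_option linter.unusedVariables false
set_option linter.style.haveILetI false

noncomputable section

namespace Fermat.Agent.S29

local notation "Qb" => AlgebraicClosure ℚ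
local notation "Γ" => (AlgebraicClosure ℚ ≃ₐ[ℚ] AlgebraicClosure ℚ)
local notation "Zbar" => integralClosure ℤ ℂ

open CuspForm ModularFormClass CongruenceSubgroup ModularCurve ModularCurve.Period
open scoped MatrixGroups TensorProduct

variable (N : ℕ) [NeZero N] (p : ℕ)

/-- The `p`-torsion of `J₀(N)`. -/
def FA_S29_EA_tors : AddSubgroup (JZero N) where
  carrier := {x | p • x = 0}
  zero_mem' := smul_zero _
  add_mem' := by
    intro a b ha hb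
    show p • (a + b) = 0
    rw [nsmul_add, ha, hb, add_zero]
  neg_mem' := by
    intro a ha
    show p • (-a) = 0
    rw [neg_nsmul, ha, neg_zero]

theorem FA_S29_EA_mem_tors (x : JZero N) : x ∈ FA_S29_EA_tors N p ↔ p • x = 0 := Iff.rfl

instance FA_S29_EA_action : DistribMulAction Γ ↥(FA_S29_EA_tors N p) where
  smul σ y := ⟨σ • y.1, FA_S29_ES_nsmul_smul N σ p y.1 y.2⟩
  one_smul y := Subtype.ext (one_smul _ _)
  mul_smul σ τ y := Subtype.ext (mul_smul _ _ _)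
  smul_zero σ := Subtype.ext (smul_zero _)
  smul_add σ y z := Subtype.ext (smul_add _ _ _)

theorem FA_S29_EA_smul_coe (σ : Γ) (y : ↥(FA_S29_EA_tors N p)) :
    ((σ • y : ↥(FA_S29_EA_tors N p)) : JZero N) = σ • (y : JZero N) := rfl

/-- The Hecke operators on the `p`-torsion. -/
def FA_S29_EA_T (ℓ : Nat.Primes) : ↥(FA_S29_EA_tors N p) →+ ↥(FA_S29_EA_tors N p) where
  toFun y := ⟨heckeOperatorBar N ℓ y.1, by
    show p • (heckeOperatorBar N ℓ y.1) = 0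
    rw [← map_nsmul, y.2, map_zero]⟩
  map_zero' := Subtype.ext (map_zero _)
  map_add' a b := Subtype.ext (map_add _ _ _)

theorem FA_S29_EA_T_coe (ℓ : Nat.Primes) (y : ↥(FA_S29_EA_tors N p)) :
    ((FA_S29_EA_T N p ℓ y : ↥(FA_S29_EA_tors N p)) : JZero N) = heckeOperatorBar N ℓ y.1 := rfl

/-- Finite orbits from open stabilisers. -/
theorem FA_S29_EA_orbit_finite {Y : Type*} [MulAction Γ Y] (y : Y)
    (h : ∃ E : IntermediateField ℚ Qb, FiniteDimensional ℚ E ∧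
      ∀ σ : Γ, σ ∈ E.fixingSubgroup → σ • y = y) :
    (Set.range fun σ : Γ => σ • y).Finite := by
  classical
  obtain ⟨E, hE, hfix⟩ := h
  haveI := hE
  let r : Γ → (E →ₐ[ℚ] Qb) := fun σ => (σ : Qb →ₐ[ℚ] Qb).comp E.val
  have hfac : ∀ σ σ' : Γ, r σ = r σ' → σ • y = σ' • y := by
    intro σ σ' h
    have h1 : σ⁻¹ * σ' ∈ E.fixingSubgroup := by
      rw [IntermediateField.mem_fixingSubgroup_iff]
      intro e he
      have h2 := congrArg (fun f : E →ₐ[ℚ] Qb => f ⟨e, he⟩) h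
      have h3 : σ e = σ' e := h2
      show σ⁻¹ (σ' e) = e
      rw [← h3]
      exact σ.symm_apply_apply e
    have h4 := hfix _ h1
    rw [mul_smul] at h4
    have h5 := congrArg (fun z => σ • z) h4
    simp only [smul_inv_smul] at h5
    exact h5.symm
  haveI : Finite (E →ₐ[ℚ] Qb) := inferInstance
  refine Set.Finite.subset (Set.finite_range
    (fun e : (E →ₐ[ℚ] Qb) => Function.extend r (fun σ : Γ => σ • y) (fun _ => y) e)) ?_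
  rintro _ ⟨σ, rfl⟩
  refine ⟨r σ, ?_⟩
  have hft : Function.FactorsThrough (fun σ : Γ => σ • y) r := fun a b hab => hfac a b hab
  exact hft.extend_apply _ σ

set_option maxHeartbeats 2000000 in
/-- **L10, concrete assembly**, weakest hypotheses (everything only on `p`-torsion and at
`ℓ ∤ N p`). -/
theorem FA_S29_EA_module_tors (hp : p.Prime)
    (hAN : ∃ Θ : ↥(parabolicHoms ℤ (Gamma0 N) ℤ) →+ JZero N,
      (∀ ψ, (p : ℤ) • Θ ψ = 0) ∧ (∀ ψ, Θ ψ = 0 → ∃ ψ', ψ = (p : ℤ) • ψ') ∧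
      (∀ ℓ : Nat.Primes, ¬ (ℓ : ℕ) ∣ N * p → ∀ ψ,
        Θ (FA_S29_EIG_TH N ℓ ψ) = heckeOperatorBar N ℓ (Θ ψ)))
    (hGH : ∀ (ℓ : Nat.Primes), ¬ (ℓ : ℕ) ∣ N * p → ∀ (τ : Γ) (x : JZero N), p • x = 0 →
      heckeOperatorBar N ℓ (τ • x) = τ • heckeOperatorBar N ℓ x)
    (hSM : ∀ x : JZero N, p • x = 0 → ∃ E : IntermediateField ℚ Qb, FiniteDimensional ℚ E ∧
      ∀ σ : Γ, σ ∈ E.fixingSubgroup → σ • x = x)
    {g : CuspForm (Gamma0 N) 2} (hg : g.IsNormalizedEigenform)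
    {k₀ : Type} [Field k₀] [CharP k₀ p] (φ : Zbar →+* k₀) :
    FA_S29_GL_Module N p g φ := by
  classical
  obtain ⟨Θ, hpΘ, hker, hhecke⟩ := hAN
  -- the map to the `p`-torsion
  let Θ' : ↥(parabolicHoms ℤ (Gamma0 N) ℤ) →+ ↥(FA_S29_EA_tors N p) :=
    Θ.codRestrict (FA_S29_EA_tors N p) (fun ψ => by
      show p • Θ ψ = 0
      rw [← natCast_zsmul]
      exact hpΘ ψ)
  have hΘ'coe : ∀ ψ, ((Θ' ψ : ↥(FA_S29_EA_tors N p)) : JZero N) = Θ ψ := fun ψ => rfl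
  have hpJ : ∀ y : ↥(FA_S29_EA_tors N p), p • y = 0 := fun y => Subtype.ext y.2
  have hΘ' : ∀ ψ, Θ' ψ = 0 → ∃ ψ', ψ = (p : ℤ) • ψ' := by
    intro ψ h
    apply hker
    have := congrArg Subtype.val h
    exact this
  set P : Set Nat.Primes := {ℓ | ¬ (ℓ : ℕ) ∣ N * p} with hP
  have hT : ∀ ℓ ∈ P, ∀ ψ, Θ' (FA_S29_EIG_TH N ℓ ψ) = FA_S29_EA_T N p ℓ (Θ' ψ) := by
    intro ℓ hℓ ψ
    apply Subtype.ext
    rw [hΘ'coe, FA_S29_EA_T_coe, hΘ'coe]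
    exact hhecke ℓ hℓ ψ
  obtain ⟨x, hx0, -, hx⟩ := FA_S29_EIG_bridge_tensor hg hp φ P hpJ Θ' hΘ'
    (fun ℓ => FA_S29_EA_T N p ℓ) hT
  -- the eigenvalues
  set c : {ℓ : Nat.Primes // ¬ (ℓ : ℕ) ∣ N * p} → k₀ :=
    fun i => φ ⟨qCoeff ⇑g (i.1 : ℕ), FA_S29_EIG_isIntegral hg i.1⟩ with hc
  have hxc : ∀ i : {ℓ : Nat.Primes // ¬ (ℓ : ℕ) ∣ N * p},
      FA_S29_EM_TX k₀ (FA_S29_EA_T N p i.1) x = c i • x := by
    intro i
    obtain ⟨a, ha, h⟩ := hx i.1 i.2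
    have ea : a = ⟨qCoeff ⇑g (i.1 : ℕ), FA_S29_EIG_isIntegral hg i.1⟩ := Subtype.ext ha
    rw [hc]
    simp only
    rw [← ea]
    exact h
  have hcomm : ∀ (i : {ℓ : Nat.Primes // ¬ (ℓ : ℕ) ∣ N * p}) (σ : Γ) (y : ↥(FA_S29_EA_tors N p)),
      FA_S29_EA_T N p i.1 (σ • y) = σ • FA_S29_EA_T N p i.1 y := by
    intro i σ y
    apply Subtype.ext
    rw [FA_S29_EA_T_coe, FA_S29_EA_smul_coe, FA_S29_EA_smul_coe, FA_S29_EA_T_coe]
    exact hGH i.1 i.2 σ y.1 y.2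
  have hSM' : ∀ y : ↥(FA_S29_EA_tors N p), ∃ E : IntermediateField ℚ Qb,
      FiniteDimensional ℚ E ∧ ∀ σ : Γ, σ ∈ E.fixingSubgroup → σ • y = y := by
    intro y
    obtain ⟨E, hE, h⟩ := hSM y.1 y.2
    exact ⟨E, hE, fun σ hσ => Subtype.ext (h σ hσ)⟩
  have hfin : ∀ y : ↥(FA_S29_EA_tors N p), (Set.range fun σ : Γ => σ • y).Finite :=
    fun y => FA_S29_EA_orbit_finite y (hSM' y)
  obtain ⟨V, i1, i2, i3, i4, ρ, ⟨S, hS⟩, hrel⟩ := FA_S29_EM_main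
    (fun i : {ℓ : Nat.Primes // ¬ (ℓ : ℕ) ∣ N * p} => FA_S29_EA_T N p i.1) hcomm c x hx0 hxc hfin
  refine ⟨V, i1, i2, i3, i4, ρ, ?_, ?_, ?_⟩
  · -- finite level
    choose E hE hEfix using hSM'
    refine ⟨⨆ y ∈ S, E y, IntermediateField.finiteDimensional_iSup_of_finset'
      (fun y _ => hE y), fun σ hσ => ?_⟩
    apply hS
    intro y hy
    apply hEfix y σ
    rw [IntermediateField.mem_fixingSubgroup_iff]
    intro e he
    apply hσ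
    have hle : E y ≤ ⨆ y ∈ S, E y := le_iSup₂ (f := fun y (_ : y ∈ S) => E y) y hy
    exact hle he
  · -- inertia
    intro ℓ hℓ hℓNp A hA σ hσ
    apply hS
    intro y _
    apply Subtype.ext
    have hℓN : ¬ ℓ ∣ N := fun hd => hℓNp (Dvd.dvd.mul_right hd p)
    have hℓp : ¬ ℓ ∣ p := fun hd => hℓNp (Dvd.dvd.mul_left hd N)
    exact FA_S29_ES_inertia N hℓ hℓN A hA σ hσ p hℓp y.1 y.2
  · -- Frobenius
    intro ℓ hℓ hℓNp A hA τ hτ
    have hℓN : ¬ ℓ ∣ N := fun hd => hℓNp (Dvd.dvd.mul_right hd p)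
    have hℓp : ¬ ℓ ∣ p := fun hd => hℓNp (Dvd.dvd.mul_left hd N)
    refine ⟨⟨qCoeff ⇑g ℓ, FA_S29_EIG_isIntegral hg ⟨ℓ, hℓ⟩⟩, rfl, ?_⟩
    have h1 := hrel τ ⟨⟨ℓ, hℓ⟩, hℓNp⟩ (ℓ : ℤ) (by
      intro y
      apply Subtype.ext
      have h2 := FA_S29_ES_frob N hℓ hℓN A hA τ hτ p hℓp y.1 y.2
      show τ • τ • y.1 - heckeOperatorBar N ⟨ℓ, hℓ⟩ (τ • y.1) + (ℓ : ℤ) • y.1 = 0
      rw [natCast_zsmul]
      exact h2)
    rw [Int.cast_natCast] at h1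
    exact h1

/-- **L10, concrete assembly** (Hecke equivariance of `Θ` needed only at `ℓ ∤ N p`). -/
theorem FA_S29_EA_module_weak (hp : p.Prime)
    (hAN : ∃ Θ : ↥(parabolicHoms ℤ (Gamma0 N) ℤ) →+ JZero N,
      (∀ ψ, (p : ℤ) • Θ ψ = 0) ∧ (∀ ψ, Θ ψ = 0 → ∃ ψ', ψ = (p : ℤ) • ψ') ∧
      (∀ ℓ : Nat.Primes, ¬ (ℓ : ℕ) ∣ N * p → ∀ ψ,
        Θ (FA_S29_EIG_TH N ℓ ψ) = heckeOperatorBar N ℓ (Θ ψ)))
    (hGH : ∀ (ℓ : Nat.Primes) (τ : Γ) (x : JZero N),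
      heckeOperatorBar N ℓ (τ • x) = τ • heckeOperatorBar N ℓ x)
    (hSM : ∀ x : JZero N, ∃ E : IntermediateField ℚ Qb, FiniteDimensional ℚ E ∧
      ∀ σ : Γ, σ ∈ E.fixingSubgroup → σ • x = x)
    {g : CuspForm (Gamma0 N) 2} (hg : g.IsNormalizedEigenform)
    {k₀ : Type} [Field k₀] [CharP k₀ p] (φ : Zbar →+* k₀) :
    FA_S29_GL_Module N p g φ :=
  FA_S29_EA_module_tors N p hp hAN (fun ℓ _ τ x _ => hGH ℓ τ x) (fun x _ => hSM x) hg φ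

/-- **L10, concrete assembly.** -/
theorem FA_S29_EA_module (hp : p.Prime)
    (hAN : ∃ Θ : ↥(parabolicHoms ℤ (Gamma0 N) ℤ) →+ JZero N,
      (∀ ψ, (p : ℤ) • Θ ψ = 0) ∧ (∀ ψ, Θ ψ = 0 → ∃ ψ', ψ = (p : ℤ) • ψ') ∧
      (∀ ℓ : Nat.Primes, ¬ (ℓ : ℕ) ∣ N → ∀ ψ,
        Θ (FA_S29_EIG_TH N ℓ ψ) = heckeOperatorBar N ℓ (Θ ψ)))
    (hGH : ∀ (ℓ : Nat.Primes) (τ : Γ) (x : JZero N),
      heckeOperatorBar N ℓ (τ • x) = τ • heckeOperatorBar N ℓ x)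
    (hSM : ∀ x : JZero N, ∃ E : IntermediateField ℚ Qb, FiniteDimensional ℚ E ∧
      ∀ σ : Γ, σ ∈ E.fixingSubgroup → σ • x = x)
    {g : CuspForm (Gamma0 N) 2} (hg : g.IsNormalizedEigenform)
    {k₀ : Type} [Field k₀] [CharP k₀ p] (φ : Zbar →+* k₀) :
    FA_S29_GL_Module N p g φ := by
  obtain ⟨Θ, h1, h2, h3⟩ := hAN
  exact FA_S29_EA_module_weak N p hp
    ⟨Θ, h1, h2, fun ℓ hℓ ψ => h3 ℓ (fun hd => hℓ (Dvd.dvd.mul_right hd p)) ψ⟩ hGH hSM hg φ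

/-- The output of L10 for all eigenforms and all coefficient fields. -/
theorem FA_S29_EA_all (hp : p.Prime)
    (hAN : ∃ Θ : ↥(parabolicHoms ℤ (Gamma0 N) ℤ) →+ JZero N,
      (∀ ψ, (p : ℤ) • Θ ψ = 0) ∧ (∀ ψ, Θ ψ = 0 → ∃ ψ', ψ = (p : ℤ) • ψ') ∧
      (∀ ℓ : Nat.Primes, ¬ (ℓ : ℕ) ∣ N * p → ∀ ψ,
        Θ (FA_S29_EIG_TH N ℓ ψ) = heckeOperatorBar N ℓ (Θ ψ)))
    (hGH : ∀ (ℓ : Nat.Primes) (τ : Γ) (x : JZero N),
      heckeOperatorBar N ℓ (τ • x) = τ • heckeOperatorBar N ℓ x)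
    (hSM : ∀ x : JZero N, ∃ E : IntermediateField ℚ Qb, FiniteDimensional ℚ E ∧
      ∀ σ : Γ, σ ∈ E.fixingSubgroup → σ • x = x)
    (g : CuspForm (Gamma0 N) 2) (hg : g.IsNormalizedEigenform)
    (k₀ : Type) [Field k₀] [CharP k₀ p] (φ : Zbar →+* k₀) :
    FA_S29_GL_Module N p g φ :=
  FA_S29_EA_module_weak N p hp hAN hGH hSM hg φ

end Fermat.Agent.S29
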