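import Mathlib

/-!
# S29/S42 long shot, leaf L7 (descent), part 1: automorphisms of an algebraically closed field

* `FA_S29_DS_exists_aut` : for `x ∈ L` transcendental over `K` (with `L` algebraically closed)
  and `c ∈ K` there is a `K`-automorphism of `L` with `σ x = x + c`;
* `FA_S29_DS_isAlgebraic_of_fixed` : an element of `L` fixed by a subgroup of finite index of
  `Aut(L / K)` is algebraic over `K` (characteristic zero);
* `FA_S29_DS_mem_range_of_fixed` : hence lies in `K` if `K` is algebraically closed.
-/

set_option autoImplicit false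
set_option linter.style.haveILetI false
set_option linter.unusedSimpArgs false

noncomputable section

namespace Fermat.Agent.S29

open MvPolynomial

/-- The translation automorphism `X_i ↦ X_i + c` of a polynomial ring. -/
def FA_S29_DS_shift {K : Type*} [CommRing K] {B : Type*} [DecidableEq B] (i : B) (c : K) :
    MvPolynomial B K →ₐ[K] MvPolynomial B K :=
  MvPolynomial.aeval fun b => if b = i then X b + C c else X b

theorem FA_S29_DS_shift_shift {K : Type*} [CommRing K] {B : Type*} [DecidableEq B] (i : B)
    (c : K) : (FA_S29_DS_shift i c).comp (FA_S29_DS_shift i (-c)) = AlgHom.id K _ := by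
  apply MvPolynomial.algHom_ext
  intro b
  simp only [FA_S29_DS_shift, AlgHom.comp_apply, aeval_X, AlgHom.id_apply]
  by_cases hb : b = i
  · simp [hb]
  · simp [hb]

/-- For `x` transcendental over `K` in an algebraically closed field `L` and `c : K`, some
`K`-automorphism of `L` maps `x` to `x + c`. -/
theorem FA_S29_DS_exists_aut {K L : Type*} [Field K] [Field L] [Algebra K L] [IsAlgClosed L]
    {x : L} (hx : Transcendental K x) (c : K) :
    ∃ σ : L ≃ₐ[K] L, σ x = x + algebraMap K L c := by
  classical
  have hind : AlgebraicIndepOn K id ({x} : Set L) := by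
    show AlgebraicIndependent K fun y : ({x} : Set L) => id (y : L)
    haveI : Unique ({x} : Set L) := Set.uniqueSingleton x
    rw [algebraicIndependent_unique_type_iff]
    have hd : ((default : ({x} : Set L)) : L) = x := (default : ({x} : Set L)).2
    rw [id, hd]
    exact hx
  obtain ⟨B, hxB, hB⟩ := exists_isTranscendenceBasis_superset hind
  have hxmem : x ∈ B := hxB (Set.mem_singleton x)
  let i : B := ⟨x, hxmem⟩
  letI := IsAlgClosed.isAlgClosure_of_transcendence_basis ((↑) : B → L) hB
  let θ : MvPolynomial B K ≃ₐ[K] MvPolynomial B K :=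
    AlgEquiv.ofAlgHom (FA_S29_DS_shift i c) (FA_S29_DS_shift i (-c))
      (FA_S29_DS_shift_shift i c) (by simpa using FA_S29_DS_shift_shift i (-c))
  let e : Algebra.adjoin K (Set.range ((↑) : B → L)) ≃ₐ[K]
      Algebra.adjoin K (Set.range ((↑) : B → L)) :=
    (hB.1.aevalEquiv.symm.trans θ).trans hB.1.aevalEquiv
  let σ₀ : L ≃+* L := IsAlgClosure.equivOfEquiv L L e.toRingEquiv
  have hσ₀ : ∀ a : Algebra.adjoin K (Set.range ((↑) : B → L)),
      σ₀ (algebraMap _ L a) = algebraMap _ L (e a) := fun a =>
    IsAlgClosure.equivOfEquiv_algebraMap L L e.toRingEquiv a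
  have hcomm : ∀ r : K, σ₀ (algebraMap K L r) = algebraMap K L r := by
    intro r
    have h1 : algebraMap K L r
        = algebraMap (Algebra.adjoin K (Set.range ((↑) : B → L))) L (algebraMap K _ r) := rfl
    rw [h1, hσ₀, e.commutes]
  refine ⟨AlgEquiv.ofRingEquiv (f := σ₀) hcomm, ?_⟩
  show σ₀ x = x + algebraMap K L c
  have h2 : x = algebraMap (Algebra.adjoin K (Set.range ((↑) : B → L))) L
      (hB.1.aevalEquiv (X i)) := by
    rw [AlgebraicIndependent.algebraMap_aevalEquiv]
    simp [i]
  have h3 : e (hB.1.aevalEquiv (X i)) = hB.1.aevalEquiv (X i + C c) := by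
    show hB.1.aevalEquiv (θ (hB.1.aevalEquiv.symm (hB.1.aevalEquiv (X i)))) = _
    rw [AlgEquiv.symm_apply_apply]
    congr 1
    show FA_S29_DS_shift i c (X i) = _
    simp [FA_S29_DS_shift]
  conv_lhs => rw [h2]
  rw [hσ₀, h3, AlgebraicIndependent.algebraMap_aevalEquiv]
  simp [i, Algebra.algebraMap_eq_smul_one, MvPolynomial.algebraMap_eq]

/-- An element fixed by a finite-index subgroup of `Aut(L / K)` is algebraic over `K`. -/
theorem FA_S29_DS_isAlgebraic_of_fixed {K L : Type*} [Field K] [Field L] [Algebra K L]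
    [IsAlgClosed L] [CharZero K] (U : Subgroup (L ≃ₐ[K] L)) [U.FiniteIndex] {x : L}
    (hx : ∀ σ ∈ U, σ x = x) : IsAlgebraic K x := by
  by_contra hcon
  have htr : Transcendental K x := hcon
  choose s hs using fun n : ℕ => FA_S29_DS_exists_aut htr (n : K)
  -- the cosets `s n • U` cannot be pairwise distinct
  haveI : Finite ((L ≃ₐ[K] L) ⧸ U) := Subgroup.finite_quotient_of_finiteIndex
  obtain ⟨n, m, hnm, h⟩ := Finite.exists_ne_map_eq_of_infinite
    (fun n : ℕ => (QuotientGroup.mk (s n) : (L ≃ₐ[K] L) ⧸ U))
  rw [QuotientGroup.eq] at h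
  have h1 := hx _ h
  have h2 : s m x = s n x := by
    have := congrArg (s n) h1
    simpa [AlgEquiv.mul_apply] using this
  rw [hs, hs] at h2
  have h3 : algebraMap K L (m : K) = algebraMap K L (n : K) := add_left_cancel h2
  have h4 : (m : K) = (n : K) := (algebraMap K L).injective h3
  exact hnm (Nat.cast_injective h4).symm

/-- If moreover `K` is algebraically closed, the element lies in `K`. -/
theorem FA_S29_DS_mem_range_of_fixed {K L : Type*} [Field K] [Field L] [Algebra K L]
    [IsAlgClosed L] [IsAlgClosed K] [CharZero K] (U : Subgroup (L ≃ₐ[K] L)) [U.FiniteIndex]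
    {x : L} (hx : ∀ σ ∈ U, σ x = x) : ∃ a : K, algebraMap K L a = x := by
  have h := FA_S29_DS_isAlgebraic_of_fixed U hx
  have h1 := minpoly.mem_range_of_degree_eq_one K x
    (IsAlgClosed.degree_eq_one_of_irreducible K (minpoly.irreducible h.isIntegral))
  exact h1

end Fermat.Agent.S29
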