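import Mathlib
import Fermat.Prelude.Def_ModularCurve_ArithmeticGalois
import Fermat.Agent.S29.DescentAut

/-!
# S29/S42 long shot, leaf L7 (descent), part 2: `F_L ∩ K((q)) = F_K`

`K ⊂ L` fields, `F_K = laurentBaseChange K F₀ ⊂ K((q))`, `F_L = laurentBaseChange L F₀ ⊂ L((q))`.

* `FA_S29_DS_LD` : linear disjointness, coefficientwise;
* `FA_S29_DS_inter` : a series `x ∈ K((q))` whose image in `L((q))` lies in `F_L` lies in `F_K`;
* `FA_S29_DS_iota` : the embedding `F_K → F_L`;
* `FA_S29_DS_fixed_mem` : an element of `F_L` fixed (coefficientwise) by a subgroup of finite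
  index of `Aut(L / K)` lies in the image of `F_K`.
-/

set_option autoImplicit false
set_option linter.style.haveILetI false
set_option linter.unusedSimpArgs false
set_option linter.unusedSectionVars false

noncomputable section

namespace Fermat.Agent.S29

open ModularCurve HahnSeries

section LD

variable {K L : Type*} [Field K] [Field L] [Algebra K L]

theorem FA_S29_DS_coeffMap_smul (a : K) (x : LaurentSeries K) :
    coeffMap (algebraMap K L) (a • x) = algebraMap K L a • coeffMap (algebraMap K L) x := by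
  ext n
  rw [coeffMap_coeff, HahnSeries.coeff_smul, HahnSeries.coeff_smul, coeffMap_coeff, smul_eq_mul,
    smul_eq_mul, map_mul]

theorem FA_S29_DS_smul_eq_mul {R : Type*} [Field R] (a : R) (x : LaurentSeries R) :
    a • x = algebraMap R (LaurentSeries R) a * x := by
  rw [algebraMap_laurentSeries_eq_single, HahnSeries.single_zero_mul_eq_smul]

/-- Linear disjointness of `L` and `K((q))` over `K`, coefficientwise. -/
theorem FA_S29_DS_LD {J : Type*} (b : J → L) (hb : LinearIndependent K b) (s : Finset J)
    (h : J → LaurentSeries K)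
    (hsum : ∑ j ∈ s, b j • coeffMap (algebraMap K L) (h j) = 0) : ∀ j ∈ s, h j = 0 := by
  intro j hj
  ext n
  have h1 : ∑ i ∈ s, (h i).coeff n • b i = 0 := by
    have h2 := congrArg (fun y : LaurentSeries L => y.coeff n) hsum
    simp only [HahnSeries.coeff_zero] at h2
    rw [← h2]
    have h3 : (∑ i ∈ s, b i • coeffMap (algebraMap K L) (h i)).coeff n
        = ∑ i ∈ s, (b i • coeffMap (algebraMap K L) (h i)).coeff n :=
      map_sum (HahnSeries.coeff.addMonoidHom n) _ s
    rw [h3]
    refine Finset.sum_congr rfl fun i _ => ?_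
    rw [HahnSeries.coeff_smul, coeffMap_coeff, Algebra.smul_def, smul_eq_mul, mul_comm]
  have := linearIndependent_iff'.mp hb s (fun i => (h i).coeff n) h1 j hj
  simpa using this

/-- The map `(h_j) ↦ Σ b_j · h_j` from finitely supported families in `K((q))` to `L((q))`. -/
def FA_S29_DS_Theta {J : Type*} (b : J → L) : (J →₀ LaurentSeries K) →+ LaurentSeries L :=
  Finsupp.liftAddHom fun j =>
    ((DistribSMul.toAddMonoidHom (LaurentSeries L) (b j)) :
        LaurentSeries L →+ LaurentSeries L).comp
      (coeffMap (algebraMap K L)).toAddMonoidHom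

theorem FA_S29_DS_Theta_single {J : Type*} (b : J → L) (j : J) (x : LaurentSeries K) :
    FA_S29_DS_Theta b (Finsupp.single j x) = b j • coeffMap (algebraMap K L) x := by
  simp [FA_S29_DS_Theta]

theorem FA_S29_DS_Theta_apply {J : Type*} (b : J → L) (h : J →₀ LaurentSeries K) :
    FA_S29_DS_Theta b h = ∑ j ∈ h.support, b j • coeffMap (algebraMap K L) (h j) := by
  simp [FA_S29_DS_Theta, Finsupp.liftAddHom_apply, Finsupp.sum]

theorem FA_S29_DS_Theta_injective {J : Type*} (b : J → L) (hb : LinearIndependent K b)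
    {h : J →₀ LaurentSeries K} (h0 : FA_S29_DS_Theta b h = 0) : h = 0 := by
  rw [FA_S29_DS_Theta_apply] at h0
  have := FA_S29_DS_LD b hb h.support (fun j => h j) h0
  ext1 j
  by_cases hj : j ∈ h.support
  · simpa using this j hj
  · simpa using hj

theorem FA_S29_DS_Theta_mul {J : Type*} (b : J → L) (x : LaurentSeries K)
    (h : J →₀ LaurentSeries K) :
    FA_S29_DS_Theta b (Finsupp.mapRange (fun y => x * y) (mul_zero x) h)
      = coeffMap (algebraMap K L) x * FA_S29_DS_Theta b h := by
  induction h using Finsupp.induction_linear with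
  | zero => simp
  | add f g hf hg =>
      rw [Finsupp.mapRange_add (fun y z => mul_add x y z), map_add, map_add, hf, hg, mul_add]
  | single j y =>
      rw [Finsupp.mapRange_single, FA_S29_DS_Theta_single, FA_S29_DS_Theta_single, map_mul,
        FA_S29_DS_smul_eq_mul, FA_S29_DS_smul_eq_mul, mul_left_comm]

end LD

section Inter

variable {K L : Type*} [Field K] [Field L] [Algebra K L] [Algebra ℚ K] [Algebra ℚ L]
variable (F₀ : IntermediateField ℚ (LaurentSeries ℚ))

theorem FA_S29_DS_coeffMap_coeffEmb (z : LaurentSeries ℚ) :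
    coeffMap (algebraMap K L) (coeffEmb K z) = coeffEmb L z := by
  rw [coeffEmb, coeffMap_coeffMap]
  exact coeffMap_congr (Subsingleton.elim _ _) z

theorem FA_S29_DS_coeffMap_algebraMap (a : K) :
    coeffMap (algebraMap K L) (algebraMap K (LaurentSeries K) a)
      = algebraMap L (LaurentSeries L) (algebraMap K L a) := by
  rw [algebraMap_laurentSeries_eq_single, algebraMap_laurentSeries_eq_single, coeffMap_single]

/-- `coeffMap` maps `F_K` into `F_L`. -/
theorem FA_S29_DS_coeffMap_mem {x : LaurentSeries K} (hx : x ∈ laurentBaseChange K F₀) :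
    coeffMap (algebraMap K L) x ∈ laurentBaseChange L F₀ := by
  rw [mem_laurentBaseChange_iff] at hx
  induction hx using Subfield.closure_induction with
  | mem y hy =>
      rcases hy with ⟨a, rfl⟩ | ⟨z, hz, rfl⟩
      · rw [FA_S29_DS_coeffMap_algebraMap]
        exact (laurentBaseChange L F₀).algebraMap_mem _
      · rw [FA_S29_DS_coeffMap_coeffEmb]
        exact coeffEmb_mem_laurentBaseChange L hz
  | one => simp
  | add x y _ _ hx hy => simpa using add_mem hx hy
  | neg x _ hx => simpa using neg_mem hx
  | inv x _ hx => simpa using inv_mem hx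
  | mul x y _ _ hx hy => simpa using mul_mem hx hy

/-- The embedding `F_K → F_L`. -/
def FA_S29_DS_iota : laurentBaseChange K F₀ →+* laurentBaseChange L F₀ where
  toFun x := ⟨coeffMap (algebraMap K L) (x : LaurentSeries K), FA_S29_DS_coeffMap_mem F₀ x.2⟩
  map_one' := Subtype.ext (map_one (coeffMap (algebraMap K L)))
  map_mul' _ _ := Subtype.ext (map_mul (coeffMap (algebraMap K L)) _ _)
  map_zero' := Subtype.ext (map_zero (coeffMap (algebraMap K L)))
  map_add' _ _ := Subtype.ext (map_add (coeffMap (algebraMap K L)) _ _)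

@[simp]
theorem FA_S29_DS_coe_iota (x : laurentBaseChange K F₀) :
    ((FA_S29_DS_iota (L := L) F₀ x : laurentBaseChange L F₀) : LaurentSeries L)
      = coeffMap (algebraMap K L) (x : LaurentSeries K) := rfl

theorem FA_S29_DS_iota_algebraMap (a : K) :
    FA_S29_DS_iota (L := L) F₀ (algebraMap K (laurentBaseChange K F₀) a)
      = algebraMap L (laurentBaseChange L F₀) (algebraMap K L a) :=
  Subtype.ext (FA_S29_DS_coeffMap_algebraMap a)

/-- The `L`-multiples of images of elements of `F_K` are of the form `Θ h`. -/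
theorem FA_S29_DS_smul_eq_Theta {J : Type*} (B : Module.Basis J K L) (c : L)
    {x : LaurentSeries K} (hx : x ∈ laurentBaseChange K F₀) :
    ∃ h : J →₀ LaurentSeries K, (∀ j, h j ∈ laurentBaseChange K F₀) ∧
      FA_S29_DS_Theta (fun j => B j) h = c • coeffMap (algebraMap K L) x := by
  refine ⟨Finsupp.mapRange (fun a : K => a • x) (zero_smul K x) (B.repr c), fun j => ?_, ?_⟩
  · rw [Finsupp.mapRange_apply, FA_S29_DS_smul_eq_mul]
    exact mul_mem ((laurentBaseChange K F₀).algebraMap_mem _) hx
  · rw [FA_S29_DS_Theta_apply]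
    have hsupp : (Finsupp.mapRange (fun a : K => a • x) (zero_smul K x) (B.repr c)).support
        ⊆ (B.repr c).support := Finsupp.support_mapRange
    rw [Finset.sum_subset hsupp (fun j _ hj => by
      rw [Finsupp.notMem_support_iff] at hj
      rw [hj, map_zero, smul_zero])]
    have h1 : ∀ j ∈ (B.repr c).support,
        B j • coeffMap (algebraMap K L)
          ((Finsupp.mapRange (fun a : K => a • x) (zero_smul K x) (B.repr c)) j)
          = (B.repr c j • B j) • coeffMap (algebraMap K L) x := by
      intro j _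
      rw [Finsupp.mapRange_apply, FA_S29_DS_coeffMap_smul, smul_smul, Algebra.smul_def (B.repr c j),
        mul_comm]
    rw [Finset.sum_congr rfl h1, ← Finset.sum_smul]
    congr 1
    have := B.linearCombination_repr c
    rw [Finsupp.linearCombination_apply, Finsupp.sum] at this
    exact this

/-- Every element of the `L`-algebra generated by `F₀` is of the form `Θ h`, `h` with values in
`F_K`. -/
theorem FA_S29_DS_adjoin_eq_Theta {J : Type*} (B : Module.Basis J K L) {y : LaurentSeries L}
    (hy : y ∈ Algebra.adjoin L (⇑(coeffEmb L) '' (F₀ : Set (LaurentSeries ℚ)))) :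
    ∃ h : J →₀ LaurentSeries K, (∀ j, h j ∈ laurentBaseChange K F₀) ∧
      FA_S29_DS_Theta (fun j => B j) h = y := by
  have hy' : y ∈ Subalgebra.toSubmodule
      (Algebra.adjoin L (⇑(coeffEmb L) '' (F₀ : Set (LaurentSeries ℚ)))) := hy
  rw [Algebra.adjoin_eq_span] at hy'
  have hclos : ∀ z ∈ Submonoid.closure (⇑(coeffEmb L) '' (F₀ : Set (LaurentSeries ℚ))),
      ∃ w ∈ F₀, coeffEmb L w = z := by
    intro z hz
    induction hz using Submonoid.closure_induction with
    | mem z hz => exact hz
    | one => exact ⟨1, one_mem _, map_one _⟩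
    | mul a b _ _ ha hb =>
        obtain ⟨wa, hwa, rfl⟩ := ha
        obtain ⟨wb, hwb, rfl⟩ := hb
        exact ⟨wa * wb, mul_mem hwa hwb, map_mul _ _ _⟩
  -- the set of `Θ h` is closed under addition and contains the `c • x`
  have hsingle : ∀ (c : L) (z : LaurentSeries L),
      z ∈ Submonoid.closure (⇑(coeffEmb L) '' (F₀ : Set (LaurentSeries ℚ))) →
      ∃ h : J →₀ LaurentSeries K, (∀ j, h j ∈ laurentBaseChange K F₀) ∧
        FA_S29_DS_Theta (fun j => B j) h = algebraMap L (LaurentSeries L) c * z := by
    intro c z hz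
    obtain ⟨w, hw, rfl⟩ := hclos z hz
    rw [← FA_S29_DS_coeffMap_coeffEmb (K := K) (L := L) w, ← FA_S29_DS_smul_eq_mul]
    exact FA_S29_DS_smul_eq_Theta F₀ B c (coeffEmb_mem_laurentBaseChange K hw)
  obtain ⟨f, t, ht, _, rfl⟩ := (@Submodule.mem_span_iff_exists_finset_subset L (LaurentSeries L)
    _ _ Algebra.toModule _ _).mp hy'
  have key : ∀ s : Finset (LaurentSeries L), (∀ z ∈ s,
      z ∈ Submonoid.closure (⇑(coeffEmb L) '' (F₀ : Set (LaurentSeries ℚ)))) →
      ∃ h : J →₀ LaurentSeries K, (∀ j, h j ∈ laurentBaseChange K F₀) ∧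
        FA_S29_DS_Theta (fun j => B j) h
          = ∑ z ∈ s, algebraMap L (LaurentSeries L) (f z) * z := by
    classical
    intro s
    induction s using Finset.induction_on with
    | empty => exact fun _ => ⟨0, fun j => zero_mem _, by simp⟩
    | insert a s ha ih =>
        intro hs
        obtain ⟨h1, h1m, h1e⟩ := ih fun z hz => hs z (Finset.mem_insert_of_mem hz)
        obtain ⟨h2, h2m, h2e⟩ := hsingle (f a) a (hs a (Finset.mem_insert_self a s))
        refine ⟨h2 + h1, fun j => ?_, ?_⟩
        · rw [Finsupp.add_apply]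
          exact add_mem (h2m j) (h1m j)
        · rw [map_add, h1e, h2e, Finset.sum_insert ha]
  obtain ⟨h, hm, he⟩ := key t (fun z hz => ht hz)
  refine ⟨h, hm, ?_⟩
  rw [he]
  exact Finset.sum_congr rfl fun z _ => (Algebra.smul_def _ _).symm

/-- **`F_L ∩ K((q)) = F_K`.** -/
theorem FA_S29_DS_inter {x : LaurentSeries K}
    (hx : coeffMap (algebraMap K L) x ∈ laurentBaseChange L F₀) :
    x ∈ laurentBaseChange K F₀ := by
  rw [laurentBaseChange, IntermediateField.mem_adjoin_iff_div] at hx
  obtain ⟨r, hr, s, hs, hrs⟩ := hx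
  by_cases hs0 : s = 0
  · rw [hs0, div_zero] at hrs
    have : x = 0 := by
      have hinj : Function.Injective (coeffMap (algebraMap K L)) :=
        (coeffMap (algebraMap K L)).injective
      exact hinj (by rw [hrs, map_zero])
    rw [this]
    exact zero_mem _
  set B := Module.Basis.ofVectorSpace K L with hB
  obtain ⟨hr', hrm, hre⟩ := FA_S29_DS_adjoin_eq_Theta (K := K) F₀ B hr
  obtain ⟨hs', hsm, hse⟩ := FA_S29_DS_adjoin_eq_Theta (K := K) F₀ B hs
  have hb : LinearIndependent K (fun j => B j) := B.linearIndependent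
  have h1 : coeffMap (algebraMap K L) x * s = r := by
    rw [hrs, div_mul_cancel₀ _ hs0]
  rw [← hse, ← hre, ← FA_S29_DS_Theta_mul, ← sub_eq_zero, ← map_sub] at h1
  have h2 := FA_S29_DS_Theta_injective _ hb h1
  have hs'0 : hs' ≠ 0 := by
    rintro rfl
    exact hs0 (by rw [← hse, map_zero])
  obtain ⟨j, hj⟩ : ∃ j, hs' j ≠ 0 := by
    by_contra hcon
    push Not at hcon
    exact hs'0 (Finsupp.ext hcon)
  have h3 := DFunLike.congr_fun h2 j
  rw [Finsupp.sub_apply, Finsupp.mapRange_apply, Finsupp.zero_apply, sub_eq_zero] at h3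
  have h4 : x = hr' j / hs' j := by
    rw [eq_div_iff hj]
    exact h3
  rw [h4]
  exact div_mem (hrm j) (hsm j)

end Inter

section Galois

variable {K L : Type*} [Field K] [Field L] [Algebra K L] [Algebra ℚ K] [Algebra ℚ L]
  [IsScalarTower ℚ K L]
variable (F₀ : IntermediateField ℚ (LaurentSeries ℚ))

/-- The action of `Aut(L / K)` on `F_L` (coefficientwise). -/
def FA_S29_DS_act : (L ≃ₐ[K] L) →* AlgebraicCurve.SemilinearAut L (laurentBaseChange L F₀) where
  toFun σ := arithmeticGalois F₀ (σ.restrictScalars ℚ)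
  map_one' := by
    rw [← map_one (arithmeticGalois (L := L) F₀)]
    rfl
  map_mul' σ τ := by
    rw [← map_mul (arithmeticGalois (L := L) F₀)]
    rfl

theorem FA_S29_DS_coe_act (σ : L ≃ₐ[K] L) (x : laurentBaseChange L F₀) :
    ((FA_S29_DS_act (K := K) F₀ σ • x : laurentBaseChange L F₀) : LaurentSeries L)
      = coeffMap (σ : L →+* L) (x : LaurentSeries L) := rfl

theorem FA_S29_DS_act_coeff (σ : L ≃ₐ[K] L) (x : laurentBaseChange L F₀) (n : ℤ) :
    ((FA_S29_DS_act (K := K) F₀ σ • x : laurentBaseChange L F₀) : LaurentSeries L).coeff n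
      = σ ((x : LaurentSeries L).coeff n) := rfl

theorem FA_S29_DS_act_algebraMap (σ : L ≃ₐ[K] L) (c : L) :
    FA_S29_DS_act (K := K) F₀ σ • (algebraMap L (laurentBaseChange L F₀) c)
      = algebraMap L (laurentBaseChange L F₀) (σ c) :=
  AlgebraicCurve.SemilinearAut.smul_algebraMap _ c

theorem FA_S29_DS_act_iota (σ : L ≃ₐ[K] L) (x : laurentBaseChange K F₀) :
    FA_S29_DS_act (K := K) F₀ σ • (FA_S29_DS_iota (L := L) F₀ x) = FA_S29_DS_iota (L := L) F₀ x := by
  apply Subtype.ext
  ext n
  rw [FA_S29_DS_act_coeff, FA_S29_DS_coe_iota, coeffMap_coeff, σ.commutes]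

theorem FA_S29_DS_act_order (σ : L ≃ₐ[K] L) (x : laurentBaseChange L F₀) :
    ((FA_S29_DS_act (K := K) F₀ σ • x : laurentBaseChange L F₀) : LaurentSeries L).order
      = (x : LaurentSeries L).order := by
  rw [FA_S29_DS_coe_act]
  by_cases hx : (x : LaurentSeries L) = 0
  · rw [hx, map_zero]
  have hx' : coeffMap (σ : L →+* L) (x : LaurentSeries L) ≠ 0 := fun h =>
    hx ((coeffMap (σ : L →+* L)).injective (by rw [h, map_zero]))
  apply le_antisymm
  · apply HahnSeries.order_le_of_coeff_ne_zero
    rw [coeffMap_coeff]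
    intro h
    have h1 : (x : LaurentSeries L).coeff (x : LaurentSeries L).order = 0 := by
      have := congrArg σ.symm h
      simpa using this
    exact (HahnSeries.coeff_order_eq_zero.not.mpr hx) h1
  · apply HahnSeries.order_le_of_coeff_ne_zero
    have h2 := HahnSeries.coeff_order_eq_zero.not.mpr hx'
    rw [coeffMap_coeff] at h2
    intro h
    exact h2 (by rw [h, map_zero])

/-- **Galois descent**: an element of `F_L` fixed by a subgroup of finite index of `Aut(L / K)`
is the image of an element of `F_K`. -/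
theorem FA_S29_DS_fixed_mem [IsAlgClosed L] [IsAlgClosed K] [CharZero K]
    (U : Subgroup (L ≃ₐ[K] L)) [U.FiniteIndex] (x : laurentBaseChange L F₀)
    (hx : ∀ σ ∈ U, FA_S29_DS_act (K := K) F₀ σ • x = x) :
    ∃ x₀ : laurentBaseChange K F₀, FA_S29_DS_iota (L := L) F₀ x₀ = x := by
  classical
  have hcoef : ∀ n : ℤ, ∃ a : K, algebraMap K L a = (x : LaurentSeries L).coeff n := by
    intro n
    apply FA_S29_DS_mem_range_of_fixed U
    intro σ hσ
    have := congrArg (fun y : laurentBaseChange L F₀ => (y : LaurentSeries L).coeff n) (hx σ hσ)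
    exact this
  let r : ZeroHom L K :=
    { toFun := fun y => if h : ∃ a : K, algebraMap K L a = y then h.choose else 0
      map_zero' := by
        have h : ∃ a : K, algebraMap K L a = 0 := ⟨0, map_zero _⟩
        rw [dif_pos h]
        exact (algebraMap K L).injective (by rw [h.choose_spec, map_zero]) }
  have hr : ∀ n : ℤ, algebraMap K L (r ((x : LaurentSeries L).coeff n))
      = (x : LaurentSeries L).coeff n := by
    intro n
    show algebraMap K L (if h : ∃ a : K, algebraMap K L a = (x : LaurentSeries L).coeff n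
      then h.choose else 0) = _
    rw [dif_pos (hcoef n)]
    exact (hcoef n).choose_spec
  let x₀ : LaurentSeries K := (x : LaurentSeries L).map r
  have hx₀ : coeffMap (algebraMap K L) x₀ = (x : LaurentSeries L) := by
    ext n
    rw [coeffMap_coeff]
    exact hr n
  have hmem : x₀ ∈ laurentBaseChange K F₀ := by
    apply FA_S29_DS_inter (L := L) F₀
    rw [hx₀]
    exact x.2
  exact ⟨⟨x₀, hmem⟩, Subtype.ext hx₀⟩

end Galois

end Fermat.Agent.S29
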