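import Mathlib
import Fermat.Agent.S37.Bounded
import Fermat.Prelude.Def_AlgebraicCurve_BaseChangeGalois

/-!
# S29/S42 long shot, leaf L7 (descent), part 3: the canonical representative of a Selmer class

`L` algebraically closed of characteristic zero, `F / L` a function field, `wi` a place, `p ≥ 1`.

* `FA_S29_DS_Sel L p f` : `f ≠ 0` and `p ∣ ord_w f` for every place `w`;
* `FA_S29_DS_Rel L p f f'` : `f' = c · u ^ p · f` with `c ∈ Lˣ`, `u ∈ Fˣ`;
* `FA_S29_DS_A wi p f m` : the elements `f' ~ f` without poles outside `wi` and with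
  `ord_{wi} f' ≥ - p m`;
* `FA_S29_DS_A_nonempty` : `A (genus)` is nonempty (Riemann);
* `FA_S29_DS_A_unique` : for the minimal `m`, any two elements of `A m` differ by a constant.
-/

set_option autoImplicit false
set_option linter.style.haveILetI false
set_option linter.unusedSimpArgs false
set_option linter.unusedSectionVars false
set_option linter.unusedVariables false

noncomputable section

namespace Fermat.Agent.S29

open AlgebraicCurve FA_RR FA_RR.WPB

section Defs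

variable (L : Type*) {F : Type*} [Field L] [Field F] [Algebra L F]

/-- The Selmer condition: all orders divisible by `p`. -/
def FA_S29_DS_Sel (p : ℕ) (f : F) : Prop :=
  f ≠ 0 ∧ ∀ w : Place L F, (p : ℤ) ∣ w.ord f

/-- Equality up to a constant and a `p`-th power. -/
def FA_S29_DS_Rel (p : ℕ) (f f' : F) : Prop :=
  ∃ c : L, ∃ u : F, c ≠ 0 ∧ u ≠ 0 ∧ f' = algebraMap L F c * u ^ p * f

variable {L}

theorem FA_S29_DS_Rel.refl (p : ℕ) (f : F) : FA_S29_DS_Rel L p f f :=
  ⟨1, 1, one_ne_zero, one_ne_zero, by simp⟩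

theorem FA_S29_DS_Rel.symm {p : ℕ} {f f' : F} (h : FA_S29_DS_Rel L p f f') :
    FA_S29_DS_Rel L p f' f := by
  obtain ⟨c, u, hc, hu, rfl⟩ := h
  refine ⟨c⁻¹, u⁻¹, inv_ne_zero hc, inv_ne_zero hu, ?_⟩
  have hc' : algebraMap L F c ≠ 0 := by simpa using hc
  rw [map_inv₀, inv_pow]
  field_simp

theorem FA_S29_DS_Rel.trans {p : ℕ} {f f' f'' : F} (h : FA_S29_DS_Rel L p f f')
    (h' : FA_S29_DS_Rel L p f' f'') : FA_S29_DS_Rel L p f f'' := by
  obtain ⟨c, u, hc, hu, rfl⟩ := h
  obtain ⟨c', u', hc', hu', rfl⟩ := h'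
  refine ⟨c' * c, u' * u, mul_ne_zero hc' hc, mul_ne_zero hu' hu, ?_⟩
  rw [map_mul, mul_pow]
  ring

theorem FA_S29_DS_Rel.ne_zero {p : ℕ} {f f' : F} (h : FA_S29_DS_Rel L p f f') (hf : f ≠ 0) :
    f' ≠ 0 := by
  obtain ⟨c, u, hc, hu, rfl⟩ := h
  have hc' : algebraMap L F c ≠ 0 := by simpa using hc
  exact mul_ne_zero (mul_ne_zero hc' (pow_ne_zero _ hu)) hf

theorem FA_S29_DS_Rel.const {p : ℕ} (f : F) {c : L} (hc : c ≠ 0) :
    FA_S29_DS_Rel L p f (algebraMap L F c * f) :=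
  ⟨c, 1, hc, one_ne_zero, by simp⟩

theorem FA_S29_DS_Rel.pow {p : ℕ} (f : F) {u : F} (hu : u ≠ 0) :
    FA_S29_DS_Rel L p f (u ^ p * f) :=
  ⟨1, u, one_ne_zero, hu, by simp⟩

theorem FA_S29_DS_Rel.smul {p : ℕ} {f f' : F} (g : SemilinearAut L F)
    (h : FA_S29_DS_Rel L p f f') : FA_S29_DS_Rel L p (g • f) (g • f') := by
  obtain ⟨c, u, hc, hu, rfl⟩ := h
  refine ⟨SemilinearAut.baseAut g c, g • u, by simpa using hc, by simpa using hu, ?_⟩
  rw [smul_mul', smul_mul', smul_pow', SemilinearAut.smul_algebraMap]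

theorem FA_S29_DS_ord_pow (w : Place L F) (u : F) (p : ℕ) : w.ord (u ^ p) = p * w.ord u := by
  rw [← zpow_natCast, w.ord_zpow]

theorem FA_S29_DS_Rel.ord {p : ℕ} {f f' : F} (h : FA_S29_DS_Rel L p f f') (hf : f ≠ 0)
    (w : Place L F) : ∃ k : ℤ, w.ord f' = p * k + w.ord f := by
  obtain ⟨c, u, hc, hu, rfl⟩ := h
  have hc' : algebraMap L F c ≠ 0 := by simpa using hc
  refine ⟨w.ord u, ?_⟩
  rw [w.ord_mul (mul_ne_zero hc' (pow_ne_zero _ hu)) hf, w.ord_mul hc' (pow_ne_zero _ hu),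
    FA_RR.ord_algebraMap, FA_S29_DS_ord_pow]
  ring

theorem FA_S29_DS_Sel.rel {p : ℕ} {f f' : F} (hf : FA_S29_DS_Sel L p f)
    (h : FA_S29_DS_Rel L p f f') : FA_S29_DS_Sel L p f' := by
  refine ⟨h.ne_zero hf.1, fun w => ?_⟩
  obtain ⟨k, hk⟩ := h.ord hf.1 w
  rw [hk]
  exact dvd_add (dvd_mul_right _ _) (hf.2 w)

/-- The elements equivalent to `f` with poles at most at `wi`, of order at most `p m`. -/
def FA_S29_DS_A (wi : Place L F) (p : ℕ) (f : F) (m : ℕ) : Set F :=
  {f' | FA_S29_DS_Rel L p f f' ∧ (∀ w : Place L F, w ≠ wi → 0 ≤ w.ord f') ∧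
    -((p : ℤ) * m) ≤ wi.ord f'}

theorem FA_S29_DS_A_smul (wi : Place L F) (p : ℕ) (f : F) (m : ℕ) (g : SemilinearAut L F)
    (hg : g • wi = wi) {x : F} (hx : x ∈ FA_S29_DS_A wi p f m) :
    g • x ∈ FA_S29_DS_A wi p (g • f) m := by
  obtain ⟨h1, h2, h3⟩ := hx
  refine ⟨h1.smul g, fun w hw => ?_, ?_⟩
  · have hw' : g⁻¹ • w ≠ wi := by
      intro h
      apply hw
      rw [← hg, ← h, smul_inv_smul]
    have := h2 _ hw'
    rw [← SemilinearAut.ord_smul g (g⁻¹ • w) x, smul_inv_smul] at this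
    exact this
  · have := SemilinearAut.ord_smul g wi x
    rw [hg] at this
    rw [this]
    exact h3

theorem FA_S29_DS_A_rel (wi : Place L F) (p : ℕ) {f f₁ : F} (m : ℕ)
    (h : FA_S29_DS_Rel L p f f₁) {x : F} (hx : x ∈ FA_S29_DS_A wi p f₁ m) :
    x ∈ FA_S29_DS_A wi p f m :=
  ⟨h.trans hx.1, hx.2.1, hx.2.2⟩

end Defs

section Riemann

variable {L F : Type*} [Field L] [Field F] [Algebra L F] [IsAlgClosed L] [CharZero L]

/-- Riemann: `A (genus)` is nonempty. -/
theorem FA_S29_DS_A_nonempty (hF : FA_RR_IsFF L F) (wi : Place L F) {p : ℕ} (hp : 0 < p)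
    {f : F} (hf : FA_S29_DS_Sel L p f) :
    ∃ m : ℕ, (FA_S29_DS_A wi p f m).Nonempty := by
  classical
  haveI := hasPrincipalDivisors hF
  obtain ⟨D₁, hD₁, hdeg₁⟩ := HasPrincipalDivisors.exists_divisor (K := L) f hf.1
  have hp0 : (p : ℤ) ≠ 0 := by exact_mod_cast hp.ne'
  set D : Divisor L F := Finsupp.mapRange (fun n : ℤ => n / p) (by simp) D₁ with hD
  have hDw : ∀ w : Place L F, (p : ℤ) * D w = w.ord f := by
    intro w
    rw [hD, Finsupp.mapRange_apply, hD₁ w]
    exact Int.mul_ediv_cancel' (hf.2 w)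
  have hpD : (p : ℤ) • D = D₁ := by
    ext w
    rw [Finsupp.smul_apply, smul_eq_mul, hDw, hD₁]
  have hdegD : Divisor.degree D = 0 := by
    have h1 : (p : ℤ) * Divisor.degree D = 0 := by
      rw [← smul_eq_mul, ← map_zsmul, hpD, hdeg₁]
    rcases mul_eq_zero.mp h1 with h | h
    · exact absurd h hp0
    · exact h
  set g := genusFF L F with hg
  set E : Divisor L F := D + Finsupp.single wi (g : ℤ) with hE
  have hdegE : Divisor.degree E = (g : ℤ) := by
    rw [hE, map_add, hdegD, Divisor.degree_single, FA_RR.deg_eq_one hF wi]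
    simp
  obtain ⟨u, hu0, hu⟩ := Fermat.Agent.S37.FA_S37_BD_riemann hF E (le_of_eq hdegE.symm)
  refine ⟨g, u ^ p * f, FA_S29_DS_Rel.pow f hu0, fun w hw => ?_, ?_⟩
  · rw [w.ord_mul (pow_ne_zero _ hu0) hf.1, FA_S29_DS_ord_pow, ← hDw w]
    rcases (mem_riemannRochSpace_iff.mp hu) w with h | h
    · exact absurd h hu0
    · rw [hE, Finsupp.add_apply, Finsupp.single_apply, if_neg (Ne.symm hw), add_zero] at h
      have hp' : (0 : ℤ) ≤ p := by positivity
      nlinarith [mul_le_mul_of_nonneg_left h hp']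
  · rw [wi.ord_mul (pow_ne_zero _ hu0) hf.1, FA_S29_DS_ord_pow, ← hDw wi]
    rcases (mem_riemannRochSpace_iff.mp hu) wi with h | h
    · exact absurd h hu0
    · rw [hE, Finsupp.add_apply, Finsupp.single_apply, if_pos rfl] at h
      have hp' : (0 : ℤ) ≤ p := by positivity
      nlinarith [mul_le_mul_of_nonneg_left h hp']

/-- An element without poles is a nonzero constant, so has order `0` everywhere. -/
theorem FA_S29_DS_ord_eq_zero_of_nonneg (hF : FA_RR_IsFF L F) {x : F} (hx : x ≠ 0)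
    (h : ∀ w : Place L F, 0 ≤ w.ord x) (w : Place L F) : w.ord x = 0 := by
  have hmem : x ∈ riemannRochSpace (0 : Divisor L F) := by
    rw [mem_riemannRochSpace_iff]
    intro v
    right
    simpa using h v
  obtain ⟨c, rfl⟩ := FA_RR.WPB.L_zero hF hmem
  exact FA_RR.ord_algebraMap w c

/-- For the minimal `m`, no equivalent element has a smaller pole at `wi`. -/
theorem FA_S29_DS_A_lt (hF : FA_RR_IsFF L F) (wi : Place L F) {p : ℕ} (hp : 0 < p)
    {f : F} (hf : FA_S29_DS_Sel L p f) {m : ℕ}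
    (hmin : ∀ m' : ℕ, m' < m → FA_S29_DS_A wi p f m' = ∅) {x : F}
    (hrel : FA_S29_DS_Rel L p f x) (hx : ∀ w : Place L F, w ≠ wi → 0 ≤ w.ord x) :
    wi.ord x < -((p : ℤ) * m) + p := by
  by_contra hcon
  push Not at hcon
  have hp' : (0 : ℤ) < p := by exact_mod_cast hp
  rcases Nat.eq_zero_or_pos m with hm | hm
  · subst hm
    simp only [Nat.cast_zero, mul_zero, neg_zero, zero_add] at hcon
    have h0 := FA_S29_DS_ord_eq_zero_of_nonneg hF (hrel.ne_zero hf.1) (fun w => by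
      by_cases hw : w = wi
      · rw [hw]; omega
      · exact hx w hw) wi
    omega
  · have hmem : x ∈ FA_S29_DS_A wi p f (m - 1) := by
      refine ⟨hrel, hx, ?_⟩
      have h1 : ((m - 1 : ℕ) : ℤ) = (m : ℤ) - 1 := by
        rw [Nat.cast_sub hm]; simp
      rw [h1]
      linarith
    rw [hmin (m - 1) (by omega)] at hmem
    exact hmem

/-- For the minimal `m`, the elements of `A m` have order exactly `- p m` at `wi`. -/
theorem FA_S29_DS_A_ord (hF : FA_RR_IsFF L F) (wi : Place L F) {p : ℕ} (hp : 0 < p)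
    {f : F} (hf : FA_S29_DS_Sel L p f) {m : ℕ}
    (hmin : ∀ m' : ℕ, m' < m → FA_S29_DS_A wi p f m' = ∅) {x : F}
    (hx : x ∈ FA_S29_DS_A wi p f m) : wi.ord x = -((p : ℤ) * m) := by
  have h1 := FA_S29_DS_A_lt hF wi hp hf hmin hx.1 hx.2.1
  have h2 := hx.2.2
  obtain ⟨k, hk⟩ := (hf.rel hx.1).2 wi
  rw [hk] at h1 h2 ⊢
  have hp' : (0 : ℤ) < p := by exact_mod_cast hp
  have h3 : k < -(m : ℤ) + 1 := by
    by_contra hcon
    push Not at hcon
    nlinarith [mul_le_mul_of_nonneg_left hcon hp'.le]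
  have h4 : -(m : ℤ) ≤ k := by
    by_contra hcon
    push Not at hcon
    have : k + 1 ≤ -(m : ℤ) := hcon
    nlinarith [mul_le_mul_of_nonneg_left this hp'.le]
  have h5 : k = -(m : ℤ) := by omega
  rw [h5]
  ring

/-- **Uniqueness**: for the minimal `m`, two elements of `A m` differ by a constant. -/
theorem FA_S29_DS_A_unique (hF : FA_RR_IsFF L F) (wi : Place L F) {p : ℕ} (hp : 0 < p)
    {f : F} (hf : FA_S29_DS_Sel L p f) {m : ℕ}
    (hmin : ∀ m' : ℕ, m' < m → FA_S29_DS_A wi p f m' = ∅) {x y : F}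
    (hx : x ∈ FA_S29_DS_A wi p f m) (hy : y ∈ FA_S29_DS_A wi p f m) :
    ∃ c : L, c ≠ 0 ∧ y = algebraMap L F c * x := by
  have hp' : (0 : ℤ) < p := by exact_mod_cast hp
  have hx0 : x ≠ 0 := hx.1.ne_zero hf.1
  have hy0 : y ≠ 0 := hy.1.ne_zero hf.1
  obtain ⟨c, u, hc, hu, hyx⟩ := hx.1.symm.trans hy.1
  have hc' : algebraMap L F c ≠ 0 := by simpa using hc
  have hord : ∀ w : Place L F, w.ord y = p * w.ord u + w.ord x := by
    intro w
    rw [hyx, w.ord_mul (mul_ne_zero hc' (pow_ne_zero _ hu)) hx0,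
      w.ord_mul hc' (pow_ne_zero _ hu), FA_RR.ord_algebraMap, FA_S29_DS_ord_pow]
    ring
  -- `u` is a unit at `wi`
  have hui : wi.ord u = 0 := by
    have h1 := FA_S29_DS_A_ord hF wi hp hf hmin hx
    have h2 := FA_S29_DS_A_ord hF wi hp hf hmin hy
    have h3 := hord wi
    rw [h1, h2] at h3
    have : (p : ℤ) * wi.ord u = 0 := by linarith
    rcases mul_eq_zero.mp this with h | h
    · omega
    · exact h
  -- the residue of `u` at `wi`
  have hres := FA_RR.residue hF
  have hu1 : wi.adicValuation u ≤ 1 := by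
    rw [← FA_RR.mem_iff_adicValuation_le_one, FA_RR.mem_iff_ord]
    right
    omega
  obtain ⟨lam, hlam⟩ := hres wi u hu1
  rw [FA_RR.adicValuation_lt_one_iff] at hlam
  by_cases hv : u - algebraMap L F lam = 0
  · have hul : u = algebraMap L F lam := sub_eq_zero.mp hv
    have hlam0 : lam ≠ 0 := by
      rintro rfl
      rw [map_zero] at hul
      exact hu hul
    refine ⟨c * lam ^ p, mul_ne_zero hc (pow_ne_zero _ hlam0), ?_⟩
    rw [hyx, hul, map_mul, map_pow]
  · exfalso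
    rcases hlam with hlam | hlam
    · exact hv hlam
    set v := u - algebraMap L F lam with hvdef
    have hrel : FA_S29_DS_Rel L p f (v ^ p * x) := hx.1.trans (FA_S29_DS_Rel.pow x hv)
    have hxw : ∀ w : Place L F, w ≠ wi → 0 ≤ w.ord (v ^ p * x) := by
      intro w hw
      rw [w.ord_mul (pow_ne_zero _ hv) hx0, FA_S29_DS_ord_pow]
      have hyw := hy.2.1 w hw
      have hxw := hx.2.1 w hw
      rw [hord w] at hyw
      -- `ord_w v ≥ min (ord_w u) 0`
      have hmin' : min (w.ord u) 0 ≤ w.ord v := by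
        apply FA_RR.ord_sub_ge w hv
        · right; exact min_le_left _ _
        · by_cases hl : algebraMap L F lam = 0
          · left; exact hl
          · right
            rw [FA_RR.ord_algebraMap]
            exact min_le_right _ _
      rcases le_total (w.ord u) 0 with h | h
      · rw [min_eq_left h] at hmin'
        nlinarith [mul_le_mul_of_nonneg_left hmin' hp'.le]
      · rw [min_eq_right h] at hmin'
        nlinarith [mul_le_mul_of_nonneg_left hmin' hp'.le]
    have hlt := FA_S29_DS_A_lt hF wi hp hf hmin hrel hxw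
    rw [wi.ord_mul (pow_ne_zero _ hv) hx0, FA_S29_DS_ord_pow,
      FA_S29_DS_A_ord hF wi hp hf hmin hx] at hlt
    have h1 : (1 : ℤ) ≤ wi.ord v := hlam
    nlinarith [mul_le_mul_of_nonneg_left h1 hp'.le]

end Riemann

end Fermat.Agent.S29
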