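import Mathlib
import Fermat.Agent.S29.DescentBase
import Fermat.Agent.S29.DescentCan
import Fermat.Agent.S24.DPlace

/-!
# S29/S42 long shot, leaf L7 (descent), part 4: the descent theorem

`K ⊂ L` algebraically closed of characteristic zero, `F_K = laurentBaseChange K F₀`,
`F_L = laurentBaseChange L F₀` a function field over `L` containing a series of nonzero order.

* `FA_S29_DS_place_infty` : the `q`-adic order is (a multiple of) the order of a place of `F_L`,
  fixed by `Aut(L / K)` (`FA_S29_DS_act_place_infty`);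
* `FA_S29_DS_descent` : a Selmer element `f ∈ F_L` whose class has a finite `Aut(L / K)`-orbit is
  equivalent to the image of an element of `F_K`;
* `FA_S29_DS_pow_descent` : if the image of `f₀ ∈ F_K` is `c · u ^ p` in `F_L`, then
  `f₀ = c₀ · u₀ ^ p` in `F_K`.
-/

set_option autoImplicit false
set_option linter.style.haveILetI false
set_option linter.unusedSimpArgs false
set_option linter.unusedSectionVars false
set_option linter.unusedVariables false

noncomputable section

namespace Fermat.Agent.S29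

open AlgebraicCurve FA_RR ModularCurve HahnSeries

section Infty

variable {L : Type*} [Field L] [Algebra ℚ L]
variable (F₀ : IntermediateField ℚ (LaurentSeries ℚ))

/-- The place at infinity of `F_L`. -/
theorem FA_S29_DS_place_infty
    (hinf : ∃ a : laurentBaseChange L F₀, a ≠ 0 ∧ (a : LaurentSeries L).order ≠ 0) :
    ∃ w : Place L (laurentBaseChange L F₀), ∃ m : ℤ, 0 < m ∧
      (∀ a : laurentBaseChange L F₀, a ≠ 0 → (a : LaurentSeries L).order = m * w.ord a) ∧
      (∀ a : laurentBaseChange L F₀, a ∈ w.toValuationSubring ↔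
        a = 0 ∨ 0 ≤ (a : LaurentSeries L).order) := by
  set ν : laurentBaseChange L F₀ → ℤ := fun a => (a : LaurentSeries L).order with hν
  have hne : ∀ a : laurentBaseChange L F₀, a ≠ 0 → (a : LaurentSeries L) ≠ 0 :=
    fun a ha h => ha (Subtype.ext h)
  have hval : Fermat.Agent.S24.FA_S24_IsVal L ν := by
    refine ⟨fun a b ha hb => ?_, fun a b ha hb hab => ?_, fun c hc => ?_, hinf⟩
    · exact HahnSeries.order_mul (hne a ha) (hne b hb)
    · exact HahnSeries.min_order_le_order_add (hne _ hab)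
    · have hc0 : c ≠ 0 := fun h => hc (by rw [h, map_zero])
      show (algebraMap L (LaurentSeries L) c).order = 0
      rw [algebraMap_laurentSeries_eq_single, HahnSeries.order_single hc0]
  exact hval.exists_place

end Infty

section Main

variable {K L : Type*} [Field K] [Field L] [Algebra K L] [Algebra ℚ K] [Algebra ℚ L]
  [IsScalarTower ℚ K L]
variable (F₀ : IntermediateField ℚ (LaurentSeries ℚ))

theorem FA_S29_DS_act_eq_zero_iff (σ : L ≃ₐ[K] L) (x : laurentBaseChange L F₀) :
    FA_S29_DS_act (K := K) F₀ σ • x = 0 ↔ x = 0 := by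
  constructor
  · intro h
    have := congrArg (fun y => (FA_S29_DS_act (K := K) F₀ σ)⁻¹ • y) h
    simpa using this
  · rintro rfl
    exact smul_zero _

/-- `Aut(L / K)` fixes the place at infinity. -/
theorem FA_S29_DS_act_place_infty (w : Place L (laurentBaseChange L F₀))
    (hw : ∀ a : laurentBaseChange L F₀, a ∈ w.toValuationSubring ↔
        a = 0 ∨ 0 ≤ (a : LaurentSeries L).order) (σ : L ≃ₐ[K] L) :
    FA_S29_DS_act (K := K) F₀ σ • w = w := by
  apply Place.ext
  rw [SemilinearAut.smul_toValuationSubring]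
  ext a
  rw [ValuationSubring.mem_smul_pointwise_iff_exists]
  constructor
  · rintro ⟨s, hs, rfl⟩
    rw [hw] at hs ⊢
    rcases hs with hs | hs
    · left
      rw [hs]
      exact smul_zero _
    · right
      rw [FA_S29_DS_act_order]
      exact hs
  · intro ha
    refine ⟨(FA_S29_DS_act (K := K) F₀ σ)⁻¹ • a, ?_, smul_inv_smul _ _⟩
    rw [hw] at ha ⊢
    rcases ha with ha | ha
    · left
      rw [ha]
      exact smul_zero _
    · right
      rw [← map_inv, FA_S29_DS_act_order]
      exact ha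

theorem FA_S29_DS_leadingCoeff_act (σ : L ≃ₐ[K] L) (x : laurentBaseChange L F₀) :
    ((FA_S29_DS_act (K := K) F₀ σ • x : laurentBaseChange L F₀) : LaurentSeries L).leadingCoeff
      = σ ((x : LaurentSeries L).leadingCoeff) := by
  rw [HahnSeries.leadingCoeff_eq, HahnSeries.leadingCoeff_eq, FA_S29_DS_act_order,
    FA_S29_DS_act_coeff]

theorem FA_S29_DS_leadingCoeff_const_mul (c : L) (x : laurentBaseChange L F₀) :
    ((algebraMap L (laurentBaseChange L F₀) c * x : laurentBaseChange L F₀) :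
        LaurentSeries L).leadingCoeff = c * (x : LaurentSeries L).leadingCoeff := by
  have h1 : ((algebraMap L (laurentBaseChange L F₀) c * x : laurentBaseChange L F₀) :
      LaurentSeries L) = algebraMap L (LaurentSeries L) c * (x : LaurentSeries L) := rfl
  rw [h1, HahnSeries.leadingCoeff_mul, algebraMap_laurentSeries_eq_single,
    HahnSeries.leadingCoeff_of_single]

theorem FA_S29_DS_leadingCoeff_ne_zero {x : laurentBaseChange L F₀} (hx : x ≠ 0) :
    (x : LaurentSeries L).leadingCoeff ≠ 0 :=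
  HahnSeries.leadingCoeff_ne_zero.mpr fun h => hx (Subtype.ext h)

variable [IsAlgClosed K] [IsAlgClosed L] [CharZero K] [CharZero L]

/-- **Descent of Selmer classes**: if the class of `f ∈ Sel(F_L)` has a finite orbit under
`Aut(L / K)`, then `f ~ ι f₀` for some `f₀ ∈ F_K`. -/
theorem FA_S29_DS_descent (hFL : FA_RR_IsFF L (laurentBaseChange L F₀))
    (hinf : ∃ a : laurentBaseChange L F₀, a ≠ 0 ∧ (a : LaurentSeries L).order ≠ 0)
    {p : ℕ} (hp : 0 < p) (f : laurentBaseChange L F₀) (hf : FA_S29_DS_Sel L p f)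
    (hfin : ∃ T : Set (laurentBaseChange L F₀), T.Finite ∧ ∀ σ : L ≃ₐ[K] L,
      ∃ t ∈ T, FA_S29_DS_Rel L p (FA_S29_DS_act (K := K) F₀ σ • f) t) :
    ∃ f₀ : laurentBaseChange K F₀, f₀ ≠ 0 ∧
      FA_S29_DS_Rel L p f (FA_S29_DS_iota (L := L) F₀ f₀) := by
  classical
  obtain ⟨w, m₀, hm₀, hw1, hw2⟩ := FA_S29_DS_place_infty F₀ hinf
  have hfix : ∀ σ : L ≃ₐ[K] L, FA_S29_DS_act (K := K) F₀ σ • w = w :=
    FA_S29_DS_act_place_infty F₀ w hw2
  -- the minimal `m`
  have hex := FA_S29_DS_A_nonempty hFL w hp hf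
  set m := Nat.find hex with hm
  have hmne : (FA_S29_DS_A w p f m).Nonempty := Nat.find_spec hex
  have hmin : ∀ m' : ℕ, m' < m → FA_S29_DS_A w p f m' = ∅ := fun m' hm' =>
    Set.not_nonempty_iff_eq_empty.mp (Nat.find_min hex hm')
  obtain ⟨x, hx⟩ := hmne
  have hx0 : x ≠ 0 := hx.1.ne_zero hf.1
  -- normalise the leading coefficient
  set c := (x : LaurentSeries L).leadingCoeff with hc
  have hc0 : c ≠ 0 := FA_S29_DS_leadingCoeff_ne_zero F₀ hx0
  set xc := algebraMap L (laurentBaseChange L F₀) c⁻¹ * x with hxc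
  have hci : algebraMap L (laurentBaseChange L F₀) c⁻¹ ≠ 0 := by simpa using hc0
  have hxcA : xc ∈ FA_S29_DS_A w p f m := by
    refine ⟨hx.1.trans (FA_S29_DS_Rel.const x (inv_ne_zero hc0)), fun v hv => ?_, ?_⟩
    · rw [hxc, v.ord_mul hci hx0, FA_RR.ord_algebraMap, zero_add]
      exact hx.2.1 v hv
    · rw [hxc, w.ord_mul hci hx0, FA_RR.ord_algebraMap, zero_add]
      exact hx.2.2
  have hxclc : (xc : LaurentSeries L).leadingCoeff = 1 := by
    rw [hxc, FA_S29_DS_leadingCoeff_const_mul]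
    exact inv_mul_cancel₀ hc0
  -- the stabiliser of the class
  let U : Subgroup (L ≃ₐ[K] L) :=
    { carrier := {σ | FA_S29_DS_Rel L p f (FA_S29_DS_act (K := K) F₀ σ • f)}
      one_mem' := by
        show FA_S29_DS_Rel L p f (FA_S29_DS_act (K := K) F₀ 1 • f)
        rw [map_one, one_smul]
        exact FA_S29_DS_Rel.refl p f
      mul_mem' := by
        intro σ τ hσ hτ
        show FA_S29_DS_Rel L p f (FA_S29_DS_act (K := K) F₀ (σ * τ) • f)
        rw [map_mul, mul_smul]
        exact FA_S29_DS_Rel.trans hσ (FA_S29_DS_Rel.smul _ hτ)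
      inv_mem' := by
        intro σ hσ
        show FA_S29_DS_Rel L p f (FA_S29_DS_act (K := K) F₀ σ⁻¹ • f)
        have h1 := FA_S29_DS_Rel.smul (FA_S29_DS_act (K := K) F₀ σ⁻¹) hσ
        rw [map_inv, inv_smul_smul] at h1
        rw [map_inv]
        exact h1.symm }
  have hUmem : ∀ σ : L ≃ₐ[K] L, σ ∈ U ↔
      FA_S29_DS_Rel L p f (FA_S29_DS_act (K := K) F₀ σ • f) := fun σ => Iff.rfl
  -- finite index
  obtain ⟨T, hT, hTrel⟩ := hfin
  choose t htT htrel using hTrel
  haveI : Finite T := hT.to_subtype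
  haveI : Finite ((L ≃ₐ[K] L) ⧸ U) := by
    refine Finite.of_injective (fun q : (L ≃ₐ[K] L) ⧸ U => (⟨t q.out, htT q.out⟩ : T)) ?_
    intro q q' hqq
    have h1 : t q.out = t q'.out := congrArg Subtype.val hqq
    have h2 : FA_S29_DS_Rel L p (FA_S29_DS_act (K := K) F₀ q.out • f)
        (FA_S29_DS_act (K := K) F₀ q'.out • f) := by
      have := htrel q'.out
      rw [← h1] at this
      exact (htrel q.out).trans this.symm
    have h3 := FA_S29_DS_Rel.smul (FA_S29_DS_act (K := K) F₀ q.out)⁻¹ h2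
    rw [inv_smul_smul, ← map_inv, ← mul_smul, ← map_mul] at h3
    have h4 : q.out⁻¹ * q'.out ∈ U := (hUmem _).mpr h3
    have h5 : ((q.out : L ≃ₐ[K] L) : (L ≃ₐ[K] L) ⧸ U) = (q'.out : L ≃ₐ[K] L) :=
      QuotientGroup.eq.mpr h4
    rw [QuotientGroup.out_eq', QuotientGroup.out_eq'] at h5
    exact h5
  haveI : U.FiniteIndex := Subgroup.finiteIndex_of_finite_quotient
  -- the canonical representative is fixed by `U`
  have hfixed : ∀ σ ∈ U, FA_S29_DS_act (K := K) F₀ σ • xc = xc := by
    intro σ hσ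
    have h1 : FA_S29_DS_act (K := K) F₀ σ • xc ∈ FA_S29_DS_A w p f m :=
      FA_S29_DS_A_rel w p m ((hUmem σ).mp hσ)
        (FA_S29_DS_A_smul w p f m _ (hfix σ) hxcA)
    obtain ⟨c', hc', hc'e⟩ := FA_S29_DS_A_unique hFL w hp hf hmin hxcA h1
    have h2 := congrArg (fun y : laurentBaseChange L F₀ => (y : LaurentSeries L).leadingCoeff)
      hc'e
    simp only [FA_S29_DS_leadingCoeff_act, FA_S29_DS_leadingCoeff_const_mul, hxclc, map_one,
      mul_one] at h2
    rw [hc'e, ← h2, map_one, one_mul]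
  obtain ⟨f₀, hf₀⟩ := FA_S29_DS_fixed_mem F₀ U xc hfixed
  refine ⟨f₀, ?_, ?_⟩
  · rintro rfl
    rw [map_zero] at hf₀
    exact hxcA.1.ne_zero hf.1 hf₀.symm
  · rw [hf₀]
    exact hxcA.1

theorem FA_S29_DS_order_coeffMap {R S : Type*} [Field R] [Field S] (ψ : R →+* S)
    (x : LaurentSeries R) : (coeffMap ψ x).order = x.order := by
  by_cases hx : x = 0
  · simp [hx]
  have hx' : coeffMap ψ x ≠ 0 := fun h => hx ((coeffMap ψ).injective (by rw [h, map_zero]))
  apply le_antisymm
  · apply HahnSeries.order_le_of_coeff_ne_zero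
    rw [coeffMap_coeff]
    intro h
    exact (HahnSeries.coeff_order_eq_zero.not.mpr hx) (ψ.injective (by rw [h, map_zero]))
  · apply HahnSeries.order_le_of_coeff_ne_zero
    have h2 := HahnSeries.coeff_order_eq_zero.not.mpr hx'
    rw [coeffMap_coeff] at h2
    intro h
    exact h2 (by rw [h, map_zero])

theorem FA_S29_DS_leadingCoeff_coeffMap {R S : Type*} [Field R] [Field S] (ψ : R →+* S)
    (x : LaurentSeries R) : (coeffMap ψ x).leadingCoeff = ψ x.leadingCoeff := by
  rw [HahnSeries.leadingCoeff_eq, HahnSeries.leadingCoeff_eq, FA_S29_DS_order_coeffMap,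
    coeffMap_coeff]

theorem FA_S29_DS_leadingCoeff_pow {R : Type*} [Field R] (x : LaurentSeries R) (n : ℕ) :
    (x ^ n).leadingCoeff = x.leadingCoeff ^ n := by
  induction n with
  | zero => simp
  | succ n ih => rw [pow_succ, HahnSeries.leadingCoeff_mul, ih, pow_succ]

theorem FA_S29_DS_iota_injective :
    Function.Injective (FA_S29_DS_iota (K := K) (L := L) F₀) :=
  (FA_S29_DS_iota (K := K) (L := L) F₀).injective

/-- **Descent of `p`-th powers**: if `ι f₀ = c · u ^ p` in `F_L`, then `f₀ = c₀ · u₀ ^ p` in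
`F_K`. -/
theorem FA_S29_DS_pow_descent {p : ℕ} (hp : 0 < p) (f₀ : laurentBaseChange K F₀)
    (c : L) (u : laurentBaseChange L F₀) (hc : c ≠ 0) (hu : u ≠ 0)
    (h : FA_S29_DS_iota (L := L) F₀ f₀ = algebraMap L (laurentBaseChange L F₀) c * u ^ p) :
    ∃ c₀ : K, ∃ u₀ : laurentBaseChange K F₀,
      f₀ = algebraMap K (laurentBaseChange K F₀) c₀ * u₀ ^ p ∧
      ∃ a : L, a ≠ 0 ∧ u = algebraMap L (laurentBaseChange L F₀) a
        * FA_S29_DS_iota (L := L) F₀ u₀ := by
  classical
  -- normalise `u`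
  set a := (u : LaurentSeries L).leadingCoeff with ha
  have ha0 : a ≠ 0 := FA_S29_DS_leadingCoeff_ne_zero F₀ hu
  set u₁ := algebraMap L (laurentBaseChange L F₀) a⁻¹ * u with hu₁
  have hai : algebraMap L (laurentBaseChange L F₀) a⁻¹ ≠ 0 := by simpa using ha0
  have hu₁0 : u₁ ≠ 0 := mul_ne_zero hai hu
  have hu₁lc : (u₁ : LaurentSeries L).leadingCoeff = 1 := by
    rw [hu₁, FA_S29_DS_leadingCoeff_const_mul]
    exact inv_mul_cancel₀ ha0
  have hu_eq : u = algebraMap L (laurentBaseChange L F₀) a * u₁ := by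
    rw [hu₁, ← mul_assoc, ← map_mul, mul_inv_cancel₀ ha0, map_one, one_mul]
  set c₁ := c * a ^ p with hc₁
  have h1 : FA_S29_DS_iota (L := L) F₀ f₀
      = algebraMap L (laurentBaseChange L F₀) c₁ * u₁ ^ p := by
    rw [h, hu_eq, hc₁, map_mul, map_pow, mul_pow]
    ring
  -- `c₁` lies in `K`
  have hlc : algebraMap K L ((f₀ : LaurentSeries K).leadingCoeff) = c₁ := by
    have h2 := congrArg (fun y : laurentBaseChange L F₀ => (y : LaurentSeries L).leadingCoeff) h1
    simp only [FA_S29_DS_coe_iota, FA_S29_DS_leadingCoeff_coeffMap,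
      FA_S29_DS_leadingCoeff_const_mul] at h2
    rw [h2]
    have h3 : ((u₁ ^ p : laurentBaseChange L F₀) : LaurentSeries L).leadingCoeff = 1 := by
      have : ((u₁ ^ p : laurentBaseChange L F₀) : LaurentSeries L)
          = (u₁ : LaurentSeries L) ^ p := rfl
      rw [this, FA_S29_DS_leadingCoeff_pow, hu₁lc, one_pow]
    rw [h3, mul_one]
  set c₀ := (f₀ : LaurentSeries K).leadingCoeff with hc₀
  -- `u₁` is fixed by all automorphisms
  have hfixed : ∀ σ ∈ (⊤ : Subgroup (L ≃ₐ[K] L)), FA_S29_DS_act (K := K) F₀ σ • u₁ = u₁ := by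
    intro σ _
    have hc₁0 : c₁ ≠ 0 := mul_ne_zero hc (pow_ne_zero _ ha0)
    have h2 := congrArg (fun y => FA_S29_DS_act (K := K) F₀ σ • y) h1
    simp only [FA_S29_DS_act_iota, smul_mul', smul_pow', FA_S29_DS_act_algebraMap] at h2
    rw [← hlc, σ.commutes, hlc, h1] at h2
    have hc₁' : algebraMap L (laurentBaseChange L F₀) c₁ ≠ 0 := by simpa using hc₁0
    have h3 : (FA_S29_DS_act (K := K) F₀ σ • u₁) ^ p = u₁ ^ p := (mul_left_cancel₀ hc₁' h2).symm
    set ζ := (FA_S29_DS_act (K := K) F₀ σ • u₁) / u₁ with hζ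
    have hζp : ζ ^ p = 1 := by
      rw [hζ, div_pow, h3, div_self (pow_ne_zero _ hu₁0)]
    have hζalg : IsAlgebraic L ζ := by
      refine ⟨Polynomial.X ^ p - 1, ?_, by simp [hζp]⟩
      exact Polynomial.X_pow_sub_C_ne_zero hp (1 : L)
    obtain ⟨z, hz⟩ := FA_RR.exists_const_of_isAlgebraic hζalg
    have h4 : FA_S29_DS_act (K := K) F₀ σ • u₁
        = algebraMap L (laurentBaseChange L F₀) z * u₁ := by
      rw [hz, hζ, div_mul_cancel₀ _ hu₁0]
    have h5 := congrArg (fun y : laurentBaseChange L F₀ => (y : LaurentSeries L).leadingCoeff) h4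
    simp only [FA_S29_DS_leadingCoeff_act, FA_S29_DS_leadingCoeff_const_mul, hu₁lc, map_one,
      mul_one] at h5
    rw [h4, ← h5, map_one, one_mul]
  obtain ⟨u₀, hu₀⟩ := FA_S29_DS_fixed_mem F₀ (⊤ : Subgroup (L ≃ₐ[K] L)) u₁ hfixed
  refine ⟨c₀, u₀, ?_, a, ha0, ?_⟩
  · apply FA_S29_DS_iota_injective (L := L) F₀
    rw [map_mul, map_pow, hu₀, FA_S29_DS_iota_algebraMap, hlc]
    exact h1
  · rw [hu₀]
    exact hu_eq

end Main

end Fermat.Agent.S29
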