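import Mathlib
import Fermat.Agent.S29.DescentMain
import Fermat.Agent.S37.HeckeInNormC

/-!
# S29/S42 long shot, leaf L7 (descent), part 5: places of `F_K` and of `F_L`

`K ⊂ L` algebraically closed of characteristic zero, `ι : F_K → F_L`.

* `FA_S29_DS_Over ι Q P` : the place `Q` of `F_L` restricts to the place `P` of `F_K`;
* `FA_S29_DS_restrict` : a place of `F_L` is trivial on `F_K` or restricts to a place of `F_K`;
* `FA_S29_DS_over_ord` : if `Q` restricts to `P` then `ord_Q (ι f) = ord_P f` (no ramification);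
* `FA_S29_DS_exists_over` : every place of `F_K` is the restriction of a place of `F_L`;
* `FA_S29_DS_sel_iff` : `ι f₀ ∈ Sel(F_L) ↔ f₀ ∈ Sel(F_K)`.
-/

set_option autoImplicit false
set_option linter.style.haveILetI false
set_option linter.unusedSimpArgs false
set_option linter.unusedSectionVars false
set_option linter.unusedVariables false

noncomputable section

namespace Fermat.Agent.S29

open AlgebraicCurve FA_RR ModularCurve HahnSeries Fermat.Agent.S37

section Abstract

variable {K L FK FL : Type*} [Field K] [Field L] [Field FK] [Field FL]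
  [Algebra K L] [Algebra K FK] [Algebra L FL]
  [IsAlgClosed K] [CharZero K] [IsAlgClosed L] [CharZero L]

/-- `Q` restricts to `P`. -/
def FA_S29_DS_Over (ι : FK →+* FL) (Q : Place L FL) (P : Place K FK) : Prop :=
  ∀ f : FK, ι f ∈ Q.toValuationSubring ↔ f ∈ P.toValuationSubring

variable (ι : FK →+* FL)
  (hι : ∀ a : K, ι (algebraMap K FK a) = algebraMap L FL (algebraMap K L a))

include hι in
/-- A place of `F_L` is trivial on `F_K` or restricts to a place of `F_K`. -/
theorem FA_S29_DS_restrict (hFK : FA_RR_IsFF K FK) (Q : Place L FL) :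
    (∀ f : FK, f ≠ 0 → Q.ord (ι f) = 0) ∨ ∃ P : Place K FK, FA_S29_DS_Over ι Q P := by
  set V : ValuationSubring FK := Q.toValuationSubring.comap ι with hV
  have hK : ∀ a : K, algebraMap K FK a ∈ V := by
    intro a
    rw [hV, ValuationSubring.mem_comap, hι]
    exact Q.algebraMap_mem' _
  by_cases htop : V = ⊤
  · left
    intro f hf
    have h1 : ι f ∈ Q.toValuationSubring := by
      have : f ∈ V := by rw [htop]; trivial
      exact this
    have h2 : ι f⁻¹ ∈ Q.toValuationSubring := by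
      have : f⁻¹ ∈ V := by rw [htop]; trivial
      exact this
    have hf' : ι f ≠ 0 := (map_ne_zero ι).mpr hf
    rw [FA_RR.mem_iff_ord] at h1 h2
    rw [map_inv₀, Q.ord_inv] at h2
    rcases h1 with h1 | h1
    · exact absurd h1 hf'
    rcases h2 with h2 | h2
    · exact absurd h2 (inv_ne_zero hf')
    omega
  · right
    obtain ⟨P, hP⟩ := FA_S37_HI_exists_place hFK V hK htop
    refine ⟨P, fun f => ?_⟩
    rw [hP]
    rfl

/-- If `Q` restricts to `P` then `ord_Q ∘ ι = e · ord_P` with `e > 0`. -/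
theorem FA_S29_DS_over_ord_aux {Q : Place L FL} {P : Place K FK}
    (h : FA_S29_DS_Over ι Q P) :
    ∃ e : ℤ, 0 < e ∧ ∀ f : FK, f ≠ 0 → Q.ord (ι f) = e * P.ord f := by
  have hunit : ∀ g : FK, g ≠ 0 → P.ord g = 0 → Q.ord (ι g) = 0 := by
    intro g hg hg0
    have h1 : g ∈ P.toValuationSubring := (FA_RR.mem_iff_ord P).mpr (Or.inr (by omega))
    have h2 : g⁻¹ ∈ P.toValuationSubring :=
      (FA_RR.mem_iff_ord P).mpr (Or.inr (by rw [P.ord_inv]; omega))
    have h3 := (h g).mpr h1
    have h4 := (h g⁻¹).mpr h2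
    have hg' : ι g ≠ 0 := (map_ne_zero ι).mpr hg
    rw [FA_RR.mem_iff_ord] at h3 h4
    rw [map_inv₀, Q.ord_inv] at h4
    rcases h3 with h3 | h3
    · exact absurd h3 hg'
    rcases h4 with h4 | h4
    · exact absurd h4 (inv_ne_zero hg')
    omega
  obtain ⟨t, ht0, ht⟩ := FA_S37_HI_exists_uniformizer P
  have ht' : ι t ≠ 0 := (map_ne_zero ι).mpr ht0
  refine ⟨Q.ord (ι t), ?_, fun f hf => ?_⟩
  · have h1 : t ∈ P.toValuationSubring := (FA_RR.mem_iff_ord P).mpr (Or.inr (by omega))
    have h2 : t⁻¹ ∉ P.toValuationSubring := by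
      rw [FA_RR.mem_iff_ord, P.ord_inv]
      rintro (h | h)
      · exact inv_ne_zero ht0 h
      · omega
    have h3 := (h t).mpr h1
    have h4 : ι t⁻¹ ∉ Q.toValuationSubring := fun hc => h2 ((h t⁻¹).mp hc)
    rw [FA_RR.mem_iff_ord] at h3 h4
    rw [map_inv₀, Q.ord_inv] at h4
    rcases h3 with h3 | h3
    · exact absurd h3 ht'
    by_contra hcon
    exact h4 (Or.inr (by omega))
  · set n := P.ord f with hn
    set g := f * t ^ (-n) with hg
    have hg0 : g ≠ 0 := mul_ne_zero hf (zpow_ne_zero _ ht0)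
    have hgord : P.ord g = 0 := by
      rw [hg, P.ord_mul hf (zpow_ne_zero _ ht0), P.ord_zpow, ht]
      omega
    have h1 := hunit g hg0 hgord
    have hfg : f = g * t ^ n := by
      rw [hg, mul_assoc, ← zpow_add₀ ht0]
      simp
    have h2 : ι f = ι g * (ι t) ^ n := by
      conv_lhs => rw [hfg]
      rw [map_mul, map_zpow₀]
    rw [h2, Q.ord_mul ((map_ne_zero ι).mpr hg0) (zpow_ne_zero _ ht'), h1, Q.ord_zpow]
    ring

include hι in
/-- The unit lemma: a combination `Σ b_j · ι h_j` with `K`-independent `b_j`, all `h_j` regular at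
`P` and one of them a unit at `P`, is a unit at every `Q` over `P`. -/
theorem FA_S29_DS_unit (hFK : FA_RR_IsFF K FK) {Q : Place L FL} {P : Place K FK}
    (h : FA_S29_DS_Over ι Q P) {J : Type*} (b : J → L) (hb : LinearIndependent K b)
    (s : Finset J) (x : J → FK) (hx : ∀ j ∈ s, x j = 0 ∨ 0 ≤ P.ord (x j))
    (hx0 : ∃ j ∈ s, x j ≠ 0 ∧ P.ord (x j) = 0) :
    (∑ j ∈ s, algebraMap L FL (b j) * ι (x j)) ≠ 0 ∧
      Q.ord (∑ j ∈ s, algebraMap L FL (b j) * ι (x j)) = 0 := by
  classical
  obtain ⟨e, he, hord⟩ := FA_S29_DS_over_ord_aux ι h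
  have hres := FA_RR.residue hFK
  have hex : ∀ j : J, ∃ a : K, j ∈ s → P.adicValuation (x j - algebraMap K FK a) < 1 := by
    intro j
    by_cases hj : j ∈ s
    · obtain ⟨a, ha⟩ := hres P (x j) ((FA_RR.mem_iff_adicValuation_le_one P).mp
        ((FA_RR.mem_iff_ord P).mpr (hx j hj)))
      exact ⟨a, fun _ => ha⟩
    · exact ⟨0, fun hj' => absurd hj' hj⟩
  choose a ha using hex
  set c₀ : L := ∑ j ∈ s, a j • b j with hc₀
  set z : FL := ∑ j ∈ s, algebraMap L FL (b j) * ι (x j - algebraMap K FK (a j)) with hz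
  have hsplit : (∑ j ∈ s, algebraMap L FL (b j) * ι (x j)) = algebraMap L FL c₀ + z := by
    rw [hc₀, hz, map_sum, ← Finset.sum_add_distrib]
    refine Finset.sum_congr rfl fun j _ => ?_
    rw [map_sub, hι, Algebra.smul_def, map_mul]
    ring
  have hc₀0 : c₀ ≠ 0 := by
    intro hc
    obtain ⟨j₀, hj₀, hxj₀, hordj₀⟩ := hx0
    have h1 := linearIndependent_iff'.mp hb s a hc j₀ hj₀
    have h2 := ha j₀ hj₀
    rw [h1, map_zero, sub_zero, FA_RR.adicValuation_lt_one_iff] at h2
    rcases h2 with h2 | h2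
    · exact hxj₀ h2
    · omega
  have hzlt : Q.adicValuation z < 1 := by
    rw [hz]
    apply Valuation.map_sum_lt _ one_ne_zero
    intro j hj
    have h1 := ha j hj
    rw [FA_RR.adicValuation_lt_one_iff] at h1 ⊢
    rcases h1 with h1 | h1
    · left
      rw [h1, map_zero, mul_zero]
    · by_cases hbj : algebraMap L FL (b j) = 0
      · left
        rw [hbj, zero_mul]
      · right
        have hne : x j - algebraMap K FK (a j) ≠ 0 := by
          intro h0
          rw [h0, P.ord_zero] at h1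
          exact lt_irrefl _ h1
        rw [Q.ord_mul hbj ((map_ne_zero ι).mpr hne), FA_RR.ord_algebraMap, zero_add, hord _ hne]
        positivity
  have hc₀' : algebraMap L FL c₀ ≠ 0 := by simpa using hc₀0
  have hc₀v : Q.adicValuation (algebraMap L FL c₀) = 1 :=
    (FA_RR.adicValuation_eq_one_iff Q hc₀').mpr (FA_RR.ord_algebraMap Q c₀)
  have hval : Q.adicValuation (algebraMap L FL c₀ + z) = 1 := by
    rw [Valuation.map_add_eq_of_lt_left _ (by rw [hc₀v]; exact hzlt), hc₀v]
  have hne : algebraMap L FL c₀ + z ≠ 0 := by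
    intro h0
    rw [h0, map_zero] at hval
    exact zero_ne_one hval
  rw [hsplit]
  exact ⟨hne, (FA_RR.adicValuation_eq_one_iff Q hne).mp hval⟩

include hι in
/-- The order at `Q` of a combination `Σ b_j · ι h_j` is divisible by `e`. -/
theorem FA_S29_DS_dvd_ord_sum (hFK : FA_RR_IsFF K FK) {Q : Place L FL} {P : Place K FK}
    (h : FA_S29_DS_Over ι Q P) {e : ℤ}
    (hord : ∀ f : FK, f ≠ 0 → Q.ord (ι f) = e * P.ord f)
    {J : Type*} (b : J → L) (hb : LinearIndependent K b)
    (s : Finset J) (x : J → FK) (hne : (∑ j ∈ s, algebraMap L FL (b j) * ι (x j)) ≠ 0) :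
    e ∣ Q.ord (∑ j ∈ s, algebraMap L FL (b j) * ι (x j)) := by
  classical
  set s' := s.filter fun j => x j ≠ 0 with hs'
  have hs'ne : s'.Nonempty := by
    by_contra hcon
    rw [Finset.not_nonempty_iff_eq_empty] at hcon
    apply hne
    apply Finset.sum_eq_zero
    intro j hj
    have : x j = 0 := by
      by_contra hxj
      have : j ∈ s' := Finset.mem_filter.mpr ⟨hj, hxj⟩
      rw [hcon] at this
      simp at this
    rw [this, map_zero, mul_zero]
  obtain ⟨j₀, hj₀, hmin⟩ := Finset.exists_min_image s' (fun j => P.ord (x j)) hs'ne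
  obtain ⟨t, ht0, ht⟩ := FA_S37_HI_exists_uniformizer P
  set n := P.ord (x j₀) with hn
  set x₁ : J → FK := fun j => x j * t ^ (-n) with hx₁
  have htn : t ^ (-n) ≠ 0 := zpow_ne_zero _ ht0
  have hx₁ord : ∀ j, x j ≠ 0 → P.ord (x₁ j) = P.ord (x j) - n := by
    intro j hj
    rw [hx₁]
    show P.ord (x j * t ^ (-n)) = _
    rw [P.ord_mul hj htn, P.ord_zpow, ht]
    ring
  have h1 : ∀ j ∈ s, x₁ j = 0 ∨ 0 ≤ P.ord (x₁ j) := by
    intro j hj
    by_cases hxj : x j = 0
    · left
      show x j * t ^ (-n) = 0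
      rw [hxj, zero_mul]
    · right
      rw [hx₁ord j hxj]
      have := hmin j (Finset.mem_filter.mpr ⟨hj, hxj⟩)
      omega
  have hj₀' := Finset.mem_filter.mp hj₀
  have h2 : ∃ j ∈ s, x₁ j ≠ 0 ∧ P.ord (x₁ j) = 0 :=
    ⟨j₀, hj₀'.1, mul_ne_zero hj₀'.2 htn, by rw [hx₁ord j₀ hj₀'.2]; omega⟩
  obtain ⟨h3, h4⟩ := FA_S29_DS_unit ι hι hFK h b hb s x₁ h1 h2
  have h5 : (∑ j ∈ s, algebraMap L FL (b j) * ι (x₁ j))
      = (∑ j ∈ s, algebraMap L FL (b j) * ι (x j)) * ι (t ^ (-n)) := by
    rw [Finset.sum_mul]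
    refine Finset.sum_congr rfl fun j _ => ?_
    show algebraMap L FL (b j) * ι (x j * t ^ (-n)) = _
    rw [map_mul, mul_assoc]
  rw [h5, Q.ord_mul hne ((map_ne_zero ι).mpr htn), hord _ htn, P.ord_zpow, ht] at h4
  refine ⟨n, ?_⟩
  linarith

end Abstract

section Concrete

variable {K L : Type*} [Field K] [Field L] [Algebra K L] [Algebra ℚ K] [Algebra ℚ L]
  [IsScalarTower ℚ K L] [IsAlgClosed K] [IsAlgClosed L] [CharZero K] [CharZero L]
variable (F₀ : IntermediateField ℚ (LaurentSeries ℚ))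

/-- `ι` preserves transcendence over the constants. -/
theorem FA_S29_DS_iota_transcendental {y : laurentBaseChange K F₀} (hy : Transcendental K y) :
    Transcendental L (FA_S29_DS_iota (L := L) F₀ y) := by
  intro halg
  obtain ⟨c, hc⟩ := FA_RR.exists_const_of_isAlgebraic halg
  apply hy
  have hyc : y = algebraMap K (laurentBaseChange K F₀) ((y : LaurentSeries K).coeff 0) := by
    apply Subtype.ext
    show (y : LaurentSeries K) = algebraMap K (LaurentSeries K) ((y : LaurentSeries K).coeff 0)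
    rw [algebraMap_laurentSeries_eq_single]
    ext n
    by_cases hn : n = 0
    · subst hn
      simp
    · rw [HahnSeries.coeff_single_of_ne hn]
      have h1 := congrArg (fun z : laurentBaseChange L F₀ => (z : LaurentSeries L).coeff n) hc
      have h2 : ((algebraMap L (laurentBaseChange L F₀) c : laurentBaseChange L F₀) :
          LaurentSeries L) = algebraMap L (LaurentSeries L) c := rfl
      simp only [h2, algebraMap_laurentSeries_eq_single, HahnSeries.coeff_single_of_ne hn,
        FA_S29_DS_coe_iota, coeffMap_coeff] at h1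
      exact (algebraMap K L).injective (by rw [← h1, map_zero])
  rw [hyc]
  exact isAlgebraic_algebraMap _

/-- Every element of `F_L` is a quotient of two combinations `Σ B_j · ι h_j`. -/
theorem FA_S29_DS_gen {J : Type*} (B : Module.Basis J K L) (x : laurentBaseChange L F₀)
    (hx : x ≠ 0) :
    ∃ (s : Finset J) (h h' : J → laurentBaseChange K F₀),
      (∑ j ∈ s, algebraMap L (laurentBaseChange L F₀) (B j) * FA_S29_DS_iota (L := L) F₀ (h' j))
        ≠ 0 ∧
      (∑ j ∈ s, algebraMap L (laurentBaseChange L F₀) (B j) * FA_S29_DS_iota (L := L) F₀ (h j))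
        ≠ 0 ∧
      x * (∑ j ∈ s, algebraMap L (laurentBaseChange L F₀) (B j)
          * FA_S29_DS_iota (L := L) F₀ (h' j))
        = ∑ j ∈ s, algebraMap L (laurentBaseChange L F₀) (B j)
          * FA_S29_DS_iota (L := L) F₀ (h j) := by
  classical
  have hxm : (x : LaurentSeries L) ∈
      IntermediateField.adjoin L (⇑(coeffEmb L) '' (F₀ : Set (LaurentSeries ℚ))) := x.2
  rw [IntermediateField.mem_adjoin_iff_div] at hxm
  obtain ⟨r, hr, t, ht, hrt⟩ := hxm
  have hx' : (x : LaurentSeries L) ≠ 0 := fun h => hx (Subtype.ext h)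
  have ht0 : t ≠ 0 := by
    rintro rfl
    rw [div_zero] at hrt
    exact hx' hrt
  have hr0 : r ≠ 0 := by
    rintro rfl
    rw [zero_div] at hrt
    exact hx' hrt
  obtain ⟨gr, hgrm, hgre⟩ := FA_S29_DS_adjoin_eq_Theta (K := K) F₀ B hr
  obtain ⟨gt, hgtm, hgte⟩ := FA_S29_DS_adjoin_eq_Theta (K := K) F₀ B ht
  set S := gr.support ∪ gt.support with hS
  have key : ∀ g : J →₀ LaurentSeries K, (hg : ∀ j, g j ∈ laurentBaseChange K F₀) →
      g.support ⊆ S →
      ((∑ j ∈ S, algebraMap L (laurentBaseChange L F₀) (B j)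
        * FA_S29_DS_iota (L := L) F₀ ⟨g j, hg j⟩ : laurentBaseChange L F₀) : LaurentSeries L)
        = FA_S29_DS_Theta (fun j => B j) g := by
    intro g hg hsub
    rw [FA_S29_DS_Theta_apply, Finset.sum_subset hsub (fun j _ hj => by
      rw [Finsupp.notMem_support_iff] at hj
      rw [hj, map_zero, smul_zero])]
    have hcoe : ((∑ j ∈ S, algebraMap L (laurentBaseChange L F₀) (B j)
        * FA_S29_DS_iota (L := L) F₀ ⟨g j, hg j⟩ : laurentBaseChange L F₀) : LaurentSeries L)
        = ∑ j ∈ S, ((algebraMap L (laurentBaseChange L F₀) (B j)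
        * FA_S29_DS_iota (L := L) F₀ ⟨g j, hg j⟩ : laurentBaseChange L F₀) : LaurentSeries L) :=
      map_sum (laurentBaseChange L F₀).val _ S
    rw [hcoe]
    refine Finset.sum_congr rfl fun j _ => ?_
    rw [FA_S29_DS_smul_eq_mul]
    rfl
  refine ⟨S, fun j => ⟨gr j, hgrm j⟩, fun j => ⟨gt j, hgtm j⟩, ?_, ?_, ?_⟩
  · intro h0
    have := key gt hgtm Finset.subset_union_right
    rw [h0, hgte] at this
    exact ht0 this.symm
  · intro h0
    have := key gr hgrm Finset.subset_union_left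
    rw [h0, hgre] at this
    exact hr0 this.symm
  · apply Subtype.ext
    have h1 := key gt hgtm Finset.subset_union_right
    have h2 := key gr hgrm Finset.subset_union_left
    show (x : LaurentSeries L) * _ = _
    rw [h1, h2, hgte, hgre, hrt, div_mul_cancel₀ _ ht0]

/-- **No ramification**: if `Q` restricts to `P` then `ord_Q ∘ ι = ord_P`. -/
theorem FA_S29_DS_over_ord (hFK : FA_RR_IsFF K (laurentBaseChange K F₀))
    {Q : Place L (laurentBaseChange L F₀)} {P : Place K (laurentBaseChange K F₀)}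
    (h : FA_S29_DS_Over (FA_S29_DS_iota (L := L) F₀) Q P) (f : laurentBaseChange K F₀) :
    Q.ord (FA_S29_DS_iota (L := L) F₀ f) = P.ord f := by
  obtain ⟨e, he, hord⟩ := FA_S29_DS_over_ord_aux _ h
  have he1 : e = 1 := by
    obtain ⟨π, hπ0, hπ⟩ := FA_S37_HI_exists_uniformizer Q
    set B := Module.Basis.ofVectorSpace K L with hB
    obtain ⟨s, x, x', hden, hnum, heq⟩ := FA_S29_DS_gen F₀ B π hπ0
    have hι := FA_S29_DS_iota_algebraMap (K := K) (L := L) F₀
    have h1 := FA_S29_DS_dvd_ord_sum _ hι hFK h hord (fun j => B j) B.linearIndependent s x hnum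
    have h2 := FA_S29_DS_dvd_ord_sum _ hι hFK h hord (fun j => B j) B.linearIndependent s x' hden
    rw [← heq, Q.ord_mul hπ0 hden, hπ] at h1
    have h3 : e ∣ 1 := by
      have := dvd_sub h1 h2
      simpa using this
    exact Int.eq_one_of_dvd_one he.le h3
  rcases eq_or_ne f 0 with rfl | hf
  · simp
  rw [hord f hf, he1, one_mul]

/-- **Every place of `F_K` is the restriction of a place of `F_L`.** -/
theorem FA_S29_DS_exists_over (hFK : FA_RR_IsFF K (laurentBaseChange K F₀))
    (hFL : FA_RR_IsFF L (laurentBaseChange L F₀)) (P : Place K (laurentBaseChange K F₀)) :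
    ∃ Q : Place L (laurentBaseChange L F₀),
      FA_S29_DS_Over (FA_S29_DS_iota (L := L) F₀) Q P := by
  obtain ⟨y, hy, hyP, hyu⟩ := FA_S37_HI_exists_unique_zero hFK P
  have hy0 : y ≠ 0 := by
    rintro rfl
    rw [P.ord_zero] at hyP
    exact lt_irrefl _ hyP
  obtain ⟨Q, hQ⟩ := FA_S37_HI_exists_zero hFL (FA_S29_DS_iota_transcendental (L := L) F₀ hy)
  have hι := FA_S29_DS_iota_algebraMap (K := K) (L := L) F₀
  rcases FA_S29_DS_restrict _ hι hFK Q with h | ⟨P', hP'⟩
  · rw [h y hy0] at hQ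
    exact absurd hQ (lt_irrefl _)
  · have h1 := FA_S29_DS_over_ord F₀ hFK hP' y
    rw [h1] at hQ
    rw [← hyu P' hQ]
    exact ⟨Q, hP'⟩

/-- **`ι f₀ ∈ Sel(F_L) ↔ f₀ ∈ Sel(F_K)`.** -/
theorem FA_S29_DS_sel_iff (hFK : FA_RR_IsFF K (laurentBaseChange K F₀))
    (hFL : FA_RR_IsFF L (laurentBaseChange L F₀)) (p : ℕ) (f₀ : laurentBaseChange K F₀) :
    FA_S29_DS_Sel L p (FA_S29_DS_iota (L := L) F₀ f₀) ↔ FA_S29_DS_Sel K p f₀ := by
  have hι := FA_S29_DS_iota_algebraMap (K := K) (L := L) F₀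
  constructor
  · rintro ⟨h0, h⟩
    refine ⟨fun h' => h0 (by rw [h', map_zero]), fun P => ?_⟩
    obtain ⟨Q, hQ⟩ := FA_S29_DS_exists_over F₀ hFK hFL P
    rw [← FA_S29_DS_over_ord F₀ hFK hQ]
    exact h Q
  · rintro ⟨h0, h⟩
    refine ⟨(map_ne_zero _).mpr h0, fun Q => ?_⟩
    rcases FA_S29_DS_restrict _ hι hFK Q with h' | ⟨P, hP⟩
    · rw [h' f₀ h0]
      exact dvd_zero _
    · rw [FA_S29_DS_over_ord F₀ hFK hP]
      exact h P

end Concrete

end Fermat.Agent.S29
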