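import Mathlib
import Fermat.Agent.S29.DescentSel

/-!
# S29/S42 long shot, leaf L7 (descent), part 6: the final statements

`K ⊂ L` algebraically closed of characteristic zero, `F_K`, `F_L` function fields.

* `FA_S29_DS_tower` : `IsScalarTower ℚ K L` is automatic;
* `FA_S29_DS_sel_act` : `Aut(L / K)` preserves the Selmer condition;
* `FA_S29_DS_main` : if `Sel(F_L) / ~` is finite, every `f ∈ Sel(F_L)` is equivalent to `ι f₀` with
  `f₀ ∈ Sel(F_K)`;
* `FA_S29_DS_rel_iff` : `ι f₀ ~ ι f₁` over `L` iff `f₀ ~ f₁` over `K`.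
-/

set_option autoImplicit false
set_option linter.style.haveILetI false
set_option linter.unusedSimpArgs false
set_option linter.unusedSectionVars false
set_option linter.unusedVariables false

noncomputable section

namespace Fermat.Agent.S29

open AlgebraicCurve FA_RR ModularCurve HahnSeries Fermat.Agent.S37

/-- Any tower of `ℚ`-algebras which are fields is a scalar tower. -/
theorem FA_S29_DS_tower (K L : Type*) [Field K] [Field L] [Algebra K L] [Algebra ℚ K]
    [Algebra ℚ L] : IsScalarTower ℚ K L :=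
  IsScalarTower.of_algebraMap_eq' (Subsingleton.elim _ _)

section

variable {K L : Type*} [Field K] [Field L] [Algebra K L] [Algebra ℚ K] [Algebra ℚ L]
  [IsScalarTower ℚ K L] [IsAlgClosed K] [IsAlgClosed L] [CharZero K] [CharZero L]
variable (F₀ : IntermediateField ℚ (LaurentSeries ℚ))

/-- Semilinear automorphisms preserve the Selmer condition. -/
theorem FA_S29_DS_sel_smul {F : Type*} [Field F] [Algebra L F] (g : SemilinearAut L F) {p : ℕ}
    {f : F} (hf : FA_S29_DS_Sel L p f) : FA_S29_DS_Sel L p (g • f) := by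
  refine ⟨fun h => hf.1 ?_, fun w => ?_⟩
  · have := congrArg (fun y => g⁻¹ • y) h
    simpa using this
  · have h1 := SemilinearAut.ord_smul g (g⁻¹ • w) f
    rw [smul_inv_smul] at h1
    rw [h1]
    exact hf.2 _

/-- **L7, main statement.**  If `Sel(F_L)` has finitely many classes modulo `p`-th powers, then
every `f ∈ Sel(F_L)` is, up to a constant and a `p`-th power, the image of some `f₀ ∈ Sel(F_K)`. -/
theorem FA_S29_DS_main (hFK : FA_RR_IsFF K (laurentBaseChange K F₀))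
    (hFL : FA_RR_IsFF L (laurentBaseChange L F₀))
    (hinf : ∃ a : laurentBaseChange L F₀, a ≠ 0 ∧ (a : LaurentSeries L).order ≠ 0)
    {p : ℕ} (hp : 0 < p)
    (hfin : ∃ T : Set (laurentBaseChange L F₀), T.Finite ∧
      ∀ f : laurentBaseChange L F₀, FA_S29_DS_Sel L p f →
        ∃ t ∈ T, ∃ u : laurentBaseChange L F₀, u ≠ 0 ∧ t = u ^ p * f)
    (f : laurentBaseChange L F₀) (hf : FA_S29_DS_Sel L p f) :
    ∃ f₀ : laurentBaseChange K F₀, FA_S29_DS_Sel K p f₀ ∧
      FA_S29_DS_Rel L p f (FA_S29_DS_iota (L := L) F₀ f₀) := by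
  obtain ⟨T, hT, hTf⟩ := hfin
  have hfin' : ∃ T : Set (laurentBaseChange L F₀), T.Finite ∧ ∀ σ : L ≃ₐ[K] L,
      ∃ t ∈ T, FA_S29_DS_Rel L p (FA_S29_DS_act (K := K) F₀ σ • f) t := by
    refine ⟨T, hT, fun σ => ?_⟩
    obtain ⟨t, ht, u, hu, htu⟩ := hTf _ (FA_S29_DS_sel_smul (FA_S29_DS_act (K := K) F₀ σ) hf)
    exact ⟨t, ht, 1, u, one_ne_zero, hu, by rw [htu, map_one, one_mul]⟩
  obtain ⟨f₀, hf₀, hrel⟩ := FA_S29_DS_descent F₀ hFL hinf hp f hf hfin'
  exact ⟨f₀, (FA_S29_DS_sel_iff F₀ hFK hFL p f₀).mp (hf.rel hrel), hrel⟩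

/-- `ι f₀ ~ ι f₁` over `L` iff `f₀ ~ f₁` over `K`. -/
theorem FA_S29_DS_rel_iff {p : ℕ} (hp : 0 < p) (f₀ f₁ : laurentBaseChange K F₀) (hf₀ : f₀ ≠ 0) :
    FA_S29_DS_Rel L p (FA_S29_DS_iota (L := L) F₀ f₀) (FA_S29_DS_iota (L := L) F₀ f₁) ↔
      FA_S29_DS_Rel K p f₀ f₁ := by
  constructor
  · rintro ⟨c, u, hc, hu, h⟩
    have h1 : FA_S29_DS_iota (L := L) F₀ (f₁ / f₀)
        = algebraMap L (laurentBaseChange L F₀) c * u ^ p := by
      rw [map_div₀, h, mul_div_assoc, div_self ((map_ne_zero _).mpr hf₀), mul_one]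
    obtain ⟨c₀, u₀, h2, a, ha, hua⟩ := FA_S29_DS_pow_descent F₀ hp (f₁ / f₀) c u hc hu h1
    have hne : f₁ / f₀ ≠ 0 := by
      intro h0
      rw [h0, map_zero] at h1
      have hc' : algebraMap L (laurentBaseChange L F₀) c ≠ 0 := by simpa using hc
      exact mul_ne_zero hc' (pow_ne_zero _ hu) h1.symm
    have hc₀ : c₀ ≠ 0 := by
      rintro rfl
      rw [map_zero, zero_mul] at h2
      exact hne h2
    have hu₀ : u₀ ≠ 0 := by
      rintro rfl
      rw [zero_pow hp.ne', mul_zero] at h2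
      exact hne h2
    refine ⟨c₀, u₀, hc₀, hu₀, ?_⟩
    rw [← h2, div_mul_cancel₀ _ hf₀]
  · rintro ⟨c, u, hc, hu, h⟩
    refine ⟨algebraMap K L c, FA_S29_DS_iota (L := L) F₀ u, by simpa using hc,
      (map_ne_zero _).mpr hu, ?_⟩
    rw [h, map_mul, map_mul, map_pow, FA_S29_DS_iota_algebraMap]

end

end Fermat.Agent.S29
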