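import Fermat.Agent.S29.HeckeCls
import Fermat.Agent.S29.DescentInst
import Fermat.Agent.S18.C0Base

/-!
# S29, leaf L10 (a), torsion form: the Hecke operators commute with Galois on `J₀(N)[p]`

Function-theoretic route (insurance for the divisor-level proof):

* every `p`-torsion class is a Kummer class `κ f`, `f ∈ Sel` (`FA_S29_GHT_exists_kappa`);
* `g • κ f = κ (g • f)` for a semilinear automorphism `g` (`FA_S29_GHT_kappa_smul`);
* `T_ℓ (κ f) = κ (Norm_α (β f))` (helper4's `FA_S29_HC_hecke`);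
* the Hecke norm commutes with the coefficientwise Galois action (`FA_S29_GHT_norm_smul`).

`FA_S29_GHT_comm` : `T_ℓ (σ • x) = σ • T_ℓ x` for `p • x = 0`.
-/

set_option autoImplicit false
set_option linter.unusedSectionVars false
set_option linter.style.haveILetI false
set_option linter.unusedVariables false

noncomputable section

namespace Fermat.Agent.S29

open AlgebraicCurve FA_RR Fermat.Agent.S37 ModularCurve

section kummer

variable {K F : Type*} [Field K] [Field F] [Algebra K F] [IsAlgClosed K] [CharZero K]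

/-- Every `p`-torsion class is a Kummer class. -/
theorem FA_S29_GHT_exists_kappa (hF : FA_RR_IsFF K F) {p : ℕ} (hp : 0 < p) (x : Pic0 K F)
    (hx : p • x = 0) : ∃ f : F, FA_S29_DS_Sel K p f ∧ FA_S29_KU_kappa hF p f = x := by
  obtain ⟨D, rfl⟩ := QuotientAddGroup.mk_surjective x
  have h1 : Pic0.mk (p • D) = 0 := hx
  obtain ⟨u, hu, hDu⟩ := FA_S29_KU_mk_eq_zero h1
  have hD : ∀ v : Place K F, (p : ℤ) * (D : Divisor K F) v = v.ord u := by
    intro v
    rw [← hDu v]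
    show (p : ℤ) * (D : Divisor K F) v = ((p • D : Divisor.degZero (K := K) (F := F)) :
      Divisor K F) v
    rw [AddSubgroup.coe_nsmul, Finsupp.smul_apply, nsmul_eq_mul]
  have hsel : FA_S29_DS_Sel K p u := ⟨hu, fun v => ⟨_, (hD v).symm⟩⟩
  refine ⟨u, hsel, ?_⟩
  rw [FA_S29_KU_kappa_eq_mk hF hp hsel (D : Divisor K F) hD]
  rfl

/-- The Kummer class is equivariant for semilinear automorphisms. -/
theorem FA_S29_GHT_kappa_smul (hF : FA_RR_IsFF K F) {p : ℕ} (hp : 0 < p)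
    (g : SemilinearAut K F) {f : F} (hf : FA_S29_DS_Sel K p f) :
    g • FA_S29_KU_kappa hF p f = FA_S29_KU_kappa hF p (g • f) := by
  obtain ⟨D, hD⟩ := FA_S29_KU_exists hF hf
  have hgD : ∀ v : Place K F, (p : ℤ) * (g • D) v = v.ord (g • f) := by
    intro v
    rw [SemilinearAut.divisor_smul_apply, hD]
    have h1 := SemilinearAut.ord_smul g (g⁻¹ • v) f
    rw [smul_inv_smul] at h1
    exact h1.symm
  rw [FA_S29_KU_kappa_eq_mk hF hp hf D hD,
    FA_S29_KU_kappa_eq_mk hF hp (FA_S29_DS_sel_smul g hf) (g • D) hgD]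
  rfl

end kummer

local notation "Qb" => AlgebraicClosure ℚ
local notation "Γ" => (AlgebraicClosure ℚ ≃ₐ[ℚ] AlgebraicClosure ℚ)

variable (N ℓ : ℕ) [NeZero N] [NeZero ℓ]

/-- The Hecke norm commutes with the coefficientwise Galois action. -/
theorem FA_S29_GHT_norm_smul (σ : Γ) (f : ↥(modularFunctionFieldBar N)) :
    arithmeticGalois (modularFunctionFieldFull N) σ • FA_S37_K5_norm N ℓ f
      = FA_S37_K5_norm N ℓ (arithmeticGalois (modularFunctionFieldFull N) σ • f) := by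
  unfold FA_S37_K5_norm
  letI := algebraAlong (heckeAlphaBar Qb N ℓ)
  set e₁ : ↥(modularFunctionFieldBar N) ≃+* ↥(modularFunctionFieldBar N) :=
    arithmeticRingAut (modularFunctionFieldFull N) σ with he₁
  set e₂ : ↥(modularFunctionFieldBar (N * ℓ)) ≃+* ↥(modularFunctionFieldBar (N * ℓ)) :=
    arithmeticRingAut (modularFunctionFieldFull (N * ℓ)) σ with he₂
  have he : RingHom.comp (algebraMap ↥(modularFunctionFieldBar N)
        ↥(modularFunctionFieldBar (N * ℓ))) (e₁ : _ →+* _)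
      = RingHom.comp (e₂ : _ →+* _) (algebraMap ↥(modularFunctionFieldBar N)
        ↥(modularFunctionFieldBar (N * ℓ))) := by
    ext x
    rfl
  have h1 := Algebra.norm_eq_of_equiv_equiv e₁ e₂ he (heckeBetaBar Qb N ℓ f)
  have h2 : e₂ (heckeBetaBar Qb N ℓ f) = heckeBetaBar Qb N ℓ (e₁ f) := by
    apply Subtype.ext
    show coeffMap (σ : Qb →+* Qb) (qExpand Qb ℓ (f : LaurentSeries Qb))
      = qExpand Qb ℓ (coeffMap (σ : Qb →+* Qb) (f : LaurentSeries Qb))
    exact ModularCurve.coeffMap_qExpand _ _ _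
  rw [h2] at h1
  show e₁ (Algebra.norm ↥(modularFunctionFieldBar N) (heckeBetaBar Qb N ℓ f))
    = Algebra.norm ↥(modularFunctionFieldBar N) (heckeBetaBar Qb N ℓ (e₁ f))
  rw [h1, RingEquiv.apply_symm_apply]

/-- **L10 (a), torsion form.** -/
theorem FA_S29_GHT_comm_of (hF : FA_RR_IsFF Qb ↥(modularFunctionFieldBar N))
    {ℓ : ℕ} (hℓ : ℓ.Prime) {p : ℕ} (hp : 0 < p) (σ : Γ) (x : JZero N) (hx : p • x = 0) :
    heckeOperatorBar N ⟨ℓ, hℓ⟩ (σ • x) = σ • heckeOperatorBar N ⟨ℓ, hℓ⟩ x := by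
  haveI : NeZero ℓ := ⟨hℓ.ne_zero⟩
  obtain ⟨f, hf, rfl⟩ := FA_S29_GHT_exists_kappa hF hp x hx
  set g := arithmeticGalois (modularFunctionFieldFull N) σ with hg
  have h1 : σ • FA_S29_KU_kappa hF p f = FA_S29_KU_kappa hF p (g • f) :=
    FA_S29_GHT_kappa_smul hF hp g hf
  have hgf : FA_S29_DS_Sel Qb p (g • f) := FA_S29_DS_sel_smul g hf
  obtain ⟨hs1, hT1⟩ := FA_S29_HC_hecke N hℓ hF hp f hf
  obtain ⟨hs2, hT2⟩ := FA_S29_HC_hecke N hℓ hF hp (g • f) hgf
  rw [h1, hT2, hT1]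
  have h2 : σ • FA_S29_KU_kappa hF p (FA_S37_K5_norm N ℓ f)
      = FA_S29_KU_kappa hF p (g • FA_S37_K5_norm N ℓ f) :=
    FA_S29_GHT_kappa_smul hF hp g hs1
  rw [h2, FA_S29_GHT_norm_smul N ℓ σ f]

/-- **L10 (a), torsion form**, in the shape used by the assembly of L10. -/
theorem FA_S29_GHT_comm {p : ℕ} (hp : 0 < p) (ℓ : Nat.Primes) (τ : Γ) (x : JZero N)
    (hx : p • x = 0) :
    heckeOperatorBar N ℓ (τ • x) = τ • heckeOperatorBar N ℓ x :=
  FA_S29_GHT_comm_of N (FA_S18.FA_S18_C0_isFF N) ℓ.2 hp τ x hx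

end Fermat.Agent.S29
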