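import Mathlib
import Fermat.Agent.S37.RedHint
import Fermat.Prelude.Def_ModularCurve_ArithmeticGalois

/-!
# S29 / S42 (item 87), leaf L10 (part SMOOTH): the Galois action on `J₀(N)` is smooth

* `FA_S29_SM_elem` : every element of `laurentBaseChange ℚ̄ F₀` is fixed by `Gal(ℚ̄ / E)` for a
  number field `E`.
* `FA_S29_SM_place` : every place of `F_N` is fixed by `Gal(ℚ̄ / E)` for a number field `E`.
* `FA_S29_SM_divisor`, `FA_S29_SM_pic0` : the same for divisors and for points of `J₀(N)`.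
-/

set_option autoImplicit false
set_option linter.unusedSectionVars false
set_option linter.unusedVariables false
set_option linter.style.haveILetI false
set_option synthInstance.maxHeartbeats 400000
set_option maxHeartbeats 1000000

noncomputable section

namespace Fermat.Agent.S29

open ModularCurve AlgebraicCurve FA_RR IsDedekindDomain IntermediateField
  Fermat.Agent.S37 Fermat.Agent.S18 FA_S18

/-! ### Elements -/

/-- The series `f` is fixed (coefficientwise) by an open subgroup of `Gal(ℚ̄/ℚ)`. -/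
def FA_S29_SM_Fixed (f : LaurentSeries (AlgebraicClosure ℚ)) : Prop :=
  ∃ E : IntermediateField ℚ (AlgebraicClosure ℚ), FiniteDimensional ℚ E ∧
    ∀ σ : AlgebraicClosure ℚ ≃ₐ[ℚ] AlgebraicClosure ℚ, σ ∈ E.fixingSubgroup →
      coeffMap (σ : AlgebraicClosure ℚ →+* AlgebraicClosure ℚ) f = f

theorem FA_S29_SM_fixed_const (c : AlgebraicClosure ℚ) :
    FA_S29_SM_Fixed (algebraMap (AlgebraicClosure ℚ) (LaurentSeries (AlgebraicClosure ℚ)) c) := by
  have hc : IsIntegral ℚ c := ((AlgebraicClosure.isAlgebraic ℚ).isAlgebraic c).isIntegral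
  refine ⟨ℚ⟮c⟯, IntermediateField.adjoin.finiteDimensional hc, fun σ hσ => ?_⟩
  rw [coeffMap_algebraMap]
  congr 1
  exact (IntermediateField.mem_fixingSubgroup_iff _ _).mp hσ c
    (IntermediateField.mem_adjoin_simple_self ℚ c)

theorem FA_S29_SM_fixed_emb (z : LaurentSeries ℚ) :
    FA_S29_SM_Fixed (coeffEmb (AlgebraicClosure ℚ) z) := by
  refine ⟨⊥, inferInstance, fun σ _ => ?_⟩
  show coeffMap _ (coeffMap (algebraMap ℚ (AlgebraicClosure ℚ)) z) = coeffMap _ z
  rw [coeffMap_coeffMap]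
  exact coeffMap_congr (RingHom.ext fun a => σ.commutes a) z

theorem FA_S29_SM_fixed_of_eq {f : LaurentSeries (AlgebraicClosure ℚ)}
    (h : ∀ σ : AlgebraicClosure ℚ ≃ₐ[ℚ] AlgebraicClosure ℚ,
      coeffMap (σ : AlgebraicClosure ℚ →+* AlgebraicClosure ℚ) f = f) : FA_S29_SM_Fixed f :=
  ⟨⊥, inferInstance, fun σ _ => h σ⟩

theorem FA_S29_SM_fixed_binop {f g : LaurentSeries (AlgebraicClosure ℚ)}
    (op : LaurentSeries (AlgebraicClosure ℚ) → LaurentSeries (AlgebraicClosure ℚ) →
      LaurentSeries (AlgebraicClosure ℚ))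
    (hop : ∀ (φ : AlgebraicClosure ℚ →+* AlgebraicClosure ℚ) a b,
      coeffMap φ (op a b) = op (coeffMap φ a) (coeffMap φ b))
    (hf : FA_S29_SM_Fixed f) (hg : FA_S29_SM_Fixed g) : FA_S29_SM_Fixed (op f g) := by
  obtain ⟨E, hE, h⟩ := hf
  obtain ⟨E', hE', h'⟩ := hg
  haveI := hE
  haveI := hE'
  refine ⟨E ⊔ E', IntermediateField.finiteDimensional_sup E E', fun σ hσ => ?_⟩
  rw [IntermediateField.fixingSubgroup_sup] at hσ
  rw [hop, h σ hσ.1, h' σ hσ.2]

theorem FA_S29_SM_fixed_unop {f : LaurentSeries (AlgebraicClosure ℚ)}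
    (op : LaurentSeries (AlgebraicClosure ℚ) → LaurentSeries (AlgebraicClosure ℚ))
    (hop : ∀ (φ : AlgebraicClosure ℚ →+* AlgebraicClosure ℚ) a,
      coeffMap φ (op a) = op (coeffMap φ a))
    (hf : FA_S29_SM_Fixed f) : FA_S29_SM_Fixed (op f) := by
  obtain ⟨E, hE, h⟩ := hf
  exact ⟨E, hE, fun σ hσ => by rw [hop, h σ hσ]⟩

/-- **Every element of `laurentBaseChange ℚ̄ F₀` is defined over a number field.** -/
theorem FA_S29_SM_elem (F₀ : IntermediateField ℚ (LaurentSeries ℚ))
    {f : LaurentSeries (AlgebraicClosure ℚ)}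
    (hf : f ∈ laurentBaseChange (AlgebraicClosure ℚ) F₀) : FA_S29_SM_Fixed f := by
  rw [mem_laurentBaseChange_iff] at hf
  induction hf using Subfield.closure_induction with
  | mem y hy =>
      rcases hy with ⟨a, rfl⟩ | ⟨z, hz, rfl⟩
      · exact FA_S29_SM_fixed_const a
      · exact FA_S29_SM_fixed_emb z
  | one => exact FA_S29_SM_fixed_of_eq fun σ => map_one _
  | add x y _ _ hx hy => exact FA_S29_SM_fixed_binop (· + ·) (fun φ a b => map_add _ a b) hx hy
  | neg x _ hx => exact FA_S29_SM_fixed_unop (fun a => -a) (fun φ a => map_neg _ a) hx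
  | inv x _ hx => exact FA_S29_SM_fixed_unop (fun a => a⁻¹) (fun φ a => map_inv₀ _ a) hx
  | mul x y _ _ hx hy => exact FA_S29_SM_fixed_binop (· * ·) (fun φ a b => map_mul _ a b) hx hy

end Fermat.Agent.S29

end
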