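import Mathlib
import Fermat.Agent.S29.Smooth
import Fermat.Agent.S37.HeckeInNormC
import Fermat.Agent.S18.C0Base

/-!
# S29 / S42 (item 87), leaf L10 (b), backup file: the Galois action on `J₀(N)` is smooth

Every element, place, divisor and divisor class of `laurentBaseChange ℚ̄ F₀` is fixed by
`Gal(ℚ̄ / E)` for a number field `E`.

* `FA_S29_STB_elem`    : elements;
* `FA_S29_STB_place`   : places;
* `FA_S29_STB_divisor` : divisors;
* `FA_S29_STB_pic0`    : divisor classes of degree zero;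
* `FA_S29_STB_main`    : points of `J₀(N)`;
* `FA_S29_STB_finset`  : finite sets of points of `J₀(N)`;
* `FA_S29_STB_orbit_finite` : orbits are finite.
-/

set_option autoImplicit false
set_option linter.unusedSectionVars false
set_option linter.unusedVariables false
set_option linter.style.haveILetI false
set_option synthInstance.maxHeartbeats 400000
set_option maxHeartbeats 1000000

noncomputable section

namespace Fermat.Agent.S29

open ModularCurve AlgebraicCurve FA_RR IsDedekindDomain IntermediateField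
  Fermat.Agent.S37 Fermat.Agent.S18 FA_S18

section generic

variable (F₀ : IntermediateField ℚ (LaurentSeries ℚ))

/-- Elements are defined over a number field. -/
theorem FA_S29_STB_elem (f : ↥(laurentBaseChange (AlgebraicClosure ℚ) F₀)) :
    ∃ E : IntermediateField ℚ (AlgebraicClosure ℚ), FiniteDimensional ℚ E ∧
      ∀ σ : AlgebraicClosure ℚ ≃ₐ[ℚ] AlgebraicClosure ℚ, σ ∈ E.fixingSubgroup →
        arithmeticGalois F₀ σ • f = f := by
  obtain ⟨E, hE, h⟩ := FA_S29_SM_elem F₀ f.2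
  refine ⟨E, hE, fun σ hσ => Subtype.ext ?_⟩
  rw [coe_arithmeticGalois_smul]
  exact h σ hσ

variable (hF : FA_RR_IsFF (AlgebraicClosure ℚ) ↥(laurentBaseChange (AlgebraicClosure ℚ) F₀))

include hF in
/-- A transcendental element with a zero at the given place. -/
theorem FA_S29_STB_exists_zero
    (P : Place (AlgebraicClosure ℚ) ↥(laurentBaseChange (AlgebraicClosure ℚ) F₀)) :
    ∃ y : ↥(laurentBaseChange (AlgebraicClosure ℚ) F₀),
      Transcendental (AlgebraicClosure ℚ) y ∧ 0 < P.ord y := by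
  have hF' := hF
  obtain ⟨x, hx, -⟩ := hF'
  have key : ∀ x' : ↥(laurentBaseChange (AlgebraicClosure ℚ) F₀),
      Transcendental (AlgebraicClosure ℚ) x' → 0 ≤ P.ord x' →
      ∃ y : ↥(laurentBaseChange (AlgebraicClosure ℚ) F₀),
        Transcendental (AlgebraicClosure ℚ) y ∧ 0 < P.ord y := by
    intro x' hx' h
    obtain ⟨c, hc⟩ := FA_RR.exists_const_ord_pos hF P hx' h
    exact ⟨_, FA_RR.transcendental_sub_const hx' c, hc⟩
  by_cases h : 0 ≤ P.ord x
  · exact key x hx h
  · refine key x⁻¹ (FA_RR.transcendental_inv hx) ?_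
    rw [Place.ord_inv]
    omega

include hF in
/-- Places are defined over a number field. -/
theorem FA_S29_STB_place
    (P : Place (AlgebraicClosure ℚ) ↥(laurentBaseChange (AlgebraicClosure ℚ) F₀)) :
    ∃ E : IntermediateField ℚ (AlgebraicClosure ℚ), FiniteDimensional ℚ E ∧
      ∀ σ : AlgebraicClosure ℚ ≃ₐ[ℚ] AlgebraicClosure ℚ, σ ∈ E.fixingSubgroup →
        arithmeticGalois F₀ σ • P = P := by
  classical
  obtain ⟨y, hy, hyP⟩ := FA_S29_STB_exists_zero F₀ hF P
  set T : Finset (Place (AlgebraicClosure ℚ) ↥(laurentBaseChange (AlgebraicClosure ℚ) F₀)) :=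
    (FA_RR.zeroDiv hF hy).support with hT
  have hPT : P ∈ T := (FA_RR.mem_support_zeroDiv hF hy P).mpr hyP
  obtain ⟨w₀, hw₀⟩ := FA_S37_HI_exists_zero hF (FA_RR.transcendental_inv hy)
  have hw₀T : w₀ ∉ T := by
    intro h
    have h1 := (FA_RR.mem_support_zeroDiv hF hy w₀).mp h
    rw [Place.ord_inv] at hw₀
    omega
  obtain ⟨π, hπ0, hπ1, hπT⟩ := FA_S37_HI_approx hF T w₀ hw₀T P hPT
  obtain ⟨E₁, hE₁, h₁⟩ := FA_S29_STB_elem F₀ y
  obtain ⟨E₂, hE₂, h₂⟩ := FA_S29_STB_elem F₀ π
  haveI := hE₁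
  haveI := hE₂
  refine ⟨E₁ ⊔ E₂, IntermediateField.finiteDimensional_sup E₁ E₂, fun σ hσ => ?_⟩
  rw [IntermediateField.fixingSubgroup_sup] at hσ
  have e1 := h₁ σ hσ.1
  have e2 := h₂ σ hσ.2
  have o1 := SemilinearAut.ord_smul (arithmeticGalois F₀ σ) P y
  have o2 := SemilinearAut.ord_smul (arithmeticGalois F₀ σ) P π
  rw [e1] at o1
  rw [e2] at o2
  have hgT : arithmeticGalois F₀ σ • P ∈ T :=
    (FA_RR.mem_support_zeroDiv hF hy _).mpr (by rw [o1]; exact hyP)
  by_contra hne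
  have h0 := hπT _ hgT hne
  rw [o2, hπ1] at h0
  exact one_ne_zero h0

include hF in
/-- Divisors are defined over a number field. -/
theorem FA_S29_STB_divisor
    (D : Divisor (AlgebraicClosure ℚ) ↥(laurentBaseChange (AlgebraicClosure ℚ) F₀)) :
    ∃ E : IntermediateField ℚ (AlgebraicClosure ℚ), FiniteDimensional ℚ E ∧
      ∀ σ : AlgebraicClosure ℚ ≃ₐ[ℚ] AlgebraicClosure ℚ, σ ∈ E.fixingSubgroup →
        arithmeticGalois F₀ σ • D = D := by
  classical
  induction D using Finsupp.induction with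
  | zero => exact ⟨⊥, inferInstance, fun σ _ => smul_zero _⟩
  | single_add v n D _ _ ih =>
      obtain ⟨E₁, hE₁, h₁⟩ := FA_S29_STB_place F₀ hF v
      obtain ⟨E₂, hE₂, h₂⟩ := ih
      haveI := hE₁
      haveI := hE₂
      refine ⟨E₁ ⊔ E₂, IntermediateField.finiteDimensional_sup E₁ E₂, fun σ hσ => ?_⟩
      rw [IntermediateField.fixingSubgroup_sup] at hσ
      rw [smul_add, SemilinearAut.smul_single, h₁ σ hσ.1, h₂ σ hσ.2]

include hF in
/-- Divisor classes are defined over a number field. -/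
theorem FA_S29_STB_pic0
    (x : Pic0 (AlgebraicClosure ℚ) ↥(laurentBaseChange (AlgebraicClosure ℚ) F₀)) :
    ∃ E : IntermediateField ℚ (AlgebraicClosure ℚ), FiniteDimensional ℚ E ∧
      ∀ σ : AlgebraicClosure ℚ ≃ₐ[ℚ] AlgebraicClosure ℚ, σ ∈ E.fixingSubgroup →
        σ • x = x := by
  obtain ⟨D, rfl⟩ := Pic0.mk_surjective x
  obtain ⟨E, hE, h⟩ := FA_S29_STB_divisor F₀ hF (D : Divisor _ _)
  refine ⟨E, hE, fun σ hσ => ?_⟩
  rw [galois_smul_pic0_def, SemilinearAut.pic0_smul_mk]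
  exact congrArg Pic0.mk (Subtype.ext (by rw [SemilinearAut.coe_degZeroSMulHom]; exact h σ hσ))

end generic

/-- **L10 (b)**: every point of `J₀(N)` is fixed by `Gal(ℚ̄ / E)` for a number field `E`. -/
theorem FA_S29_STB_main (N : ℕ) [NeZero N] (x : JZero N) :
    ∃ E : IntermediateField ℚ (AlgebraicClosure ℚ), FiniteDimensional ℚ E ∧
      ∀ σ : AlgebraicClosure ℚ ≃ₐ[ℚ] AlgebraicClosure ℚ, σ ∈ E.fixingSubgroup →
        σ • x = x :=
  FA_S29_STB_pic0 (modularFunctionFieldFull N) (FA_S18_C0_isFF N) x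

/-- The same with `0 < N` as a hypothesis. -/
theorem FA_S29_STB_main' (N : ℕ) (hN : 0 < N) (x : JZero N) :
    ∃ E : IntermediateField ℚ (AlgebraicClosure ℚ), FiniteDimensional ℚ E ∧
      ∀ σ : AlgebraicClosure ℚ ≃ₐ[ℚ] AlgebraicClosure ℚ, σ ∈ E.fixingSubgroup →
        σ • x = x := by
  haveI : NeZero N := ⟨hN.ne'⟩
  exact FA_S29_STB_main N x

/-- Finite sets of points of `J₀(N)` are fixed by `Gal(ℚ̄ / E)` for a number field `E`. -/
theorem FA_S29_STB_finset (N : ℕ) [NeZero N] (S : Finset (JZero N)) :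
    ∃ E : IntermediateField ℚ (AlgebraicClosure ℚ), FiniteDimensional ℚ E ∧
      ∀ σ : AlgebraicClosure ℚ ≃ₐ[ℚ] AlgebraicClosure ℚ, σ ∈ E.fixingSubgroup →
        ∀ x ∈ S, σ • x = x := by
  classical
  induction S using Finset.induction_on with
  | empty => exact ⟨⊥, inferInstance, fun σ _ x hx => absurd hx (Finset.notMem_empty x)⟩
  | insert a S _ ih =>
      obtain ⟨E₁, hE₁, h₁⟩ := FA_S29_STB_main N a
      obtain ⟨E₂, hE₂, h₂⟩ := ih
      haveI := hE₁
      haveI := hE₂
      refine ⟨E₁ ⊔ E₂, IntermediateField.finiteDimensional_sup E₁ E₂, fun σ hσ x hx => ?_⟩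
      rw [IntermediateField.fixingSubgroup_sup] at hσ
      rcases Finset.mem_insert.mp hx with rfl | hx
      · exact h₁ σ hσ.1
      · exact h₂ σ hσ.2 x hx

end Fermat.Agent.S29

end
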