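import Fermat.Agent.S29.EigMain
import Fermat.Agent.S16.LShimPeriodB
import Fermat.Agent.S16.LShimRankB

/-!
# S29, EIG-BRIDGE, part 1: the Hecke operators on the lattice of integral parabolic
homomorphisms

`H := parabolicHoms ℤ (Gamma0 N) ℤ`.

* `FA_S29_EIG_hecke_parabolicC` : the Hecke operators `FA_S16_LS_hecke N ℂ ℓ` preserve the
  complex parabolic homomorphisms (S21 + Hecke equivariance of the period map);
* `FA_S29_EIG_hecke_parabolic`  : the same over `ℤ`;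
* `FA_S29_EIG_TH N ℓ : H →ₗ[ℤ] H` : the Hecke operator `T_ℓ^H`, with `FA_S29_EIG_TH_apply`.
-/

set_option autoImplicit false
set_option linter.unusedSectionVars false
set_option linter.unusedVariables false
set_option linter.style.haveILetI false

noncomputable section

namespace Fermat.Agent.S29

open CuspForm ModularFormClass CongruenceSubgroup ModularCurve ModularCurve.Period
  FA_S16 FA_S22 FA_S21
open scoped MatrixGroups

variable {N : ℕ} [NeZero N]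

/-- The Hecke operators preserve the complex parabolic homomorphisms. -/
theorem FA_S29_EIG_hecke_parabolicC (ℓ : Nat.Primes) (c : Additive ↥(Gamma0 N) →+ ℂ)
    (hc : c ∈ parabolicHoms ℂ (Gamma0 N) ℂ) (γ : ↥(Gamma0 N))
    (hγ : ((γ : SL(2, ℤ)) : Matrix (Fin 2) (Fin 2) ℤ).trace ^ 2 = 4) :
    FA_S16_LS_hecke N ℂ ℓ (fun δ => c (Additive.ofMul δ)) γ = 0 := by
  have hS21 := (FA_S21.FA_S21_of_ge N (Fermat.Agent.S20.FA_S20_lower N)).2
  rw [← hS21] at hc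
  obtain ⟨⟨f, g⟩, rfl⟩ := hc
  rw [FA_S21.FA_S21_periodHomPair_apply]
  have e : (fun γ : ↥(Gamma0 N) => ((periodMap N f + charInvolution N ℂ ℂ (periodMap N f)) +
      (periodMap N g - charInvolution N ℂ ℂ (periodMap N g))) (Additive.ofMul γ))
      = FA_S16_LP_pm N f + (fun γ => FA_S16_LP_pm N f (jConjGamma0 N γ)) +
        (FA_S16_LP_pm N g - fun γ => FA_S16_LP_pm N g (jConjGamma0 N γ)) := by
    funext γ
    rfl
  have htr : (((jConjGamma0 N γ : Gamma0 N) : SL(2, ℤ)) : Matrix (Fin 2) (Fin 2) ℤ).trace ^ 2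
      = 4 := by
    rw [jConjGamma0_coe, jConjSL_coe, jConjMat_trace]
    exact hγ
  rw [e, map_add, map_add, map_sub,
    FA_S16_LS_hecke_conj N ℂ ℓ _ (FA_S16_LS_pm_isHom N f),
    FA_S16_LS_hecke_conj N ℂ ℓ _ (FA_S16_LS_pm_isHom N g),
    ← FA_S16_LP_pm_hecke, ← FA_S16_LP_pm_hecke]
  simp only [Pi.add_apply, Pi.sub_apply]
  rw [FA_S29_EIG_pm_parabolic _ γ hγ, FA_S29_EIG_pm_parabolic _ _ htr,
    FA_S29_EIG_pm_parabolic _ γ hγ, FA_S29_EIG_pm_parabolic _ _ htr]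
  simp

/-- The Hecke operators preserve the integral parabolic homomorphisms. -/
theorem FA_S29_EIG_hecke_parabolic (ℓ : Nat.Primes) (ψ : Additive ↥(Gamma0 N) →+ ℤ)
    (hψ : ψ ∈ parabolicHoms ℤ (Gamma0 N) ℤ) (γ : ↥(Gamma0 N))
    (hγ : ((γ : SL(2, ℤ)) : Matrix (Fin 2) (Fin 2) ℤ).trace ^ 2 = 4) :
    FA_S16_LS_hecke N ℤ ℓ (fun δ => ψ (Additive.ofMul δ)) γ = 0 := by
  have hc : (Int.castAddHom ℂ).comp ψ ∈ parabolicHoms ℂ (Gamma0 N) ℂ := by
    intro δ hδ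
    show ((ψ (Additive.ofMul δ) : ℤ) : ℂ) = 0
    rw [hψ δ hδ, Int.cast_zero]
  have h1 := FA_S29_EIG_hecke_parabolicC ℓ _ hc γ hγ
  have h2 := congrFun (FA_S29_EIG_hecke_natural (N := N) (Int.castAddHom ℂ) ℓ
    (fun δ => ψ (Additive.ofMul δ))) γ
  have h3 : ((FA_S16_LS_hecke N ℤ ℓ (fun δ => ψ (Additive.ofMul δ)) γ : ℤ) : ℂ) = 0 := by
    rw [← h1]
    exact h2.symm
  exact_mod_cast h3

/-- The Hecke operator `T_ℓ^H` on `H = parabolicHoms ℤ (Gamma0 N) ℤ`. -/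
def FA_S29_EIG_TH (N : ℕ) [NeZero N] (ℓ : Nat.Primes) :
    ↥(parabolicHoms ℤ (Gamma0 N) ℤ) →ₗ[ℤ] ↥(parabolicHoms ℤ (Gamma0 N) ℤ) where
  toFun ψ :=
    ⟨AddMonoidHom.mk'
      (fun x => FA_S16_LS_hecke N ℤ ℓ
        (fun δ => (ψ : Additive ↥(Gamma0 N) →+ ℤ) (Additive.ofMul δ)) (Additive.toMul x))
      (fun x y => FA_S16_LS_hecke_isHom N ℤ ℓ _
        (fun γ δ => by rw [ofMul_mul, map_add]) (Additive.toMul x) (Additive.toMul y)),
      fun γ hγ => FA_S29_EIG_hecke_parabolic ℓ ψ.1 ψ.2 γ hγ⟩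
  map_add' ψ ψ' := by
    apply Subtype.ext
    refine AddMonoidHom.ext fun x => ?_
    show FA_S16_LS_hecke N ℤ ℓ _ _ = FA_S16_LS_hecke N ℤ ℓ _ _ + FA_S16_LS_hecke N ℤ ℓ _ _
    rw [← Pi.add_apply, ← map_add]
    rfl
  map_smul' r ψ := by
    apply Subtype.ext
    refine AddMonoidHom.ext fun x => ?_
    show FA_S16_LS_hecke N ℤ ℓ _ _ = r • FA_S16_LS_hecke N ℤ ℓ _ _
    rw [← Pi.smul_apply, ← map_zsmul]
    rfl

theorem FA_S29_EIG_TH_apply (ℓ : Nat.Primes) (ψ : ↥(parabolicHoms ℤ (Gamma0 N) ℤ))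
    (γ : ↥(Gamma0 N)) :
    (FA_S29_EIG_TH N ℓ ψ : Additive ↥(Gamma0 N) →+ ℤ) (Additive.ofMul γ)
      = FA_S16_LS_hecke N ℤ ℓ
          (fun δ => (ψ : Additive ↥(Gamma0 N) →+ ℤ) (Additive.ofMul δ)) γ := rfl

end Fermat.Agent.S29
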