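import Mathlib
import Fermat.Agent.Lib.RR.Principal
import Fermat.Agent.Lib.RR.SumZeros
import Fermat.Agent.S37.HeckeInNormC
import Fermat.Agent.S29.DescentCan

/-!
# Item 87, (KUM): the Kummer map `Sel(F)/~ ↪ Pic⁰(F)[p]`

`K` algebraically closed of characteristic `0`, `F/K` a function field.  For `f ∈ F^×` with
`p ∣ ord_v f` at all places (`FA_S29_DS_Sel K p f`) the divisor `div(f)/p` has degree `0`;
`κ f := [div(f)/p] ∈ Pic⁰(F)`.

* `FA_S29_KU_kappa_eq_mk` : `κ f = [D]` for ANY divisor `D` with `p · D(v) = ord_v f`;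
* `FA_S29_KU_kappa_nsmul` : `p • κ f = 0`;
* `FA_S29_KU_kappa_mul` : `κ (f g) = κ f + κ g`;
* `FA_S29_KU_kappa_rel` : `κ` is constant on the classes of `FA_S29_DS_Rel`;
* `FA_S29_KU_kappa_eq_zero` : `κ f = 0 → f = c · u ^ p`.
-/

set_option autoImplicit false
set_option linter.unusedSectionVars false
set_option linter.style.haveILetI false

noncomputable section

namespace Fermat.Agent.S29

open AlgebraicCurve FA_RR Fermat.Agent.S37

section kummer

variable {K F : Type*} [Field K] [Field F] [Algebra K F] [IsAlgClosed K] [CharZero K]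

/-- a function without zeros and poles is constant -/
theorem FA_S29_KU_const (hF : FA_RR_IsFF K F) {f : F} (hf : ∀ v : Place K F, v.ord f = 0) :
    ∃ c : K, algebraMap K F c = f := by
  by_cases halg : IsAlgebraic K f
  · exact exists_const_of_isAlgebraic halg
  · exfalso
    obtain ⟨w, hw⟩ := FA_S37_HI_exists_zero hF (y := f) halg
    rw [hf w] at hw
    exact lt_irrefl _ hw

/-- a divisor `D` with `p · D = div f` has degree `0` -/
theorem FA_S29_KU_degree (hF : FA_RR_IsFF K F) {p : ℕ} (hp : 0 < p) {f : F} (hf : f ≠ 0)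
    (D : Divisor K F) (hD : ∀ v : Place K F, (p : ℤ) * D v = v.ord f) :
    Divisor.degree D = 0 := by
  obtain ⟨D₀, hD₀, hdeg⟩ := (hasPrincipalDivisors hF).exists_divisor f hf
  have h1 : (p : ℤ) • D = D₀ := by
    ext v
    rw [Finsupp.smul_apply, smul_eq_mul, hD v, hD₀ v]
  have h2 : (p : ℤ) * Divisor.degree D = 0 := by
    rw [← smul_eq_mul, ← map_zsmul, h1, hdeg]
  have hp0 : (p : ℤ) ≠ 0 := by exact_mod_cast hp.ne'
  exact (mul_eq_zero.mp h2).resolve_left hp0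

/-- existence of `div(f)/p` -/
theorem FA_S29_KU_exists (hF : FA_RR_IsFF K F) {p : ℕ} {f : F}
    (hf : FA_S29_DS_Sel K p f) :
    ∃ D : Divisor K F, ∀ v : Place K F, (p : ℤ) * D v = v.ord f := by
  obtain ⟨D₀, hD₀, -⟩ := (hasPrincipalDivisors hF).exists_divisor f hf.1
  refine ⟨D₀.mapRange (fun n : ℤ => n / (p : ℤ)) (by simp), fun v => ?_⟩
  rw [Finsupp.mapRange_apply, hD₀ v]
  exact Int.mul_ediv_cancel' (hf.2 v)

open Classical in
/-- **The Kummer class** `κ f = [div(f)/p] ∈ Pic⁰(F)` (junk value `0` outside the Selmer set). -/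
def FA_S29_KU_kappa (hF : FA_RR_IsFF K F) (p : ℕ) (f : F) : Pic0 K F :=
  if h : 0 < p ∧ FA_S29_DS_Sel K p f then
    Pic0.mk ⟨(FA_S29_KU_exists hF h.2).choose,
      FA_S29_KU_degree hF h.1 h.2.1 _ (FA_S29_KU_exists hF h.2).choose_spec⟩
  else 0

/-- **Characterisation**: `κ f = [D]` for any `D` with `p · D = div f`. -/
theorem FA_S29_KU_kappa_eq_mk (hF : FA_RR_IsFF K F) {p : ℕ} (hp : 0 < p) {f : F}
    (hf : FA_S29_DS_Sel K p f) (D : Divisor K F)
    (hD : ∀ v : Place K F, (p : ℤ) * D v = v.ord f) :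
    FA_S29_KU_kappa hF p f = Pic0.mk ⟨D, FA_S29_KU_degree hF hp hf.1 D hD⟩ := by
  have h : 0 < p ∧ FA_S29_DS_Sel K p f := ⟨hp, hf⟩
  rw [FA_S29_KU_kappa, dif_pos h]
  congr 1
  apply Subtype.ext
  ext v
  have h1 := (FA_S29_KU_exists hF h.2).choose_spec v
  have hp0 : (p : ℤ) ≠ 0 := by exact_mod_cast hp.ne'
  exact mul_left_cancel₀ hp0 (h1.trans (hD v).symm)

/-- a principal divisor of degree `0` has trivial class -/
theorem FA_S29_KU_mk_principal (D : Divisor.degZero (K := K) (F := F)) (u : F) (hu : u ≠ 0)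
    (hD : ∀ v : Place K F, (D : Divisor K F) v = v.ord u) : Pic0.mk D = 0 := by
  rw [Pic0.mk, QuotientAddGroup.eq_zero_iff, AddSubgroup.mem_addSubgroupOf]
  exact ⟨u, hu, hD⟩

theorem FA_S29_KU_mk_eq_zero {D : Divisor.degZero (K := K) (F := F)} (h : Pic0.mk D = 0) :
    ∃ u : F, u ≠ 0 ∧ ∀ v : Place K F, (D : Divisor K F) v = v.ord u := by
  rw [Pic0.mk, QuotientAddGroup.eq_zero_iff, AddSubgroup.mem_addSubgroupOf] at h
  exact h

/-- `p • κ f = 0`. -/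
theorem FA_S29_KU_kappa_nsmul (hF : FA_RR_IsFF K F) (p : ℕ) (f : F) :
    p • FA_S29_KU_kappa hF p f = 0 := by
  by_cases h : 0 < p ∧ FA_S29_DS_Sel K p f
  · obtain ⟨D, hD⟩ := FA_S29_KU_exists hF h.2
    rw [FA_S29_KU_kappa_eq_mk hF h.1 h.2 D hD]
    have h1 : p • Pic0.mk (⟨D, FA_S29_KU_degree hF h.1 h.2.1 D hD⟩ :
        Divisor.degZero (K := K) (F := F)) =
        Pic0.mk (p • ⟨D, FA_S29_KU_degree hF h.1 h.2.1 D hD⟩) := rfl
    rw [h1]
    refine FA_S29_KU_mk_principal _ f h.2.1 fun v => ?_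
    show (p • D) v = v.ord f
    rw [Finsupp.smul_apply, nsmul_eq_mul, hD v]
  · rw [FA_S29_KU_kappa, dif_neg h, smul_zero]

theorem FA_S29_KU_sel_mul {p : ℕ} {f g : F} (hf : FA_S29_DS_Sel K p f)
    (hg : FA_S29_DS_Sel K p g) : FA_S29_DS_Sel K p (f * g) :=
  ⟨mul_ne_zero hf.1 hg.1, fun w => by
    rw [w.ord_mul hf.1 hg.1]
    exact dvd_add (hf.2 w) (hg.2 w)⟩

/-- `κ` is additive. -/
theorem FA_S29_KU_kappa_mul (hF : FA_RR_IsFF K F) {p : ℕ} (hp : 0 < p) {f g : F}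
    (hf : FA_S29_DS_Sel K p f) (hg : FA_S29_DS_Sel K p g) :
    FA_S29_KU_kappa hF p (f * g) = FA_S29_KU_kappa hF p f + FA_S29_KU_kappa hF p g := by
  obtain ⟨D, hD⟩ := FA_S29_KU_exists hF hf
  obtain ⟨E, hE⟩ := FA_S29_KU_exists hF hg
  have hDE : ∀ v : Place K F, (p : ℤ) * (D + E) v = v.ord (f * g) := fun v => by
    rw [Finsupp.add_apply, mul_add, hD v, hE v, v.ord_mul hf.1 hg.1]
  rw [FA_S29_KU_kappa_eq_mk hF hp hf D hD, FA_S29_KU_kappa_eq_mk hF hp hg E hE,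
    FA_S29_KU_kappa_eq_mk hF hp (FA_S29_KU_sel_mul hf hg) (D + E) hDE]
  rfl

/-- `κ (c · u ^ p) = 0`. -/
theorem FA_S29_KU_kappa_const_pow (hF : FA_RR_IsFF K F) {p : ℕ} (hp : 0 < p) {c : K}
    (hc : c ≠ 0) {u : F} (hu : u ≠ 0) :
    FA_S29_DS_Sel K p (algebraMap K F c * u ^ p) ∧
      FA_S29_KU_kappa hF p (algebraMap K F c * u ^ p) = 0 := by
  have hc' : algebraMap K F c ≠ 0 := (map_ne_zero_iff _ (algebraMap K F).injective).mpr hc
  have hord : ∀ v : Place K F, v.ord (algebraMap K F c * u ^ p) = (p : ℤ) * v.ord u := fun v => by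
    rw [v.ord_mul hc' (pow_ne_zero _ hu), ord_algebraMap, zero_add, ← zpow_natCast,
      Place.ord_zpow]
  have hsel : FA_S29_DS_Sel K p (algebraMap K F c * u ^ p) :=
    ⟨mul_ne_zero hc' (pow_ne_zero _ hu), fun v => ⟨v.ord u, hord v⟩⟩
  refine ⟨hsel, ?_⟩
  obtain ⟨D₀, hD₀, hdeg⟩ := (hasPrincipalDivisors hF).exists_divisor u hu
  have hD : ∀ v : Place K F, (p : ℤ) * D₀ v = v.ord (algebraMap K F c * u ^ p) := fun v => by
    rw [hD₀ v, hord v]
  rw [FA_S29_KU_kappa_eq_mk hF hp hsel D₀ hD]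
  exact FA_S29_KU_mk_principal _ u hu hD₀

/-- `κ` is constant on the classes of `Rel`. -/
theorem FA_S29_KU_kappa_rel (hF : FA_RR_IsFF K F) {p : ℕ} (hp : 0 < p) {f f' : F}
    (hf : FA_S29_DS_Sel K p f) (h : FA_S29_DS_Rel K p f f') :
    FA_S29_DS_Sel K p f' ∧ FA_S29_KU_kappa hF p f' = FA_S29_KU_kappa hF p f := by
  obtain ⟨c, u, hc, hu, rfl⟩ := h
  obtain ⟨h1, h2⟩ := FA_S29_KU_kappa_const_pow hF hp hc hu
  refine ⟨FA_S29_KU_sel_mul h1 hf, ?_⟩
  rw [FA_S29_KU_kappa_mul hF hp h1 hf, h2, zero_add]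

/-- **Injectivity**: `κ f = 0` implies `f = c · u ^ p`. -/
theorem FA_S29_KU_kappa_eq_zero (hF : FA_RR_IsFF K F) {p : ℕ} (hp : 0 < p) {f : F}
    (hf : FA_S29_DS_Sel K p f) (h : FA_S29_KU_kappa hF p f = 0) :
    ∃ c : K, ∃ u : F, c ≠ 0 ∧ u ≠ 0 ∧ f = algebraMap K F c * u ^ p := by
  obtain ⟨D, hD⟩ := FA_S29_KU_exists hF hf
  rw [FA_S29_KU_kappa_eq_mk hF hp hf D hD] at h
  obtain ⟨u, hu, hDu⟩ := FA_S29_KU_mk_eq_zero h
  have hup : u ^ p ≠ 0 := pow_ne_zero _ hu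
  have hord : ∀ v : Place K F, v.ord (f * (u ^ p)⁻¹) = 0 := fun v => by
    rw [v.ord_mul hf.1 (inv_ne_zero hup), v.ord_inv, ← zpow_natCast, Place.ord_zpow, ← hD v]
    have := hDu v
    simp only at this
    rw [this]
    ring
  obtain ⟨c, hc⟩ := FA_S29_KU_const hF hord
  have hc0 : c ≠ 0 := by
    rintro rfl
    rw [map_zero] at hc
    exact mul_ne_zero hf.1 (inv_ne_zero hup) hc.symm
  refine ⟨c, u, hc0, hu, ?_⟩
  rw [hc]
  field_simp

end kummer

end Fermat.Agent.S29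

end
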