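import Fermat.Agent.S37.K5
import Fermat.Agent.S29.Kummer
import Fermat.Prelude.Def_ModularCurve_HeckeModule

/-!
# Item 87, (P2): the Hecke operator on Kummer classes

Over `ℚ̄`, for `f₀ ∈ Sel(F_N)` and a prime `ℓ`:
`T_ℓ (κ f₀) = κ (N_{F_{Nℓ}/αF_N} (β f₀))`, and the Hecke norm of `f₀` is again in `Sel`.
-/

set_option autoImplicit false
set_option linter.unusedSectionVars false
set_option linter.style.haveILetI false
set_option maxHeartbeats 1000000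
set_option synthInstance.maxHeartbeats 400000

noncomputable section

namespace Fermat.Agent.S29

open AlgebraicCurve ModularCurve Fermat.Agent.S37

/-- the Hecke norm of a nonzero function is nonzero -/
theorem FA_S29_HC_norm_ne_zero (N ℓ : ℕ) [NeZero N] [NeZero ℓ]
    {f : ↥(modularFunctionFieldBar N)} (hf : f ≠ 0) : FA_S37_K5_norm N ℓ f ≠ 0 := by
  unfold FA_S37_K5_norm
  letI := algebraAlong (heckeAlphaBar (AlgebraicClosure ℚ) N ℓ)
  intro h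
  have hfin := FA_S37_HI_alphaFinite N ℓ
  haveI : Module.Finite ↥(modularFunctionFieldBar N) ↥(modularFunctionFieldBar (N * ℓ)) := hfin
  rw [Algebra.norm_eq_zero_iff] at h
  exact hf ((map_eq_zero _).mp h)

/-- **(P2)** `T_ℓ (κ f₀) = κ (Norm f₀)`. -/
theorem FA_S29_HC_hecke (N : ℕ) [NeZero N] {ℓ : ℕ} (hℓ : ℓ.Prime)
    (hF : FA_RR_IsFF (AlgebraicClosure ℚ) ↥(modularFunctionFieldBar N))
    {p : ℕ} (hp : 0 < p) (f₀ : ↥(modularFunctionFieldBar N))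
    (hf : FA_S29_DS_Sel (AlgebraicClosure ℚ) p f₀) :
    haveI : NeZero ℓ := ⟨hℓ.ne_zero⟩
    FA_S29_DS_Sel (AlgebraicClosure ℚ) p (FA_S37_K5_norm N ℓ f₀) ∧
      heckeOperatorBar N ⟨ℓ, hℓ⟩ (FA_S29_KU_kappa hF p f₀)
        = FA_S29_KU_kappa hF p (FA_S37_K5_norm N ℓ f₀) := by
  haveI : NeZero ℓ := ⟨hℓ.ne_zero⟩
  haveI hPDℓ := FA_S37_HI_hasPrincipalDivisors N ℓ
  have hα := FA_S37_HI_alphaIntegral N ℓ
  have hβ := FA_S37_HI_betaIntegral N ℓ
  obtain ⟨D, hD⟩ := FA_S29_KU_exists hF hf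
  have hdeg := FA_S29_KU_degree hF hp hf.1 D hD
  -- the divisor of `f₀`
  have hD₀ : ∀ P : Place (AlgebraicClosure ℚ) ↥(modularFunctionFieldBar N),
      ((p : ℤ) • D) P = P.ord f₀ := fun P => by
    rw [Finsupp.smul_apply, smul_eq_mul, hD P]
  have hE : ∀ P : Place (AlgebraicClosure ℚ) ↥(modularFunctionFieldBar N),
      (p : ℤ) * (heckeDivBar hα hβ D) P = P.ord (FA_S37_K5_norm N ℓ f₀) := fun P => by
    rw [← FA_S37_K5_hT N ℓ hα hβ f₀ hf.1 ((p : ℤ) • D) hD₀ P, map_zsmul, Finsupp.smul_apply,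
      smul_eq_mul]
  have hsel : FA_S29_DS_Sel (AlgebraicClosure ℚ) p (FA_S37_K5_norm N ℓ f₀) :=
    ⟨FA_S29_HC_norm_ne_zero N ℓ hf.1, fun P => ⟨_, (hE P).symm⟩⟩
  refine ⟨hsel, ?_⟩
  rw [FA_S29_KU_kappa_eq_mk hF hp hf D hD,
    FA_S29_KU_kappa_eq_mk hF hp hsel (heckeDivBar hα hβ D) hE]
  show heckeOperatorAlong (AlgebraicClosure ℚ) N ℓ (Pic0.mk _) = _
  rw [FA_S37_HI_heckeOperatorAlong_eq N ℓ]
  rfl

end Fermat.Agent.S29

end
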