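import Fermat.Agent.S24.DGeneric
import Fermat.Agent.S28.DegZero2
import Fermat.Agent.Lib.RR.Interface

/-!
# Item 87, (MB) the MODEL BRIDGE, generic in the constant field `K ⊆ ℂ` (used for `K = ℂ`)

`F_K := laurentBaseChange K (modularFunctionFieldFull N) ⊂ K((q))` (the `q`-model) versus
`F₀ = K(j (d z) : d ∣ N) ⊂ FA_Mero_Field` (the analytic model).

* `FA_S29_MB_BC` : `F_K = K(j(q^d) : d ∣ N)`;
* `FA_S29_MB_transfer` : there is `τ : F_K →ₐ[K] FA_Mero_Field` with range `F₀`, values in the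
  `N`-good functions, and `Qinf N (τ x) = (x with q ↦ q^N, coefficients in ℂ)`;
* `FA_S29_MB_unique` : such a `τ` is unique;
* `FA_S29_MB_isFF` : `F_K` is a function field (`K` algebraically closed), `j` transcendental,
  `[F_K : K(j)] = ψ(N)`.
-/

set_option autoImplicit false
set_option linter.unusedSectionVars false
set_option linter.style.haveILetI false

noncomputable section

namespace Fermat.Agent.S29

open ModularCurve IntermediateField Fermat.Agent.Mero Fermat.Agent.S24 Fermat.Agent.S28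

section generic

variable (K : Type) [Field K] [Algebra ℚ K] [Algebra K ℂ] [Algebra K FA_Mero_Field]
  (ht : FA_S24_Tower K) (N : ℕ) [NeZero N]

omit [Algebra K ℂ] [Algebra K FA_Mero_Field] in
theorem FA_S29_MB_coeffEmb_algebraMap (c : ℚ) :
    coeffEmb K (algebraMap ℚ (LaurentSeries ℚ) c)
      = algebraMap K (LaurentSeries K) (algebraMap ℚ K c) := by
  rw [algebraMap_laurentSeries_eq_single, algebraMap_laurentSeries_eq_single]
  exact coeffMap_single _ _ _

omit [Algebra K ℂ] [Algebra K FA_Mero_Field] in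
/-- **BC over `K`**: the `q`-model is generated by the series `j(q^d)`, `d ∣ N`. -/
theorem FA_S29_MB_BC :
    laurentBaseChange K (modularFunctionFieldFull N)
      = IntermediateField.adjoin K
          {x | ∃ (d : ℕ) (_ : NeZero d), d ∣ N ∧ x = coeffEmb K (qExpand ℚ d jq)} := by
  apply le_antisymm
  · unfold laurentBaseChange
    rw [adjoin_le_iff]
    rintro y ⟨x, hx, rfl⟩
    rw [SetLike.mem_coe] at hx
    unfold modularFunctionFieldFull at hx
    induction hx using IntermediateField.adjoin_induction with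
    | mem x hx =>
      obtain ⟨d, hne, hd, rfl⟩ := hx
      exact subset_adjoin _ _ ⟨d, hne, hd, rfl⟩
    | algebraMap c =>
      rw [FA_S29_MB_coeffEmb_algebraMap]
      exact IntermediateField.algebraMap_mem _ _
    | add x y _ _ hx hy =>
      rw [map_add]
      exact add_mem hx hy
    | inv x _ hx =>
      rw [map_inv₀]
      exact inv_mem hx
    | mul x y _ _ hx hy =>
      rw [map_mul]
      exact mul_mem hx hy
  · rw [adjoin_le_iff]
    rintro y ⟨d, hne, hd, rfl⟩
    refine coeffEmb_mem_laurentBaseChange K ?_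
    exact subset_adjoin _ _ ⟨d, hne, hd, rfl⟩

include ht in
omit [Algebra ℚ K] in
theorem FA_S29_MB_hconst (c : K) : algebraMap K FA_Mero_Field c ∈ FA_S24_good N ∧
    FA_S24_Qinf N (algebraMap K FA_Mero_Field c) =
      FA_S24_Lam K N (algebraMap K (LaurentSeries K) c) :=
  ⟨FA_S24_constK_mem_good K ht N c, by rw [FA_S24_Lam_const, ht c, FA_S24_Qinf_const]⟩

omit [Algebra K FA_Mero_Field] in
theorem FA_S29_MB_hgen (i : {d : ℕ // d ∣ N}) : FA_S24_g i.1 ∈ FA_S24_good N ∧
    FA_S24_Qinf N (FA_S24_g i.1) = FA_S24_Lam K N (FA_S24_sGen K N i) := by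
  have hQE := FA_S24_QE
  have hQX := FA_S24_QX
  have hJQ := FA_S24_JQ
  have : NeZero i.1 := FA_S24_neZero_of_dvd i.2
  have hd : 0 < (i.1 : ℤ) := by exact_mod_cast Nat.pos_of_ne_zero (NeZero.ne i.1)
  refine ⟨?_, ?_⟩
  · rw [FA_S24_g_eq hd]
    exact FA_S24_jaffM_mem_good hQE N _ 0 1 hd one_pos (i.1 * N) (by push_cast; ring)
  · rw [FA_S24_Qinf_g hQE hQX hJQ N i.1]
    unfold FA_S24_sGen
    rw [FA_S24_Lam_gen]

include ht in
omit [Algebra ℚ K] in
/-- every element of `F₀` is `N`-good -/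
theorem FA_S29_MB_F0_le_good {y : FA_Mero_Field} (hy : y ∈ FA_S24_F0 K FA_S24_g N) :
    y ∈ FA_S24_good N := by
  have hQE := FA_S24_QE
  unfold FA_S24_F0 at hy
  induction hy using IntermediateField.adjoin_induction with
  | mem x hx =>
    obtain ⟨d, hd, rfl⟩ := hx
    have : NeZero d := FA_S24_neZero_of_dvd hd
    have hd0 : 0 < (d : ℤ) := by exact_mod_cast Nat.pos_of_ne_zero (NeZero.ne d)
    rw [FA_S24_g_eq hd0]
    exact FA_S24_jaffM_mem_good hQE N _ 0 1 hd0 one_pos (d * N) (by push_cast; ring)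
  | algebraMap c => exact FA_S24_constK_mem_good K ht N c
  | add a b _ _ ha hb => exact add_mem ha hb
  | inv a _ ha => exact inv_mem ha
  | mul a b _ _ ha hb => exact mul_mem ha hb

include ht in
/-- **MB1 (existence).**  The transfer `τ : F_K → FA_Mero_Field`. -/
theorem FA_S29_MB_transfer :
    ∃ τ : ↥(laurentBaseChange K (modularFunctionFieldFull N)) →ₐ[K] FA_Mero_Field,
      Set.range τ = (FA_S24_F0 K FA_S24_g N : Set FA_Mero_Field) ∧
      ∀ x : ↥(laurentBaseChange K (modularFunctionFieldFull N)),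
        FA_S24_Qinf N (τ x) = FA_S24_Lam K N (x : LaurentSeries K) := by
  have hTR := FA_S24_TR
  obtain ⟨τ, hτ, hQ⟩ := hTR K FA_Mero_Field (LaurentSeries K) (LaurentSeries ℂ) (FA_S24_Lam K N)
    (FA_S24_good N) (FA_S24_Qinf N) (fun x hx y hy => FA_S24_Qinf_add hx hy)
    (fun x hx y hy => FA_S24_Qinf_mul hx hy)
    (fun x hx h0 => by
      by_contra hne
      exact FA_S24_Qinf_ne_zero hx hne h0)
    (FA_S29_MB_hconst K ht N)
    {d : ℕ // d ∣ N} (FA_S24_sGen K N) (fun i => FA_S24_g i.1) (FA_S29_MB_hgen K N)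
  have h1 : laurentBaseChange K (modularFunctionFieldFull N)
      = IntermediateField.adjoin K (Set.range (FA_S24_sGen K N)) := by
    rw [FA_S24_range_sGen]
    exact FA_S29_MB_BC K N
  obtain ⟨τ', hτ', hval⟩ := FA_S28_d0_transport h1 τ
  refine ⟨τ', ?_, ?_⟩
  · rw [hτ', hτ, FA_S24_range_tGen]
    rfl
  · rintro ⟨x, hx⟩
    rw [hval x hx (h1 ▸ hx), hQ]

/-- **The transfer `τ`** (a choice; unique by `FA_S29_MB_unique`). -/
def FA_S29_MB_tau : ↥(laurentBaseChange K (modularFunctionFieldFull N)) →ₐ[K] FA_Mero_Field :=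
  (FA_S29_MB_transfer K ht N).choose

theorem FA_S29_MB_range :
    Set.range (FA_S29_MB_tau K ht N) = (FA_S24_F0 K FA_S24_g N : Set FA_Mero_Field) :=
  (FA_S29_MB_transfer K ht N).choose_spec.1

theorem FA_S29_MB_Qinf (x : ↥(laurentBaseChange K (modularFunctionFieldFull N))) :
    FA_S24_Qinf N (FA_S29_MB_tau K ht N x) = FA_S24_Lam K N (x : LaurentSeries K) :=
  (FA_S29_MB_transfer K ht N).choose_spec.2 x

theorem FA_S29_MB_mem_F0 (x : ↥(laurentBaseChange K (modularFunctionFieldFull N))) :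
    FA_S29_MB_tau K ht N x ∈ FA_S24_F0 K FA_S24_g N := by
  have : FA_S29_MB_tau K ht N x ∈ Set.range (FA_S29_MB_tau K ht N) := ⟨x, rfl⟩
  rw [FA_S29_MB_range] at this
  exact this

theorem FA_S29_MB_mem_good (x : ↥(laurentBaseChange K (modularFunctionFieldFull N))) :
    FA_S29_MB_tau K ht N x ∈ FA_S24_good N :=
  FA_S29_MB_F0_le_good K ht N (FA_S29_MB_mem_F0 K ht N x)

theorem FA_S29_MB_surj {y : FA_Mero_Field} (hy : y ∈ FA_S24_F0 K FA_S24_g N) :
    ∃ x, FA_S29_MB_tau K ht N x = y := by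
  have : y ∈ Set.range (FA_S29_MB_tau K ht N) := by
    rw [FA_S29_MB_range]
    exact hy
  exact this

/-- `Qinf` is injective on the good functions -/
theorem FA_S29_MB_Qinf_inj {y z : FA_Mero_Field} (hy : y ∈ FA_S24_good N)
    (hz : z ∈ FA_S24_good N) (h : FA_S24_Qinf N y = FA_S24_Qinf N z) : y = z := by
  have hneg : -z ∈ FA_S24_good N := neg_mem hz
  have hQ0 : FA_S24_Qinf N 0 = 0 := by
    have := FA_S24_Qinf_add (N := N) (zero_mem _) (zero_mem _)
    rw [add_zero] at this
    exact left_eq_add.mp this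
  have hQneg : FA_S24_Qinf N (-z) = - FA_S24_Qinf N z := by
    have := FA_S24_Qinf_add hz hneg
    rw [add_neg_cancel, hQ0] at this
    exact eq_neg_of_add_eq_zero_right this.symm
  have hsub : FA_S24_Qinf N (y + -z) = 0 := by
    rw [FA_S24_Qinf_add hy hneg, hQneg, h, add_neg_cancel]
  have h0 : y + -z = 0 := by
    by_contra hne
    exact FA_S24_Qinf_ne_zero (add_mem hy hneg) hne hsub
  exact add_neg_eq_zero.mp h0

/-- **MB1 (uniqueness).**  An element of `FA_Mero_Field` which is `N`-good and has the right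
expansion at `∞` is `τ x`. -/
theorem FA_S29_MB_unique (x : ↥(laurentBaseChange K (modularFunctionFieldFull N)))
    {y : FA_Mero_Field} (hy : y ∈ FA_S24_good N)
    (hQ : FA_S24_Qinf N y = FA_S24_Lam K N (x : LaurentSeries K)) :
    FA_S29_MB_tau K ht N x = y :=
  FA_S29_MB_Qinf_inj N (FA_S29_MB_mem_good K ht N x) hy ((FA_S29_MB_Qinf K ht N x).trans hQ.symm)

/-- `j` in the `q`-model. -/
def FA_S29_MB_j : ↥(laurentBaseChange K (modularFunctionFieldFull N)) :=
  ⟨coeffEmb K jq, coeffEmb_mem_laurentBaseChange K (modularFunctionField_le_full N (jq_mem N))⟩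

/-- `τ j = j`. -/
theorem FA_S29_MB_tau_j : FA_S29_MB_tau K ht N (FA_S29_MB_j K N) = FA_S24_g 1 := by
  have hg1 := FA_S29_MB_hgen K N ⟨1, one_dvd N⟩
  refine FA_S29_MB_unique K ht N _ hg1.1 ?_
  rw [hg1.2]
  congr 1
  unfold FA_S24_sGen
  rw [qExpand_one_apply]
  rfl

include ht in
/-- **MB2.**  The `q`-model is a function field over `K`: `j` is transcendental and
`[F_K : K(j)] = ψ(N)`. -/
theorem FA_S29_MB_base [IsAlgClosed K] [CharZero K] :
    Transcendental K (FA_S29_MB_j K N) ∧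
    FiniteDimensional K⟮FA_S29_MB_j K N⟯ ↥(laurentBaseChange K (modularFunctionFieldFull N)) ∧
    Module.finrank K⟮FA_S29_MB_j K N⟯ ↥(laurentBaseChange K (modularFunctionFieldFull N))
      = dedekindPsi N := by
  have hP := FA_S24_props_final K ht N
  have hfr := FA_S28_d0_finrank hP _ (FA_S29_MB_tau K ht N) (FA_S29_MB_range K ht N)
    (FA_S29_MB_j K N) (FA_S29_MB_tau_j K ht N)
  have hfin := FA_S28_d0_finite hP _ (FA_S29_MB_tau K ht N) (FA_S29_MB_range K ht N)
    (FA_S29_MB_j K N) (FA_S29_MB_tau_j K ht N)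
  refine ⟨?_, hfin, hfr⟩
  intro hx'
  apply hP.transc
  rw [← FA_S29_MB_tau_j K ht N]
  exact hx'.algHom (FA_S29_MB_tau K ht N)

include ht in
theorem FA_S29_MB_isFF [IsAlgClosed K] [CharZero K] :
    FA_RR_IsFF K ↥(laurentBaseChange K (modularFunctionFieldFull N)) :=
  ⟨FA_S29_MB_j K N, (FA_S29_MB_base K ht N).1, (FA_S29_MB_base K ht N).2.1⟩

end generic

end Fermat.Agent.S29

end
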