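import Fermat.Agent.S29.HeckeNormAbs
import Fermat.Agent.S29.Model
import Fermat.Agent.S37.AtkinLehner
import Fermat.Agent.S37.K5

/-!
# S29, leaf L5c (concrete form) = P5 (i): the Hecke norm in the analytic model

`τ_N = FA_S29_MB_tau Q̄ ht N : F_N = modularFunctionFieldBar N → Ω` (helper4's model bridge).

* `FA_S29_HK_tau_gen` : `τ_N (j(q^d)) = j(d z)` (`d ∣ N`), generic constant field;
* `FA_S29_HK_tau_alpha` : `τ_{Nℓ} ∘ α = τ_N`;
* `FA_S29_HK_tau_beta` : `τ_{Nℓ} ∘ β = pull (heckeRep ℓ ∞) ∘ τ_N`;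
* `FA_S29_HK_norm` : `τ_N (Norm_α (β f)) = ∏_{i ∈ P¹(𝔽_ℓ)} pull (heckeRep ℓ i) (τ_N f)`.
-/

set_option autoImplicit false
set_option linter.unusedSectionVars false
set_option linter.style.haveILetI false
set_option linter.unusedVariables false

noncomputable section

open UpperHalfPlane CongruenceSubgroup ModularCurve AlgebraicCurve
open P2MW.S_ModularForm_heckeT_slash_eq_self_of_mem_Gamma0.ModularForm.HeckeSlashInvariance
open scoped MatrixGroups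

namespace Fermat.Agent.S29

open Fermat.Agent.Mero FA_S22 FA_S16 Fermat.Agent.S37 Fermat.Agent.S24 Fermat.Agent.S28

local notation "Qb" => AlgebraicClosure ℚ

section generic

variable (K : Type) [Field K] [Algebra ℚ K] [Algebra K ℂ] [Algebra K FA_Mero_Field]
  (ht : FA_S24_Tower K) (N : ℕ) [NeZero N]

/-- `τ_N (j(q^d)) = j(d z)` for `d ∣ N`. -/
theorem FA_S29_HK_tau_gen (d : ℕ) [NeZero d] (hd : d ∣ N)
    (z : ↥(laurentBaseChange K (modularFunctionFieldFull N)))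
    (hz : (z : LaurentSeries K) = coeffEmb K (qExpand ℚ d jq)) :
    FA_S29_MB_tau K ht N z = FA_S24_g d := by
  have hg := FA_S29_MB_hgen K N ⟨d, hd⟩
  refine FA_S29_MB_unique K ht N z hg.1 ?_
  rw [hg.2, hz]
  rfl

/-- the generator `j(q^d)` of the `q`-model -/
theorem FA_S29_HK_gen_mem (d : ℕ) [NeZero d] (hd : d ∣ N) :
    coeffEmb K (qExpand ℚ d jq) ∈ laurentBaseChange K (modularFunctionFieldFull N) := by
  rw [FA_S29_MB_BC K N]
  exact IntermediateField.subset_adjoin _ _ ⟨d, inferInstance, hd, rfl⟩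

/-- `τ_{Nℓ} ∘ α = τ_N`. -/
theorem FA_S29_HK_tau_alpha (ℓ : ℕ) [NeZero ℓ]
    (x : ↥(laurentBaseChange K (modularFunctionFieldFull N))) :
    FA_S29_MB_tau K ht (N * ℓ) (heckeAlphaBar K N ℓ x) = FA_S29_MB_tau K ht N x := by
  have h : (FA_S29_MB_tau K ht (N * ℓ)).comp (heckeAlphaBar K N ℓ) = FA_S29_MB_tau K ht N := by
    apply IntermediateField.algHom_ext_of_eq_adjoin _ (FA_S29_MB_BC K N)
    rintro x ⟨d, hd0, hd, rfl⟩
    rw [AlgHom.comp_apply,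
      FA_S29_HK_tau_gen K ht (N * ℓ) d (hd.trans (dvd_mul_right N ℓ)) _ (coe_heckeAlphaBar N ℓ _),
      FA_S29_HK_tau_gen K ht N d hd _ rfl]
  exact DFunLike.congr_fun h x

/-- `j (d (ℓ z)) = j ((d ℓ) z)`. -/
theorem FA_S29_HK_pull_g (ℓ : ℕ) [NeZero ℓ] (d : ℕ) [NeZero d] :
    FA_S29_HK_pull (heckeRep ℓ OnePoint.infty) (FA_S24_g d) = FA_S24_g (d * ℓ) := by
  have hℓ : ℓ ≠ 0 := NeZero.ne ℓ
  have hd : 0 < (d : ℤ) := by exact_mod_cast Nat.pos_of_ne_zero (NeZero.ne d)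
  have hdl : 0 < ((d * ℓ : ℕ) : ℤ) := by
    exact_mod_cast Nat.mul_pos (Nat.pos_of_ne_zero (NeZero.ne d)) (Nat.pos_of_ne_zero hℓ)
  rw [FA_S24_g_eq hd, FA_S24_g_eq hdl]
  unfold FA_S24_jaffM
  rw [FA_S29_HK_pull_algebraMap _ (FA_S29_HK_det_heckeRep_pos ℓ _)]
  congr 1
  apply Subtype.ext
  funext z
  show FA_S24_j (FA_S24_aff d 0 1 hd one_pos (heckeRep ℓ OnePoint.infty • z))
    = FA_S24_j (FA_S24_aff ((d * ℓ : ℕ) : ℤ) 0 1 hdl one_pos z)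
  congr 1
  apply UpperHalfPlane.ext
  rw [FA_S24_aff_coe, FA_S24_aff_coe, heckeRep_infty, ModularForm.coe_heckeDiagMatrix_smul hℓ]
  push_cast
  ring

/-- `τ_{Nℓ} ∘ β = pull (heckeRep ℓ ∞) ∘ τ_N`. -/
theorem FA_S29_HK_tau_beta (ℓ : ℕ) [NeZero ℓ]
    (x : ↥(laurentBaseChange K (modularFunctionFieldFull N))) :
    FA_S29_MB_tau K ht (N * ℓ) (heckeBetaBar K N ℓ x)
      = FA_S29_HK_pull (heckeRep ℓ OnePoint.infty) (FA_S29_MB_tau K ht N x) := by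
  let W : FA_Mero_Field →ₐ[K] FA_Mero_Field :=
    { (FA_S29_HK_pull (heckeRep ℓ OnePoint.infty) : FA_Mero_Field →+* FA_Mero_Field) with
      commutes' := fun c => by
        show FA_S29_HK_pull (heckeRep ℓ OnePoint.infty) (algebraMap K FA_Mero_Field c)
          = algebraMap K FA_Mero_Field c
        rw [ht c]
        exact (FA_S29_HK_pull (heckeRep ℓ OnePoint.infty)).commutes _ }
  have hW : ∀ y, W y = FA_S29_HK_pull (heckeRep ℓ OnePoint.infty) y := fun _ => rfl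
  have h : (FA_S29_MB_tau K ht (N * ℓ)).comp (heckeBetaBar K N ℓ)
      = W.comp (FA_S29_MB_tau K ht N) := by
    apply IntermediateField.algHom_ext_of_eq_adjoin _ (FA_S29_MB_BC K N)
    rintro x ⟨d, hd0, hd, rfl⟩
    have hdℓ0 : NeZero (d * ℓ) := ⟨Nat.mul_ne_zero (NeZero.ne d) (NeZero.ne ℓ)⟩
    rw [AlgHom.comp_apply, AlgHom.comp_apply,
      FA_S29_HK_tau_gen K ht (N * ℓ) (d * ℓ) (Nat.mul_dvd_mul_right hd ℓ) _
        ((coe_heckeBetaBar N ℓ _).trans (FA_S37_AL_qExpand_gen K d ℓ)),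
      FA_S29_HK_tau_gen K ht N d hd _ rfl, hW, FA_S29_HK_pull_g]
  have := DFunLike.congr_fun h x
  rw [AlgHom.comp_apply, AlgHom.comp_apply, hW] at this
  exact this

end generic

variable [Algebra Qb ℂ] [Algebra Qb FA_Mero_Field] (ht : FA_S24_Tower Qb)
variable (N : ℕ) [NeZero N] (ℓ : ℕ) [Fact ℓ.Prime]

/-- **L5c = P5 (i).**  In the analytic model, the Hecke norm `Norm_α (β f)` is the product of the
`ℓ + 1` Hecke translates of `f`. -/
theorem FA_S29_HK_norm (hℓN : ¬ ℓ ∣ N) (f : ↥(modularFunctionFieldBar N)) :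
    letI := algebraAlong (heckeAlphaBar Qb N ℓ)
    FA_S29_MB_tau Qb ht N (Algebra.norm ↥(modularFunctionFieldBar N) (heckeBetaBar Qb N ℓ f))
      = ∏ i : OnePoint (ZMod ℓ),
          FA_S29_HK_pull (heckeRep ℓ i) (FA_S29_MB_tau Qb ht N f) := by
  haveI : NeZero ℓ := ⟨(Fact.out : ℓ.Prime).ne_zero⟩
  haveI : NeZero (N * ℓ) := ⟨Nat.mul_ne_zero (NeZero.ne N) (NeZero.ne ℓ)⟩
  refine FA_S29_HK_norm_abs N ℓ hℓN (FA_S29_MB_tau Qb ht N : _ →+* FA_Mero_Field)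
    (FA_S29_MB_tau Qb ht (N * ℓ) : _ →+* FA_Mero_Field)
    (fun x => FA_S29_HK_tau_alpha Qb ht N ℓ x) (fun x => FA_S29_HK_tau_beta Qb ht N ℓ x)
    ?_ ?_ f
  · intro γ x
    rw [FA_S29_HK_pull_phi]
    exact (FA_S24_props_final Qb ht N).fix_F0 (γ : SL(2, ℤ))⁻¹ (inv_mem γ.2)
      (FA_S29_MB_mem_F0 Qb ht N x)
  · intro γ hγ
    have hy := hγ ⟨coeffEmb Qb (qExpand ℚ (N * ℓ) jq), FA_S29_HK_gen_mem Qb (N * ℓ) (N * ℓ) dvd_rfl⟩
    have hgen := FA_S29_HK_tau_gen Qb ht (N * ℓ) (N * ℓ) dvd_rfl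
      ⟨coeffEmb Qb (qExpand ℚ (N * ℓ) jq), FA_S29_HK_gen_mem Qb (N * ℓ) (N * ℓ) dvd_rfl⟩ rfl
    have hy' : FA_S29_HK_pull (FA_S22_phi N γ) (FA_S24_g (N * ℓ)) = FA_S24_g (N * ℓ) := by
      rw [← hgen]
      exact hy
    rw [FA_S29_HK_pull_phi] at hy'
    have h1 := (FA_S24_props_final Qb ht (N * ℓ)).stab (γ : SL(2, ℤ))⁻¹ hy'
    have h2 := inv_mem h1
    rwa [inv_inv] at h2

/-- The same, with the norm written as `FA_S37_K5_norm`. -/
theorem FA_S29_HK_norm' (hℓN : ¬ ℓ ∣ N) (f : ↥(modularFunctionFieldBar N)) :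
    haveI : NeZero ℓ := ⟨(Fact.out : ℓ.Prime).ne_zero⟩
    FA_S29_MB_tau Qb ht N (FA_S37_K5_norm N ℓ f)
      = ∏ i : OnePoint (ZMod ℓ),
          FA_S29_HK_pull (heckeRep ℓ i) (FA_S29_MB_tau Qb ht N f) :=
  FA_S29_HK_norm ht N ℓ hℓN f

end Fermat.Agent.S29

end
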