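import Mathlib

/-!
# S29 leaf L4 (R), part 1: holomorphic `p`-th roots of nonvanishing holomorphic functions on a disc
-/

set_option autoImplicit false

namespace Fermat.Agent.S29

open Complex Metric Set Filter Topology

/-- A nonvanishing holomorphic function on a disc is `k · exp L` with `L` holomorphic. -/
theorem FA_S29_RO_log_ball {c : ℂ} {ρ : ℝ} (U : ℂ → ℂ)
    (hU : DifferentiableOn ℂ U (ball c ρ)) (h0 : ∀ z ∈ ball c ρ, U z ≠ 0) :
    ∃ (L : ℂ → ℂ) (k : ℂ), k ≠ 0 ∧ DifferentiableOn ℂ L (ball c ρ) ∧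
      ∀ z ∈ ball c ρ, U z = k * Complex.exp (L z) := by
  rcases (ball c ρ).eq_empty_or_nonempty with hemp | ⟨z₁, hz₁⟩
  · refine ⟨0, 1, one_ne_zero, ?_, ?_⟩
    · rw [hemp]; exact differentiableOn_empty
    · intro z hz; rw [hemp] at hz; exact absurd hz (Set.notMem_empty z)
  have hopen : IsOpen (ball c ρ) := isOpen_ball
  have hdU : DifferentiableOn ℂ (deriv U) (ball c ρ) := hU.deriv hopen
  have hg : DifferentiableOn ℂ (fun z => deriv U z / U z) (ball c ρ) := hdU.div hU h0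
  obtain ⟨L, hL⟩ := hg.isExactOn_ball
  have hLd : DifferentiableOn ℂ L (ball c ρ) :=
    fun z hz => (hL z hz).differentiableAt.differentiableWithinAt
  -- φ = U * exp (-L) has derivative zero
  set φ : ℂ → ℂ := fun z => U z * Complex.exp (-(L z)) with hφ
  have hφd : ∀ z ∈ ball c ρ, HasDerivAt φ 0 z := by
    intro z hz
    have hUz : HasDerivAt U (deriv U z) z :=
      (hU.differentiableAt (hopen.mem_nhds hz)).hasDerivAt
    have h1 : HasDerivAt (fun z => Complex.exp (-(L z)))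
        (Complex.exp (-(L z)) * (-(deriv U z / U z))) z := ((hL z hz).neg).cexp
    have h2 := hUz.mul h1
    have h3 : deriv U z * Complex.exp (-(L z)) +
        U z * (Complex.exp (-(L z)) * (-(deriv U z / U z))) = 0 := by
      field_simp [h0 z hz]
      ring
    rw [h3] at h2
    exact h2
  have hφdiff : DifferentiableOn ℂ φ (ball c ρ) :=
    fun z hz => (hφd z hz).differentiableAt.differentiableWithinAt
  have hφderiv : Set.EqOn (deriv φ) 0 (ball c ρ) := fun z hz => (hφd z hz).deriv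
  have hconst : ∀ z ∈ ball c ρ, φ z = φ z₁ := fun z hz =>
    hopen.is_const_of_deriv_eq_zero (convex_ball c ρ).isPreconnected hφdiff hφderiv hz hz₁
  refine ⟨L, φ z₁, ?_, hLd, ?_⟩
  · exact mul_ne_zero (h0 z₁ hz₁) (Complex.exp_ne_zero _)
  · intro z hz
    rw [← hconst z hz, hφ]
    simp only
    rw [mul_assoc, ← Complex.exp_add, neg_add_cancel, Complex.exp_zero, mul_one]

/-- A nonvanishing holomorphic function on a disc has a holomorphic `p`-th root. -/
theorem FA_S29_RO_root_ball {c : ℂ} {ρ : ℝ} (p : ℕ) (hp : 0 < p) (U : ℂ → ℂ)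
    (hU : DifferentiableOn ℂ U (ball c ρ)) (h0 : ∀ z ∈ ball c ρ, U z ≠ 0) :
    ∃ s : ℂ → ℂ, DifferentiableOn ℂ s (ball c ρ) ∧ ∀ z ∈ ball c ρ, s z ^ p = U z := by
  obtain ⟨L, k, hk, hL, hUL⟩ := FA_S29_RO_log_ball U hU h0
  obtain ⟨κ, hκ⟩ := IsAlgClosed.exists_pow_nat_eq k hp
  have hpC : (p : ℂ) ≠ 0 := by exact_mod_cast hp.ne'
  refine ⟨fun z => κ * Complex.exp (L z / p), ?_, ?_⟩
  · exact (differentiableOn_const κ).mul ((hL.div_const (p : ℂ)).cexp)
  · intro z hz
    rw [hUL z hz, mul_pow, hκ, ← Complex.exp_nat_mul, mul_div_cancel₀ _ hpC]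

end Fermat.Agent.S29
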