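import Mathlib
import Fermat.Agent.Lib.Mero5
import Fermat.Agent.S29.RootBall

/-!
# S29 leaf L4 (R), part 2: removing finitely many zeros; local `p`-th roots on discs
-/

set_option autoImplicit false

namespace Fermat.Agent.S29

open Fermat.Agent.Mero UpperHalfPlane Complex Metric Set Filter Topology
open scoped Manifold

local notation "ι" => algebraMap FA_Mero_Hol FA_Mero_Field

/-- `z ↦ z - a` as a holomorphic function on `ℍ`. -/
def FA_S29_RO_lin (a : ℂ) : FA_Mero_Hol :=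
  ⟨fun z : ℍ => (z : ℂ) - a,
    FA_Mero_mdiff_of_analyticOnNhd (H := fun z => z - a)
      (fun _ _ => analyticAt_id.sub analyticAt_const)⟩

theorem FA_S29_RO_lin_apply (a : ℂ) (z : ℍ) : (FA_S29_RO_lin a : ℍ → ℂ) z = (z : ℂ) - a := rfl

theorem FA_S29_RO_lin_ne_zero (a : ℂ) : FA_S29_RO_lin a ≠ 0 := by
  intro h
  have h1 : ∀ z : ℍ, (z : ℂ) - a = 0 := fun z => by
    rw [← FA_S29_RO_lin_apply, h]; rfl
  have e1 := h1 ⟨Complex.I, by simp⟩
  have e2 := h1 ⟨2 * Complex.I, by simp⟩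
  have e3 : (Complex.I : ℂ) = 2 * Complex.I := by
    have e1' : (Complex.I : ℂ) - a = 0 := e1
    have e2' : (2 * Complex.I : ℂ) - a = 0 := e2
    linear_combination e1' - e2'
  have := congrArg Complex.im e3
  simp at this

theorem FA_S29_RO_ordHol_lin_self (a : ℍ) : FA_Mero_ordHol a (FA_S29_RO_lin (a : ℂ)) = 1 := by
  have h1 : FA_Mero_ext (FA_S29_RO_lin (a : ℂ) : ℍ → ℂ) =ᶠ[𝓝 (a : ℂ)]
      ((· - (a : ℂ)) ^ 1 : ℂ → ℂ) := by
    filter_upwards [isOpen_upperHalfPlaneSet.mem_nhds a.im_pos] with w hw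
    have hw' : 0 < w.im := hw
    rw [FA_Mero_ext_apply_of_im_pos _ hw', FA_S29_RO_lin_apply]
    simp
  have h2 : analyticOrderAt (FA_Mero_ext (FA_S29_RO_lin (a : ℂ) : ℍ → ℂ)) (a : ℂ) = 1 := by
    rw [analyticOrderAt_congr h1, analyticOrderAt_centeredMonomial]
    rfl
  have h3 := FA_Mero_ordHol_cast a (FA_S29_RO_lin_ne_zero (a : ℂ))
  rw [h2] at h3
  exact_mod_cast h3

theorem FA_S29_RO_ordHol_lin_of_ne (a : ℂ) (z : ℍ) (h : (z : ℂ) ≠ a) :
    FA_Mero_ordHol z (FA_S29_RO_lin a) = 0 := by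
  rw [FA_Mero_ordHol_eq_zero_iff z (FA_S29_RO_lin_ne_zero a), FA_S29_RO_lin_apply]
  exact sub_ne_zero.mpr h

theorem FA_S29_RO_ordHol_pow (z : ℍ) {f : FA_Mero_Hol} (hf : f ≠ 0) (n : ℕ) :
    FA_Mero_ordHol z (f ^ n) = n * FA_Mero_ordHol z f := by
  induction n with
  | zero => simp [FA_Mero_ordHol_one]
  | succ n ih =>
    rw [pow_succ, FA_Mero_ordHol_mul z (pow_ne_zero n hf) hf, ih]
    ring

/-- Division by the exact power of `z - a`. -/
theorem FA_S29_RO_divide (u : FA_Mero_Hol) (hu : u ≠ 0) (a : ℍ) :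
    ∃ u' : FA_Mero_Hol, u = u' * FA_S29_RO_lin (a : ℂ) ^ FA_Mero_ordHol a u ∧
      (u' : ℍ → ℂ) a ≠ 0 := by
  set m := FA_Mero_ordHol a u with hm
  set l := FA_S29_RO_lin (a : ℂ) with hl
  have hl0 : l ≠ 0 := FA_S29_RO_lin_ne_zero _
  have hlm0 : l ^ m ≠ 0 := pow_ne_zero m hl0
  have hιu : ι u ≠ 0 := FA_Mero_algebraMap_ne_zero hu
  have hιl : ι (l ^ m) ≠ 0 := FA_Mero_algebraMap_ne_zero hlm0
  have hval : ∀ z₀ : ℍ, FA_Mero_val z₀ (ι u / ι (l ^ m)) ≤ 1 := by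
    intro z₀
    rw [FA_Mero_val_le_one_iff]
    right
    rw [FA_Mero_ord_div z₀ hιu hιl, FA_Mero_ord_algebraMap_hol, FA_Mero_ord_algebraMap_hol,
      FA_S29_RO_ordHol_pow z₀ hl0]
    by_cases hz : (z₀ : ℂ) = (a : ℂ)
    · have hz' : z₀ = a := UpperHalfPlane.ext hz
      subst hz'
      rw [hl, FA_S29_RO_ordHol_lin_self]
      simp [hm]
    · rw [hl, FA_S29_RO_ordHol_lin_of_ne _ z₀ hz]
      simp
  obtain ⟨u', hu'⟩ := FA_Mero_exists_hol_of_val_le_one _ hval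
  have hmul : u = u' * l ^ m := by
    apply FA_Mero_algebraMap_injective
    rw [map_mul, hu', div_mul_cancel₀ _ hιl]
  refine ⟨u', hmul, ?_⟩
  have hu'0 : u' ≠ 0 := by
    rintro rfl
    rw [zero_mul] at hmul
    exact hu hmul
  rw [← FA_Mero_ordHol_eq_zero_iff a hu'0]
  have h1 : FA_Mero_ordHol a u = FA_Mero_ordHol a u' + FA_Mero_ordHol a (l ^ m) := by
    conv_lhs => rw [hmul]
    exact FA_Mero_ordHol_mul a hu'0 hlm0
  rw [FA_S29_RO_ordHol_pow a hl0, hl, FA_S29_RO_ordHol_lin_self, mul_one, ← hm] at h1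
  omega

/-- Removing the zeros at finitely many points. -/
theorem FA_S29_RO_remove (p : ℕ) (hp : 0 < p) (f : FA_Mero_Hol) (hf : f ≠ 0)
    (hord : ∀ z : ℍ, p ∣ FA_Mero_ordHol z f) (T : Finset ℍ) :
    ∃ u P : FA_Mero_Hol, f = u * P ^ p ∧ ∀ a ∈ T, (u : ℍ → ℂ) a ≠ 0 := by
  classical
  induction T using Finset.induction_on with
  | empty => exact ⟨f, 1, by simp, by simp⟩
  | insert a T _ ih =>
    obtain ⟨u, P, hfu, hT⟩ := ih
    have hu0 : u ≠ 0 := by
      rintro rfl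
      rw [zero_mul] at hfu
      exact hf hfu
    have hP0 : P ≠ 0 := by
      rintro rfl
      rw [zero_pow hp.ne', mul_zero] at hfu
      exact hf hfu
    obtain ⟨u', hu', hu'a⟩ := FA_S29_RO_divide u hu0 a
    have hdvd : p ∣ FA_Mero_ordHol a u := by
      have h1 : FA_Mero_ordHol a f = FA_Mero_ordHol a u + FA_Mero_ordHol a (P ^ p) := by
        conv_lhs => rw [hfu]
        exact FA_Mero_ordHol_mul a hu0 (pow_ne_zero p hP0)
      rw [FA_S29_RO_ordHol_pow a hP0] at h1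
      have h2 := hord a
      rw [h1] at h2
      exact (Nat.dvd_add_left (Dvd.intro _ rfl)).mp h2
    obtain ⟨k, hk⟩ := hdvd
    refine ⟨u', FA_S29_RO_lin (a : ℂ) ^ k * P, ?_, ?_⟩
    · rw [hfu, mul_pow, ← pow_mul, mul_comm k p, ← hk, ← mul_assoc, ← hu']
    · intro b hb
      rcases Finset.mem_insert.mp hb with rfl | hb
      · exact hu'a
      · have h1 := hT b hb
        intro h0
        apply h1
        rw [hu']
        show (u' : ℍ → ℂ) b * _ = 0
        rw [h0, zero_mul]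

end Fermat.Agent.S29
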