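import Mathlib
import Fermat.Agent.Lib.Mero5
import Fermat.Agent.S29.RootBall
import Fermat.Agent.S29.RootZeros

/-!
# S29 leaf L4 (R): `p`-th roots of holomorphic functions on `ℍ`

`FA_S29_RO_root`: a nonzero holomorphic function on `ℍ` all of whose orders of vanishing are
divisible by `p` is a `p`-th power of a holomorphic function.  Proof by exhaustion of `ℍ` by discs.
-/

set_option autoImplicit false

namespace Fermat.Agent.S29

open Fermat.Agent.Mero UpperHalfPlane Complex Metric Set Filter Topology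
open scoped Manifold

theorem FA_S29_RO_ext_eq_zero {f : FA_Mero_Hol}
    (h : ∀ w ∈ upperHalfPlaneSet, FA_Mero_ext (f : ℍ → ℂ) w = 0) : f = 0 := by
  apply Subtype.ext
  funext z
  have := h (z : ℂ) z.im_pos
  rw [FA_Mero_ext_apply] at this
  exact this

/-- The zeros of a nonzero holomorphic function in a compact subset of `ℍ` are finite. -/
theorem FA_S29_RO_finite_zeros (f : FA_Mero_Hol) (hf : f ≠ 0) (K : Set ℂ) (hK : IsCompact K)
    (hKU : K ⊆ upperHalfPlaneSet) : {w ∈ K | FA_Mero_ext (f : ℍ → ℂ) w = 0}.Finite := by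
  by_contra hinf
  have hinf' : {w ∈ K | FA_Mero_ext (f : ℍ → ℂ) w = 0}.Infinite := hinf
  obtain ⟨x, hxK, hx⟩ := hinf'.exists_accPt_of_subset_isCompact hK (sep_subset _ _)
  rw [accPt_iff_frequently_nhdsNE] at hx
  have hfreq : ∃ᶠ z in 𝓝[≠] x, FA_Mero_ext (f : ℍ → ℂ) z = 0 := hx.mono fun z hz => hz.2
  have := (FA_Mero_ext_analyticOnNhd f.2).eqOn_zero_of_preconnected_of_frequently_eq_zero
    FA_Mero_isPreconnected (hKU hxK) hfreq
  exact hf (FA_S29_RO_ext_eq_zero fun w hw => this hw)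

theorem FA_S29_RO_ext_pow (f : ℍ → ℂ) (n : ℕ) : FA_Mero_ext (f ^ n) = FA_Mero_ext f ^ n := rfl

/-- Local `p`-th root on a disc relatively compact in `ℍ`. -/
theorem FA_S29_RO_root_disc (p : ℕ) (hp : 0 < p) (f : FA_Mero_Hol) (hf : f ≠ 0)
    (hord : ∀ z : ℍ, p ∣ FA_Mero_ordHol z f) (c : ℂ) (ρ : ℝ)
    (hK : closedBall c ρ ⊆ upperHalfPlaneSet) :
    ∃ r : ℂ → ℂ, DifferentiableOn ℂ r (ball c ρ) ∧
      ∀ z ∈ ball c ρ, r z ^ p = FA_Mero_ext (f : ℍ → ℂ) z := by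
  classical
  have hfin := FA_S29_RO_finite_zeros f hf (closedBall c ρ) (isCompact_closedBall c ρ) hK
  set T : Finset ℍ := hfin.toFinset.image ofComplex with hT
  obtain ⟨u, P, hfu, hTu⟩ := FA_S29_RO_remove p hp f hf hord T
  have hsub : ball c ρ ⊆ upperHalfPlaneSet := ball_subset_closedBall.trans hK
  have hU : DifferentiableOn ℂ (FA_Mero_ext (u : ℍ → ℂ)) (ball c ρ) :=
    (FA_Mero_ext_differentiableOn u.2).mono hsub
  have hPd : DifferentiableOn ℂ (FA_Mero_ext (P : ℍ → ℂ)) (ball c ρ) :=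
    (FA_Mero_ext_differentiableOn P.2).mono hsub
  have hfext : FA_Mero_ext (f : ℍ → ℂ)
      = FA_Mero_ext (u : ℍ → ℂ) * FA_Mero_ext (P : ℍ → ℂ) ^ p := by
    conv_lhs => rw [hfu]
    rfl
  have h0 : ∀ z ∈ ball c ρ, FA_Mero_ext (u : ℍ → ℂ) z ≠ 0 := by
    intro z hz
    have hzK : z ∈ closedBall c ρ := ball_subset_closedBall hz
    have hzU : 0 < z.im := hK hzK
    by_cases hfz : FA_Mero_ext (f : ℍ → ℂ) z = 0
    · have hmem : (⟨z, hzU⟩ : ℍ) ∈ T := by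
        rw [hT, Finset.mem_image]
        refine ⟨z, ?_, ofComplex_apply_of_im_pos hzU⟩
        rw [Set.Finite.mem_toFinset]
        exact ⟨hzK, hfz⟩
      have := hTu _ hmem
      rwa [FA_Mero_ext_apply_of_im_pos _ hzU]
    · intro h
      apply hfz
      rw [hfext]
      show FA_Mero_ext (u : ℍ → ℂ) z * _ = 0
      rw [h, zero_mul]
  obtain ⟨s, hs, hsp⟩ := FA_S29_RO_root_ball p hp _ hU h0
  refine ⟨fun z => s z * FA_Mero_ext (P : ℍ → ℂ) z, hs.mul hPd, ?_⟩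
  intro z hz
  rw [mul_pow, hsp z hz, hfext]
  rfl

/-- Uniqueness of `p`-th roots with a prescribed nonzero value. -/
theorem FA_S29_RO_unique (p : ℕ) (hp : 0 < p) (B : Set ℂ) (hBo : IsOpen B)
    (hBc : IsPreconnected B) (r₁ r₂ : ℂ → ℂ) (h₁ : DifferentiableOn ℂ r₁ B)
    (h₂ : DifferentiableOn ℂ r₂ B) (hpow : ∀ z ∈ B, r₁ z ^ p = r₂ z ^ p) (z₀ : ℂ) (hz₀ : z₀ ∈ B)
    (heq : r₁ z₀ = r₂ z₀) (hne : r₂ z₀ ≠ 0) : EqOn r₁ r₂ B := by
  have ha₁ : AnalyticOnNhd ℂ r₁ B := h₁.analyticOnNhd hBo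
  have ha₂ : AnalyticOnNhd ℂ r₂ B := h₂.analyticOnNhd hBo
  refine ha₁.eqOn_of_preconnected_of_eventuallyEq ha₂ hBc hz₀ ?_
  set σ : ℂ → ℂ := fun z => ∑ i ∈ Finset.range p, r₁ z ^ i * r₂ z ^ (p - 1 - i) with hσ
  have hc₁ : ContinuousAt r₁ z₀ := (ha₁ z₀ hz₀).continuousAt
  have hc₂ : ContinuousAt r₂ z₀ := (ha₂ z₀ hz₀).continuousAt
  have hσc : ContinuousAt σ z₀ := by
    rw [hσ]
    exact tendsto_finsetSum _ fun i _ => ((hc₁.pow i).mul (hc₂.pow (p - 1 - i)))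
  have hσ0 : σ z₀ ≠ 0 := by
    have : σ z₀ = p * r₂ z₀ ^ (p - 1) := by
      rw [hσ]
      simp only [heq]
      have : ∀ i ∈ Finset.range p, r₂ z₀ ^ i * r₂ z₀ ^ (p - 1 - i) = r₂ z₀ ^ (p - 1) := by
        intro i hi
        rw [← pow_add]
        congr 1
        have := Finset.mem_range.mp hi
        omega
      rw [Finset.sum_congr rfl this]
      simp
    rw [this]
    exact mul_ne_zero (by exact_mod_cast hp.ne') (pow_ne_zero _ hne)
  have hev : ∀ᶠ z in 𝓝 z₀, σ z ≠ 0 := hσc.eventually_ne hσ0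
  filter_upwards [hev, hBo.mem_nhds hz₀] with z hz hzB
  have h3 : σ z * (r₁ z - r₂ z) = 0 := by
    rw [hσ]
    simp only
    rw [geom_sum₂_mul, hpow z hzB, sub_self]
  rcases mul_eq_zero.mp h3 with h | h
  · exact absurd h hz
  · exact sub_eq_zero.mp h


/-! ### The exhaustion of `ℍ` by discs -/

/-- centre of the `n`-th disc -/
noncomputable def FA_S29_RO_cn (n : ℕ) : ℂ := ((n : ℝ) + 1 : ℝ) * Complex.I

/-- radius of the `n`-th disc -/
noncomputable def FA_S29_RO_rn (n : ℕ) : ℝ := ((n : ℝ) + 1) - 1 / ((n : ℝ) + 1)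

theorem FA_S29_RO_cn_re (n : ℕ) : (FA_S29_RO_cn n).re = 0 := by
  simp [FA_S29_RO_cn]

theorem FA_S29_RO_cn_im (n : ℕ) : (FA_S29_RO_cn n).im = (n : ℝ) + 1 := by
  simp [FA_S29_RO_cn]

theorem FA_S29_RO_closedBall_subset (n : ℕ) :
    closedBall (FA_S29_RO_cn n) (FA_S29_RO_rn n) ⊆ upperHalfPlaneSet := by
  intro z hz
  rw [mem_closedBall, Complex.dist_eq] at hz
  have h1 : |(z - FA_S29_RO_cn n).im| ≤ ‖z - FA_S29_RO_cn n‖ := Complex.abs_im_le_norm _
  rw [Complex.sub_im, FA_S29_RO_cn_im] at h1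
  have h2 := (abs_le.mp (h1.trans hz)).1
  have hn : (0 : ℝ) < (n : ℝ) + 1 := by positivity
  have h3 : (0 : ℝ) < 1 / ((n : ℝ) + 1) := by positivity
  show 0 < z.im
  unfold FA_S29_RO_rn at h2
  linarith

theorem FA_S29_RO_ball_mono {n m : ℕ} (h : n ≤ m) :
    ball (FA_S29_RO_cn n) (FA_S29_RO_rn n) ⊆ ball (FA_S29_RO_cn m) (FA_S29_RO_rn m) := by
  apply ball_subset_ball'
  have hnm : (n : ℝ) ≤ m := by exact_mod_cast h
  have hd : dist (FA_S29_RO_cn n) (FA_S29_RO_cn m) = (m : ℝ) - n := by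
    rw [Complex.dist_eq, FA_S29_RO_cn, FA_S29_RO_cn, ← sub_mul, norm_mul, Complex.norm_I, mul_one,
      ← Complex.ofReal_sub, Complex.norm_real, Real.norm_eq_abs]
    rw [abs_of_nonpos (by linarith)]
    ring
  rw [hd]
  unfold FA_S29_RO_rn
  have hn : (0 : ℝ) < (n : ℝ) + 1 := by positivity
  have hm : (0 : ℝ) < (m : ℝ) + 1 := by positivity
  have h1 : 1 / ((m : ℝ) + 1) ≤ 1 / ((n : ℝ) + 1) :=
    one_div_le_one_div_of_le hn (by linarith)
  linarith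

theorem FA_S29_RO_exists_ball (z : ℂ) (hz : 0 < z.im) :
    ∃ n : ℕ, z ∈ ball (FA_S29_RO_cn n) (FA_S29_RO_rn n) := by
  obtain ⟨n, hn⟩ := exists_nat_gt ((z.re ^ 2 + z.im ^ 2 + 2) / (2 * z.im))
  refine ⟨n, ?_⟩
  rw [mem_ball, Complex.dist_eq]
  have hn1 : (1 : ℝ) ≤ (n : ℝ) + 1 := by
    have : (0 : ℝ) ≤ n := Nat.cast_nonneg n
    linarith
  have hr0 : 0 ≤ FA_S29_RO_rn n := by
    unfold FA_S29_RO_rn
    have : 1 / ((n : ℝ) + 1) ≤ 1 := by
      rw [div_le_one (by linarith)]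
      exact hn1
    linarith
  have hsq : ‖z - FA_S29_RO_cn n‖ ^ 2 < FA_S29_RO_rn n ^ 2 := by
    rw [Complex.sq_norm, Complex.normSq_apply, Complex.sub_re, Complex.sub_im, FA_S29_RO_cn_re,
      FA_S29_RO_cn_im]
    unfold FA_S29_RO_rn
    have h2 : z.re ^ 2 + z.im ^ 2 + 2 < (n : ℝ) * (2 * z.im) := by
      rwa [div_lt_iff₀ (by linarith)] at hn
    have h3 : (0 : ℝ) < 1 / ((n : ℝ) + 1) := by positivity
    have h4 : ((n : ℝ) + 1 - 1 / ((n : ℝ) + 1)) ^ 2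
        = ((n : ℝ) + 1) ^ 2 - 2 + (1 / ((n : ℝ) + 1)) ^ 2 := by
      field_simp
      ring
    rw [h4]
    have h5 : (0 : ℝ) < (1 / ((n : ℝ) + 1)) ^ 2 := by positivity
    nlinarith
  exact lt_of_pow_lt_pow_left₀ 2 hr0 hsq

/-- **`p`-th roots on `ℍ`.** -/
theorem FA_S29_RO_root (p : ℕ) (hp : 0 < p) (f : FA_Mero_Hol) (hf : f ≠ 0)
    (hord : ∀ z : ℍ, p ∣ FA_Mero_ordHol z f) : ∃ h : FA_Mero_Hol, h ^ p = f := by
  classical
  set F : ℂ → ℂ := FA_Mero_ext (f : ℍ → ℂ) with hF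
  -- a point where `f` does not vanish
  obtain ⟨zs, hzs⟩ : ∃ z : ℍ, (f : ℍ → ℂ) z ≠ 0 := by
    by_contra hcon
    have hcon' : ∀ z : ℍ, (f : ℍ → ℂ) z = 0 := fun z => by
      by_contra hz
      exact hcon ⟨z, hz⟩
    exact hf (Subtype.ext (funext hcon'))
  have hFzs : F (zs : ℂ) ≠ 0 := by
    rw [hF, FA_Mero_ext_apply]; exact hzs
  obtain ⟨n₀, hn₀⟩ := FA_S29_RO_exists_ball (zs : ℂ) zs.im_pos
  set B : ℕ → Set ℂ := fun n => ball (FA_S29_RO_cn (n₀ + n)) (FA_S29_RO_rn (n₀ + n)) with hB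
  have hBmono : ∀ {n m : ℕ}, n ≤ m → B n ⊆ B m := fun h =>
    FA_S29_RO_ball_mono (Nat.add_le_add_left h n₀)
  have hzsB : ∀ n, (zs : ℂ) ∈ B n := fun n => FA_S29_RO_ball_mono (Nat.le_add_right n₀ n) hn₀
  have hBU : ∀ n, B n ⊆ upperHalfPlaneSet := fun n =>
    ball_subset_closedBall.trans (FA_S29_RO_closedBall_subset _)
  have hBo : ∀ n, IsOpen (B n) := fun n => isOpen_ball
  have hBc : ∀ n, IsPreconnected (B n) := fun n => (convex_ball _ _).isPreconnected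
  have hcov : ∀ z : ℂ, 0 < z.im → ∃ n, z ∈ B n := by
    intro z hz
    obtain ⟨m, hm⟩ := FA_S29_RO_exists_ball z hz
    exact ⟨m, FA_S29_RO_ball_mono (Nat.le_add_left m n₀) hm⟩
  -- local roots
  have hloc : ∀ n, ∃ r : ℂ → ℂ, DifferentiableOn ℂ r (B n) ∧ ∀ z ∈ B n, r z ^ p = F z :=
    fun n => FA_S29_RO_root_disc p hp f hf hord _ _ (FA_S29_RO_closedBall_subset _)
  choose r hrd hrp using hloc
  -- normalised local roots
  obtain ⟨κ, hκ⟩ := IsAlgClosed.exists_pow_nat_eq (F (zs : ℂ)) hp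
  have hκ0 : κ ≠ 0 := by
    rintro rfl
    rw [zero_pow hp.ne'] at hκ
    exact hFzs hκ.symm
  have hr0 : ∀ n, r n (zs : ℂ) ≠ 0 := by
    intro n h
    have := hrp n _ (hzsB n)
    rw [h, zero_pow hp.ne'] at this
    exact hFzs this.symm
  set R : ℕ → ℂ → ℂ := fun n z => κ / r n (zs : ℂ) * r n z with hR
  have hRd : ∀ n, DifferentiableOn ℂ (R n) (B n) := fun n =>
    (differentiableOn_const _).mul (hrd n)
  have hRp : ∀ n, ∀ z ∈ B n, R n z ^ p = F z := by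
    intro n z hz
    rw [hR]
    simp only
    rw [mul_pow, div_pow, hκ, hrp n _ (hzsB n), div_self hFzs, one_mul, hrp n z hz]
  have hRzs : ∀ n, R n (zs : ℂ) = κ := by
    intro n
    rw [hR]
    simp only
    rw [div_mul_cancel₀ _ (hr0 n)]
  have hcompat : ∀ {n m : ℕ}, n ≤ m → EqOn (R n) (R m) (B n) := by
    intro n m hnm
    refine FA_S29_RO_unique p hp (B n) (hBo n) (hBc n) (R n) (R m) (hRd n)
      ((hRd m).mono (hBmono hnm)) ?_ (zs : ℂ) (hzsB n) ?_ ?_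
    · intro z hz
      rw [hRp n z hz, hRp m z (hBmono hnm hz)]
    · rw [hRzs, hRzs]
    · rw [hRzs]; exact hκ0
  -- the global root
  set idx : ℂ → ℕ := fun z => if hz : 0 < z.im then Nat.find (hcov z hz) else 0 with hidx
  have hidx_mem : ∀ z : ℂ, 0 < z.im → z ∈ B (idx z) := by
    intro z hz
    rw [hidx]
    simp only [dif_pos hz]
    exact Nat.find_spec (hcov z hz)
  set H : ℂ → ℂ := fun z => R (idx z) z with hH
  have hHeq : ∀ n, EqOn H (R n) (B n) := by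
    intro n z hz
    have hzU : 0 < z.im := hBU n hz
    have hz' := hidx_mem z hzU
    rw [hH]
    simp only
    rcases le_total (idx z) n with h | h
    · exact hcompat h hz'
    · exact (hcompat h hz).symm
  have hHd : DifferentiableOn ℂ H upperHalfPlaneSet := by
    intro z hz
    have hz' := hidx_mem z hz
    have h1 : DifferentiableAt ℂ (R (idx z)) z :=
      (hRd (idx z)).differentiableAt ((hBo _).mem_nhds hz')
    have h2 : H =ᶠ[𝓝 z] R (idx z) := by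
      filter_upwards [(hBo _).mem_nhds hz'] with w hw
      exact hHeq _ hw
    exact (h1.congr_of_eventuallyEq h2).differentiableWithinAt
  have hHp : ∀ z : ℂ, 0 < z.im → H z ^ p = F z := by
    intro z hz
    have hz' := hidx_mem z hz
    rw [hHeq _ hz']
    exact hRp _ z hz'
  refine ⟨⟨fun z : ℍ => H (z : ℂ),
    FA_Mero_mdiff_of_analyticOnNhd (hHd.analyticOnNhd isOpen_upperHalfPlaneSet)⟩, ?_⟩
  apply Subtype.ext
  funext z
  show H (z : ℂ) ^ p = (f : ℍ → ℂ) z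
  rw [hHp _ z.im_pos, hF, FA_Mero_ext_apply]

end Fermat.Agent.S29
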