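import Mathlib
import Fermat.Agent.Lib.Mero5
import Fermat.Agent.S29.Root

/-!
# S29 leaf L4, part 3: `p`-th powers in the field of meromorphic functions, roots of unity
-/

set_option autoImplicit false

namespace Fermat.Agent.S29

open Fermat.Agent.Mero UpperHalfPlane Complex
open scoped Manifold MatrixGroups

local notation "ι" => algebraMap FA_Mero_Hol FA_Mero_Field

/-- A nonzero meromorphic function on `ℍ` all of whose orders are divisible by `p` is a `p`-th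
power. -/
theorem FA_S29_RO_pow_of_dvd (p : ℕ) (hp : 0 < p) (x : FA_Mero_Field) (hx : x ≠ 0)
    (hord : ∀ z : ℍ, (p : ℤ) ∣ FA_Mero_ord z x) : ∃ y : FA_Mero_Field, y ^ p = x := by
  obtain ⟨a, b, hb, rfl⟩ := IsFractionRing.div_surjective (A := FA_Mero_Hol) x
  have hb0 : b ≠ 0 := nonZeroDivisors.ne_zero hb
  have ha0 : a ≠ 0 := by
    rintro rfl
    simp at hx
  have hιa : ι a ≠ 0 := FA_Mero_algebraMap_ne_zero ha0
  have hιb : ι b ≠ 0 := FA_Mero_algebraMap_ne_zero hb0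
  have hc0 : a * b ^ (p - 1) ≠ 0 := mul_ne_zero ha0 (pow_ne_zero _ hb0)
  have hcord : ∀ z : ℍ, p ∣ FA_Mero_ordHol z (a * b ^ (p - 1)) := by
    intro z
    rw [FA_Mero_ordHol_mul z ha0 (pow_ne_zero _ hb0), FA_S29_RO_ordHol_pow z hb0]
    have h := hord z
    rw [FA_Mero_ord_div z hιa hιb, FA_Mero_ord_algebraMap_hol, FA_Mero_ord_algebraMap_hol] at h
    have h2 : (p : ℤ) ∣ ((FA_Mero_ordHol z a + (p - 1) * FA_Mero_ordHol z b : ℕ) : ℤ) := by
      have e : ((FA_Mero_ordHol z a + (p - 1) * FA_Mero_ordHol z b : ℕ) : ℤ)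
          = ((FA_Mero_ordHol z a : ℤ) - (FA_Mero_ordHol z b : ℤ))
            + (p : ℤ) * (FA_Mero_ordHol z b : ℤ) := by
        push_cast [Nat.cast_sub (Nat.one_le_of_lt hp)]
        ring
      rw [e]
      exact dvd_add h (dvd_mul_right _ _)
    exact_mod_cast h2
  obtain ⟨h, hh⟩ := FA_S29_RO_root p hp _ hc0 hcord
  refine ⟨ι h / ι b, ?_⟩
  rw [div_pow, ← map_pow, hh, map_mul, map_pow]
  have e : ι b ^ p = ι b ^ (p - 1) * ι b := by
    rw [← pow_succ, Nat.sub_add_cancel (Nat.one_le_of_lt hp)]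
  rw [e]
  field_simp

/-- The `p`-th roots of unity in the field of meromorphic functions are constants. -/
theorem FA_S29_RO_mu (p : ℕ) (hp : 0 < p) (w : FA_Mero_Field) (hw : w ^ p = 1) :
    ∃ ζ : ℂ, ζ ^ p = 1 ∧ w = algebraMap ℂ FA_Mero_Field ζ := by
  classical
  have hprim := Complex.isPrimitiveRoot_exp p hp.ne'
  have h1 := Polynomial.X_pow_sub_one_eq_prod hp hprim
  have h2 := congrArg (fun P => Polynomial.aeval w P) h1
  simp only [map_sub, map_pow, Polynomial.aeval_X, map_one, map_prod, Polynomial.aeval_C] at h2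
  rw [hw, sub_self] at h2
  obtain ⟨ζ, hζ, h0⟩ := Finset.prod_eq_zero_iff.mp h2.symm
  refine ⟨ζ, ?_, sub_eq_zero.mp h0⟩
  exact (Polynomial.mem_nthRootsFinset hp 1).mp hζ

/-- Two `p`-th roots of the same nonzero function differ by a constant root of unity. -/
theorem FA_S29_RO_mu_of_pow_eq (p : ℕ) (hp : 0 < p) (y y' : FA_Mero_Field) (hy : y ≠ 0)
    (h : y' ^ p = y ^ p) : ∃ ζ : ℂ, ζ ^ p = 1 ∧ y' = algebraMap ℂ FA_Mero_Field ζ * y := by
  have hw : (y' / y) ^ p = 1 := by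
    rw [div_pow, h, div_self (pow_ne_zero _ hy)]
  obtain ⟨ζ, hζ, hw'⟩ := FA_S29_RO_mu p hp _ hw
  refine ⟨ζ, hζ, ?_⟩
  rw [← hw', div_mul_cancel₀ _ hy]

end Fermat.Agent.S29
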