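import Mathlib
import Fermat.Agent.Lib.Mero6
import Fermat.Agent.S29.RootPow
import Fermat.Agent.S24.DPlace
import Fermat.Agent.S20.Theta

/-!
# S29 leaf L4: finiteness of the `p`-Selmer classes of a field of modular functions

`FA_S29_RO_finite`: for a field `F` of `Γ₀(N)`-invariant meromorphic functions on `ℍ` containing `j`
and `p`-closed among invariant functions (hypothesis `hL2`, supplied by L2), the functions `f ∈ F`
with all orders divisible by `p` fall into finitely many classes modulo `p`-th powers.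
-/

set_option autoImplicit false

namespace Fermat.Agent.S29

open Fermat.Agent.Mero Fermat.Agent.S24 Fermat.Agent.S20 UpperHalfPlane AlgebraicCurve
open scoped MatrixGroups Manifold
open Matrix

local notation "ι" => algebraMap FA_Mero_Hol FA_Mero_Field

theorem FA_S29_RO_exists_gens (N : ℕ) [NeZero N] :
    ∃ S : Set SL(2, ℤ), S.Finite ∧ Subgroup.closure S = CongruenceSubgroup.Gamma0 N := by
  have : Group.FG SL(2, ℤ) :=
    Group.fg_iff.mpr ⟨{ModularGroup.S, ModularGroup.T},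
      SpecialLinearGroup.SL2Z_generators, Set.toFinite _⟩
  have : Group.FG ↥(CongruenceSubgroup.Gamma0 N) := Subgroup.fg_of_index_ne_zero _
  obtain ⟨S, hS, hfin⟩ := Group.fg_iff.mp (inferInstance : Group.FG ↥(CongruenceSubgroup.Gamma0 N))
  refine ⟨(Subgroup.subtype _) '' S, hfin.image _, ?_⟩
  rw [← MonoidHom.map_closure, hS, ← MonoidHom.range_eq_map, Subgroup.range_subtype]

theorem FA_S29_RO_mu_finite (p : ℕ) (hp : 0 < p) : {ζ : ℂ | ζ ^ p = 1}.Finite := by
  classical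
  refine (Polynomial.nthRootsFinset p (1 : ℂ)).finite_toSet.subset ?_
  intro ζ hζ
  exact (Polynomial.mem_nthRootsFinset hp 1).mpr hζ

section fin

variable (F : Type*) [Field F] [Algebra ℂ F] [Algebra F FA_Mero_Field]
  [IsScalarTower ℂ F FA_Mero_Field]

local notation "τ" => algebraMap F FA_Mero_Field

/-- The Selmer condition at the places of `F` implies divisibility of the analytic orders. -/
theorem FA_S29_RO_ord_dvd (hj : ∃ x : F, τ x = ι FA_S24_jHol) (p : ℕ) (f : F) (hf : f ≠ 0)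
    (hsel : ∀ w : Place ℂ F, (p : ℤ) ∣ w.ord f) (z : ℍ) : (p : ℤ) ∣ FA_Mero_ord z (τ f) := by
  obtain ⟨w, m, _, hm, _⟩ := (FA_S20_isVal_point F hj z).exists_place
  have h1 : FA_Mero_ord z (τ f) = m * w.ord f := hm f hf
  rw [h1]
  exact Dvd.dvd.mul_left (hsel w) m

/-- **Finiteness of the `p`-Selmer classes.** -/
theorem FA_S29_RO_finite (N : ℕ) [NeZero N] (p : ℕ) (hp : 0 < p)
    (hj : ∃ x : F, τ x = ι FA_S24_jHol)
    (hinv : ∀ γ ∈ CongruenceSubgroup.Gamma0 N, ∀ a : F, γ • τ a = τ a)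
    (hL2 : ∀ y : FA_Mero_Field, (∀ γ ∈ CongruenceSubgroup.Gamma0 N, γ • y = y) →
      (∃ a : F, y ^ p = τ a) → ∃ b : F, τ b = y) :
    ∃ T : Set F, T.Finite ∧ ∀ f : F, f ≠ 0 → (∀ w : Place ℂ F, (p : ℤ) ∣ w.ord f) →
      ∃ t ∈ T, ∃ u : F, u ≠ 0 ∧ t = u ^ p * f := by
  classical
  obtain ⟨S, hSfin, hS⟩ := FA_S29_RO_exists_gens N
  have : Finite ↥S := hSfin.to_subtype
  have : Finite ↥{ζ : ℂ | ζ ^ p = 1} := (FA_S29_RO_mu_finite p hp).to_subtype
  have hSmem : ∀ s : ↥S, (s : SL(2, ℤ)) ∈ CongruenceSubgroup.Gamma0 N := fun s => by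
    rw [← hS]; exact Subgroup.subset_closure s.2
  have hτinj : Function.Injective τ := (algebraMap F FA_Mero_Field).injective
  -- the Selmer elements
  let X : Type _ := {f : F // f ≠ 0 ∧ ∀ w : Place ℂ F, (p : ℤ) ∣ w.ord f}
  have hroot : ∀ f : X, ∃ y : FA_Mero_Field, y ^ p = τ f.1 := fun f =>
    FA_S29_RO_pow_of_dvd p hp _ (fun h => f.2.1 (hτinj (by rw [h, map_zero])))
      (FA_S29_RO_ord_dvd F hj p f.1 f.2.1 f.2.2)
  choose Y hY using hroot
  have hY0 : ∀ f : X, Y f ≠ 0 := by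
    intro f h
    have := hY f
    rw [h, zero_pow hp.ne'] at this
    exact f.2.1 (hτinj (by rw [← this, map_zero]))
  have hchar : ∀ (f : X) (s : ↥S), ∃ ζ : ↥{ζ : ℂ | ζ ^ p = 1},
      (s : SL(2, ℤ)) • Y f = algebraMap ℂ FA_Mero_Field ζ * Y f := by
    intro f s
    have h1 : ((s : SL(2, ℤ)) • Y f) ^ p = Y f ^ p := by
      rw [← smul_pow', hY f, hinv _ (hSmem s)]
    obtain ⟨ζ, hζ, h2⟩ := FA_S29_RO_mu_of_pow_eq p hp (Y f) _ (hY0 f) h1
    exact ⟨⟨ζ, hζ⟩, h2⟩
  choose χ hχ using hchar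
  have hζ0 : ∀ ζ : ↥{ζ : ℂ | ζ ^ p = 1}, algebraMap ℂ FA_Mero_Field (ζ : ℂ) ≠ 0 := by
    intro ζ h
    have h1 : (ζ : ℂ) = 0 := (algebraMap ℂ FA_Mero_Field).injective (by rw [h, map_zero])
    have h2 : (ζ : ℂ) ^ p = 1 := ζ.2
    rw [h1, zero_pow hp.ne'] at h2
    exact zero_ne_one h2
  -- the key step
  have hkey : ∀ f f' : X, χ f = χ f' → ∃ u : F, u ≠ 0 ∧ f'.1 = u ^ p * f.1 := by
    intro f f' hff
    set u : FA_Mero_Field := Y f' / Y f with hu
    have hu0 : u ≠ 0 := div_ne_zero (hY0 f') (hY0 f)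
    have hstab : ∀ γ ∈ CongruenceSubgroup.Gamma0 N, γ • u = u := by
      have hle : Subgroup.closure S ≤ MulAction.stabilizer SL(2, ℤ) u := by
        rw [Subgroup.closure_le]
        intro s hs
        show s • u = u
        have h1 := hχ f ⟨s, hs⟩
        have h2 := hχ f' ⟨s, hs⟩
        have h3 : χ f ⟨s, hs⟩ = χ f' ⟨s, hs⟩ := congrFun hff _
        simp only at h1 h2
        rw [hu, FA_Mero_smul_div, h1, h2, h3, mul_div_mul_left _ _ (hζ0 _)]
      intro γ hγ
      rw [← hS] at hγ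
      exact hle hγ
    have hpow : u ^ p = τ (f'.1 / f.1) := by
      rw [hu, div_pow, hY, hY, map_div₀]
    obtain ⟨b, hb⟩ := hL2 u hstab ⟨_, hpow⟩
    refine ⟨b, ?_, ?_⟩
    · rintro rfl
      rw [map_zero] at hb
      exact hu0 hb.symm
    · have h1 : τ (b ^ p) = τ (f'.1 / f.1) := by rw [map_pow, hb, hpow]
      have h2 := hτinj h1
      rw [h2, div_mul_cancel₀ _ f.2.1]
  -- representatives
  have hrep : ∀ c : ↥(Set.range χ), ∃ f : X, χ f = c.1 := fun c => c.2
  choose rep hrep' using hrep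
  refine ⟨Set.range (fun c : ↥(Set.range χ) => (rep c).1), Set.finite_range _, ?_⟩
  intro f hf hsel
  set c : ↥(Set.range χ) := ⟨χ ⟨f, hf, hsel⟩, Set.mem_range_self _⟩ with hc
  refine ⟨(rep c).1, Set.mem_range_self c, ?_⟩
  exact hkey ⟨f, hf, hsel⟩ (rep c) (hrep' c).symm

end fin

end Fermat.Agent.S29
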