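import Fermat.Agent.S29.Model
import Fermat.Agent.S29.DescentMain
import Fermat.Agent.S29.RootFin

/-!
# Item 87, (MB) the model bridge: wiring

`F_K := laurentBaseChange K (modularFunctionFieldFull N)`, `τ := FA_S29_MB_tau K ht N`.

* `FA_S29_MB_equiv` : `F_K ≃ₐ[K] F₀ = K(j (d z) : d ∣ N)`, `(e x : Ω) = τ x`;
* `FA_S29_MB_hj`, `FA_S29_MB_hinv` : `τ j = j`, `Γ₀(N)` fixes `τ x`;
* `FA_S29_MB_tau_iota` : `τ_ℂ (ι x) = τ_K x` for helper9's `ι = FA_S29_DS_iota : F_K → F_ℂ`;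
* over `ℂ`: `FA_S29_MBC_alg` (the algebra structure `F_ℂ → Ω` given by `τ`), `FA_S29_MBC_finite`
  (helper6's finiteness of Selmer classes for `F_ℂ`), `FA_S29_MBC_hfin` (the hypothesis `hfin` of
  helper9's `FA_S29_DS_descent`), `FA_S29_MBC_descent` (descent of Selmer elements to `F_K`).
-/

set_option autoImplicit false
set_option linter.unusedSectionVars false
set_option linter.style.haveILetI false

noncomputable section

namespace Fermat.Agent.S29

open ModularCurve IntermediateField Fermat.Agent.Mero Fermat.Agent.S24 Fermat.Agent.S28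
  AlgebraicCurve
open scoped MatrixGroups

section generic

variable (K : Type) [Field K] [Algebra ℚ K] [Algebra K ℂ] [Algebra K FA_Mero_Field]
  (ht : FA_S24_Tower K) (N : ℕ) [NeZero N]

/-- **MB1**: the isomorphism between the `q`-model and the analytic model. -/
def FA_S29_MB_equiv :
    ↥(laurentBaseChange K (modularFunctionFieldFull N)) ≃ₐ[K] ↥(FA_S24_F0 K FA_S24_g N) :=
  AlgEquiv.ofBijective
    ((FA_S29_MB_tau K ht N).codRestrict (FA_S24_F0 K FA_S24_g N).toSubalgebra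
      (FA_S29_MB_mem_F0 K ht N))
    ⟨fun x y h => (FA_S29_MB_tau K ht N).injective (congrArg Subtype.val h),
      fun y => by
        obtain ⟨x, hx⟩ := FA_S29_MB_surj K ht N y.2
        exact ⟨x, Subtype.ext hx⟩⟩

theorem FA_S29_MB_equiv_coe (x : ↥(laurentBaseChange K (modularFunctionFieldFull N))) :
    ((FA_S29_MB_equiv K ht N x : ↥(FA_S24_F0 K FA_S24_g N)) : FA_Mero_Field)
      = FA_S29_MB_tau K ht N x := rfl

theorem FA_S29_MB_equiv_Qinf (x : ↥(laurentBaseChange K (modularFunctionFieldFull N))) :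
    FA_S24_Qinf N ((FA_S29_MB_equiv K ht N x : ↥(FA_S24_F0 K FA_S24_g N)) : FA_Mero_Field)
      = FA_S24_Lam K N (x : LaurentSeries K) :=
  FA_S29_MB_Qinf K ht N x

/-- `τ j = j` (the hypothesis `hj` of the analytic leaves). -/
theorem FA_S29_MB_hj :
    FA_S29_MB_tau K ht N (FA_S29_MB_j K N) = algebraMap FA_Mero_Hol FA_Mero_Field FA_S24_jHol :=
  (FA_S29_MB_tau_j K ht N).trans FA_S24_g_one

/-- `Γ₀(N)` fixes the image of `τ`. -/
theorem FA_S29_MB_hinv [IsAlgClosed K] (γ : SL(2, ℤ)) (hγ : γ ∈ CongruenceSubgroup.Gamma0 N)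
    (a : ↥(laurentBaseChange K (modularFunctionFieldFull N))) :
    γ • FA_S29_MB_tau K ht N a = FA_S29_MB_tau K ht N a :=
  (FA_S24_props_final K ht N).fix_F0 γ hγ (FA_S29_MB_mem_F0 K ht N a)

omit [Algebra K FA_Mero_Field] in
theorem FA_S29_MB_Lam_complex (x : LaurentSeries K) :
    FA_S24_Lam ℂ N (coeffMap (algebraMap K ℂ) x) = FA_S24_Lam K N x := by
  unfold FA_S24_Lam
  rw [RingHom.comp_apply, RingHom.comp_apply, coeffMap_coeffMap]
  congr 1

/-- **Compatibility with the base change `ι : F_K → F_ℂ`.** -/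
theorem FA_S29_MB_tau_iota (x : ↥(laurentBaseChange K (modularFunctionFieldFull N))) :
    FA_S29_MB_tau ℂ FA_S24_tower_complex N
        (FA_S29_DS_iota (L := ℂ) (modularFunctionFieldFull N) x)
      = FA_S29_MB_tau K ht N x := by
  refine FA_S29_MB_unique ℂ FA_S24_tower_complex N _ (FA_S29_MB_mem_good K ht N x) ?_
  rw [FA_S29_MB_Qinf, FA_S29_DS_coe_iota, FA_S29_MB_Lam_complex]

end generic

/-! ### Over `ℂ` -/

section complex

variable (N : ℕ) [NeZero N]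

/-- The `q`-model over `ℂ`. -/
abbrev FA_S29_MBC_F : Type := ↥(laurentBaseChange ℂ (modularFunctionFieldFull N))

/-- The algebra structure `F_ℂ → Ω` given by `τ` (use with `letI`). -/
def FA_S29_MBC_alg : Algebra (FA_S29_MBC_F N) FA_Mero_Field :=
  (FA_S29_MB_tau ℂ FA_S24_tower_complex N).toRingHom.toAlgebra

theorem FA_S29_MBC_algebraMap (x : FA_S29_MBC_F N) :
    letI := FA_S29_MBC_alg N
    algebraMap (FA_S29_MBC_F N) FA_Mero_Field x = FA_S29_MB_tau ℂ FA_S24_tower_complex N x :=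
  rfl

theorem FA_S29_MBC_tower :
    letI := FA_S29_MBC_alg N
    IsScalarTower ℂ (FA_S29_MBC_F N) FA_Mero_Field :=
  letI := FA_S29_MBC_alg N
  IsScalarTower.of_algebraMap_eq fun c =>
    ((FA_S29_MB_tau ℂ FA_S24_tower_complex N).commutes c).symm

/-- **Finiteness of the `p`-Selmer classes of `F_ℂ`** (helper6's `FA_S29_RO_finite` for the
`q`-model), from the `G2`-type hypothesis on `F₀`. -/
theorem FA_S29_MBC_finite (p : ℕ) (hp : 0 < p)
    (hG2 : ∀ y : FA_Mero_Field, (∀ γ ∈ CongruenceSubgroup.Gamma0 N, γ • y = y) →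
      y ^ p ∈ FA_S24_F0 ℂ FA_S24_g N → y ∈ FA_S24_F0 ℂ FA_S24_g N) :
    ∃ T : Set (FA_S29_MBC_F N), T.Finite ∧ ∀ f : FA_S29_MBC_F N, f ≠ 0 →
      (∀ w : Place ℂ (FA_S29_MBC_F N), (p : ℤ) ∣ w.ord f) →
      ∃ t ∈ T, ∃ u : FA_S29_MBC_F N, u ≠ 0 ∧ t = u ^ p * f := by
  letI := FA_S29_MBC_alg N
  haveI := FA_S29_MBC_tower N
  refine FA_S29_RO_finite (FA_S29_MBC_F N) N p hp
    ⟨FA_S29_MB_j ℂ N, FA_S29_MB_hj ℂ FA_S24_tower_complex N⟩
    (fun γ hγ a => FA_S29_MB_hinv ℂ FA_S24_tower_complex N γ hγ a) ?_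
  rintro y hy ⟨a, ha⟩
  have h1 : y ^ p ∈ FA_S24_F0 ℂ FA_S24_g N := by
    rw [ha]
    exact FA_S29_MB_mem_F0 ℂ FA_S24_tower_complex N a
  exact FA_S29_MB_surj ℂ FA_S24_tower_complex N (hG2 y hy h1)

end complex

/-! ### The descent `ℂ → K` of Selmer elements -/

section descent

variable (K : Type) [Field K] [Algebra ℚ K] [Algebra K ℂ] [IsScalarTower ℚ K ℂ]
  [IsAlgClosed K] [CharZero K] (N : ℕ) [NeZero N]

/-- The hypothesis `hfin` of `FA_S29_DS_descent` from the finiteness of Selmer classes. -/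
theorem FA_S29_MBC_hfin (p : ℕ)
    (hT : ∃ T : Set (FA_S29_MBC_F N), T.Finite ∧ ∀ f : FA_S29_MBC_F N, f ≠ 0 →
      (∀ w : Place ℂ (FA_S29_MBC_F N), (p : ℤ) ∣ w.ord f) →
      ∃ t ∈ T, ∃ u : FA_S29_MBC_F N, u ≠ 0 ∧ t = u ^ p * f)
    (f : FA_S29_MBC_F N) (hf : FA_S29_DS_Sel ℂ p f) :
    ∃ T : Set (FA_S29_MBC_F N), T.Finite ∧ ∀ σ : ℂ ≃ₐ[K] ℂ,
      ∃ t ∈ T, FA_S29_DS_Rel ℂ p
        (FA_S29_DS_act (K := K) (modularFunctionFieldFull N) σ • f) t := by
  obtain ⟨T, hTfin, hT⟩ := hT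
  refine ⟨T, hTfin, fun σ => ?_⟩
  set g := FA_S29_DS_act (K := K) (modularFunctionFieldFull N) σ with hg
  have h0 : g • f ≠ 0 := by
    intro h
    apply hf.1
    have := congrArg (fun x => g⁻¹ • x) h
    simpa using this
  have hsel : ∀ w : Place ℂ (FA_S29_MBC_F N), (p : ℤ) ∣ w.ord (g • f) := by
    intro w
    have h1 := SemilinearAut.ord_smul g (g⁻¹ • w) f
    rw [smul_inv_smul] at h1
    rw [h1]
    exact hf.2 _
  obtain ⟨t, ht, u, hu, htu⟩ := hT (g • f) h0 hsel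
  exact ⟨t, ht, 1, u, one_ne_zero, hu, by rw [map_one, one_mul]; exact htu⟩

/-- **Descent of Selmer elements** from `F_ℂ` to `F_K`, from the `G2`-type hypothesis. -/
theorem FA_S29_MBC_descent (p : ℕ) (hp : 0 < p)
    (hG2 : ∀ y : FA_Mero_Field, (∀ γ ∈ CongruenceSubgroup.Gamma0 N, γ • y = y) →
      y ^ p ∈ FA_S24_F0 ℂ FA_S24_g N → y ∈ FA_S24_F0 ℂ FA_S24_g N)
    (f : FA_S29_MBC_F N) (hf : FA_S29_DS_Sel ℂ p f) :
    ∃ f₀ : ↥(laurentBaseChange K (modularFunctionFieldFull N)), f₀ ≠ 0 ∧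
      FA_S29_DS_Rel ℂ p f (FA_S29_DS_iota (L := ℂ) (modularFunctionFieldFull N) f₀) := by
  refine FA_S29_DS_descent (K := K) (modularFunctionFieldFull N)
    (FA_S29_MB_isFF ℂ FA_S24_tower_complex N) ?_ hp f hf
    (FA_S29_MBC_hfin K N p (FA_S29_MBC_finite N p hp hG2) f hf)
  refine ⟨FA_S29_MB_j ℂ N, ?_, ?_⟩
  · intro h
    exact (FA_S29_MB_base ℂ FA_S24_tower_complex N).1 (h ▸ isAlgebraic_zero)
  · intro h
    have h1 : (coeffEmb ℂ jq).coeff (-1 : ℤ) = 1 := by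
      show (coeffMap (algebraMap ℚ ℂ) jq).coeff (-1 : ℤ) = 1
      rw [coeffMap_coeff, coeff_jq_neg_one, map_one]
    have h2 : ((FA_S29_MB_j ℂ N : FA_S29_MBC_F N) : LaurentSeries ℂ) = coeffEmb ℂ jq := rfl
    rw [h2] at h
    have h3 : (coeffEmb ℂ jq : LaurentSeries ℂ) ≠ 0 := by
      intro h0
      rw [h0] at h1
      simp at h1
    have h4 := HahnSeries.order_le_of_coeff_ne_zero (x := coeffEmb ℂ jq) (g := (-1 : ℤ))
      (by rw [h1]; exact one_ne_zero)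
    have h5 : ∀ i : ℤ, i < -1 → (coeffEmb ℂ jq).coeff i = 0 := by
      intro i hi
      show (coeffMap (algebraMap ℚ ℂ) jq).coeff i = 0
      rw [coeffMap_coeff, coeff_jq_of_lt hi, map_zero]
    rw [h] at h4
    omega

end descent

end Fermat.Agent.S29

end
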