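import Fermat.Agent.S29.HeckeRel
import Fermat.Agent.S29.ModelC

/-!
# S29, assembly piece P5 (analytic Hecke), in the function form of the `q`-models

`F_K := laurentBaseChange K (modularFunctionFieldFull N)`, `τ_K := FA_S29_MB_tau K ht N`,
`ι := FA_S29_DS_iota : F_K → F_ℂ`, `Rel = FA_S29_DS_Rel ℂ p` (equality up to a constant and a
`p`-th power).

`FA_S29_HG_P5`: let `h` be `χ`-equivariant and `h'` be `T_ℓ χ`-equivariant (good translates),
`x, x' ∈ F_ℂ` with `τ x = h ^ p`, `τ x' = h' ^ p`.  If `f₀ ∈ F_K` with `Rel x (ι f₀)` and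
`g₀ ∈ F_K` satisfies the norm formula `τ_K g₀ = ∏_i (τ_K f₀) ∘ α_i` (leaf L5c for
`g₀ = Norm_α (β f₀)`), then `Rel x' (ι g₀)`.
-/

set_option autoImplicit false
set_option linter.unusedSectionVars false
set_option linter.style.haveILetI false
set_option linter.unusedVariables false

noncomputable section

open UpperHalfPlane CongruenceSubgroup Filter ModularCurve
open P2MW.S_ModularForm_heckeT_slash_eq_self_of_mem_Gamma0.ModularForm.HeckeSlashInvariance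
open scoped MatrixGroups Manifold Topology

namespace Fermat.Agent.S29

open Fermat.Agent.Mero Fermat.Agent.S24 FA_S22

variable (K : Type) [Field K] [Algebra ℚ K] [Algebra K ℂ] [Algebra K FA_Mero_Field]
  (ht : FA_S24_Tower K)
variable (ℓ : ℕ) [Fact ℓ.Prime] (N : ℕ) [NeZero N]

/-- **P5 (analytic Hecke), function form.** -/
theorem FA_S29_HG_P5 (hℓN : ¬ ℓ ∣ N) (p : ℕ) (M M' : ℕ) [NeZero M] [NeZero M']
    (χ : ↥(Gamma0 N) → ℂ) (h h' : FA_Mero_Field) (hh : h ≠ 0) (hh' : h' ≠ 0)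
    (hχ : ∀ γ, FA_S29_HK_pull (FA_S22_phi N γ) h = χ γ • h)
    (hgood : ∀ σ : SL(2, ℤ), σ • h ∈ FA_S24_good M)
    (hχ' : ∀ γ, FA_S29_HK_pull (FA_S22_phi N γ) h'
      = (∏ i, χ (FA_S22_tee (FA_S22_phi N) (heckeRep ℓ) (FA_S22_hexT N ℓ hℓN) γ i)) • h')
    (hgood' : ∀ σ : SL(2, ℤ), σ • h' ∈ FA_S24_good M')
    (x x' : FA_S29_MBC_F N)
    (hx : FA_S29_MB_tau ℂ FA_S24_tower_complex N x = h ^ p)
    (hx' : FA_S29_MB_tau ℂ FA_S24_tower_complex N x' = h' ^ p)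
    (f₀ g₀ : ↥(laurentBaseChange K (modularFunctionFieldFull N)))
    (hrel : FA_S29_DS_Rel ℂ p x (FA_S29_DS_iota (L := ℂ) (modularFunctionFieldFull N) f₀))
    (hnorm : FA_S29_MB_tau K ht N g₀
      = ∏ i : OnePoint (ZMod ℓ), FA_S29_HK_pull (heckeRep ℓ i) (FA_S29_MB_tau K ht N f₀)) :
    FA_S29_DS_Rel ℂ p x' (FA_S29_DS_iota (L := ℂ) (modularFunctionFieldFull N) g₀) := by
  set τ := FA_S29_MB_tau ℂ FA_S24_tower_complex N with hτ
  obtain ⟨c, u, hc, hu, hcu⟩ := hrel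
  -- `τ_K f₀ = c • ((τ u)^p * h^p)`
  have h1 : FA_S29_MB_tau K ht N f₀ = c • ((τ u) ^ p * h ^ p) := by
    rw [← FA_S29_MB_tau_iota K ht N f₀, hcu, map_mul, map_mul, map_pow, AlgHom.commutes, ← hτ,
      hx, Algebra.smul_def, mul_assoc]
  have h2 : h' ^ p = (1 : ℂ) • ((1 : FA_Mero_Field) ^ p * h' ^ p) := by
    rw [one_smul, one_pow, one_mul]
  obtain ⟨c'', w, hc'', hw, hwF, hprod⟩ := FA_S29_HG_hecke_rel ℓ N hℓN p M M' χ h h' hh hh'
    hχ hgood hχ' hgood' (FA_S29_MB_tau K ht N f₀) (h' ^ p) c 1 hc one_ne_zero (τ u) 1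
    (FA_S29_MB_mem_F0 ℂ FA_S24_tower_complex N u) ((map_ne_zero _).mpr hu)
    (one_mem _) one_ne_zero h1 h2
  obtain ⟨w₀, hw₀⟩ := FA_S29_MB_surj ℂ FA_S24_tower_complex N hwF
  have hw₀0 : w₀ ≠ 0 := by
    rintro rfl
    rw [map_zero] at hw₀
    exact hw hw₀.symm
  refine ⟨c'', w₀, hc'', hw₀0, ?_⟩
  have hinj : Function.Injective τ := τ.toRingHom.injective
  apply hinj
  have e1 : τ (FA_S29_DS_iota (L := ℂ) (modularFunctionFieldFull N) g₀)
      = FA_S29_MB_tau K ht N g₀ := FA_S29_MB_tau_iota K ht N g₀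
  have e2 : τ w₀ = w := hw₀
  rw [e1, hnorm, hprod, map_mul, map_mul, map_pow, AlgHom.commutes, e2, hx', Algebra.smul_def,
    mul_assoc]

end Fermat.Agent.S29
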