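import Fermat.Agent.S29.EisChar

/-!
# Item 87, leaf L1 (part 2): the limit of `E_χ` at `i∞`, `E_χ ≠ 0`, `σ T^N σ⁻¹ ∈ Γ₀(N)`
-/

set_option autoImplicit false
open UpperHalfPlane EisensteinSeries Filter Topology ModularForm CongruenceSubgroup Matrix
open scoped MatrixGroups Manifold
namespace Fermat.Agent.S29

noncomputable section

theorem FA_S29_EC_conj_T_mem (N : ℕ) (σ : SL(2, ℤ)) :
    σ * ModularGroup.T ^ (N : ℤ) * σ⁻¹ ∈ Gamma0 N := by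
  rw [Gamma0_mem]
  have h : (σ * ModularGroup.T ^ (N : ℤ) * σ⁻¹) 1 0 = -(N : ℤ) * (σ 1 0) ^ 2 := by
    rw [Matrix.SpecialLinearGroup.coe_mul, Matrix.SpecialLinearGroup.coe_mul,
      ModularGroup.coe_T_zpow, Matrix.SpecialLinearGroup.coe_inv, Matrix.adjugate_fin_two]
    rw [Matrix.mul_apply, Fin.sum_univ_two, Matrix.mul_apply, Matrix.mul_apply,
      Fin.sum_univ_two, Fin.sum_univ_two]
    simp only [Matrix.of_apply, Matrix.cons_val_zero, Matrix.cons_val_one, Matrix.cons_val',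
      Matrix.cons_val_fin_one]
    ring
  rw [h]
  push_cast
  simp

section lim
variable {N : ℕ} {χ : ↥(Gamma0 N) →* ℂˣ}

theorem FA_S29_EC_w_zero_one
    (hχ : ∀ γ : ↥(Gamma0 N), ((γ : SL(2, ℤ)) : Matrix (Fin 2) (Fin 2) ℤ).trace ^ 2 = 4 → χ γ = 1) :
    FA_S29_EC_w χ ![0, 1] = 1 := by
  have h := FA_S29_EC_w_row hχ (1 : ↥(Gamma0 N))
  rw [Subgroup.coe_one, FA_S29_EC_row_one, map_one, inv_one, Units.val_one] at h
  exact h

theorem FA_S29_EC_neg_one_mem (N : ℕ) : (-1 : SL(2, ℤ)) ∈ Gamma0 N := by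
  rw [Gamma0_mem]
  simp

theorem FA_S29_EC_w_zero_neg_one
    (hχ : ∀ γ : ↥(Gamma0 N), ((γ : SL(2, ℤ)) : Matrix (Fin 2) (Fin 2) ℤ).trace ^ 2 = 4 → χ γ = 1) :
    FA_S29_EC_w χ ![0, -1] = 1 := by
  have h := FA_S29_EC_w_row hχ (⟨-1, FA_S29_EC_neg_one_mem N⟩ : ↥(Gamma0 N))
  have h2 : χ ⟨-1, FA_S29_EC_neg_one_mem N⟩ = 1 := by
    refine hχ _ (FA_S29_EC_trace_of_row _ ?_)
    simp
  rw [h2, inv_one, Units.val_one] at h
  rw [← h]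
  congr 1

theorem FA_S29_EC_w_eq_zero_of (v : Fin 2 → ℤ) (h0 : v 0 = 0) (h1 : v ≠ ![0, 1])
    (h2 : v ≠ ![0, -1]) : FA_S29_EC_w χ v = 0 := by
  refine FA_S29_EC_w_of_not ?_
  rintro ⟨γ, hγ⟩
  have h3 : (γ : SL(2, ℤ)) 1 0 = 0 := by
    have := congrFun hγ 0
    simp only [FA_S29_EC_row, Matrix.cons_val_zero] at this
    rw [this, h0]
  have h4 : (γ : SL(2, ℤ)) 1 1 = v 1 := by
    have := congrFun hγ 1
    simpa [FA_S29_EC_row] using this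
  rcases FA_S29_EC_diag_of_row _ h3 with ⟨-, h5⟩ | ⟨-, h5⟩
  · apply h1
    ext j
    fin_cases j
    · simpa using h0
    · simp [← h4, h5]
  · apply h2
    ext j
    fin_cases j
    · simpa using h0
    · simp [← h4, h5]

/-- The part of the weight on `v 0 ≠ 0`. -/
def FA_S29_EC_w1 (χ : ↥(Gamma0 N) →* ℂˣ) (v : Fin 2 → ℤ) : ℂ :=
  if v 0 = 0 then 0 else FA_S29_EC_w χ v

theorem FA_S29_EC_w1_norm (hn : ∀ γ : ↥(Gamma0 N), ‖((χ γ : ℂˣ) : ℂ)‖ = 1) (v : Fin 2 → ℤ) :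
    ‖FA_S29_EC_w1 χ v‖ ≤ 1 := by
  rw [FA_S29_EC_w1]
  split_ifs
  · rw [norm_zero]; exact zero_le_one
  · exact FA_S29_EC_w_norm hn v

/-- `E_χ = 2 + (the part with v 0 ≠ 0)` for even `k`. -/
theorem FA_S29_EC_char_eq {k : ℤ} (hk : 3 ≤ k) (hk2 : Even k)
    (hχ : ∀ γ : ↥(Gamma0 N), ((γ : SL(2, ℤ)) : Matrix (Fin 2) (Fin 2) ℤ).trace ^ 2 = 4 → χ γ = 1)
    (hn : ∀ γ : ↥(Gamma0 N), ‖((χ γ : ℂˣ) : ℂ)‖ = 1) (z : ℍ) :
    FA_S29_EC_char χ k z = 2 + FA_S29_EC_E k (FA_S29_EC_w1 χ) z := by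
  have hs := FA_S29_EC_summable hk (FA_S29_EC_w_norm hn) z
  have hs1 := FA_S29_EC_summable hk (FA_S29_EC_w1_norm hn) z
  have hsub : FA_S29_EC_char χ k z - FA_S29_EC_E k (FA_S29_EC_w1 χ) z =
      ∑' v : Fin 2 → ℤ, (FA_S29_EC_w χ v * eisSummand k v z -
        FA_S29_EC_w1 χ v * eisSummand k v z) := by
    rw [FA_S29_EC_char, FA_S29_EC_E, FA_S29_EC_E, ← hs.tsum_sub hs1]
  have hne : (![0, 1] : Fin 2 → ℤ) ≠ ![0, -1] := by
    intro h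
    have := congrFun h 1
    simp at this
  have hsum : (∑' v : Fin 2 → ℤ, (FA_S29_EC_w χ v * eisSummand k v z -
        FA_S29_EC_w1 χ v * eisSummand k v z)) = 2 := by
    rw [tsum_eq_sum (s := {![0, 1], ![0, -1]})]
    · rw [Finset.sum_pair hne]
      have e1 : eisSummand k ![0, 1] z = 1 := by simp [eisSummand]
      have e2 : eisSummand k ![0, -1] z = 1 := by
        simp [eisSummand, hk2.neg_one_zpow]
      have w1a : FA_S29_EC_w1 χ ![0, 1] = 0 := by simp [FA_S29_EC_w1]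
      have w1b : FA_S29_EC_w1 χ ![0, -1] = 0 := by simp [FA_S29_EC_w1]
      rw [e1, e2, w1a, w1b, FA_S29_EC_w_zero_one hχ, FA_S29_EC_w_zero_neg_one hχ]
      norm_num
    · intro v hv
      simp only [Finset.mem_insert, Finset.mem_singleton, not_or] at hv
      by_cases h0 : v 0 = 0
      · rw [FA_S29_EC_w_eq_zero_of v h0 hv.1 hv.2]
        simp [FA_S29_EC_w1, h0]
      · simp [FA_S29_EC_w1, h0]
  rw [hsum] at hsub
  linear_combination hsub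

/-- `E_χ → 2` at `i∞` (even weight `k ≥ 4`). -/
theorem FA_S29_EC_char_tendsto {k : ℤ} (hk : 4 ≤ k) (hk2 : Even k)
    (hχ : ∀ γ : ↥(Gamma0 N), ((γ : SL(2, ℤ)) : Matrix (Fin 2) (Fin 2) ℤ).trace ^ 2 = 4 → χ γ = 1)
    (hn : ∀ γ : ↥(Gamma0 N), ‖((χ γ : ℂˣ) : ℂ)‖ = 1) :
    Tendsto (FA_S29_EC_char χ k) atImInfty (𝓝 2) := by
  have h0 : IsZeroAtImInfty (FA_S29_EC_E k (FA_S29_EC_w1 χ)) :=
    FA_S29_EC_isZeroAtImInfty hk (FA_S29_EC_w1_norm hn)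
      (fun v hv => by simp [FA_S29_EC_w1, hv])
  have h1 : Tendsto (fun z => (2 : ℂ) + FA_S29_EC_E k (FA_S29_EC_w1 χ) z) atImInfty (𝓝 (2 + 0)) :=
    tendsto_const_nhds.add h0
  rw [add_zero] at h1
  refine h1.congr fun z => ?_
  exact (FA_S29_EC_char_eq (by omega) hk2 hχ hn z).symm

/-- `E_χ ≠ 0`. -/
theorem FA_S29_EC_char_ne_zero {k : ℤ} (hk : 4 ≤ k) (hk2 : Even k)
    (hχ : ∀ γ : ↥(Gamma0 N), ((γ : SL(2, ℤ)) : Matrix (Fin 2) (Fin 2) ℤ).trace ^ 2 = 4 → χ γ = 1)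
    (hn : ∀ γ : ↥(Gamma0 N), ‖((χ γ : ℂˣ) : ℂ)‖ = 1) :
    FA_S29_EC_char χ k ≠ 0 := by
  intro h
  have h1 := FA_S29_EC_char_tendsto hk hk2 hχ hn
  rw [h] at h1
  have h2 : Tendsto (0 : ℍ → ℂ) atImInfty (𝓝 0) := tendsto_const_nhds
  have := tendsto_nhds_unique h1 h2
  norm_num at this

end lim

end

end Fermat.Agent.S29
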