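import Mathlib
import Fermat.Agent.S29.EisCharLim
import Fermat.Agent.S24.DQ1
import Fermat.Agent.Lib.Mero6

/-!
# Item 87, BRIDGE L1 → L3*: the meromorphic function `h_χ = E_χ / E_1`

For a unitary character `χ : Γ₀(N) →* ℂˣ` trivial on the elements with `trace² = 4`,
`FA_S29_BR_h χ := E_χ / E_1` (weight `4` Eisenstein series with character, `E_1` the one with
trivial character) is an element of `FA_Mero_Field` with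

* `FA_S29_BR_h_ne_zero` : `h_χ ≠ 0`;
* `FA_S29_BR_h_good` : every translate `σ • h_χ` (`σ ∈ SL(2, ℤ)`) is `N`-good;
* `FA_S29_BR_h_smul` : `γ • h_χ = χ(γ⁻¹) • h_χ` for `γ ∈ Γ₀(N)`
  (the action is `(γ • F)(z) = F(γ⁻¹ z)`, and `h_χ(γ z) = χ(γ) h_χ(z)`).
-/

set_option autoImplicit false

noncomputable section

open UpperHalfPlane ModularForm CongruenceSubgroup Matrix
open scoped MatrixGroups Manifold

namespace Fermat.Agent.S29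

open Fermat.Agent.Mero Fermat.Agent.S24

/-- periodicity on `ℍ` gives periodicity of `f ∘ ofComplex` -/
theorem FA_S29_BR_periodic (f : ℍ → ℂ) (N : ℕ)
    (h : ∀ z : ℍ, f ((((N : ℤ) : ℝ)) +ᵥ z) = f z) :
    Function.Periodic (f ∘ ofComplex) (N : ℝ) := by
  intro w
  by_cases hw : 0 < w.im
  · have hw' : 0 < (w + ((N : ℝ) : ℂ)).im := by simpa using hw
    simp only [Function.comp_apply]
    rw [ofComplex_apply_of_im_pos hw, ofComplex_apply_of_im_pos hw', ← h ⟨w, hw⟩]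
    congr 1
    apply UpperHalfPlane.ext
    rw [UpperHalfPlane.coe_vadd]
    show w + ((N : ℝ) : ℂ) = (((N : ℤ) : ℝ) : ℂ) + w
    push_cast
    ring
  · have hw1 : w.im ≤ 0 := not_lt.mp hw
    have hw2 : (w + ((N : ℝ) : ℂ)).im ≤ 0 := by simpa using hw1
    simp only [Function.comp_apply]
    rw [ofComplex_apply_eq_of_im_nonpos hw2 hw1]

section

variable {N : ℕ} (χ : ↥(Gamma0 N) →* ℂˣ)

/-- the hypotheses on the character -/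
structure FA_S29_BR_Adm : Prop where
  norm : ∀ γ : ↥(Gamma0 N), ‖((χ γ : ℂˣ) : ℂ)‖ = 1
  par : ∀ γ : ↥(Gamma0 N), ((γ : SL(2, ℤ)) : Matrix (Fin 2) (Fin 2) ℤ).trace ^ 2 = 4 → χ γ = 1

theorem FA_S29_BR_adm_one : FA_S29_BR_Adm (1 : ↥(Gamma0 N) →* ℂˣ) :=
  ⟨fun _ => by simp, fun _ _ => rfl⟩

variable {χ}

theorem FA_S29_BR_mdiff (hχ : FA_S29_BR_Adm χ) : MDiff (FA_S29_EC_char χ 4) :=
  FA_S29_EC_char_mdifferentiable (by norm_num) hχ.norm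

/-- every slash of `E_χ` lies in `𝓗⁺_N` -/
theorem FA_S29_BR_slash_mem (hχ : FA_S29_BR_Adm χ) (σ : SL(2, ℤ)) :
    (FA_S29_EC_char χ 4) ∣[(4 : ℤ)] σ ∈ FA_S24_HolPlus N := by
  refine ⟨?_, ?_, ?_⟩
  · rw [ModularForm.SL_slash]
    exact (FA_S29_BR_mdiff hχ).slash 4 _
  · exact FA_S29_BR_periodic _ N
      (FA_S29_EC_char_periodic 4 hχ.par σ (FA_S29_EC_conj_T_mem N σ))
  · exact FA_S29_EC_char_isBoundedAtImInfty (by norm_num) hχ.norm σ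

variable (χ) in
open Classical in
/-- `E_χ` as an element of `FA_Mero_Hol` (junk `0` if `χ` is not admissible). -/
def FA_S29_BR_num : FA_Mero_Hol :=
  if h : FA_S29_BR_Adm χ then ⟨FA_S29_EC_char χ 4, FA_S29_BR_mdiff h⟩ else 0

theorem FA_S29_BR_num_coe (hχ : FA_S29_BR_Adm χ) :
    ((FA_S29_BR_num χ : FA_Mero_Hol) : ℍ → ℂ) = FA_S29_EC_char χ 4 := by
  rw [FA_S29_BR_num, dif_pos hχ]

theorem FA_S29_BR_num_ne_zero (hχ : FA_S29_BR_Adm χ) : FA_S29_BR_num χ ≠ 0 := by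
  intro h
  have h1 := congrArg (fun f : FA_Mero_Hol => (f : ℍ → ℂ)) h
  simp only [FA_S29_BR_num_coe hχ] at h1
  exact FA_S29_EC_char_ne_zero (le_refl 4) (by decide) hχ.par hχ.norm h1

/-- `(E_χ ∣[4] σ⁻¹)(z) = (σ • E_χ)(z) · denom(σ⁻¹, z)^(-4)` -/
theorem FA_S29_BR_slash_apply (hχ : FA_S29_BR_Adm χ) (σ : SL(2, ℤ)) (z : ℍ) :
    ((FA_S29_EC_char χ 4) ∣[(4 : ℤ)] (σ⁻¹ : SL(2, ℤ))) z =
      ((σ • FA_S29_BR_num χ : FA_Mero_Hol) : ℍ → ℂ) z *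
        denom (σ⁻¹ : SL(2, ℤ)) z ^ (-4 : ℤ) := by
  rw [ModularForm.SL_slash_apply, FA_Mero_Hol_smul_apply, FA_S29_BR_num_coe hχ]

theorem FA_S29_BR_denom_ne (σ : SL(2, ℤ)) (z : ℍ) :
    denom (σ⁻¹ : SL(2, ℤ)) z ^ (-4 : ℤ) ≠ 0 :=
  zpow_ne_zero _ (denom_ne_zero _ _)

variable (N) in
/-- the denominator `E_1` -/
def FA_S29_BR_den : FA_Mero_Hol := FA_S29_BR_num (1 : ↥(Gamma0 N) →* ℂˣ)

variable (χ) in
/-- **The function `h_χ = E_χ / E_1`.** -/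
def FA_S29_BR_h : FA_Mero_Field :=
  algebraMap FA_Mero_Hol FA_Mero_Field (FA_S29_BR_num χ) /
    algebraMap FA_Mero_Hol FA_Mero_Field (FA_S29_BR_den N)

theorem FA_S29_BR_h_ne_zero (hχ : FA_S29_BR_Adm χ) : FA_S29_BR_h χ ≠ 0 :=
  div_ne_zero (FA_Mero_algebraMap_ne_zero (FA_S29_BR_num_ne_zero hχ))
    (FA_Mero_algebraMap_ne_zero (FA_S29_BR_num_ne_zero FA_S29_BR_adm_one))

/-- every translate of `h_χ` is `N`-good -/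
theorem FA_S29_BR_h_good (hχ : FA_S29_BR_Adm χ) (σ : SL(2, ℤ)) :
    σ • FA_S29_BR_h χ ∈ FA_S24_good N := by
  have h1 := FA_S29_BR_adm_one (N := N)
  set A : FA_S24_HolPlus N := ⟨_, FA_S29_BR_slash_mem hχ (σ⁻¹ : SL(2, ℤ))⟩ with hA
  set B : FA_S24_HolPlus N := ⟨_, FA_S29_BR_slash_mem h1 (σ⁻¹ : SL(2, ℤ))⟩ with hB
  have hb0 : σ • FA_S29_BR_den N ≠ 0 :=
    FA_Mero_smul_ne_zero_hol σ (FA_S29_BR_num_ne_zero h1)
  have hB0 : FA_S24_toHol N B ≠ 0 := by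
    intro h
    apply hb0
    apply Subtype.ext
    funext z
    have h2 := congrArg (fun f : FA_Mero_Hol => (f : ℍ → ℂ) z) h
    have h3 : ((FA_S29_EC_char (1 : ↥(Gamma0 N) →* ℂˣ) 4) ∣[(4 : ℤ)] (σ⁻¹ : SL(2, ℤ))) z = 0 :=
      h2
    show ((σ • FA_S29_BR_num (1 : ↥(Gamma0 N) →* ℂˣ) : FA_Mero_Hol) : ℍ → ℂ) z = 0
    rw [FA_S29_BR_slash_apply h1] at h3
    exact (mul_eq_zero.mp h3).resolve_right (FA_S29_BR_denom_ne σ z)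
  have hmul : (σ • FA_S29_BR_num χ) * FA_S24_toHol N B =
      FA_S24_toHol N A * (σ • FA_S29_BR_den N) := by
    apply Subtype.ext
    funext z
    show ((σ • FA_S29_BR_num χ : FA_Mero_Hol) : ℍ → ℂ) z *
        ((FA_S29_EC_char (1 : ↥(Gamma0 N) →* ℂˣ) 4) ∣[(4 : ℤ)] (σ⁻¹ : SL(2, ℤ))) z =
      ((FA_S29_EC_char χ 4) ∣[(4 : ℤ)] (σ⁻¹ : SL(2, ℤ))) z *
        ((σ • FA_S29_BR_num (1 : ↥(Gamma0 N) →* ℂˣ) : FA_Mero_Hol) : ℍ → ℂ) z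
    rw [FA_S29_BR_slash_apply hχ, FA_S29_BR_slash_apply h1]
    ring
  have heq : σ • FA_S29_BR_h χ =
      algebraMap FA_Mero_Hol FA_Mero_Field (FA_S24_toHol N A) /
        algebraMap FA_Mero_Hol FA_Mero_Field (FA_S24_toHol N B) := by
    rw [FA_S29_BR_h, FA_Mero_smul_div, FA_Mero_smul_algebraMap, FA_Mero_smul_algebraMap,
      div_eq_div_iff (FA_Mero_algebraMap_ne_zero hb0) (FA_Mero_algebraMap_ne_zero hB0),
      ← map_mul, ← map_mul, hmul]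
  rw [heq]
  exact (FA_S24_good N).div_mem (FA_S24_hol_mem_good A) (FA_S24_hol_mem_good B)

/-- the transformation law: `γ • h_χ = χ(γ⁻¹) • h_χ` for `γ ∈ Γ₀(N)` -/
theorem FA_S29_BR_h_smul (hχ : FA_S29_BR_Adm χ) (γ : ↥(Gamma0 N)) :
    (γ : SL(2, ℤ)) • FA_S29_BR_h χ = ((χ γ⁻¹ : ℂˣ) : ℂ) • FA_S29_BR_h χ := by
  have h1 := FA_S29_BR_adm_one (N := N)
  have hb0 : (γ : SL(2, ℤ)) • FA_S29_BR_den N ≠ 0 :=
    FA_Mero_smul_ne_zero_hol _ (FA_S29_BR_num_ne_zero h1)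
  have hd0 : FA_S29_BR_den N ≠ 0 := FA_S29_BR_num_ne_zero h1
  have hmul : ((γ : SL(2, ℤ)) • FA_S29_BR_num χ) * FA_S29_BR_den N =
      (((χ γ⁻¹ : ℂˣ) : ℂ) • FA_S29_BR_num χ) * ((γ : SL(2, ℤ)) • FA_S29_BR_den N) := by
    apply Subtype.ext
    funext z
    show (((γ : SL(2, ℤ)) • FA_S29_BR_num χ : FA_Mero_Hol) : ℍ → ℂ) z *
        ((FA_S29_BR_num (1 : ↥(Gamma0 N) →* ℂˣ) : FA_Mero_Hol) : ℍ → ℂ) z =
      (((χ γ⁻¹ : ℂˣ) : ℂ) * ((FA_S29_BR_num χ : FA_Mero_Hol) : ℍ → ℂ) z) *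
        (((γ : SL(2, ℤ)) • FA_S29_BR_num (1 : ↥(Gamma0 N) →* ℂˣ) : FA_Mero_Hol) : ℍ → ℂ) z
    have e1 := congrFun (FA_S29_EC_char_slash 4 hχ.par γ⁻¹) z
    have e2 := congrFun (FA_S29_EC_char_slash 4 h1.par γ⁻¹) z
    rw [Subgroup.coe_inv, FA_S29_BR_slash_apply hχ] at e1
    rw [Subgroup.coe_inv, FA_S29_BR_slash_apply h1] at e2
    simp only [Pi.smul_apply, smul_eq_mul, MonoidHom.one_apply, Units.val_one, one_mul] at e1 e2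
    rw [← FA_S29_BR_num_coe hχ] at e1
    rw [← FA_S29_BR_num_coe h1] at e2
    have hd := FA_S29_BR_denom_ne (γ : SL(2, ℤ)) z
    apply mul_right_cancel₀ hd
    calc (((γ : SL(2, ℤ)) • FA_S29_BR_num χ : FA_Mero_Hol) : ℍ → ℂ) z *
          ((FA_S29_BR_num (1 : ↥(Gamma0 N) →* ℂˣ) : FA_Mero_Hol) : ℍ → ℂ) z *
          denom ((γ : SL(2, ℤ))⁻¹ : SL(2, ℤ)) z ^ (-4 : ℤ)
        = ((((γ : SL(2, ℤ)) • FA_S29_BR_num χ : FA_Mero_Hol) : ℍ → ℂ) z *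
            denom ((γ : SL(2, ℤ))⁻¹ : SL(2, ℤ)) z ^ (-4 : ℤ)) *
          ((FA_S29_BR_num (1 : ↥(Gamma0 N) →* ℂˣ) : FA_Mero_Hol) : ℍ → ℂ) z := by ring
      _ = (((χ γ⁻¹ : ℂˣ) : ℂ) * ((FA_S29_BR_num χ : FA_Mero_Hol) : ℍ → ℂ) z) *
          ((((γ : SL(2, ℤ)) • FA_S29_BR_num (1 : ↥(Gamma0 N) →* ℂˣ) : FA_Mero_Hol) : ℍ → ℂ) z *
            denom ((γ : SL(2, ℤ))⁻¹ : SL(2, ℤ)) z ^ (-4 : ℤ)) := by rw [e1, e2]
      _ = _ := by ring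
  rw [FA_S29_BR_h, FA_Mero_smul_div, FA_Mero_smul_algebraMap, FA_Mero_smul_algebraMap,
    Algebra.smul_def, ← mul_div_assoc,
    div_eq_div_iff (FA_Mero_algebraMap_ne_zero hb0) (FA_Mero_algebraMap_ne_zero hd0)]
  have := congrArg (algebraMap FA_Mero_Hol FA_Mero_Field) hmul
  rw [map_mul, map_mul, Algebra.smul_def, map_mul] at this
  rw [this, ← IsScalarTower.algebraMap_apply]

/-- **BRIDGE** (existence form). -/
theorem FA_S29_BR_exists (N : ℕ) [NeZero N] (χ : ↥(Gamma0 N) →* ℂˣ)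
    (hn : ∀ γ : ↥(Gamma0 N), ‖((χ γ : ℂˣ) : ℂ)‖ = 1)
    (hpar : ∀ γ : ↥(Gamma0 N),
      ((γ : SL(2, ℤ)) : Matrix (Fin 2) (Fin 2) ℤ).trace ^ 2 = 4 → χ γ = 1) :
    ∃ h : FA_Mero_Field, h ≠ 0 ∧ (∀ σ : SL(2, ℤ), σ • h ∈ FA_S24_good N) ∧
      (∀ γ : ↥(Gamma0 N), (γ : SL(2, ℤ)) • h = ((χ γ⁻¹ : ℂˣ) : ℂ) • h) :=
  ⟨FA_S29_BR_h χ, FA_S29_BR_h_ne_zero ⟨hn, hpar⟩, FA_S29_BR_h_good ⟨hn, hpar⟩,
    FA_S29_BR_h_smul ⟨hn, hpar⟩⟩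

end

end Fermat.Agent.S29

end
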