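import Mathlib
import Fermat.Prelude.Def_ModularCurve_PeriodMap
import Fermat.Agent.S29.Bridge

/-!
# Item 87, piece P3: the character `χ_ψ = ζ_p ^ ψ` of a parabolic homomorphism

For `ψ : Γ₀(N) → ℤ` (a homomorphism), `FA_S29_MOD_chi p ψ γ = ζ_p ^ ψ(γ)`, `ζ_p = exp(2πi/p)`.

* `FA_S29_MOD_chi_add` : `χ_{ψ + ψ'} = χ_ψ * χ_ψ'`;
* `FA_S29_MOD_chi_pow` : `χ_ψ(γ) ^ p = 1`;
* `FA_S29_MOD_chi_norm`, `FA_S29_MOD_chi_adm` : `χ_ψ` is admissible for the bridge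
  (`FA_S29_BR_Adm`) if `ψ` is parabolic;
* `FA_S29_MOD_chi_finOrder` : `χ_ψ` is trivial on the elements of finite order;
* `FA_S29_MOD_chi_eq_one` : if `χ_ψ = 1` then `ψ = p • ψ'` with `ψ'` parabolic.
-/

set_option autoImplicit false

noncomputable section

open CongruenceSubgroup ModularCurve.Period
open scoped MatrixGroups

namespace Fermat.Agent.S29

variable {N : ℕ}

/-- The root of unity `ζ_p = exp(2πi/p)`, as a unit. -/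
def FA_S29_MOD_zeta (p : ℕ) : ℂˣ :=
  Units.mk0 (Complex.exp (2 * Real.pi * Complex.I / p)) (Complex.exp_ne_zero _)

theorem FA_S29_MOD_zeta_coe (p : ℕ) :
    ((FA_S29_MOD_zeta p : ℂˣ) : ℂ) = Complex.exp (2 * Real.pi * Complex.I / p) := rfl

theorem FA_S29_MOD_zeta_prim {p : ℕ} (hp : p ≠ 0) :
    IsPrimitiveRoot (FA_S29_MOD_zeta p) p := by
  have h := Complex.isPrimitiveRoot_exp p hp
  rw [← FA_S29_MOD_zeta_coe] at h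
  exact IsPrimitiveRoot.coe_units_iff.mp h

theorem FA_S29_MOD_zeta_pow (p : ℕ) : FA_S29_MOD_zeta p ^ p = 1 := by
  rcases Nat.eq_zero_or_pos p with rfl | hp
  · rw [pow_zero]
  · exact (FA_S29_MOD_zeta_prim hp.ne').pow_eq_one

theorem FA_S29_MOD_zeta_norm (p : ℕ) : ‖((FA_S29_MOD_zeta p : ℂˣ) : ℂ)‖ = 1 := by
  rcases Nat.eq_zero_or_pos p with rfl | hp
  · rw [FA_S29_MOD_zeta_coe]
    simp
  · have h := Complex.isPrimitiveRoot_exp p hp.ne'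
    rw [FA_S29_MOD_zeta_coe]
    exact h.norm'_eq_one hp.ne'

/-- **The character `χ_ψ = ζ_p ^ ψ`.** -/
def FA_S29_MOD_chi (p : ℕ) (ψ : Additive ↥(Gamma0 N) →+ ℤ) : ↥(Gamma0 N) →* ℂˣ where
  toFun γ := FA_S29_MOD_zeta p ^ (ψ (Additive.ofMul γ))
  map_one' := by
    rw [ofMul_one, map_zero, zpow_zero]
  map_mul' γ δ := by
    rw [ofMul_mul, map_add, zpow_add]

theorem FA_S29_MOD_chi_apply (p : ℕ) (ψ : Additive ↥(Gamma0 N) →+ ℤ) (γ : ↥(Gamma0 N)) :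
    FA_S29_MOD_chi p ψ γ = FA_S29_MOD_zeta p ^ (ψ (Additive.ofMul γ)) := rfl

theorem FA_S29_MOD_chi_add (p : ℕ) (ψ ψ' : Additive ↥(Gamma0 N) →+ ℤ) :
    FA_S29_MOD_chi p (ψ + ψ') = FA_S29_MOD_chi p ψ * FA_S29_MOD_chi p ψ' := by
  ext γ
  rw [MonoidHom.mul_apply, FA_S29_MOD_chi_apply, FA_S29_MOD_chi_apply, FA_S29_MOD_chi_apply,
    AddMonoidHom.add_apply, zpow_add]

theorem FA_S29_MOD_chi_zero (p : ℕ) :
    FA_S29_MOD_chi p (0 : Additive ↥(Gamma0 N) →+ ℤ) = 1 := by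
  ext γ
  rw [FA_S29_MOD_chi_apply, AddMonoidHom.zero_apply, zpow_zero, MonoidHom.one_apply]

theorem FA_S29_MOD_chi_pow (p : ℕ) (ψ : Additive ↥(Gamma0 N) →+ ℤ) (γ : ↥(Gamma0 N)) :
    FA_S29_MOD_chi p ψ γ ^ p = 1 := by
  rw [FA_S29_MOD_chi_apply, ← zpow_natCast, ← zpow_mul, mul_comm, zpow_mul, zpow_natCast,
    FA_S29_MOD_zeta_pow, one_zpow]

theorem FA_S29_MOD_chi_norm (p : ℕ) (ψ : Additive ↥(Gamma0 N) →+ ℤ) (γ : ↥(Gamma0 N)) :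
    ‖((FA_S29_MOD_chi p ψ γ : ℂˣ) : ℂ)‖ = 1 := by
  rw [FA_S29_MOD_chi_apply, Units.val_zpow_eq_zpow_val, norm_zpow, FA_S29_MOD_zeta_norm,
    one_zpow]

/-- `χ_ψ` is admissible for the bridge. -/
theorem FA_S29_MOD_chi_adm (p : ℕ) (ψ : Additive ↥(Gamma0 N) →+ ℤ)
    (hψ : IsParabolicHom (Gamma0 N) ψ) : FA_S29_BR_Adm (FA_S29_MOD_chi p ψ) where
  norm := FA_S29_MOD_chi_norm p ψ
  par := fun γ hγ => by rw [FA_S29_MOD_chi_apply, hψ γ hγ, zpow_zero]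

/-- A homomorphism to `ℤ` vanishes on the elements of finite order. -/
theorem FA_S29_MOD_hom_finOrder (ψ : Additive ↥(Gamma0 N) →+ ℤ) (γ : ↥(Gamma0 N))
    (hγ : IsOfFinOrder γ) : ψ (Additive.ofMul γ) = 0 := by
  obtain ⟨n, hn, hpow⟩ := isOfFinOrder_iff_pow_eq_one.mp hγ
  have h1 : ψ (Additive.ofMul (γ ^ n)) = n • ψ (Additive.ofMul γ) := by
    rw [ofMul_pow, map_nsmul]
  rw [hpow, ofMul_one, map_zero] at h1
  have h2 : (n : ℤ) * ψ (Additive.ofMul γ) = 0 := by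
    rw [← nsmul_eq_mul]
    exact h1.symm
  rcases mul_eq_zero.mp h2 with h3 | h3
  · exact absurd (Int.natCast_eq_zero.mp h3) hn.ne'
  · exact h3

/-- `χ_ψ` is trivial on the elements of finite order. -/
theorem FA_S29_MOD_chi_finOrder (p : ℕ) (ψ : Additive ↥(Gamma0 N) →+ ℤ) (γ : ↥(Gamma0 N))
    (hγ : IsOfFinOrder γ) : FA_S29_MOD_chi p ψ γ = 1 := by
  rw [FA_S29_MOD_chi_apply, FA_S29_MOD_hom_finOrder ψ γ hγ, zpow_zero]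

/-- If `χ_ψ(γ) = 1` then `p ∣ ψ(γ)`. -/
theorem FA_S29_MOD_dvd_of_chi_eq_one {p : ℕ} (hp : p ≠ 0) (ψ : Additive ↥(Gamma0 N) →+ ℤ)
    (γ : ↥(Gamma0 N)) (h : FA_S29_MOD_chi p ψ γ = 1) : (p : ℤ) ∣ ψ (Additive.ofMul γ) := by
  rw [FA_S29_MOD_chi_apply] at h
  exact ((FA_S29_MOD_zeta_prim hp).zpow_eq_one_iff_dvd _).mp h

/-- **Injectivity.**  If `χ_ψ = 1` then `ψ = p • ψ'` with `ψ'` parabolic. -/
theorem FA_S29_MOD_chi_eq_one {p : ℕ} (hp : p ≠ 0)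
    (ψ : ↥(parabolicHoms ℤ (Gamma0 N) ℤ))
    (h : ∀ γ : ↥(Gamma0 N), FA_S29_MOD_chi p (ψ : Additive ↥(Gamma0 N) →+ ℤ) γ = 1) :
    ∃ ψ' : ↥(parabolicHoms ℤ (Gamma0 N) ℤ), ψ = (p : ℤ) • ψ' := by
  have hpZ : (p : ℤ) ≠ 0 := Int.natCast_ne_zero.mpr hp
  have hdvd : ∀ x : Additive ↥(Gamma0 N),
      (p : ℤ) ∣ (ψ : Additive ↥(Gamma0 N) →+ ℤ) x := fun x =>
    FA_S29_MOD_dvd_of_chi_eq_one hp _ (Additive.toMul x) (h (Additive.toMul x))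
  let ψ₀ : Additive ↥(Gamma0 N) →+ ℤ :=
    { toFun := fun x => (ψ : Additive ↥(Gamma0 N) →+ ℤ) x / (p : ℤ)
      map_zero' := by rw [map_zero, Int.zero_ediv]
      map_add' := fun x y => by
        rw [map_add, Int.add_ediv_of_dvd_left (hdvd x)] }
  have hψ₀ : ψ₀ ∈ parabolicHoms ℤ (Gamma0 N) ℤ := by
    intro γ hγ
    show (ψ : Additive ↥(Gamma0 N) →+ ℤ) (Additive.ofMul γ) / (p : ℤ) = 0
    rw [ψ.2 γ hγ, Int.zero_ediv]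
  refine ⟨⟨ψ₀, hψ₀⟩, ?_⟩
  apply Subtype.ext
  refine AddMonoidHom.ext fun x => ?_
  show (ψ : Additive ↥(Gamma0 N) →+ ℤ) x
    = (p : ℤ) • ((ψ : Additive ↥(Gamma0 N) →+ ℤ) x / (p : ℤ))
  rw [smul_eq_mul, Int.mul_ediv_cancel' (hdvd x)]

end Fermat.Agent.S29

end
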