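import Fermat.Agent.S29.HeckeP5
import Fermat.Agent.S29.HeckeNorm
import Fermat.Agent.S29.ModChi
import Fermat.Agent.S29.EigLat

/-!
# S29, assembly piece P5, final form in `ψ`

For `ψ ∈ H = parabolicHoms ℤ (Gamma0 N) ℤ` let `χ_ψ = FA_S29_MOD_chi p ψ`,
`h_ψ = FA_S29_BR_h χ_ψ`.  If `x, x' ∈ F_ℂ` have `τ x = h_ψ ^ p`, `τ x' = h_{T_ℓ ψ} ^ p`
(`T_ℓ = FA_S29_EIG_TH N ℓ`, `ℓ ∤ N`) and `f₀ ∈ F_Q̄` satisfies `Rel x (ι f₀)`, then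
`Rel x' (ι (Norm_α (β f₀)))`.

* `FA_S29_HG_BR_pull` : `h_χ ∘ γ = χ(γ) h_χ` in the pull-back convention;
* `FA_S29_HG_chi_TH` : `χ_{T_ℓ ψ}(γ) = ∏_i χ_ψ(t γ i)`;
* `FA_S29_HG_P5_psi` : the statement above.
-/

set_option autoImplicit false
set_option linter.unusedSectionVars false
set_option linter.style.haveILetI false
set_option linter.unusedVariables false

noncomputable section

open UpperHalfPlane CongruenceSubgroup Filter ModularCurve ModularCurve.Period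
open P2MW.S_ModularForm_heckeT_slash_eq_self_of_mem_Gamma0.ModularForm.HeckeSlashInvariance
open scoped MatrixGroups Manifold Topology

namespace Fermat.Agent.S29

open Fermat.Agent.Mero Fermat.Agent.S24 FA_S22 FA_S16 Fermat.Agent.S37

local notation "Qb" => AlgebraicClosure ℚ

theorem FA_S29_HG_zpow_sum {G ι : Type*} [Group G] (u : G) (s : Finset ι) (n : ι → ℤ)
    (hcomm : True) : u ^ (∑ i ∈ s, n i) = s.noncommProd (fun i => u ^ n i)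
      (fun a _ b _ _ => (Commute.refl u).zpow_zpow _ _) := by
  classical
  induction s using Finset.induction_on with
  | empty => simp
  | insert a s ha ih =>
    rw [Finset.sum_insert ha, zpow_add, Finset.noncommProd_insert_of_notMem _ _ _ _ ha, ih]

variable (N : ℕ) [NeZero N]

/-- `h_χ ∘ γ = χ(γ) h_χ` in the pull-back convention. -/
theorem FA_S29_HG_BR_pull (χ : ↥(Gamma0 N) →* ℂˣ) (hχ : FA_S29_BR_Adm χ) (γ : ↥(Gamma0 N)) :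
    FA_S29_HK_pull (FA_S22_phi N γ) (FA_S29_BR_h χ) = ((χ γ : ℂˣ) : ℂ) • FA_S29_BR_h χ := by
  rw [FA_S29_HK_pull_phi]
  have h := FA_S29_BR_h_smul hχ γ⁻¹
  rw [inv_inv] at h
  exact h

variable (ℓ : ℕ) [Fact ℓ.Prime]

/-- `χ_{T_ℓ ψ}(γ) = ∏_i χ_ψ(t γ i)`. -/
theorem FA_S29_HG_chi_TH (p : ℕ) (hℓN : ¬ ℓ ∣ N) (ψ : ↥(parabolicHoms ℤ (Gamma0 N) ℤ))
    (γ : ↥(Gamma0 N)) :
    ((FA_S29_MOD_chi p
        (FA_S29_EIG_TH N ⟨ℓ, Fact.out⟩ ψ : Additive ↥(Gamma0 N) →+ ℤ) γ : ℂˣ) : ℂ)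
      = ∏ i, ((FA_S29_MOD_chi p (ψ : Additive ↥(Gamma0 N) →+ ℤ)
          (FA_S22_tee (FA_S22_phi N) (heckeRep ℓ) (FA_S22_hexT N ℓ hℓN) γ i) : ℂˣ) : ℂ) := by
  rw [FA_S29_MOD_chi_apply, FA_S29_EIG_TH_apply]
  unfold FA_S16_LS_hecke
  rw [dif_neg (show ¬ ((⟨ℓ, Fact.out⟩ : Nat.Primes) : ℕ) ∣ N from hℓN)]
  show ((FA_S29_MOD_zeta p ^ (∑ i, FA_S16_LS_triv ℤ _
    ((ψ : Additive ↥(Gamma0 N) →+ ℤ) (Additive.ofMul _))) : ℂˣ) : ℂ) = _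
  rw [← Units.coe_prod]
  congr 1
  rw [FA_S29_HG_zpow_sum _ _ _ trivial, Finset.noncommProd_eq_prod]
  rfl

variable [Algebra Qb ℂ] [Algebra Qb FA_Mero_Field] (ht : FA_S24_Tower Qb)

include ht in
/-- **P5, final form in `ψ`.** -/
theorem FA_S29_HG_P5_psi (hℓN : ¬ ℓ ∣ N) (p : ℕ) (ψ : ↥(parabolicHoms ℤ (Gamma0 N) ℤ))
    (x x' : FA_S29_MBC_F N)
    (hx : FA_S29_MB_tau ℂ FA_S24_tower_complex N x
      = (FA_S29_BR_h (FA_S29_MOD_chi p (ψ : Additive ↥(Gamma0 N) →+ ℤ))) ^ p)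
    (hx' : FA_S29_MB_tau ℂ FA_S24_tower_complex N x'
      = (FA_S29_BR_h (FA_S29_MOD_chi p
          (FA_S29_EIG_TH N ⟨ℓ, Fact.out⟩ ψ : Additive ↥(Gamma0 N) →+ ℤ))) ^ p)
    (f₀ : ↥(modularFunctionFieldBar N))
    (hrel : FA_S29_DS_Rel ℂ p x
      (FA_S29_DS_iota (L := ℂ) (modularFunctionFieldFull N) f₀)) :
    haveI : NeZero ℓ := ⟨(Fact.out : ℓ.Prime).ne_zero⟩
    FA_S29_DS_Rel ℂ p x'
      (FA_S29_DS_iota (L := ℂ) (modularFunctionFieldFull N) (FA_S37_K5_norm N ℓ f₀)) := by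
  haveI : NeZero ℓ := ⟨(Fact.out : ℓ.Prime).ne_zero⟩
  have hadm := FA_S29_MOD_chi_adm p (ψ : Additive ↥(Gamma0 N) →+ ℤ) ψ.2
  have hadm' := FA_S29_MOD_chi_adm p
    (FA_S29_EIG_TH N ⟨ℓ, Fact.out⟩ ψ : Additive ↥(Gamma0 N) →+ ℤ)
    (FA_S29_EIG_TH N ⟨ℓ, Fact.out⟩ ψ).2
  refine FA_S29_HG_P5 Qb ht ℓ N hℓN p N N
    (fun γ => ((FA_S29_MOD_chi p (ψ : Additive ↥(Gamma0 N) →+ ℤ) γ : ℂˣ) : ℂ))
    _ _ (FA_S29_BR_h_ne_zero hadm) (FA_S29_BR_h_ne_zero hadm')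
    (fun γ => FA_S29_HG_BR_pull N _ hadm γ) (FA_S29_BR_h_good hadm) ?_
    (FA_S29_BR_h_good hadm') x x' hx hx' f₀ (FA_S37_K5_norm N ℓ f₀) hrel
    (FA_S29_HK_norm' ht N ℓ hℓN f₀)
  intro γ
  rw [FA_S29_HG_BR_pull N _ hadm' γ, FA_S29_HG_chi_TH N ℓ p hℓN ψ γ]

end Fermat.Agent.S29
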