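import Fermat.Agent.S29.ModMain
import Fermat.Agent.S29.ModChi
import Fermat.Agent.S29.DescentCan

/-!
# Item 87, piece P3 (a): `h_χ ^ p` is a Selmer element of `F₀`

* `FA_S29_MOD_orbit N h` : the family generated by the `SL(2, ℤ)`-translates of `h`
  (and the generators of S24), `FA_S29_MOD_orbit_fam`;
* `FA_S29_MOD_sel_of` : for `h ≠ 0` with good translates and `γ • h = χ(γ⁻¹) h` on `Γ₀(N)`, where
  `χ ^ p = 1` and `χ` is trivial on the elements of finite order and on the elements with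
  `trace² = 4`: `h ^ p ∈ F₀` and `p ∣ ord_v (h ^ p)` at all places `v` of `F₀`;
* `FA_S29_MOD_sel_chi` : the case `h = FA_S29_BR_h (χ_ψ)`, `ψ` a parabolic homomorphism.
-/

set_option autoImplicit false
set_option linter.style.haveILetI false

noncomputable section

open UpperHalfPlane Complex MatrixGroups CongruenceSubgroup ModularCurve.Period
open scoped Manifold Topology

namespace Fermat.Agent.S29

open Fermat.Agent.Mero Fermat.Agent.S24 AlgebraicCurve IntermediateField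

/-- The family generated by `h`. -/
def FA_S29_MOD_orbit (N : ℕ) (h : FA_Mero_Field) : Set FA_Mero_Field :=
  FA_S24_gens FA_S29_MOD_rho FA_S24_g N ∪ Set.range (fun γ : SL(2, ℤ) => γ • h)

theorem FA_S29_MOD_mem_orbit (N : ℕ) (h : FA_Mero_Field) : h ∈ FA_S29_MOD_orbit N h :=
  Or.inr ⟨1, one_smul _ h⟩

/-- The family generated by a function with good translates, fixed by a subgroup of finite
index. -/
theorem FA_S29_MOD_orbit_fam (N : ℕ) [NeZero N] (h : FA_Mero_Field)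
    (hgood : ∀ σ : SL(2, ℤ), σ • h ∈ FA_S24_good N)
    (Γ' : Subgroup SL(2, ℤ)) (hfi : Γ'.FiniteIndex) (hfix : ∀ γ ∈ Γ', γ • h = h) :
    FA_S29_MOD_Fam N (FA_S29_MOD_orbit N h) where
  gens := Set.subset_union_left
  stable := by
    rintro γ s (hs | ⟨σ, rfl⟩)
    · exact Or.inl (FA_S24_map_gens FA_S29_MOD_rho FA_S24_g N γ ⟨s, hs, rfl⟩)
    · exact Or.inr ⟨γ * σ, (mul_smul γ σ h)⟩
  fin := by
    haveI := hfi
    haveI : (CongruenceSubgroup.Gamma N).Normal := CongruenceSubgroup.Gamma_normal N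
    refine ⟨Γ'.normalCore ⊓ CongruenceSubgroup.Gamma N, inferInstance, inferInstance, ?_⟩
    rintro γ ⟨hγ1, hγ2⟩ s (hs | ⟨σ, rfl⟩)
    · have h1 := (FA_S29_MOD_props N).Gamma_le_ker hγ2
      rw [MonoidHom.mem_ker] at h1
      have hsE : s ∈ FA_S24_E FA_S29_MOD_rho FA_S24_g N := subset_adjoin ℂ _ hs
      have h2 := congrArg (fun τ : FA_S24_E FA_S29_MOD_rho FA_S24_g N ≃ₐ[ℂ]
        FA_S24_E FA_S29_MOD_rho FA_S24_g N => ((τ ⟨s, hsE⟩ :
          FA_S24_E FA_S29_MOD_rho FA_S24_g N) : FA_Mero_Field)) h1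
      exact h2
    · show γ • σ • h = σ • h
      have h1 : σ⁻¹ * γ * σ ∈ Γ'.normalCore := by
        have := (Subgroup.normalCore_normal Γ').conj_mem γ hγ1 σ⁻¹
        simpa using this
      have h2 := hfix _ (Subgroup.normalCore_le Γ' h1)
      have h3 : γ * σ = σ * (σ⁻¹ * γ * σ) := by group
      rw [← mul_smul, h3, mul_smul, h2]
  good := by
    rintro s (hs | ⟨σ, rfl⟩)
    · exact FA_S24_gens_mem_good FA_S24_UT FA_S24_QE ℂ FA_S24_tower_complex N hs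
    · exact hgood σ

theorem FA_S29_MOD_S_pow_four : ModularGroup.S ^ 4 = 1 := by decide

theorem FA_S29_MOD_ST_pow_six : (ModularGroup.S * ModularGroup.T) ^ 6 = 1 := by decide

/-- The elements of `⟨S⟩` and `⟨S T⟩` have order dividing `12`. -/
theorem FA_S29_MOD_pow_twelve {i : SL(2, ℤ)}
    (hi : i ∈ Subgroup.zpowers ModularGroup.S ∨
      i ∈ Subgroup.zpowers (ModularGroup.S * ModularGroup.T)) : i ^ 12 = 1 := by
  rcases hi with hi | hi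
  · obtain ⟨n, rfl⟩ := Subgroup.mem_zpowers_iff.mp hi
    rw [← zpow_natCast, ← zpow_mul, mul_comm, zpow_mul, zpow_natCast]
    have : ModularGroup.S ^ 12 = 1 := by
      rw [show 12 = 4 * 3 from rfl, pow_mul, FA_S29_MOD_S_pow_four, one_pow]
    rw [this, one_zpow]
  · obtain ⟨n, rfl⟩ := Subgroup.mem_zpowers_iff.mp hi
    rw [← zpow_natCast, ← zpow_mul, mul_comm, zpow_mul, zpow_natCast]
    have : (ModularGroup.S * ModularGroup.T) ^ 12 = 1 := by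
      rw [show 12 = 6 * 2 from rfl, pow_mul, FA_S29_MOD_ST_pow_six, one_pow]
    rw [this, one_zpow]

section main

variable (N : ℕ) [NeZero N] (p : ℕ) (h : FA_Mero_Field)
  (χ : ↥(Gamma0 N) →* ℂˣ)

/-- The character is trivial on the conjugates of elements of `⟨S⟩`, `⟨S T⟩`, `⟨T⟩`. -/
theorem FA_S29_MOD_chi_conj
    (hχfin : ∀ γ : ↥(Gamma0 N), IsOfFinOrder γ → χ γ = 1)
    (hχpar : ∀ γ : ↥(Gamma0 N),
      ((γ : SL(2, ℤ)) : Matrix (Fin 2) (Fin 2) ℤ).trace ^ 2 = 4 → χ γ = 1)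
    (γ i : SL(2, ℤ))
    (hi : i ∈ Subgroup.zpowers ModularGroup.S ∨
        i ∈ Subgroup.zpowers (ModularGroup.S * ModularGroup.T) ∨
        i ∈ Subgroup.zpowers ModularGroup.T)
    (hmem : γ * i * γ⁻¹ ∈ Gamma0 N) : χ ⟨γ * i * γ⁻¹, hmem⟩ = 1 := by
  rcases hi with hi | hi | hi
  · apply hχfin
    rw [isOfFinOrder_iff_pow_eq_one]
    refine ⟨12, by norm_num, Subtype.ext ?_⟩
    show (γ * i * γ⁻¹) ^ 12 = 1
    rw [conj_pow, FA_S29_MOD_pow_twelve (Or.inl hi), mul_one, mul_inv_cancel]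
  · apply hχfin
    rw [isOfFinOrder_iff_pow_eq_one]
    refine ⟨12, by norm_num, Subtype.ext ?_⟩
    show (γ * i * γ⁻¹) ^ 12 = 1
    rw [conj_pow, FA_S29_MOD_pow_twelve (Or.inr hi), mul_one, mul_inv_cancel]
  · apply hχpar
    obtain ⟨n, rfl⟩ := Subgroup.mem_zpowers_iff.mp hi
    show ((γ * ModularGroup.T ^ n * γ⁻¹ : SL(2, ℤ)) : Matrix (Fin 2) (Fin 2) ℤ).trace ^ 2 = 4
    rw [FA_S29_EC_trace_conj, FA_S29_EC_trace_T_zpow]
    norm_num

/-- The kernel of a character of finite order has finite index in `SL(2, ℤ)`. -/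
theorem FA_S29_MOD_ker_finiteIndex (hp : p ≠ 0) (hχp : ∀ γ : ↥(Gamma0 N), χ γ ^ p = 1) :
    (χ.ker.map (Gamma0 N).subtype).FiniteIndex := by
  haveI : NeZero p := ⟨hp⟩
  have hle : χ.range ≤ rootsOfUnity p ℂ := by
    rintro _ ⟨γ, rfl⟩
    rw [_root_.mem_rootsOfUnity]
    exact hχp γ
  haveI : Finite (rootsOfUnity p ℂ) := inferInstance
  haveI : Finite χ.range := Finite.of_injective (Subgroup.inclusion hle)
    (Subgroup.inclusion_injective hle)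
  haveI : χ.ker.FiniteIndex := Subgroup.finiteIndex_ker χ
  constructor
  rw [Subgroup.index_map_subtype]
  exact Nat.mul_ne_zero Subgroup.FiniteIndex.index_ne_zero Subgroup.FiniteIndex.index_ne_zero

variable {N p h χ}

/-- `h ^ p` is fixed by `Γ₀(N)`. -/
theorem FA_S29_MOD_pow_fixed (hχp : ∀ γ : ↥(Gamma0 N), χ γ ^ p = 1)
    (hsmul : ∀ γ : ↥(Gamma0 N), (γ : SL(2, ℤ)) • h = ((χ γ⁻¹ : ℂˣ) : ℂ) • h)
    (γ : SL(2, ℤ)) (hγ : γ ∈ Gamma0 N) : γ • h ^ p = h ^ p := by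
  have h1 := hsmul ⟨γ, hγ⟩
  have h2 : γ • h = ((χ (⟨γ, hγ⟩ : ↥(Gamma0 N))⁻¹ : ℂˣ) : ℂ) • h := h1
  rw [smul_pow', h2, smul_pow, ← Units.val_pow_eq_pow_val, hχp, Units.val_one, one_smul]

/-- **P3 (a), general form.** -/
theorem FA_S29_MOD_sel_of (hN : 2 ≤ N) (hp : p ≠ 0) (hh0 : h ≠ 0)
    (hgood : ∀ σ : SL(2, ℤ), σ • h ∈ FA_S24_good N)
    (hχp : ∀ γ : ↥(Gamma0 N), χ γ ^ p = 1)
    (hχfin : ∀ γ : ↥(Gamma0 N), IsOfFinOrder γ → χ γ = 1)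
    (hχpar : ∀ γ : ↥(Gamma0 N),
      ((γ : SL(2, ℤ)) : Matrix (Fin 2) (Fin 2) ℤ).trace ^ 2 = 4 → χ γ = 1)
    (hsmul : ∀ γ : ↥(Gamma0 N), (γ : SL(2, ℤ)) • h = ((χ γ⁻¹ : ℂˣ) : ℂ) • h) :
    ∃ f : ↥(FA_S24_F0 ℂ FA_S24_g N), (f : FA_Mero_Field) = h ^ p ∧ FA_S29_DS_Sel ℂ p f := by
  have hfi := FA_S29_MOD_ker_finiteIndex N p χ hp hχp
  have hfix : ∀ γ ∈ χ.ker.map (Gamma0 N).subtype, γ • h = h := by
    rintro _ ⟨g, hg, rfl⟩
    have h1 : χ g = 1 := hg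
    have h2 := hsmul g
    rw [map_inv, h1, inv_one, Units.val_one, one_smul] at h2
    exact h2
  have hS := FA_S29_MOD_orbit_fam N h hgood _ hfi hfix
  have hM := hS.model hN
  have hE : h ∈ FA_S29_MOD_E (FA_S29_MOD_orbit N h) :=
    subset_adjoin ℂ _ (FA_S29_MOD_mem_orbit N h)
  have hF0 : h ^ p ∈ FA_S24_F0 ℂ FA_S24_g N :=
    hM.mem_F0 _ (pow_mem hE p) (fun γ hγ => FA_S29_MOD_pow_fixed hχp hsmul γ hγ)
  refine ⟨⟨h ^ p, hF0⟩, rfl, ?_, ?_⟩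
  · intro h0
    exact pow_ne_zero p hh0 (congrArg Subtype.val h0)
  · intro w
    refine hM.dvd h hE hh0 ?_ p ⟨h ^ p, hF0⟩ rfl w
    intro γ i hi hmem
    have h1 := FA_S29_MOD_chi_conj N χ hχfin hχpar γ i hi hmem
    have h2 := hsmul ⟨γ * i * γ⁻¹, hmem⟩
    rw [map_inv, h1, inv_one, Units.val_one, one_smul] at h2
    exact h2

/-- **P3 (a)** for the character of a parabolic homomorphism, `N ≥ 2`. -/
theorem FA_S29_MOD_sel_chi (hN : 2 ≤ N) (hp : p ≠ 0)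
    (ψ : ↥(parabolicHoms ℤ (Gamma0 N) ℤ)) :
    ∃ f : ↥(FA_S24_F0 ℂ FA_S24_g N),
      (f : FA_Mero_Field)
        = FA_S29_BR_h (FA_S29_MOD_chi p (ψ : Additive ↥(Gamma0 N) →+ ℤ)) ^ p ∧
      FA_S29_DS_Sel ℂ p f := by
  have hadm := FA_S29_MOD_chi_adm p (ψ : Additive ↥(Gamma0 N) →+ ℤ) ψ.2
  exact FA_S29_MOD_sel_of hN hp (FA_S29_BR_h_ne_zero hadm) (FA_S29_BR_h_good hadm)
    (FA_S29_MOD_chi_pow p _) (FA_S29_MOD_chi_finOrder p _) hadm.par (FA_S29_BR_h_smul hadm)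

/-- For `N = 1` a character trivial on `S` and `T` is trivial. -/
theorem FA_S29_MOD_chi_one_of_level_one (χ₁ : ↥(Gamma0 1) →* ℂˣ)
    (hχfin : ∀ γ : ↥(Gamma0 1), IsOfFinOrder γ → χ₁ γ = 1)
    (hχpar : ∀ γ : ↥(Gamma0 1),
      ((γ : SL(2, ℤ)) : Matrix (Fin 2) (Fin 2) ℤ).trace ^ 2 = 4 → χ₁ γ = 1)
    (γ : ↥(Gamma0 1)) : χ₁ γ = 1 := by
  have hall : ∀ σ : SL(2, ℤ), σ ∈ Gamma0 1 := by
    intro σ
    rw [Gamma0_mem]
    exact Subsingleton.elim _ _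
  have hS : ModularGroup.S ∈ χ₁.ker.map (Gamma0 1).subtype := by
    have h1 : χ₁ ⟨ModularGroup.S, hall _⟩ = 1 := by
      have := FA_S29_MOD_chi_conj 1 χ₁ hχfin hχpar 1 ModularGroup.S
        (Or.inl (Subgroup.mem_zpowers _)) (hall _)
      convert this using 2
      apply Subtype.ext
      simp
    exact ⟨⟨ModularGroup.S, hall _⟩, MonoidHom.mem_ker.mpr h1, rfl⟩
  have hT : ModularGroup.T ∈ χ₁.ker.map (Gamma0 1).subtype := by
    have h1 : χ₁ ⟨ModularGroup.T, hall _⟩ = 1 := by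
      have := FA_S29_MOD_chi_conj 1 χ₁ hχfin hχpar 1 ModularGroup.T
        (Or.inr (Or.inr (Subgroup.mem_zpowers _))) (hall _)
      convert this using 2
      apply Subtype.ext
      simp
    exact ⟨⟨ModularGroup.T, hall _⟩, MonoidHom.mem_ker.mpr h1, rfl⟩
  have htop : χ₁.ker.map (Gamma0 1).subtype = ⊤ := by
    rw [eq_top_iff, ← SpecialLinearGroup.SL2Z_generators, Subgroup.closure_le]
    rintro x (rfl | rfl)
    · exact hS
    · exact hT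
  have hγ : (γ : SL(2, ℤ)) ∈ χ₁.ker.map (Gamma0 1).subtype := by
    rw [htop]
    exact Subgroup.mem_top _
  obtain ⟨g, hg, hgγ⟩ := hγ
  have : g = γ := Subtype.ext hgγ
  rw [← this]
  exact hg

/-- **P3 (a), the case of a function fixed by `Γ₀(N)`** (any `N`). -/
theorem FA_S29_MOD_sel_of_fixed (hp : p ≠ 0) (hh0 : h ≠ 0)
    (hgood : ∀ σ : SL(2, ℤ), σ • h ∈ FA_S24_good N)
    (hfix : ∀ γ ∈ Gamma0 N, γ • h = h) :
    ∃ f : ↥(FA_S24_F0 ℂ FA_S24_g N), (f : FA_Mero_Field) = h ^ p ∧ FA_S29_DS_Sel ℂ p f := by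
  have hS := FA_S29_MOD_orbit_fam N h hgood (Gamma0 N) inferInstance hfix
  have hE : h ∈ FA_S29_MOD_E (FA_S29_MOD_orbit N h) :=
    subset_adjoin ℂ _ (FA_S29_MOD_mem_orbit N h)
  have hF0 : h ∈ FA_S24_F0 ℂ FA_S24_g N :=
    hS.mem_F0_of_fixed' (FA_S29_MOD_levelOne N) h hE hfix
  have hne : (⟨h, hF0⟩ : ↥(FA_S24_F0 ℂ FA_S24_g N)) ≠ 0 := fun h0 =>
    hh0 (congrArg Subtype.val h0)
  refine ⟨⟨h, hF0⟩ ^ p, rfl, pow_ne_zero p hne, ?_⟩
  intro w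
  rw [← zpow_natCast, Place.ord_zpow]
  exact dvd_mul_right _ _

/-- **P3 (a)**, all levels. -/
theorem FA_S29_MOD_sel_of_all (hp : p ≠ 0) (hh0 : h ≠ 0)
    (hgood : ∀ σ : SL(2, ℤ), σ • h ∈ FA_S24_good N)
    (hχp : ∀ γ : ↥(Gamma0 N), χ γ ^ p = 1)
    (hχfin : ∀ γ : ↥(Gamma0 N), IsOfFinOrder γ → χ γ = 1)
    (hχpar : ∀ γ : ↥(Gamma0 N),
      ((γ : SL(2, ℤ)) : Matrix (Fin 2) (Fin 2) ℤ).trace ^ 2 = 4 → χ γ = 1)
    (hsmul : ∀ γ : ↥(Gamma0 N), (γ : SL(2, ℤ)) • h = ((χ γ⁻¹ : ℂˣ) : ℂ) • h) :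
    ∃ f : ↥(FA_S24_F0 ℂ FA_S24_g N), (f : FA_Mero_Field) = h ^ p ∧ FA_S29_DS_Sel ℂ p f := by
  rcases Nat.lt_or_ge N 2 with hN | hN
  · have hN1 : N = 1 := by
      have := NeZero.ne N
      omega
    subst hN1
    refine FA_S29_MOD_sel_of_fixed hp hh0 hgood ?_
    intro γ hγ
    have h2 := hsmul ⟨γ, hγ⟩
    rw [FA_S29_MOD_chi_one_of_level_one χ hχfin hχpar, Units.val_one, one_smul] at h2
    exact h2
  · exact FA_S29_MOD_sel_of hN hp hh0 hgood hχp hχfin hχpar hsmul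

/-- **P3 (a)** for the character of a parabolic homomorphism, all levels. -/
theorem FA_S29_MOD_sel_chi_all (hp : p ≠ 0)
    (ψ : ↥(parabolicHoms ℤ (Gamma0 N) ℤ)) :
    ∃ f : ↥(FA_S24_F0 ℂ FA_S24_g N),
      (f : FA_Mero_Field)
        = FA_S29_BR_h (FA_S29_MOD_chi p (ψ : Additive ↥(Gamma0 N) →+ ℤ)) ^ p ∧
      FA_S29_DS_Sel ℂ p f := by
  have hadm := FA_S29_MOD_chi_adm p (ψ : Additive ↥(Gamma0 N) →+ ℤ) ψ.2
  exact FA_S29_MOD_sel_of_all hp (FA_S29_BR_h_ne_zero hadm) (FA_S29_BR_h_good hadm)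
    (FA_S29_MOD_chi_pow p _) (FA_S29_MOD_chi_finOrder p _) hadm.par (FA_S29_BR_h_smul hadm)

end main

end Fermat.Agent.S29

end
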