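import Mathlib

/-!
# S29, leaf L2 (general form), abstract algebra

`G` acts on a field `W` by ring automorphisms, fixing the subfield `k`; `H ≤ G` has finite index.

* `FA_S29_RT_poly`: if `y` is `H`-invariant, all its translates lie in a subfield `S`, and every
  `G`-invariant element of `S` lies in `k`, then `y` is a root of a monic polynomial of degree
  `[G : H]` over `k`.
* `FA_S29_RT_abs`: if every element of a subfield `𝒢 ⊇ k` is a root of such a polynomial and
  `θ ∈ 𝒢` has stabiliser `≤ H`, then `𝒢 ⊆ k(θ)`.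
-/

set_option autoImplicit false

noncomputable section

open Polynomial IntermediateField

namespace Fermat.Agent.S29

section orbit

variable {G W : Type} [Group G] [Field W] [MulSemiringAction G W] (H : Subgroup G)

/-- The orbit map `G ⧸ H → W`, `σ H ↦ σ • y`, of an `H`-invariant element. -/
def FA_S29_RT_orb (y : W) (hy : ∀ γ ∈ H, γ • y = y) : G ⧸ H → W :=
  fun c => Quotient.liftOn' c (fun σ => σ • y) (by
    intro a b hab
    have h : a⁻¹ * b ∈ H := QuotientGroup.leftRel_apply.mp hab
    have h1 := hy _ h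
    show a • y = b • y
    calc a • y = a • ((a⁻¹ * b) • y) := by rw [h1]
      _ = b • y := by rw [← mul_smul, mul_inv_cancel_left])

theorem FA_S29_RT_orb_mk (y : W) (hy : ∀ γ ∈ H, γ • y = y) (σ : G) :
    FA_S29_RT_orb H y hy (σ : G ⧸ H) = σ • y := rfl

theorem FA_S29_RT_orb_smul (y : W) (hy : ∀ γ ∈ H, γ • y = y) (σ : G) (c : G ⧸ H) :
    σ • FA_S29_RT_orb H y hy c = FA_S29_RT_orb H y hy (σ • c) := by
  induction c using QuotientGroup.induction_on with
  | H τ =>
    rw [FA_S29_RT_orb_mk]
    show σ • τ • y = FA_S29_RT_orb H y hy (((σ * τ : G)) : G ⧸ H)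
    rw [FA_S29_RT_orb_mk, mul_smul]

variable [H.FiniteIndex]

/-- The `Fintype` structure on `G ⧸ H`. -/
def FA_S29_RT_fintype : Fintype (G ⧸ H) := Fintype.ofFinite _

attribute [local instance] FA_S29_RT_fintype

/-- `∏_{c ∈ G/H} (X - c • y)`. -/
def FA_S29_RT_charPoly (y : W) (hy : ∀ γ ∈ H, γ • y = y) : W[X] :=
  ∏ c : G ⧸ H, (X - C (FA_S29_RT_orb H y hy c))

theorem FA_S29_RT_charPoly_monic (y : W) (hy : ∀ γ ∈ H, γ • y = y) :
    (FA_S29_RT_charPoly H y hy).Monic := by
  unfold FA_S29_RT_charPoly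
  exact monic_prod_of_monic _ _ fun c _ => monic_X_sub_C _

theorem FA_S29_RT_charPoly_natDegree (y : W) (hy : ∀ γ ∈ H, γ • y = y) :
    (FA_S29_RT_charPoly H y hy).natDegree = H.index := by
  unfold FA_S29_RT_charPoly
  rw [natDegree_prod_of_monic _ _ fun c _ => monic_X_sub_C _]
  simp only [natDegree_X_sub_C, Finset.sum_const, Finset.card_univ, smul_eq_mul, mul_one]
  rw [Subgroup.index, Nat.card_eq_fintype_card]

theorem FA_S29_RT_charPoly_eval (y : W) (hy : ∀ γ ∈ H, γ • y = y) :
    (FA_S29_RT_charPoly H y hy).eval y = 0 := by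
  unfold FA_S29_RT_charPoly
  rw [eval_prod]
  refine Finset.prod_eq_zero (Finset.mem_univ ((1 : G) : G ⧸ H)) ?_
  rw [FA_S29_RT_orb_mk, one_smul]
  simp

theorem FA_S29_RT_charPoly_map (y : W) (hy : ∀ γ ∈ H, γ • y = y) (σ : G) :
    (FA_S29_RT_charPoly H y hy).map (MulSemiringAction.toRingHom G W σ)
      = FA_S29_RT_charPoly H y hy := by
  unfold FA_S29_RT_charPoly
  rw [Polynomial.map_prod]
  have h1 : ∀ c : G ⧸ H, (X - C (FA_S29_RT_orb H y hy c)).map (MulSemiringAction.toRingHom G W σ)
      = X - C (FA_S29_RT_orb H y hy (σ • c)) := by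
    intro c
    rw [Polynomial.map_sub, Polynomial.map_X, Polynomial.map_C]
    congr 2
    exact FA_S29_RT_orb_smul H y hy σ c
  simp only [h1]
  exact Equiv.prod_comp (MulAction.toPerm σ) (fun c => X - C (FA_S29_RT_orb H y hy c))

theorem FA_S29_RT_charPoly_coeff_fixed (y : W) (hy : ∀ γ ∈ H, γ • y = y) (σ : G) (n : ℕ) :
    σ • (FA_S29_RT_charPoly H y hy).coeff n = (FA_S29_RT_charPoly H y hy).coeff n := by
  have h := congrArg (fun p : W[X] => p.coeff n) (FA_S29_RT_charPoly_map H y hy σ)
  simp only [coeff_map] at h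
  exact h

theorem FA_S29_RT_charPoly_coeff_mem (y : W) (hy : ∀ γ ∈ H, γ • y = y) (S : Subfield W)
    (hS : ∀ σ : G, σ • y ∈ S) (n : ℕ) : (FA_S29_RT_charPoly H y hy).coeff n ∈ S := by
  have h : FA_S29_RT_charPoly H y hy ∈ Polynomial.lifts S.subtype := by
    unfold FA_S29_RT_charPoly
    refine prod_mem fun c _ => ?_
    induction c using QuotientGroup.induction_on with
    | H τ =>
      rw [FA_S29_RT_orb_mk]
      refine ⟨X - C ⟨τ • y, hS τ⟩, ?_⟩
      simp
  obtain ⟨a, ha⟩ := (Polynomial.lifts_iff_coeff_lifts _).mp h n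
  rw [← ha]
  exact a.2

end orbit

section main

variable {k G W : Type} [Field k] [Field W] [Algebra k W] [Group G]
  [MulSemiringAction G W] (H : Subgroup G) [H.FiniteIndex]

/-- An `H`-invariant element all of whose translates lie in `S` is a root of a monic polynomial of
degree `[G : H]` over `k`, if the `G`-invariants of `S` lie in `k`. -/
theorem FA_S29_RT_poly (S : Subfield W)
    (hSk : ∀ z ∈ S, (∀ σ : G, σ • z = z) → z ∈ Set.range (algebraMap k W))
    (y : W) (hy : ∀ γ ∈ H, γ • y = y) (hS : ∀ σ : G, σ • y ∈ S) :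
    ∃ P : k[X], P.Monic ∧ P.natDegree = H.index ∧ aeval y P = 0 := by
  have h1 : FA_S29_RT_charPoly H y hy ∈ Polynomial.lifts (algebraMap k W) := by
    rw [Polynomial.lifts_iff_coeff_lifts]
    intro n
    exact hSk _ (FA_S29_RT_charPoly_coeff_mem H y hy S hS n)
      (fun σ => FA_S29_RT_charPoly_coeff_fixed H y hy σ n)
  obtain ⟨P, hP1, hP2, hP3⟩ :=
    Polynomial.lifts_and_natDegree_eq_and_monic h1 (FA_S29_RT_charPoly_monic H y hy)
  refine ⟨P, hP3, ?_, ?_⟩
  · rw [hP2, FA_S29_RT_charPoly_natDegree]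
  · rw [aeval_def, ← eval_map, hP1, FA_S29_RT_charPoly_eval]

/-- Lower bound for the degree of an element with small stabiliser. -/
theorem FA_S29_RT_index_le
    (hk : ∀ (σ : G) (a : k), σ • algebraMap k W a = algebraMap k W a)
    (θ : W) (hθ : IsIntegral k θ) (hθH : ∀ γ ∈ H, γ • θ = θ)
    (hstab : ∀ σ : G, σ • θ = θ → σ ∈ H) :
    H.index ≤ (minpoly k θ).natDegree := by
  classical
  letI : Fintype (G ⧸ H) := FA_S29_RT_fintype H
  set m := minpoly k θ with hm
  have hm0 : m.map (algebraMap k W) ≠ 0 :=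
    (Polynomial.map_ne_zero_iff (algebraMap k W).injective).mpr (minpoly.ne_zero hθ)
  have hroot : ∀ σ : G, (m.map (algebraMap k W)).IsRoot (σ • θ) := by
    intro σ
    rw [IsRoot.def, eval_map]
    have h1 : (MulSemiringAction.toRingHom G W σ).comp (algebraMap k W) = algebraMap k W :=
      RingHom.ext fun a => hk σ a
    have h2 := Polynomial.hom_eval₂ m (algebraMap k W) (MulSemiringAction.toRingHom G W σ) θ
    rw [h1] at h2
    have h3 : eval₂ (algebraMap k W) θ m = 0 := by
      rw [← aeval_def]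
      exact minpoly.aeval k θ
    rw [h3, map_zero] at h2
    exact h2.symm
  have hinj : Function.Injective (FA_S29_RT_orb H θ hθH) := by
    intro c d hcd
    induction c using QuotientGroup.induction_on with
    | H σ =>
      induction d using QuotientGroup.induction_on with
      | H τ =>
        rw [FA_S29_RT_orb_mk, FA_S29_RT_orb_mk] at hcd
        rw [QuotientGroup.eq]
        apply hstab
        rw [mul_smul, ← hcd, ← mul_smul, inv_mul_cancel, one_smul]
  have hsub : Finset.univ.image (FA_S29_RT_orb H θ hθH)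
      ⊆ (m.map (algebraMap k W)).roots.toFinset := by
    intro z hz
    obtain ⟨c, -, rfl⟩ := Finset.mem_image.mp hz
    induction c using QuotientGroup.induction_on with
    | H σ =>
      rw [FA_S29_RT_orb_mk, Multiset.mem_toFinset, mem_roots hm0]
      exact hroot σ
  have h1 := Finset.card_le_card hsub
  rw [Finset.card_image_of_injective _ hinj, Finset.card_univ] at h1
  have h2 : (m.map (algebraMap k W)).roots.toFinset.card ≤ m.natDegree :=
    (Multiset.toFinset_card_le _).trans
      ((Polynomial.card_roots' _).trans (natDegree_map_le))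
  rw [Subgroup.index, Nat.card_eq_fintype_card]
  exact h1.trans h2

/-- **The degree argument.** -/
theorem FA_S29_RT_abs [CharZero k]
    (hk : ∀ (σ : G) (a : k), σ • algebraMap k W a = algebraMap k W a)
    (𝒢 : Subfield W) (hk𝒢 : ∀ a : k, algebraMap k W a ∈ 𝒢)
    (hpoly : ∀ y ∈ 𝒢, ∃ P : k[X], P.Monic ∧ P.natDegree = H.index ∧ aeval y P = 0)
    (θ : W) (hθ : θ ∈ 𝒢) (hθH : ∀ γ ∈ H, γ • θ = θ) (hstab : ∀ σ : G, σ • θ = θ → σ ∈ H)
    (x : W) (hx : x ∈ 𝒢) : x ∈ k⟮θ⟯ := by
  have hint : ∀ y ∈ 𝒢, IsIntegral k y := fun y hy => by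
    obtain ⟨P, hP1, -, hP3⟩ := hpoly y hy
    exact ⟨P, hP1, hP3⟩
  have hdeg : ∀ y ∈ 𝒢, (minpoly k y).natDegree ≤ H.index := fun y hy => by
    obtain ⟨P, hP1, hP2, hP3⟩ := hpoly y hy
    rw [← hP2]
    exact natDegree_le_natDegree (minpoly.degree_le_of_ne_zero k y hP1.ne_zero hP3)
  have hθint := hint θ hθ
  have hxint := hint x hx
  set L : IntermediateField k W := k⟮θ, x⟯ with hL
  have : FiniteDimensional k L := finiteDimensional_adjoin_pair hθint hxint
  have hL𝒢 : ∀ z ∈ L, z ∈ 𝒢 := by
    intro z hz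
    rw [hL] at hz
    induction hz using IntermediateField.adjoin_induction with
    | mem y hy =>
      rcases hy with rfl | hy
      · exact hθ
      · rw [Set.mem_singleton_iff] at hy
        subst hy
        exact hx
    | algebraMap a => exact hk𝒢 a
    | add a b _ _ ha hb => exact add_mem ha hb
    | inv a _ ha => exact inv_mem ha
    | mul a b _ _ ha hb => exact mul_mem ha hb
  obtain ⟨α, hα⟩ := Field.exists_primitive_element k L
  have h1 : (minpoly k α).natDegree = Module.finrank k L :=
    (Field.primitive_element_iff_minpoly_natDegree_eq k α).mp hα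
  have h2 : minpoly k α = minpoly k (α : W) := IntermediateField.minpoly_eq α
  have h3 : Module.finrank k L ≤ H.index := by
    rw [← h1, h2]
    exact hdeg _ (hL𝒢 _ α.2)
  have h4 : Module.finrank k k⟮θ⟯ = (minpoly k θ).natDegree :=
    IntermediateField.adjoin.finrank hθint
  have h5 : H.index ≤ (minpoly k θ).natDegree := FA_S29_RT_index_le H hk θ hθint hθH hstab
  have hle : k⟮θ⟯ ≤ L := by
    rw [hL]
    apply IntermediateField.adjoin.mono
    intro z hz
    rw [Set.mem_singleton_iff] at hz
    subst hz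
    exact Set.mem_insert _ _
  have heq : k⟮θ⟯ = L :=
    IntermediateField.eq_of_le_of_finrank_le hle (by rw [h4]; exact h3.trans h5)
  rw [heq, hL]
  exact IntermediateField.subset_adjoin k _ (Set.mem_insert_of_mem _ rfl)

end main

end Fermat.Agent.S29
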