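import Fermat.Agent.S29.RatioL1
import Fermat.Agent.S29.RatioAbs
import Fermat.Agent.S24.DGeneric

/-!
# S29, leaf L2, general form (G2)

`FA_S29_RT_main`: a meromorphic function on `ℍ` that is `Γ₀(N)`-invariant and all of whose
`SL(2, ℤ)`-translates are `M`-good at `i∞` lies in `F₀ = ℂ(j (d z) : d ∣ N)`.

Route: degree count. Every such function is a root of `∏_{c ∈ SL₂(ℤ)/Γ₀(N)} (X - c • y)`, whose
coefficients are in `ℂ(j)` by the level one case `FA_S29_RT_levelOne`; the function `j (N z)` has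
exactly `[SL₂(ℤ) : Γ₀(N)]` conjugates; primitive element theorem.
-/

set_option autoImplicit false

noncomputable section

open UpperHalfPlane Complex MatrixGroups IntermediateField

namespace Fermat.Agent.S29

open Fermat.Agent.Mero Fermat.Agent.S24

/-- `𝓗⁺_a ⊆ 𝓗⁺_b` for `a ∣ b`. -/
theorem FA_S29_RT_HolPlus_mono {a b : ℕ} (h : a ∣ b) {f : ℍ → ℂ} (hf : f ∈ FA_S24_HolPlus a) :
    f ∈ FA_S24_HolPlus b := by
  obtain ⟨h0, h1, h2⟩ := hf
  refine ⟨h0, ?_, h2⟩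
  obtain ⟨c, rfl⟩ := h
  have h3 := h1.nat_mul c
  intro w
  have h4 := h3 w
  have e : ((a * c : ℕ) : ℝ) = (c : ℝ) * (a : ℝ) := by push_cast; ring
  rw [e]
  convert h4 using 3
  simp

/-- `a`-good functions are `b`-good for `a ∣ b`. -/
theorem FA_S29_RT_good_mono {a b : ℕ} (h : a ∣ b) {x : FA_Mero_Field}
    (hx : x ∈ FA_S24_good a) : x ∈ FA_S24_good b := by
  obtain ⟨y, rfl⟩ := hx
  obtain ⟨f, g, -, rfl⟩ := IsFractionRing.div_surjective (A := FA_S24_HolPlus a) y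
  rw [map_div₀, FA_S24_kappa_algebraMap, FA_S24_kappa_algebraMap]
  have hf : FA_S24_toHol a f = FA_S24_toHol b ⟨f.1, FA_S29_RT_HolPlus_mono h f.2⟩ := rfl
  have hg : FA_S24_toHol a g = FA_S24_toHol b ⟨g.1, FA_S29_RT_HolPlus_mono h g.2⟩ := rfl
  rw [hf, hg]
  exact div_mem (FA_S24_hol_mem_good _) (FA_S24_hol_mem_good _)

/-- The subfield of `Γ₀(N)`-invariant functions all of whose translates are `M`-good. -/
def FA_S29_RT_G (N M : ℕ) : Subfield FA_Mero_Field where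
  carrier := {y | (∀ γ ∈ CongruenceSubgroup.Gamma0 N, γ • y = y) ∧
    ∀ σ : SL(2, ℤ), σ • y ∈ FA_S24_good M}
  mul_mem' := by
    rintro a b ⟨ha1, ha2⟩ ⟨hb1, hb2⟩
    refine ⟨fun γ hγ => ?_, fun σ => ?_⟩
    · rw [smul_mul', ha1 γ hγ, hb1 γ hγ]
    · rw [smul_mul']
      exact mul_mem (ha2 σ) (hb2 σ)
  one_mem' := ⟨fun γ _ => smul_one γ, fun σ => by rw [smul_one]; exact one_mem _⟩
  add_mem' := by
    rintro a b ⟨ha1, ha2⟩ ⟨hb1, hb2⟩
    refine ⟨fun γ hγ => ?_, fun σ => ?_⟩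
    · rw [smul_add, ha1 γ hγ, hb1 γ hγ]
    · rw [smul_add]
      exact add_mem (ha2 σ) (hb2 σ)
  zero_mem' := ⟨fun γ _ => smul_zero γ, fun σ => by rw [smul_zero]; exact zero_mem _⟩
  neg_mem' := by
    rintro a ⟨ha1, ha2⟩
    refine ⟨fun γ hγ => ?_, fun σ => ?_⟩
    · rw [smul_neg, ha1 γ hγ]
    · rw [smul_neg]
      exact neg_mem (ha2 σ)
  inv_mem' := by
    rintro a ⟨ha1, ha2⟩
    refine ⟨fun γ hγ => ?_, fun σ => ?_⟩
    · rw [smul_inv'', ha1 γ hγ]
    · rw [smul_inv'']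
      exact inv_mem (ha2 σ)

theorem FA_S29_RT_mem_G {N M : ℕ} {y : FA_Mero_Field} :
    y ∈ FA_S29_RT_G N M ↔ (∀ γ ∈ CongruenceSubgroup.Gamma0 N, γ • y = y) ∧
      ∀ σ : SL(2, ℤ), σ • y ∈ FA_S24_good M := Iff.rfl

/-- Elements of `ℂ(j)` are `SL(2, ℤ)`-invariant. -/
theorem FA_S29_RT_smul_adjoin (σ : SL(2, ℤ)) {a : FA_Mero_Field}
    (ha : a ∈ IntermediateField.adjoin ℂ {FA_S24_g 1}) : σ • a = a := by
  induction ha using IntermediateField.adjoin_induction with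
  | mem y hy =>
    rw [Set.mem_singleton_iff] at hy
    subst hy
    exact (FA_S24_props_final ℂ FA_S24_tower_complex 1).fix_g_one σ
  | algebraMap c => exact FA_Mero_smul_algebraMap_complex σ c
  | add a b _ _ ha hb => rw [smul_add, ha, hb]
  | inv a _ ha => rw [smul_inv'', ha]
  | mul a b _ _ ha hb => rw [smul_mul', ha, hb]

/-- Elements of `ℂ(j)` are `M`-good. -/
theorem FA_S29_RT_adjoin_good (M : ℕ) [NeZero M] {a : FA_Mero_Field}
    (ha : a ∈ IntermediateField.adjoin ℂ {FA_S24_g 1}) : a ∈ FA_S24_good M := by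
  induction ha using IntermediateField.adjoin_induction with
  | mem y hy =>
    rw [Set.mem_singleton_iff] at hy
    subst hy
    exact FA_S29_RT_g_one_good M
  | algebraMap c => exact FA_S24_const_mem_good c
  | add a b _ _ ha hb => exact add_mem ha hb
  | inv a _ ha => exact inv_mem ha
  | mul a b _ _ ha hb => exact mul_mem ha hb

/-- **Leaf L2, general form (G2).** -/
theorem FA_S29_RT_main (N M : ℕ) [NeZero N] [NeZero M] (x : FA_Mero_Field)
    (hinv : ∀ γ ∈ CongruenceSubgroup.Gamma0 N, γ • x = x)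
    (hgood : ∀ σ : SL(2, ℤ), σ • x ∈ FA_S24_good M) :
    x ∈ FA_S24_F0 ℂ FA_S24_g N := by
  have hP := FA_S24_props_final ℂ FA_S24_tower_complex N
  have hNM : NeZero (N * M) := ⟨Nat.mul_ne_zero (NeZero.ne N) (NeZero.ne M)⟩
  -- the base field `ℂ(j)`
  let k : IntermediateField ℂ FA_Mero_Field := IntermediateField.adjoin ℂ {FA_S24_g 1}
  have hk : ∀ (σ : SL(2, ℤ)) (a : k), σ • algebraMap k FA_Mero_Field a
      = algebraMap k FA_Mero_Field a := fun σ a => FA_S29_RT_smul_adjoin σ a.2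
  have hk𝒢 : ∀ a : k, algebraMap k FA_Mero_Field a ∈ FA_S29_RT_G N (N * M) := by
    intro a
    refine ⟨fun γ _ => FA_S29_RT_smul_adjoin γ a.2, fun σ => ?_⟩
    have h1 : σ • algebraMap k FA_Mero_Field a = algebraMap k FA_Mero_Field a := hk σ a
    rw [h1]
    exact FA_S29_RT_adjoin_good (N * M) a.2
  have hpoly : ∀ y ∈ FA_S29_RT_G N (N * M), ∃ P : Polynomial k, P.Monic ∧
      P.natDegree = (CongruenceSubgroup.Gamma0 N).index ∧ Polynomial.aeval y P = 0 := by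
    rintro y ⟨hy1, hy2⟩
    refine FA_S29_RT_poly (CongruenceSubgroup.Gamma0 N) (FA_S24_good (N * M)) ?_ y hy1 hy2
    intro z hz hzinv
    have h1 := FA_S29_RT_levelOne (N * M) z hzinv hz
    exact ⟨⟨z, h1⟩, rfl⟩
  have hθ : FA_S24_g N ∈ FA_S29_RT_G N (N * M) := by
    refine ⟨fun γ hγ => hP.g_inv N dvd_rfl γ hγ, fun σ => ?_⟩
    have h1 : σ • FA_S24_g N ∈ FA_S24_E (FA_S24_rho ℂ FA_S24_tower_complex) FA_S24_g N :=
      FA_S24_gen_mem_E (FA_S24_rho ℂ FA_S24_tower_complex) FA_S24_g N dvd_rfl σ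
    exact FA_S29_RT_good_mono (Dvd.intro _ rfl)
      (FA_S24_E_le_good FA_S24_UT FA_S24_QE ℂ FA_S24_tower_complex N h1)
  have hx : x ∈ FA_S29_RT_G N (N * M) :=
    ⟨hinv, fun σ => FA_S29_RT_good_mono (Dvd.intro_left _ rfl) (hgood σ)⟩
  have key := FA_S29_RT_abs (k := k) (CongruenceSubgroup.Gamma0 N) hk (FA_S29_RT_G N (N * M))
    hk𝒢 hpoly (FA_S24_g N) hθ (fun γ hγ => hP.g_inv N dvd_rfl γ hγ) (fun σ hσ => hP.stab σ hσ)
    x hx
  -- `ℂ(j)(j_N) ⊆ F₀`
  have hkF : ∀ a ∈ k, a ∈ FA_S24_F0 ℂ FA_S24_g N := by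
    intro a ha
    have : k ≤ FA_S24_F0 ℂ FA_S24_g N := by
      rw [IntermediateField.adjoin_le_iff]
      rintro y hy
      rw [Set.mem_singleton_iff] at hy
      subst hy
      exact FA_S24_g_mem_F0 ℂ FA_S24_g N (one_dvd N)
    exact this ha
  have hfin : ∀ z : FA_Mero_Field, z ∈ IntermediateField.adjoin k {FA_S24_g N} →
      z ∈ FA_S24_F0 ℂ FA_S24_g N := by
    intro z hz
    induction hz using IntermediateField.adjoin_induction with
    | mem y hy =>
      rw [Set.mem_singleton_iff] at hy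
      subst hy
      exact FA_S24_g_mem_F0 ℂ FA_S24_g N dvd_rfl
    | algebraMap a => exact hkF _ a.2
    | add a b _ _ ha hb => exact add_mem ha hb
    | inv a _ ha => exact inv_mem ha
    | mul a b _ _ ha hb => exact mul_mem ha hb
  exact hfin x key

end Fermat.Agent.S29
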