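import Mathlib
import Fermat.Agent.Lib.Mero6
import Fermat.Agent.S29.RootPow
import Fermat.Agent.S24.DQ1
import Fermat.Agent.S20.Cusp

/-!
# S29 leaf L4: a `p`-th root of an `N`-good function is `pN`-good
-/

set_option autoImplicit false

namespace Fermat.Agent.S29

open Fermat.Agent.Mero Fermat.Agent.S24 Fermat.Agent.S20 UpperHalfPlane Filter
open scoped MatrixGroups Manifold

local notation "ι" => algebraMap FA_Mero_Hol FA_Mero_Field

/-- a holomorphic function whose `p`-th power is bounded at `i∞` is bounded at `i∞` -/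
theorem FA_S29_RO_bdd_of_pow (p : ℕ) (hp : 0 < p) (w c : ℍ → ℂ) (hwc : ∀ z, w z ^ p = c z)
    (hc : IsBoundedAtImInfty c) : IsBoundedAtImInfty w := by
  rw [UpperHalfPlane.isBoundedAtImInfty_iff] at hc ⊢
  obtain ⟨M, A, h⟩ := hc
  refine ⟨max 1 M, A, fun z hz => ?_⟩
  have h1 := h z hz
  rw [← hwc z, norm_pow] at h1
  by_cases h2 : ‖w z‖ ≤ 1
  · exact h2.trans (le_max_left _ _)
  · have h3 : 1 ≤ ‖w z‖ := (not_le.mp h2).le
    have h4 : ‖w z‖ ≤ ‖w z‖ ^ p := le_self_pow₀ h3 hp.ne'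
    exact (h4.trans h1).trans (le_max_right _ _)

/-- a holomorphic function whose `p`-th power is `N`-periodic is `pN`-periodic -/
theorem FA_S29_RO_per_of_pow (N p : ℕ) (hp : 0 < p) (w c : FA_Mero_Hol) (hw0 : w ≠ 0)
    (hwc : w ^ p = c) (hc : Function.Periodic ((c : ℍ → ℂ) ∘ ofComplex) (N : ℝ)) :
    Function.Periodic ((w : ℍ → ℂ) ∘ ofComplex) ((p * N : ℕ) : ℝ) := by
  set γ : SL(2, ℤ) := (ModularGroup.T ^ (N : ℤ))⁻¹ with hγ
  have hsh : ∀ (f : FA_Mero_Hol) (z : ℍ), ((γ • f : FA_Mero_Hol) : ℍ → ℂ) z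
      = (f : ℍ → ℂ) (((N : ℤ) : ℝ) +ᵥ z) := by
    intro f z
    rw [FA_Mero_Hol_smul_apply, hγ, inv_inv, UpperHalfPlane.modular_T_zpow_smul]
  have hγc : γ • c = c := by
    apply Subtype.ext
    funext z
    rw [hsh]
    have h1 := hc (z : ℂ)
    simp only [Function.comp_apply] at h1
    rw [ofComplex_apply] at h1
    have h2 : 0 < ((z : ℂ) + ((N : ℝ) : ℂ)).im := by simpa using z.im_pos
    have e : ofComplex ((z : ℂ) + ((N : ℝ) : ℂ)) = ((N : ℤ) : ℝ) +ᵥ z := by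
      rw [ofComplex_apply_of_im_pos h2]
      apply UpperHalfPlane.ext
      rw [UpperHalfPlane.coe_vadd]
      show (z : ℂ) + _ = _ + (z : ℂ)
      push_cast
      ring
    rw [e] at h1
    exact h1
  have hpow : (γ • ι w) ^ p = (ι w) ^ p := by
    rw [← smul_pow', ← map_pow, hwc, FA_Mero_smul_algebraMap, hγc]
  obtain ⟨ζ, hζ, hζw⟩ := FA_S29_RO_mu_of_pow_eq p hp (ι w) _ (FA_Mero_algebraMap_ne_zero hw0) hpow
  have hshift : ∀ z : ℍ, (w : ℍ → ℂ) (((N : ℤ) : ℝ) +ᵥ z) = ζ * (w : ℍ → ℂ) z := by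
    intro z
    have h1 : γ • w = algebraMap ℂ FA_Mero_Hol ζ * w := by
      apply FA_Mero_algebraMap_injective
      rw [← FA_Mero_smul_algebraMap, hζw, map_mul, ← IsScalarTower.algebraMap_apply]
    rw [← hsh, h1]
    rfl
  have hiter : ∀ (k : ℕ) (z : ℍ), (w : ℍ → ℂ) (((k * N : ℕ) : ℝ) +ᵥ z) = ζ ^ k * (w : ℍ → ℂ) z := by
    intro k
    induction k with
    | zero =>
      intro z
      simp
    | succ k ih =>
      intro z
      have e : (((k + 1) * N : ℕ) : ℝ) +ᵥ z = ((N : ℤ) : ℝ) +ᵥ (((k * N : ℕ) : ℝ) +ᵥ z) := by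
        apply UpperHalfPlane.ext
        simp only [UpperHalfPlane.coe_vadd]
        push_cast
        ring
      rw [e, hshift, ih, pow_succ]
      ring
  intro z
  by_cases hz : 0 < z.im
  · have hz' : 0 < (z + (((p * N : ℕ) : ℝ) : ℂ)).im := by simpa using hz
    simp only [Function.comp_apply]
    have e : ofComplex (z + (((p * N : ℕ) : ℝ) : ℂ)) = ((p * N : ℕ) : ℝ) +ᵥ (⟨z, hz⟩ : ℍ) := by
      rw [ofComplex_apply_of_im_pos hz']
      apply UpperHalfPlane.ext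
      rw [UpperHalfPlane.coe_vadd]
      show z + _ = _ + z
      ring
    rw [e, hiter p, hζ, one_mul, ofComplex_apply_of_im_pos hz]
  · have hz1 : z.im ≤ 0 := not_lt.mp hz
    have hz2 : (z + (((p * N : ℕ) : ℝ) : ℂ)).im ≤ 0 := by simpa using hz1
    simp only [Function.comp_apply]
    rw [ofComplex_apply_eq_of_im_nonpos hz2 hz1]

theorem FA_S29_RO_per_mul (N p : ℕ) (f : ℍ → ℂ)
    (hf : Function.Periodic (f ∘ ofComplex) (N : ℝ)) :
    Function.Periodic (f ∘ ofComplex) ((p * N : ℕ) : ℝ) := by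
  have := hf.nat_mul p
  simpa [Nat.cast_mul] using this

/-- **A `p`-th root of an `N`-good function is `pN`-good.** -/
theorem FA_S29_RO_good_root (N p : ℕ) [NeZero N] (hp : 0 < p) (y : FA_Mero_Field)
    (hy : y ^ p ∈ FA_S24_good N) : y ∈ FA_S24_good (p * N) := by
  rcases eq_or_ne y 0 with rfl | hy0
  · exact (FA_S24_good (p * N)).zero_mem
  obtain ⟨A, B, hB, hyp⟩ := FA_S20_exists_div hy
  set a : FA_Mero_Hol := FA_S24_toHol N A with ha
  set b : FA_Mero_Hol := FA_S24_toHol N B with hb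
  have hb0 : b ≠ 0 := fun h => hB (FA_S24_toHol_injective (h.trans (map_zero _).symm))
  have hιb : ι b ≠ 0 := FA_Mero_algebraMap_ne_zero hb0
  set c : FA_Mero_Hol := a * b ^ (p - 1) with hc
  have hpow : (y * ι b) ^ p = ι c := by
    rw [mul_pow, hyp, hc, map_mul, map_pow]
    have e : ι b ^ p = ι b ^ (p - 1) * ι b := by
      rw [← pow_succ, Nat.sub_add_cancel (Nat.one_le_of_lt hp)]
    rw [e]
    field_simp
  have hw0 : y * ι b ≠ 0 := mul_ne_zero hy0 hιb
  have hc0 : c ≠ 0 := by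
    rintro h
    rw [h, map_zero] at hpow
    exact hw0 (pow_eq_zero_iff hp.ne' |>.mp hpow)
  have hval : ∀ z : ℍ, FA_Mero_val z (y * ι b) ≤ 1 := by
    intro z
    rw [FA_Mero_val_le_one_iff]
    right
    have h1 : FA_Mero_ord z ((y * ι b) ^ p) = (FA_Mero_ordHol z c : ℤ) := by
      rw [hpow, FA_Mero_ord_algebraMap_hol]
    rw [FA_Mero_ord_pow] at h1
    have h2 : (0 : ℤ) ≤ (p : ℤ) * FA_Mero_ord z (y * ι b) := by
      rw [h1]; exact Int.natCast_nonneg _
    have h3 : (0 : ℤ) < p := by exact_mod_cast hp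
    exact nonneg_of_mul_nonneg_right h2 h3
  obtain ⟨w, hw⟩ := FA_Mero_exists_hol_of_val_le_one _ hval
  have hwc : w ^ p = c := by
    apply FA_Mero_algebraMap_injective
    rw [map_pow, hw, hpow]
  have hwne : w ≠ 0 := by
    rintro rfl
    rw [map_zero] at hw
    exact hw0 hw.symm
  -- `c` comes from `𝓗⁺_N`
  set C : FA_S24_HolPlus N := A * B ^ (p - 1) with hC
  have hCc : (c : ℍ → ℂ) = (C : ℍ → ℂ) := rfl
  have hWmem : (w : ℍ → ℂ) ∈ FA_S24_HolPlus (p * N) := by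
    refine ⟨w.2, ?_, ?_⟩
    · refine FA_S29_RO_per_of_pow N p hp w c hwne hwc ?_
      rw [hCc]
      exact FA_S24_HolPlus_per C
    · refine FA_S29_RO_bdd_of_pow p hp (w : ℍ → ℂ) (c : ℍ → ℂ) ?_ ?_
      · intro z
        have := congrArg (fun f : FA_Mero_Hol => (f : ℍ → ℂ) z) hwc
        exact this
      · rw [hCc]
        exact FA_S24_HolPlus_bdd C
  have hBmem : (B : ℍ → ℂ) ∈ FA_S24_HolPlus (p * N) :=
    ⟨FA_S24_HolPlus_mdiff B, FA_S29_RO_per_mul N p _ (FA_S24_HolPlus_per B), FA_S24_HolPlus_bdd B⟩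
  have h1 : ι w ∈ FA_S24_good (p * N) := FA_S24_hol_mem_good (N := p * N) ⟨_, hWmem⟩
  have h2 : ι b ∈ FA_S24_good (p * N) := FA_S24_hol_mem_good (N := p * N) ⟨_, hBmem⟩
  have h3 : y = ι w / ι b := by
    rw [hw, mul_div_cancel_right₀ _ hιb]
  rw [h3]
  exact (FA_S24_good (p * N)).div_mem h1 h2

end Fermat.Agent.S29
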