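import Mathlib
import Fermat.Agent.Lib.Mero6
import Fermat.Agent.S29.RootGood
import Fermat.Agent.S24.DGeneric

/-!
# S29 leaf L4: the hypothesis `hL2` of `FA_S29_RO_finite` from the level `N` statement (G2)

* `FA_S29_RO_good_root_inv` : a `T^N`-invariant `p`-th root of an `N`-good function is `N`-good;
* `FA_S29_RO_G2` : the statement of leaf L2 (G2);
* `FA_S29_RO_hL2` : G2 ⟹ a `Γ₀(N)`-invariant `p`-th root of an element of `F₀` lies in `F₀`.
-/

set_option autoImplicit false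

namespace Fermat.Agent.S29

open Fermat.Agent.Mero Fermat.Agent.S24 Fermat.Agent.S20 UpperHalfPlane Filter
open scoped MatrixGroups Manifold

local notation "ι" => algebraMap FA_Mero_Hol FA_Mero_Field

/-- `T^N`-invariance of a holomorphic function is `N`-periodicity. -/
theorem FA_S29_RO_per_iff (N : ℕ) (f : FA_Mero_Hol) :
    (ModularGroup.T ^ (N : ℤ)) • f = f ↔ Function.Periodic ((f : ℍ → ℂ) ∘ ofComplex) (N : ℝ) := by
  have hsh : ∀ z : ℍ, (((ModularGroup.T ^ (N : ℤ)) • f : FA_Mero_Hol) : ℍ → ℂ) z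
      = (f : ℍ → ℂ) (((-(N : ℤ) : ℤ) : ℝ) +ᵥ z) := by
    intro z
    rw [FA_Mero_Hol_smul_apply, ← zpow_neg, UpperHalfPlane.modular_T_zpow_smul]
  constructor
  · intro h z
    by_cases hz : 0 < z.im
    · have hz' : 0 < (z + ((N : ℝ) : ℂ)).im := by simpa using hz
      simp only [Function.comp_apply]
      have h1 : (((ModularGroup.T ^ (N : ℤ)) • f : FA_Mero_Hol) : ℍ → ℂ)
          (ofComplex (z + ((N : ℝ) : ℂ))) = (f : ℍ → ℂ) (ofComplex (z + ((N : ℝ) : ℂ))) := by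
        rw [h]
      rw [hsh] at h1
      have e : (((-(N : ℤ) : ℤ) : ℝ) +ᵥ ofComplex (z + ((N : ℝ) : ℂ)) : ℍ) = ofComplex z := by
        apply UpperHalfPlane.ext
        rw [UpperHalfPlane.coe_vadd, ofComplex_apply_of_im_pos hz',
          ofComplex_apply_of_im_pos hz]
        show _ + (z + _) = z
        push_cast
        ring
      rw [e] at h1
      exact h1.symm
    · have hz1 : z.im ≤ 0 := not_lt.mp hz
      have hz2 : (z + ((N : ℝ) : ℂ)).im ≤ 0 := by simpa using hz1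
      simp only [Function.comp_apply]
      rw [ofComplex_apply_eq_of_im_nonpos hz2 hz1]
  · intro h
    apply Subtype.ext
    funext z
    rw [hsh]
    have h1 := h ((((-(N : ℤ) : ℤ) : ℝ) +ᵥ z : ℍ) : ℂ)
    simp only [Function.comp_apply] at h1
    rw [ofComplex_apply] at h1
    have hz' : 0 < ((((-(N : ℤ) : ℤ) : ℝ) +ᵥ z : ℍ) + ((N : ℝ) : ℂ) : ℂ).im := by
      simpa using z.im_pos
    have e : ofComplex ((((-(N : ℤ) : ℤ) : ℝ) +ᵥ z : ℍ) + ((N : ℝ) : ℂ) : ℂ) = z := by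
      apply UpperHalfPlane.ext
      rw [ofComplex_apply_of_im_pos hz']
      show (((((-(N : ℤ) : ℤ) : ℝ) +ᵥ z : ℍ) : ℂ) + ((N : ℝ) : ℂ)) = (z : ℂ)
      rw [UpperHalfPlane.coe_vadd]
      push_cast
      ring
    rw [e] at h1
    exact h1.symm

/-- **A `T^N`-invariant `p`-th root of an `N`-good function is `N`-good.** -/
theorem FA_S29_RO_good_root_inv (N p : ℕ) [NeZero N] (hp : 0 < p) (y : FA_Mero_Field)
    (hy : y ^ p ∈ FA_S24_good N) (hT : (ModularGroup.T ^ (N : ℤ)) • y = y) :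
    y ∈ FA_S24_good N := by
  rcases eq_or_ne y 0 with rfl | hy0
  · exact (FA_S24_good N).zero_mem
  obtain ⟨A, B, hB, hyp⟩ := FA_S20_exists_div hy
  set a : FA_Mero_Hol := FA_S24_toHol N A with ha
  set b : FA_Mero_Hol := FA_S24_toHol N B with hb
  have hb0 : b ≠ 0 := fun h => hB (FA_S24_toHol_injective (h.trans (map_zero _).symm))
  have hιb : ι b ≠ 0 := FA_Mero_algebraMap_ne_zero hb0
  set c : FA_Mero_Hol := a * b ^ (p - 1) with hc
  have hpow : (y * ι b) ^ p = ι c := by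
    rw [mul_pow, hyp, hc, map_mul, map_pow]
    have e : ι b ^ p = ι b ^ (p - 1) * ι b := by
      rw [← pow_succ, Nat.sub_add_cancel (Nat.one_le_of_lt hp)]
    rw [e]
    field_simp
  have hw0 : y * ι b ≠ 0 := mul_ne_zero hy0 hιb
  have hval : ∀ z : ℍ, FA_Mero_val z (y * ι b) ≤ 1 := by
    intro z
    rw [FA_Mero_val_le_one_iff]
    right
    have h1 : FA_Mero_ord z ((y * ι b) ^ p) = (FA_Mero_ordHol z c : ℤ) := by
      rw [hpow, FA_Mero_ord_algebraMap_hol]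
    rw [FA_Mero_ord_pow] at h1
    have h2 : (0 : ℤ) ≤ (p : ℤ) * FA_Mero_ord z (y * ι b) := by
      rw [h1]; exact Int.natCast_nonneg _
    have h3 : (0 : ℤ) < p := by exact_mod_cast hp
    exact nonneg_of_mul_nonneg_right h2 h3
  obtain ⟨w, hw⟩ := FA_Mero_exists_hol_of_val_le_one _ hval
  have hwc : w ^ p = c := by
    apply FA_Mero_algebraMap_injective
    rw [map_pow, hw, hpow]
  -- periodicity of `w`
  have hbT : (ModularGroup.T ^ (N : ℤ)) • b = b :=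
    (FA_S29_RO_per_iff N b).mpr (FA_S24_HolPlus_per B)
  have hwT : (ModularGroup.T ^ (N : ℤ)) • w = w := by
    apply FA_Mero_algebraMap_injective
    rw [← FA_Mero_smul_algebraMap, hw, smul_mul', hT, FA_Mero_smul_algebraMap, hbT]
  set C : FA_S24_HolPlus N := A * B ^ (p - 1) with hC
  have hCc : (c : ℍ → ℂ) = (C : ℍ → ℂ) := rfl
  have hWmem : (w : ℍ → ℂ) ∈ FA_S24_HolPlus N := by
    refine ⟨w.2, (FA_S29_RO_per_iff N w).mp hwT, ?_⟩
    refine FA_S29_RO_bdd_of_pow p hp (w : ℍ → ℂ) (c : ℍ → ℂ) ?_ ?_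
    · intro z
      have := congrArg (fun f : FA_Mero_Hol => (f : ℍ → ℂ) z) hwc
      exact this
    · rw [hCc]
      exact FA_S24_HolPlus_bdd C
  have h1 : ι w ∈ FA_S24_good N := FA_S24_hol_mem_good (N := N) ⟨_, hWmem⟩
  have h2 : ι b ∈ FA_S24_good N := FA_S24_hol_mem_good (N := N) B
  have h3 : y = ι w / ι b := by
    rw [hw, mul_div_cancel_right₀ _ hιb]
  rw [h3]
  exact (FA_S24_good N).div_mem h1 h2

/-- The statement of leaf L2, level `N` (G2). -/
def FA_S29_RO_G2 (N : ℕ) : Prop :=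
  ∀ x : FA_Mero_Field, (∀ γ ∈ CongruenceSubgroup.Gamma0 N, γ • x = x) →
    (∀ σ : SL(2, ℤ), σ • x ∈ FA_S24_good N) → x ∈ FA_S24_F0 ℂ FA_S24_g N

/-- every `SL(2, ℤ)`-translate of an element of `F₀` is `N`-good -/
theorem FA_S29_RO_smul_F0_good (N : ℕ) [NeZero N] {e : FA_Mero_Field}
    (he : e ∈ FA_S24_F0 ℂ FA_S24_g N) (σ : SL(2, ℤ)) : σ • e ∈ FA_S24_good N := by
  have h1 : e ∈ FA_S24_E (FA_S24_rho ℂ FA_S24_tower_complex) FA_S24_g N :=
    FA_S24_F0_le_E _ _ _ he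
  have h2 := FA_S24_map_mem_E (FA_S24_rho ℂ FA_S24_tower_complex) FA_S24_g N σ h1
  rw [FA_S24_rho_apply] at h2
  exact FA_S24_E_le_good FA_S24_UT FA_S24_QE ℂ FA_S24_tower_complex N h2

/-- **G2 ⟹ `hL2`.** -/
theorem FA_S29_RO_hL2 (N p : ℕ) [NeZero N] (hp : 0 < p) (hG2 : FA_S29_RO_G2 N)
    (y : FA_Mero_Field) (hinv : ∀ γ ∈ CongruenceSubgroup.Gamma0 N, γ • y = y)
    (hpow : y ^ p ∈ FA_S24_F0 ℂ FA_S24_g N) : y ∈ FA_S24_F0 ℂ FA_S24_g N := by
  refine hG2 y hinv fun σ => ?_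
  refine FA_S29_RO_good_root_inv N p hp (σ • y) ?_ ?_
  · rw [← smul_pow']
    exact FA_S29_RO_smul_F0_good N hpow σ
  · -- `T^N σ = σ (σ⁻¹ T^N σ)` and `σ⁻¹ T^N σ ∈ Γ(N) ≤ Γ₀(N)`
    have hT : ModularGroup.T ^ (N : ℤ) ∈ CongruenceSubgroup.Gamma N := by
      have := CongruenceSubgroup.ModularGroup_T_pow_mem_Gamma (N : ℤ) (N : ℤ) dvd_rfl
      simpa using this
    have hconj : σ⁻¹ * ModularGroup.T ^ (N : ℤ) * σ ∈ CongruenceSubgroup.Gamma0 N := by
      apply FA_S24_Gamma_le_Gamma0 N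
      have := (CongruenceSubgroup.Gamma_normal N).conj_mem _ hT σ⁻¹
      rwa [inv_inv] at this
    have h1 := hinv _ hconj
    rw [← mul_smul]
    have e : ModularGroup.T ^ (N : ℤ) * σ = σ * (σ⁻¹ * ModularGroup.T ^ (N : ℤ) * σ) := by
      group
    rw [e, mul_smul, h1]

end Fermat.Agent.S29
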