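import Fermat.Agent.S29.ModelC
import Fermat.Agent.S29.RootInst
import Fermat.Agent.S29.RatioMain
import Fermat.Agent.S29.DescentInst

/-!
# Item 87, (P4): finiteness of the Selmer classes of `F_ℂ` and descent to `F_K`, unconditional

* `FA_S29_MBC_G2` : the statement `G2` (helper5's `FA_S29_RT_main`) in helper6's form;
* `FA_S29_MBC_finite_all` : `Sel(F_ℂ)` has finitely many classes modulo `p`-th powers;
* `FA_S29_MBC_descent_all` : every `f ∈ Sel(F_ℂ)` is `Rel`-equivalent to `ι f₀`, `f₀ ∈ Sel(F_K)`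
  (`K ⊆ ℂ` algebraically closed).
-/

set_option autoImplicit false
set_option linter.unusedSectionVars false
set_option linter.style.haveILetI false

noncomputable section

namespace Fermat.Agent.S29

open ModularCurve IntermediateField Fermat.Agent.Mero Fermat.Agent.S24 AlgebraicCurve
open scoped MatrixGroups

theorem FA_S29_MBC_G2 (N : ℕ) [NeZero N] : FA_S29_RO_G2 N :=
  fun x hx hg => FA_S29_RT_main N N x hx hg

/-- **Finiteness of the `p`-Selmer classes of the `q`-model over `ℂ`.** -/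
theorem FA_S29_MBC_finite_all (N : ℕ) [NeZero N] (p : ℕ) (hp : 0 < p) :
    ∃ T : Set (FA_S29_MBC_F N), T.Finite ∧ ∀ f : FA_S29_MBC_F N, f ≠ 0 →
      (∀ w : Place ℂ (FA_S29_MBC_F N), (p : ℤ) ∣ w.ord f) →
      ∃ t ∈ T, ∃ u : FA_S29_MBC_F N, u ≠ 0 ∧ t = u ^ p * f :=
  FA_S29_MBC_finite N p hp fun y hy h => FA_S29_RO_hL2 N p hp (FA_S29_MBC_G2 N) y hy h

/-- `j` has a pole at `∞` -/
theorem FA_S29_MBC_hinf (N : ℕ) [NeZero N] :
    ∃ a : FA_S29_MBC_F N, a ≠ 0 ∧ (a : LaurentSeries ℂ).order ≠ 0 := by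
  refine ⟨FA_S29_MB_j ℂ N, ?_, ?_⟩
  · intro h
    exact (FA_S29_MB_base ℂ FA_S24_tower_complex N).1 (h ▸ isAlgebraic_zero)
  · intro h
    have h1 : (coeffEmb ℂ jq).coeff (-1 : ℤ) = 1 := by
      show (coeffMap (algebraMap ℚ ℂ) jq).coeff (-1 : ℤ) = 1
      rw [coeffMap_coeff, coeff_jq_neg_one, map_one]
    have h2 : ((FA_S29_MB_j ℂ N : FA_S29_MBC_F N) : LaurentSeries ℂ) = coeffEmb ℂ jq := rfl
    rw [h2] at h
    have h4 := HahnSeries.order_le_of_coeff_ne_zero (x := coeffEmb ℂ jq) (g := (-1 : ℤ))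
      (by rw [h1]; exact one_ne_zero)
    rw [h] at h4
    omega

/-- **(P4) Descent of Selmer elements** from `F_ℂ` to `F_K`. -/
theorem FA_S29_MBC_descent_all (K : Type) [Field K] [Algebra ℚ K] [Algebra K ℂ]
    [Algebra K FA_Mero_Field] (ht : FA_S24_Tower K) [IsAlgClosed K] [CharZero K]
    (N : ℕ) [NeZero N] (p : ℕ) (hp : 0 < p)
    (f : FA_S29_MBC_F N) (hf : FA_S29_DS_Sel ℂ p f) :
    ∃ f₀ : ↥(laurentBaseChange K (modularFunctionFieldFull N)), FA_S29_DS_Sel K p f₀ ∧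
      FA_S29_DS_Rel ℂ p f (FA_S29_DS_iota (L := ℂ) (modularFunctionFieldFull N) f₀) := by
  haveI : IsScalarTower ℚ K ℂ := FA_S29_DS_tower K ℂ
  obtain ⟨T, hT, hTf⟩ := FA_S29_MBC_finite_all N p hp
  exact FA_S29_DS_main (K := K) (L := ℂ) (modularFunctionFieldFull N)
    (FA_S29_MB_isFF K ht N) (FA_S29_MB_isFF ℂ FA_S24_tower_complex N) (FA_S29_MBC_hinf N) hp
    ⟨T, hT, fun g hg => hTf g hg.1 hg.2⟩ f hf

end Fermat.Agent.S29

end
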