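import Mathlib
import Fermat.Prelude.Def_AlgebraicCurve_DivisorClassGroup

/-!
# S29 long shot, leaf MB3: transport of places along an isomorphism of function fields

For a `K`-algebra isomorphism `e : F ≃ₐ[K] F'` of fields:
* `FA_S29_MBP_map e : Place K F → Place K F'`, `FA_S29_MBP_equiv e : Place K F ≃ Place K F'`;
* `FA_S29_MBP_ord` : `(map e w).ord (e f) = w.ord f`;
* `FA_S29_MBP_deg` : `(map e w).deg = w.deg`;
* `FA_S29_MBP_sel` : transport of the `p`-Selmer condition `f ≠ 0 ∧ ∀ w, p ∣ w.ord f`.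
-/

set_option autoImplicit false
set_option linter.unusedSectionVars false
set_option linter.style.haveILetI false
set_option linter.unusedVariables false

namespace Fermat.Agent.S29

noncomputable section

open AlgebraicCurve

variable {K F F' : Type*} [Field K] [Field F] [Field F'] [Algebra K F] [Algebra K F']

/-- The image of a valuation subring under an isomorphism. -/
def FA_S29_MBP_sub (e : F ≃ₐ[K] F') (A : ValuationSubring F) : ValuationSubring F' :=
  A.comap (e.symm : F' →+* F)

theorem FA_S29_MBP_mem_sub (e : F ≃ₐ[K] F') (A : ValuationSubring F) (y : F') :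
    y ∈ FA_S29_MBP_sub e A ↔ e.symm y ∈ A := Iff.rfl

theorem FA_S29_MBP_apply_mem_sub (e : F ≃ₐ[K] F') (A : ValuationSubring F) (x : F) :
    e x ∈ FA_S29_MBP_sub e A ↔ x ∈ A := by
  rw [FA_S29_MBP_mem_sub, e.symm_apply_apply]

/-- The ring isomorphism `A ≃+* e(A)`. -/
def FA_S29_MBP_ringEquiv (e : F ≃ₐ[K] F') (A : ValuationSubring F) :
    A ≃+* (FA_S29_MBP_sub e A) where
  toFun x := ⟨e x, (FA_S29_MBP_apply_mem_sub e A x).mpr x.2⟩
  invFun y := ⟨e.symm y, y.2⟩
  left_inv x := by ext; simp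
  right_inv y := by ext; simp
  map_mul' x y := by ext; simp
  map_add' x y := by ext; simp

@[simp]
theorem FA_S29_MBP_coe_ringEquiv (e : F ≃ₐ[K] F') (A : ValuationSubring F) (x : A) :
    ((FA_S29_MBP_ringEquiv e A x : FA_S29_MBP_sub e A) : F') = e x := rfl

/-- The image of a place under an isomorphism. -/
def FA_S29_MBP_map (e : F ≃ₐ[K] F') (w : Place K F) : Place K F' where
  toValuationSubring := FA_S29_MBP_sub e w.toValuationSubring
  algebraMap_mem' := fun a => by
    rw [FA_S29_MBP_mem_sub, e.symm.commutes]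
    exact w.algebraMap_mem' a
  ne_top' := fun h => w.ne_top' <| by
    refine SetLike.ext fun x => ⟨fun _ => ValuationSubring.mem_top x, fun _ => ?_⟩
    have h1 : e x ∈ FA_S29_MBP_sub e w.toValuationSubring := by
      rw [h]; exact ValuationSubring.mem_top _
    exact (FA_S29_MBP_apply_mem_sub e _ x).mp h1
  isPrincipalIdealRing' :=
    IsPrincipalIdealRing.of_surjective
      (FA_S29_MBP_ringEquiv e w.toValuationSubring : _ ≃+* _)
      (FA_S29_MBP_ringEquiv e w.toValuationSubring).surjective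

@[simp]
theorem FA_S29_MBP_map_toValuationSubring (e : F ≃ₐ[K] F') (w : Place K F) :
    (FA_S29_MBP_map e w).toValuationSubring = FA_S29_MBP_sub e w.toValuationSubring := rfl

/-- **Orders are preserved.** -/
theorem FA_S29_MBP_ord (e : F ≃ₐ[K] F') (w : Place K F) (f : F) :
    (FA_S29_MBP_map e w).ord (e f) = w.ord f := by
  rcases eq_or_ne f 0 with rfl | hf
  · simp
  obtain ⟨π, hπ⟩ := IsDiscreteValuationRing.exists_irreducible w.toValuationSubring
  obtain ⟨u, hu⟩ := w.exists_unit_mul_zpow hf hπ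
  set n := w.ord f with hn
  set ε : w.toValuationSubring ≃+* (FA_S29_MBP_map e w).toValuationSubring :=
    FA_S29_MBP_ringEquiv e w.toValuationSubring with hε
  have hπ' : Irreducible (ε π) := (MulEquiv.irreducible_iff ε).mpr hπ
  have hu' : IsUnit (ε (u : w.toValuationSubring)) := u.isUnit.map ε
  have hcoeu : ((hu'.unit : (FA_S29_MBP_map e w).toValuationSubring) : F')
      = e ((u : w.toValuationSubring) : F) := by
    rw [IsUnit.unit_spec]
    rfl
  have hcoeπ : ((ε π : (FA_S29_MBP_map e w).toValuationSubring) : F') = e (π : F) := rfl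
  have key : e f = ((hu'.unit : (FA_S29_MBP_map e w).toValuationSubring) : F')
      * (((ε π : (FA_S29_MBP_map e w).toValuationSubring) : F') ^ n) := by
    rw [hcoeu, hcoeπ, hu, map_mul, map_zpow₀]
  rw [key, (FA_S29_MBP_map e w).ord_unit_smul_zpow hu'.unit hπ' n]

theorem FA_S29_MBP_map_symm_map (e : F ≃ₐ[K] F') (w : Place K F) :
    FA_S29_MBP_map e.symm (FA_S29_MBP_map e w) = w := by
  apply Place.ext
  ext x
  show e.symm.symm x ∈ FA_S29_MBP_sub e w.toValuationSubring ↔ _
  rw [FA_S29_MBP_mem_sub]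
  simp

theorem FA_S29_MBP_map_map_symm (e : F ≃ₐ[K] F') (w' : Place K F') :
    FA_S29_MBP_map e (FA_S29_MBP_map e.symm w') = w' := by
  have := FA_S29_MBP_map_symm_map e.symm w'
  simpa using this

/-- **The bijection between the places.** -/
def FA_S29_MBP_equiv (e : F ≃ₐ[K] F') : Place K F ≃ Place K F' where
  toFun := FA_S29_MBP_map e
  invFun := FA_S29_MBP_map e.symm
  left_inv := FA_S29_MBP_map_symm_map e
  right_inv := FA_S29_MBP_map_map_symm e

@[simp]
theorem FA_S29_MBP_equiv_apply (e : F ≃ₐ[K] F') (w : Place K F) :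
    FA_S29_MBP_equiv e w = FA_S29_MBP_map e w := rfl

@[simp]
theorem FA_S29_MBP_equiv_symm_apply (e : F ≃ₐ[K] F') (w' : Place K F') :
    (FA_S29_MBP_equiv e).symm w' = FA_S29_MBP_map e.symm w' := rfl

/-- Orders at a place of `F'`, computed on `F`. -/
theorem FA_S29_MBP_ord' (e : F ≃ₐ[K] F') (w' : Place K F') (f : F) :
    w'.ord (e f) = (FA_S29_MBP_map e.symm w').ord f := by
  have := FA_S29_MBP_ord e.symm w' (e f)
  rw [e.symm_apply_apply] at this
  exact this.symm

/-- The residue field isomorphism. -/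
def FA_S29_MBP_residue (e : F ≃ₐ[K] F') (w : Place K F) :
    w.ResidueField ≃ₐ[K] (FA_S29_MBP_map e w).ResidueField :=
  AlgEquiv.ofRingEquiv (f := IsLocalRing.ResidueField.mapEquiv
      (FA_S29_MBP_ringEquiv e w.toValuationSubring)) <| fun a => by
    have h3 : (FA_S29_MBP_ringEquiv e w.toValuationSubring) (algebraMap K w.toValuationSubring a)
        = algebraMap K (FA_S29_MBP_map e w).toValuationSubring a := by
      ext
      rw [FA_S29_MBP_coe_ringEquiv, Place.coe_algebraMap, e.commutes]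
      rfl
    have h1 : algebraMap K w.ResidueField a
        = IsLocalRing.residue _ (algebraMap K w.toValuationSubring a) := rfl
    have h2 : algebraMap K (FA_S29_MBP_map e w).ResidueField a
        = IsLocalRing.residue _ (algebraMap K (FA_S29_MBP_map e w).toValuationSubring a) := rfl
    rw [h1, h2, ← h3]
    rfl

/-- **Degrees are preserved.** -/
theorem FA_S29_MBP_deg (e : F ≃ₐ[K] F') (w : Place K F) :
    (FA_S29_MBP_map e w).deg = w.deg :=
  (LinearEquiv.finrank_eq (FA_S29_MBP_residue e w).toLinearEquiv).symm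

/-- **Transport of the `p`-Selmer condition.** -/
theorem FA_S29_MBP_sel (e : F ≃ₐ[K] F') (p : ℕ) (f : F) :
    (e f ≠ 0 ∧ ∀ w' : Place K F', (p : ℤ) ∣ w'.ord (e f)) ↔
      (f ≠ 0 ∧ ∀ w : Place K F, (p : ℤ) ∣ w.ord f) := by
  constructor
  · rintro ⟨h0, h⟩
    refine ⟨fun hf => h0 (by rw [hf, map_zero]), fun w => ?_⟩
    rw [← FA_S29_MBP_ord e w f]
    exact h _
  · rintro ⟨h0, h⟩
    refine ⟨fun hf => h0 ((map_eq_zero_iff e e.injective).mp hf), fun w' => ?_⟩
    rw [FA_S29_MBP_ord' e w' f]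
    exact h _

/-- Transport of a predicate on all orders. -/
theorem FA_S29_MBP_forall (e : F ≃ₐ[K] F') (P : ℤ → Prop) (f : F) :
    (∀ w' : Place K F', P (w'.ord (e f))) ↔ ∀ w : Place K F, P (w.ord f) := by
  constructor
  · intro h w
    rw [← FA_S29_MBP_ord e w f]
    exact h _
  · intro h w'
    rw [FA_S29_MBP_ord' e w' f]
    exact h _

/-- **Transport of the relation `f' = c u^p f`.** -/
theorem FA_S29_MBP_rel (e : F ≃ₐ[K] F') (p : ℕ) (f f' : F) :
    (∃ c : K, ∃ u : F', c ≠ 0 ∧ u ≠ 0 ∧ e f' = algebraMap K F' c * u ^ p * e f) ↔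
      (∃ c : K, ∃ u : F, c ≠ 0 ∧ u ≠ 0 ∧ f' = algebraMap K F c * u ^ p * f) := by
  constructor
  · rintro ⟨c, u, hc, hu, h⟩
    refine ⟨c, e.symm u, hc, fun h0 => hu ?_, ?_⟩
    · have := congrArg e h0
      simpa using this
    · apply e.injective
      rw [h, map_mul, map_mul, map_pow, e.apply_symm_apply, e.commutes]
  · rintro ⟨c, u, hc, hu, h⟩
    refine ⟨c, e u, hc, fun h0 => hu ((map_eq_zero_iff e e.injective).mp h0), ?_⟩
    rw [h, map_mul, map_mul, map_pow, e.commutes]

end

end Fermat.Agent.S29
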