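import Fermat.Agent.S29.ThetaAbs
import Fermat.Agent.S29.ModSel
import Fermat.Agent.S29.ModelFin
import Fermat.Agent.S29.ModelPlace
import Fermat.Agent.S29.HeckeCls
import Fermat.Agent.S29.HeckeP5
import Fermat.Agent.S29.HeckeNorm
import Fermat.Agent.S29.EigLat
import Fermat.Agent.S29.HeckeP5Psi

/-!
# Item 87, (AN) piece P6: the concrete map `Θ : H → J₀(N)[p]`

`H = parabolicHoms ℤ (Gamma0 N) ℤ`.  For `ψ ∈ H` the function `h_ψ = FA_S29_BR_h (χ_ψ)`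
(`χ_ψ = ζ_p ^ ψ`) has `h_ψ ^ p ∈ F₀`; its preimage `x ψ` in the `q`-model `F_ℂ` is a `p`-Selmer
element, and `Θ ψ` is the class of `div (f₀) / p` for the descent `f₀ ∈ F_{Q̄}` of `x ψ`.

* `FA_S29_TH_x_exists` : the family `x`;
* `FA_S29_TH_hadd`, `FA_S29_TH_hker` : additivity and injectivity modulo `p`;
* `FA_S29_theta_of` : the statement (AN) from the Hecke relation on representatives.
-/

set_option autoImplicit false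
set_option linter.style.haveILetI false
set_option linter.unusedSectionVars false
set_option linter.unusedVariables false

noncomputable section

open UpperHalfPlane CongruenceSubgroup ModularCurve ModularCurve.Period AlgebraicCurve
open scoped MatrixGroups

namespace Fermat.Agent.S29

open Fermat.Agent.Mero Fermat.Agent.S24 FA_RR Fermat.Agent.S37

section family

variable (N : ℕ) [NeZero N] {p : ℕ}

/-- the function `h_ψ` -/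
def FA_S29_TH_h (p : ℕ) (ψ : ↥(parabolicHoms ℤ (Gamma0 N) ℤ)) : FA_Mero_Field :=
  FA_S29_BR_h (FA_S29_MOD_chi p (ψ : Additive ↥(Gamma0 N) →+ ℤ))

theorem FA_S29_TH_adm (p : ℕ) (ψ : ↥(parabolicHoms ℤ (Gamma0 N) ℤ)) :
    FA_S29_BR_Adm (FA_S29_MOD_chi p (ψ : Additive ↥(Gamma0 N) →+ ℤ)) :=
  FA_S29_MOD_chi_adm p _ ψ.2

/-- **The family `x`.** -/
theorem FA_S29_TH_x_exists (hp : p ≠ 0) (ψ : ↥(parabolicHoms ℤ (Gamma0 N) ℤ)) :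
    ∃ x : FA_S29_MBC_F N,
      FA_S29_MB_tau ℂ FA_S24_tower_complex N x = FA_S29_TH_h N p ψ ^ p ∧
        FA_S29_DS_Sel ℂ p x := by
  obtain ⟨f, hf, hsel⟩ := FA_S29_MOD_sel_chi_all (N := N) hp ψ
  let e := FA_S29_MB_equiv ℂ FA_S24_tower_complex N
  refine ⟨e.symm f, ?_, ?_⟩
  · rw [← FA_S29_MB_equiv_coe, AlgEquiv.apply_symm_apply, hf]
    rfl
  · refine (FA_S29_MBP_sel e p (e.symm f)).mp ?_
    rw [AlgEquiv.apply_symm_apply]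
    exact hsel

/-- **Additivity** of the family up to `Rel`. -/
theorem FA_S29_TH_hadd (ψ ψ' : ↥(parabolicHoms ℤ (Gamma0 N) ℤ))
    (x₁ x₂ x₃ : FA_S29_MBC_F N)
    (h₁ : FA_S29_MB_tau ℂ FA_S24_tower_complex N x₁ = FA_S29_TH_h N p ψ ^ p)
    (h₂ : FA_S29_MB_tau ℂ FA_S24_tower_complex N x₂ = FA_S29_TH_h N p ψ' ^ p)
    (h₃ : FA_S29_MB_tau ℂ FA_S24_tower_complex N x₃ = FA_S29_TH_h N p (ψ + ψ') ^ p) :
    FA_S29_DS_Rel ℂ p (x₁ * x₂) x₃ := by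
  have a₁ := FA_S29_TH_adm N p ψ
  have a₂ := FA_S29_TH_adm N p ψ'
  have a₃ := FA_S29_TH_adm N p (ψ + ψ')
  have n₁ : FA_S29_TH_h N p ψ ≠ 0 := FA_S29_BR_h_ne_zero a₁
  have n₂ : FA_S29_TH_h N p ψ' ≠ 0 := FA_S29_BR_h_ne_zero a₂
  have n₃ : FA_S29_TH_h N p (ψ + ψ') ≠ 0 := FA_S29_BR_h_ne_zero a₃
  have hr : FA_S29_TH_h N p (ψ + ψ') / (FA_S29_TH_h N p ψ * FA_S29_TH_h N p ψ')
      ∈ FA_S24_F0 ℂ FA_S24_g N := by
    refine FA_S29_HG_mul_rel N N N N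
      (fun γ => ((FA_S29_MOD_chi p (ψ : Additive ↥(Gamma0 N) →+ ℤ) γ⁻¹ : ℂˣ) : ℂ))
      (fun γ => ((FA_S29_MOD_chi p (ψ' : Additive ↥(Gamma0 N) →+ ℤ) γ⁻¹ : ℂˣ) : ℂ))
      _ _ _ n₁ n₂ (fun γ => FA_S29_BR_h_smul a₁ γ) (fun γ => FA_S29_BR_h_smul a₂ γ) ?_
      (FA_S29_BR_h_good a₁) (FA_S29_BR_h_good a₂) (FA_S29_BR_h_good a₃)
    intro γ
    have e := FA_S29_BR_h_smul a₃ γ
    have e2 : ((ψ + ψ' : ↥(parabolicHoms ℤ (Gamma0 N) ℤ)) : Additive ↥(Gamma0 N) →+ ℤ)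
        = (ψ : Additive ↥(Gamma0 N) →+ ℤ) + (ψ' : Additive ↥(Gamma0 N) →+ ℤ) := rfl
    have e3 : ((FA_S29_MOD_chi p
          ((ψ + ψ' : ↥(parabolicHoms ℤ (Gamma0 N) ℤ)) : Additive ↥(Gamma0 N) →+ ℤ) γ⁻¹ : ℂˣ) : ℂ)
        = ((FA_S29_MOD_chi p (ψ : Additive ↥(Gamma0 N) →+ ℤ) γ⁻¹ : ℂˣ) : ℂ)
          * ((FA_S29_MOD_chi p (ψ' : Additive ↥(Gamma0 N) →+ ℤ) γ⁻¹ : ℂˣ) : ℂ) := by
      rw [e2, FA_S29_MOD_chi_add, MonoidHom.mul_apply, Units.val_mul]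
    show (γ : SL(2, ℤ)) • FA_S29_TH_h N p (ψ + ψ') = _ • FA_S29_TH_h N p (ψ + ψ')
    rw [← e3]
    exact e
  obtain ⟨u, hu⟩ := FA_S29_MB_surj ℂ FA_S24_tower_complex N hr
  refine ⟨1, u, one_ne_zero, ?_, ?_⟩
  · rintro rfl
    rw [map_zero] at hu
    exact div_ne_zero n₃ (mul_ne_zero n₁ n₂) hu.symm
  · apply (FA_S29_MB_tau ℂ FA_S24_tower_complex N).toRingHom.injective
    show FA_S29_MB_tau ℂ FA_S24_tower_complex N x₃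
      = FA_S29_MB_tau ℂ FA_S24_tower_complex N (algebraMap ℂ _ 1 * u ^ p * (x₁ * x₂))
    rw [map_mul, map_mul, map_mul, map_pow, map_one, map_one, hu, h₁, h₂, h₃, one_mul, div_pow,
      mul_pow, div_mul_cancel₀ _ (mul_ne_zero (pow_ne_zero _ n₁) (pow_ne_zero _ n₂))]

/-- **Injectivity modulo `p`** of the family. -/
theorem FA_S29_TH_hker (hp : p ≠ 0) (ψ : ↥(parabolicHoms ℤ (Gamma0 N) ℤ))
    (x : FA_S29_MBC_F N)
    (hx : FA_S29_MB_tau ℂ FA_S24_tower_complex N x = FA_S29_TH_h N p ψ ^ p)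
    (hrel : FA_S29_DS_Rel ℂ p 1 x) :
    ∃ ψ' : ↥(parabolicHoms ℤ (Gamma0 N) ℤ), ψ = (p : ℤ) • ψ' := by
  obtain ⟨c, u, hc, hu, hcu⟩ := hrel
  have a := FA_S29_TH_adm N p ψ
  have hpow : FA_S29_TH_h N p ψ ^ p
      = c • (FA_S29_MB_tau ℂ FA_S24_tower_complex N u) ^ p := by
    rw [← hx, hcu, mul_one, map_mul, map_pow, AlgHom.commutes, Algebra.smul_def]
  have key : ∀ γ : ↥(Gamma0 N),
      ((FA_S29_MOD_chi p (ψ : Additive ↥(Gamma0 N) →+ ℤ) γ⁻¹ : ℂˣ) : ℂ) = 1 := fun γ =>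
    FA_S29_HG_char_trivial N p (Nat.pos_of_ne_zero hp)
      (fun γ => ((FA_S29_MOD_chi p (ψ : Additive ↥(Gamma0 N) →+ ℤ) γ⁻¹ : ℂˣ) : ℂ))
      (FA_S29_TH_h N p ψ) (FA_S29_BR_h_ne_zero a) (fun γ => FA_S29_BR_h_smul a γ) c
      (FA_S29_MB_tau ℂ FA_S24_tower_complex N u) (FA_S29_MB_mem_F0 ℂ FA_S24_tower_complex N u)
      ((map_ne_zero _).mpr hu) hpow γ
  refine FA_S29_MOD_chi_eq_one hp ψ fun γ => ?_
  have h1 := key γ⁻¹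
  rw [inv_inv] at h1
  exact Units.ext h1

end family

/-- **(AN)**: the map `Θ : H → J₀(N)`, killed by `p`, injective modulo `p`, Hecke equivariant. -/
theorem FA_S29_theta (N : ℕ) [NeZero N] (p : ℕ) (hp : p.Prime) :
    ∃ Θ : ↥(parabolicHoms ℤ (Gamma0 N) ℤ) →+ ModularCurve.JZero N,
      (∀ ψ, (p : ℤ) • Θ ψ = 0) ∧ (∀ ψ, Θ ψ = 0 → ∃ ψ', ψ = (p : ℤ) • ψ') ∧
      (∀ ℓ : Nat.Primes, ¬ (ℓ : ℕ) ∣ N →
        ∀ ψ, Θ (FA_S29_EIG_TH N ℓ ψ) = heckeOperatorBar N ℓ (Θ ψ)) := by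
  haveI halg : Algebra.IsAlgebraic ℚ (AlgebraicClosure ℚ) := AlgebraicClosure.isAlgebraic ℚ
  letI algC : Algebra (AlgebraicClosure ℚ) ℂ :=
    (IsAlgClosed.lift (R := ℚ) (S := AlgebraicClosure ℚ) (M := ℂ)).toRingHom.toAlgebra
  letI algM : Algebra (AlgebraicClosure ℚ) FA_Mero_Field :=
    ((algebraMap ℂ FA_Mero_Field).comp (algebraMap (AlgebraicClosure ℚ) ℂ)).toAlgebra
  have ht : FA_S24_Tower (AlgebraicClosure ℚ) := fun c => rfl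
  haveI : IsScalarTower ℚ (AlgebraicClosure ℚ) ℂ := FA_S29_DS_tower (AlgebraicClosure ℚ) ℂ
  have hFK : FA_RR_IsFF (AlgebraicClosure ℚ)
      ↥(laurentBaseChange (AlgebraicClosure ℚ) (modularFunctionFieldFull N)) :=
    FA_S29_MB_isFF (AlgebraicClosure ℚ) ht N
  have hp0 : p ≠ 0 := hp.ne_zero
  choose x hx hxsel using FA_S29_TH_x_exists N (p := p) hp0
  obtain ⟨Θ, h1, h2, h3⟩ := FA_S29_TH_abstract (K := AlgebraicClosure ℚ) (L := ℂ)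
    (modularFunctionFieldFull N) hFK hp.pos
    (fun f hf => FA_S29_MBC_descent_all (AlgebraicClosure ℚ) ht N p hp.pos f hf) x hxsel
    (fun ψ ψ' => FA_S29_TH_hadd N ψ ψ' _ _ _ (hx ψ) (hx ψ') (hx (ψ + ψ')))
    (fun ψ hrel => FA_S29_TH_hker N hp0 ψ _ (hx ψ) hrel)
  refine ⟨Θ, h1, h2, fun ℓ hℓN ψ => ?_⟩
  haveI : Fact (ℓ : ℕ).Prime := ⟨ℓ.2⟩
  refine h3 (fun ψ => FA_S29_EIG_TH N ℓ ψ) (fun y => heckeOperatorBar N ℓ y) ?_ ψ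
  intro ψ f₀ hf₀ hrel
  have hHC := FA_S29_HC_hecke N ℓ.2 hFK hp.pos f₀ hf₀
  refine ⟨FA_S37_K5_norm N ℓ f₀, hHC.1.1, hHC.2, ?_⟩
  exact FA_S29_HG_P5_psi N (ℓ : ℕ) ht hℓN p ψ (x ψ) (x (FA_S29_EIG_TH N ℓ ψ)) (hx ψ)
    (hx (FA_S29_EIG_TH N ℓ ψ)) f₀ hrel

end Fermat.Agent.S29

end
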