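import Fermat.Agent.S29.S29Core
import Fermat.Agent.S29.EigAsm
import Fermat.Agent.S29.Theta
import Fermat.Agent.S29.GalHeckeTors
import Fermat.Agent.S29.StabB

/-!
# S29/S42: the final assembly

`FA_S29_FIN_all N p` : the output of leaf L10 for every level `N ≠ 0` and every prime `p`
(`FA_S29_GL_ModuleAll N p`), from (AN) `FA_S29_theta`, L10 (a) `FA_S29_GHT_comm`,
L10 (b) `FA_S29_STB_main` and the assembly `FA_S29_EA_module_tors`.
-/

set_option autoImplicit false
set_option linter.style.haveILetI false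

namespace Fermat.Agent.S29

/-- **The Galois module of a normalised eigenform**, all levels `N ≠ 0`, all primes `p`. -/
theorem FA_S29_FIN_all (N p : ℕ) (hN : N ≠ 0) (hp : p.Prime) : FA_S29_GL_ModuleAll N p := by
  haveI : NeZero N := ⟨hN⟩
  intro g hg k₀ _ _ _ φ
  obtain ⟨Θ, h1, h2, h3⟩ := FA_S29_theta N p hp
  exact FA_S29_EA_module_tors N p hp
    ⟨Θ, h1, h2, fun ℓ hℓ ψ => h3 ℓ (fun h => hℓ (Dvd.dvd.mul_right h p)) ψ⟩
    (fun ℓ _ τ x hx => FA_S29_GHT_comm N hp.pos ℓ τ x hx)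
    (fun x _ => FA_S29_STB_main N x) hg φ

end Fermat.Agent.S29
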