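import Mathlib

/-!
# S29 long shot: residue fields of `ℤ̄` are algebraically closed

`ℤ̄ = integralClosure ℤ ℂ`.
* `FA_S29_AC_isAlgClosed` : for a maximal ideal `𝔪` of `ℤ̄` the field `ℤ̄ ⧸ 𝔪` is algebraically
  closed.
* `FA_S29_AC_ker_isMaximal` : the kernel of a ring homomorphism `φ : ℤ̄ →+* k` into a field of
  characteristic `p > 0` is a maximal ideal.
* `FA_S29_AC_ι` : the embedding `ℤ̄ ⧸ ker φ →+* k`, with `FA_S29_AC_ι_mk`.
-/

set_option autoImplicit false
set_option linter.unusedSectionVars false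
set_option linter.style.haveILetI false
set_option linter.unusedVariables false

open Polynomial

namespace Fermat.Agent.S29

noncomputable section

local notation "Zc" => integralClosure ℤ ℂ

/-- Every monic polynomial of positive degree over `ℤ̄` has a root in `ℤ̄`. -/
theorem FA_S29_AC_exists_root (F : (Zc)[X]) (hF : F.Monic) (hdeg : 0 < F.natDegree) :
    ∃ α : Zc, F.eval α = 0 := by
  have hdeg' : (F.map (algebraMap Zc ℂ)).degree ≠ 0 := by
    rw [hF.degree_map]
    intro h
    have h2 : F.natDegree = 0 := natDegree_eq_of_degree_eq_some h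
    omega
  obtain ⟨a, ha⟩ := IsAlgClosed.exists_root (F.map (algebraMap Zc ℂ)) hdeg'
  have hint : IsIntegral Zc a := ⟨F, hF, by rwa [IsRoot, eval_map] at ha⟩
  have hintZ : IsIntegral ℤ a := isIntegral_trans a hint
  refine ⟨⟨a, hintZ⟩, ?_⟩
  have h1 : algebraMap Zc ℂ (F.eval ⟨a, hintZ⟩) = 0 := by
    rw [← eval₂_at_apply, ← eval_map]
    exact ha
  exact (FaithfulSMul.algebraMap_injective Zc ℂ) (by rw [h1, map_zero])

/-- **The residue fields of `ℤ̄` are algebraically closed.** -/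
theorem FA_S29_AC_isAlgClosed (𝔪 : Ideal Zc) [h𝔪 : 𝔪.IsMaximal] :
    letI := Ideal.Quotient.field 𝔪
    IsAlgClosed (Zc ⧸ 𝔪) := by
  letI := Ideal.Quotient.field 𝔪
  refine IsAlgClosed.of_exists_root _ fun f hf hirr => ?_
  have hsurj : Function.Surjective (Ideal.Quotient.mk 𝔪) := Ideal.Quotient.mk_surjective
  have hlift : f ∈ Polynomial.lifts (Ideal.Quotient.mk 𝔪) := by
    rw [Polynomial.mem_lifts]
    exact Polynomial.map_surjective _ hsurj f
  obtain ⟨F, hFf, hFdeg, hFmon⟩ := Polynomial.lifts_and_natDegree_eq_and_monic hlift hf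
  have hdeg : 0 < F.natDegree := by
    rw [hFdeg]
    exact hirr.natDegree_pos
  obtain ⟨α, hα⟩ := FA_S29_AC_exists_root F hFmon hdeg
  refine ⟨Ideal.Quotient.mk 𝔪 α, ?_⟩
  rw [← hFf, eval_map, eval₂_at_apply, hα, map_zero]

section ker

variable {k : Type*} [Field k] (p : ℕ) [hp : Fact p.Prime] (φ : Zc →+* k)

include hp in
/-- The kernel of `φ : ℤ̄ →+* k` (`k` a field of characteristic `p`) is maximal. -/
theorem FA_S29_AC_ker_isMaximal [CharP k p] : (RingHom.ker φ).IsMaximal := by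
  haveI hprime : (RingHom.ker φ).IsPrime := RingHom.ker_isPrime φ
  have hint : Algebra.IsIntegral ℤ Zc := inferInstance
  refine Ideal.isMaximal_of_isIntegral_of_isMaximal_comap (R := ℤ) (RingHom.ker φ) ?_
  have hmem : (p : ℤ) ∈ (RingHom.ker φ).comap (algebraMap ℤ Zc) := by
    rw [Ideal.mem_comap, RingHom.mem_ker]
    simp
  have hne : (RingHom.ker φ).comap (algebraMap ℤ Zc) ≠ ⊥ := by
    intro h
    rw [h, Ideal.mem_bot] at hmem
    exact hp.out.ne_zero (by exact_mod_cast hmem)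
  haveI : ((RingHom.ker φ).comap (algebraMap ℤ Zc)).IsPrime := Ideal.comap_isPrime _ _
  exact Ideal.IsPrime.isMaximal inferInstance hne

/-- The embedding of the residue field `ℤ̄ ⧸ ker φ` into `k`. -/
def FA_S29_AC_ι : (Zc ⧸ RingHom.ker φ) →+* k :=
  RingHom.kerLift φ

@[simp]
theorem FA_S29_AC_ι_mk (a : Zc) : FA_S29_AC_ι φ (Ideal.Quotient.mk (RingHom.ker φ) a) = φ a :=
  RingHom.kerLift_mk φ a

theorem FA_S29_AC_ι_injective : Function.Injective (FA_S29_AC_ι φ) :=
  RingHom.kerLift_injective φ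

/-- The residue field `ℤ̄ ⧸ ker φ` has characteristic `p`. -/
theorem FA_S29_AC_charP [CharP k p] : CharP (Zc ⧸ RingHom.ker φ) p :=
  (RingHom.charP_iff (FA_S29_AC_ι φ) (FA_S29_AC_ι_injective φ) p).mpr inferInstance

end ker

end

end Fermat.Agent.S29
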