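import Mathlib

/-!
# S29/S42, leaf L9 (file AlgIrr): an irreducible module over an algebra of quadratic elements
has dimension at most 2

`k` algebraically closed, `A` a subalgebra of `End_k V` all of whose elements satisfy a monic
quadratic relation over `k`, `V` irreducible under `A`.  Then `V` is spanned by two vectors.
No Burnside / density theorem is used.
-/

set_option autoImplicit false
set_option linter.unusedSectionVars false
set_option linter.unusedVariables false

noncomputable section

namespace Fermat.Agent.S29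

open Polynomial

/-- Factorisation of a quadratic relation over an algebraically closed field. -/
theorem FA_S29_ALG_factor {k : Type*} [Field k] [IsAlgClosed k] {E : Type*} [Ring E] [Algebra k E]
    (a : E) (T N : k) (h : a * a - T • a + N • (1 : E) = 0) :
    ∃ α β : k, α + β = T ∧ α * β = N ∧ (a - α • (1 : E)) * (a - β • (1 : E)) = 0 := by
  have hdeg : (X ^ 2 - C T * X + C N : k[X]).degree ≠ 0 := by
    have : (X ^ 2 - C T * X + C N : k[X]).degree = 2 := by
      compute_degree!
    rw [this]; norm_num
  obtain ⟨α, hα⟩ := IsAlgClosed.exists_root _ hdeg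
  simp only [IsRoot.def, eval_add, eval_sub, eval_pow, eval_X, eval_mul, eval_C] at hα
  refine ⟨α, T - α, by ring, by linear_combination -hα, ?_⟩
  have e : (a - α • (1 : E)) * (a - (T - α) • (1 : E)) =
      a * a - T • a + (α * (T - α)) • (1 : E) := by
    simp only [sub_mul, mul_sub, smul_mul_assoc, mul_smul_comm, mul_one, one_mul, smul_sub,
      smul_smul, sub_smul]
    module
  rw [e, show α * (T - α) = N by linear_combination -hα, h]

variable {k : Type*} [Field k] [IsAlgClosed k] {V : Type*} [AddCommGroup V] [Module k V]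
variable (A : Subalgebra k (Module.End k V))

/-- `V` is irreducible under `A`. -/
def FA_S29_ALG_Irr : Prop :=
  ∀ W : Submodule k V, (∀ a ∈ A, ∀ w ∈ W, a w ∈ W) → W = ⊥ ∨ W = ⊤

/-- every element of `A` is quadratic over `k`. -/
def FA_S29_ALG_Quad : Prop :=
  ∀ a ∈ A, ∃ T N : k, a * a - T • a + N • (1 : Module.End k V) = 0

variable {A}

omit [IsAlgClosed k] in
/-- In an irreducible module every nonzero vector is cyclic. -/
theorem FA_S29_ALG_orbit (hirr : FA_S29_ALG_Irr A) {v : V} (hv : v ≠ 0) (w : V) :
    ∃ a ∈ A, a v = w := by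
  let W : Submodule k V := (Subalgebra.toSubmodule A).map (LinearMap.applyₗ v)
  have hW : ∀ a ∈ A, ∀ w ∈ W, a w ∈ W := by
    rintro a ha _ ⟨b, hb, rfl⟩
    exact ⟨a * b, A.mul_mem ha hb, rfl⟩
  have hvW : v ∈ W := ⟨1, A.one_mem, rfl⟩
  rcases hirr W hW with h | h
  · rw [h] at hvW
    exact absurd ((Submodule.mem_bot k).mp hvW) hv
  · have : w ∈ W := h ▸ Submodule.mem_top
    obtain ⟨a, ha, rfl⟩ := this
    exact ⟨a, ha, rfl⟩

/-- For an idempotent `e ≠ 1` of `A`, the corner `e A e` is scalar. -/
theorem FA_S29_ALG_corner (hq : FA_S29_ALG_Quad A) {e : Module.End k V} (he : e ∈ A)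
    (hee : e * e = e) (he1 : e ≠ 1) (x : Module.End k V) (hx : x ∈ A) :
    ∃ μ : k, e * x * e = μ • e := by
  classical
  set b := e * x * e with hb
  have hbA : b ∈ A := A.mul_mem (A.mul_mem he hx) he
  have hbe : b * e = b := by rw [hb, mul_assoc, hee]
  have heb : e * b = b := by rw [hb, ← mul_assoc, ← mul_assoc, hee]
  obtain ⟨T, N, hTN⟩ := hq b hbA
  obtain ⟨γ, γ', -, -, hγ⟩ := FA_S29_ALG_factor b T N hTN
  -- a scalar λ different from γ, γ'
  obtain ⟨l, -, hl⟩ := (Set.infinite_univ (α := k)).exists_notMem_finset {γ, γ'}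
  have hlγ : l ≠ γ := fun h => hl (by simp [h])
  have hlγ' : l ≠ γ' := fun h => hl (by simp [h])
  -- the element y = b + l (1 - e)
  set y := b + l • (1 - e) with hy
  have hyA : y ∈ A := A.add_mem hbA (A.smul_mem (A.sub_mem A.one_mem he) l)
  obtain ⟨T', N', hTN'⟩ := hq y hyA
  -- a vector u ≠ 0 with e u = 0
  have hu : ∃ u : V, u ≠ 0 ∧ e u = 0 := by
    by_contra hcon
    push_neg at hcon
    apply he1
    ext w
    have h1 : e (w - e w) = 0 := by
      rw [map_sub, ← Module.End.mul_apply, hee, sub_self]
    by_contra h2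
    have h3 : w - e w ≠ 0 := fun h => h2 (by
      rw [Module.End.one_apply]; exact (sub_eq_zero.mp h).symm)
    exact hcon _ h3 h1
  obtain ⟨u, hu0, heu⟩ := hu
  have hbu : b u = 0 := by
    rw [← hbe, Module.End.mul_apply, heu, map_zero]
  have hyu : y u = l • u := by
    rw [hy, LinearMap.add_apply, hbu, zero_add, LinearMap.smul_apply, LinearMap.sub_apply,
      Module.End.one_apply, heu, sub_zero]
  -- so l is a root of the quadratic of y
  have hroot : l * l - T' * l + N' = 0 := by
    have h1 := congrArg (fun f : Module.End k V => f u) hTN'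
    simp only [LinearMap.add_apply, LinearMap.sub_apply, Module.End.mul_apply,
      LinearMap.smul_apply, Module.End.one_apply, LinearMap.zero_apply, hyu, map_smul] at h1
    have h2 : (l * l - T' * l + N') • u = 0 := by
      rw [← h1]; module
    rcases smul_eq_zero.mp h2 with h | h
    · exact h
    · exact absurd h hu0
  -- on the image of e: y e = b
  have hye : y * e = b := by
    rw [hy, add_mul, hbe, smul_mul_assoc, sub_mul, one_mul, hee, sub_self, smul_zero, add_zero]
  have hyb : y * b = b * b := by
    calc y * b = y * (e * b) := by rw [heb]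
      _ = (y * e) * b := by rw [mul_assoc]
      _ = b * b := by rw [hye]
  -- (b - l)(b - μ) e = 0 with μ = T' - l
  have hrel : b * b - T' • b + N' • e = 0 := by
    have h1 : (y * y - T' • y + N' • (1 : Module.End k V)) * e = 0 := by rw [hTN', zero_mul]
    rw [add_mul, sub_mul, mul_assoc, hye, hyb, smul_mul_assoc, hye, smul_mul_assoc, one_mul] at h1
    exact h1
  have hN' : N' = T' * l - l * l := by linear_combination hroot
  -- b² = (γ + γ') b - γγ' (from the factorisation)
  have hbb : b * b = (γ + γ') • b - (γ * γ') • (1 : Module.End k V) := by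
    have e1 : (b - γ • (1 : Module.End k V)) * (b - γ' • (1 : Module.End k V)) =
        b * b - (γ + γ') • b + (γ * γ') • (1 : Module.End k V) := by
      simp only [sub_mul, mul_sub, smul_mul_assoc, mul_smul_comm, mul_one, one_mul, smul_sub,
        smul_smul, add_smul]
      module
    rw [e1] at hγ
    have : b * b = b * b - (γ + γ') • b + (γ * γ') • (1 : Module.End k V) +
        ((γ + γ') • b - (γ * γ') • (1 : Module.End k V)) := by abel
    rw [this, hγ, zero_add]
  -- multiply hrel by e on the right and use b e = b: everything in terms of b, e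
  have hbb' : b * b = (γ + γ') • b - (γ * γ') • e := by
    have := congrArg (fun f => f * e) hbb
    simp only [mul_assoc, hbe, sub_mul, smul_mul_assoc, one_mul] at this
    exact this
  -- linear relation: ((γ + γ') - T') b = (γγ' - N') e
  have hlin : ((γ + γ') - T') • b = (γ * γ' - N') • e := by
    have h1 := hrel
    rw [hbb'] at h1
    have : ((γ + γ') - T') • b - (γ * γ' - N') • e =
        (γ + γ') • b - (γ * γ') • e - T' • b + N' • e := by module
    exact sub_eq_zero.mp (this.trans h1)
  by_cases hT : (γ + γ') - T' = 0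
  · -- then γγ' = N' (as e ≠ 0 or trivial) ; then l is a root of (X-γ)(X-γ'), contradiction,
    -- unless e = 0, in which case b = 0
    rw [hT, zero_smul] at hlin
    rcases smul_eq_zero.mp hlin.symm with h | h
    · exfalso
      have h1 : (l - γ) * (l - γ') = 0 := by
        have hT2 : T' = γ + γ' := by linear_combination -hT
        have hN2 : N' = γ * γ' := by linear_combination -h
        rw [hT2, hN2] at hroot
        linear_combination hroot
      rcases mul_eq_zero.mp h1 with h2 | h2
      · exact hlγ (sub_eq_zero.mp h2)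
      · exact hlγ' (sub_eq_zero.mp h2)
    · refine ⟨0, ?_⟩
      rw [zero_smul, ← hbe, h, mul_zero]
  · refine ⟨((γ + γ') - T')⁻¹ * (γ * γ' - N'), ?_⟩
    rw [mul_smul, ← hlin, smul_smul, inv_mul_cancel₀ hT, one_smul]

/-- For an idempotent `e ≠ 0, 1` of `A` the image of `e` is a line. -/
theorem FA_S29_ALG_idem_line (hirr : FA_S29_ALG_Irr A) (hq : FA_S29_ALG_Quad A)
    {e : Module.End k V} (he : e ∈ A) (hee : e * e = e) (he0 : e ≠ 0) (he1 : e ≠ 1) :
    ∃ v : V, ∀ w : V, ∃ c : k, e w = c • v := by
  have : ∃ v₀ : V, e v₀ ≠ 0 := by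
    by_contra hcon
    push_neg at hcon
    exact he0 (LinearMap.ext fun w => by rw [hcon w, LinearMap.zero_apply])
  obtain ⟨v₀, hv₀⟩ := this
  refine ⟨e v₀, fun w => ?_⟩
  have hev : e (e v₀) = e v₀ := by rw [← Module.End.mul_apply, hee]
  by_cases hw : e w = 0
  · exact ⟨0, by rw [hw, zero_smul]⟩
  obtain ⟨a, ha, hav⟩ := FA_S29_ALG_orbit hirr hv₀ (e w)
  obtain ⟨μ, hμ⟩ := FA_S29_ALG_corner hq he hee he1 a ha
  refine ⟨μ, ?_⟩
  have h1 : e w = e (e w) := by rw [← Module.End.mul_apply, hee]
  rw [h1, ← hav]
  have h2 : e (a (e v₀)) = (e * a * e) v₀ := rfl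
  rw [h2, hμ, LinearMap.smul_apply]

/-- The nilpotent case is impossible. -/
theorem FA_S29_ALG_no_nilp (hirr : FA_S29_ALG_Irr A)
    (hnil : ∀ a ∈ A, ∃ α : k, (a - α • (1 : Module.End k V)) * (a - α • (1 : Module.End k V)) = 0)
    {n : Module.End k V} (hn : n ∈ A) (hnn : n * n = 0) : n = 0 := by
  by_contra hn0
  -- (n b)^2 = 0 for all b ∈ A
  have h1 : ∀ b ∈ A, n * b * (n * b) = 0 := by
    intro b hb
    obtain ⟨γ, hγ⟩ := hnil (n * b) (A.mul_mem hn hb)
    have e1 : n * ((n * b - γ • (1 : Module.End k V)) * (n * b - γ • (1 : Module.End k V))) =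
        (γ * γ) • n := by
      simp only [sub_mul, mul_sub, smul_mul_assoc, mul_smul_comm, mul_one, one_mul, smul_sub,
        smul_smul, ← mul_assoc, hnn, zero_mul, smul_zero, sub_zero, zero_sub, sub_neg_eq_add,
        zero_add]
    rw [hγ, mul_zero] at e1
    rcases smul_eq_zero.mp e1.symm with h | h
    · have hγ0 : γ = 0 := by
        rcases mul_eq_zero.mp h with h | h <;> exact h
      rw [hγ0, zero_smul, sub_zero] at hγ
      exact hγ
    · exact absurd h hn0
  -- n x n = 0 for all x ∈ A
  have h2 : ∀ x ∈ A, n * x * n = 0 := by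
    intro x hx
    have := h1 (1 + x) (A.add_mem A.one_mem hx)
    have e2 : n * (1 + x) * (n * (1 + x)) = n * x * n + (n * n + n * n * x + n * x * (n * x)) := by
      noncomm_ring
    rw [e2, hnn, zero_mul, h1 x hx, add_zero, add_zero, add_zero] at this
    exact this
  have : ∃ v : V, n v ≠ 0 := by
    by_contra hcon
    push_neg at hcon
    exact hn0 (LinearMap.ext fun w => by rw [hcon w, LinearMap.zero_apply])
  obtain ⟨v, hv⟩ := this
  apply hn0
  ext w
  obtain ⟨x, hx, hxw⟩ := FA_S29_ALG_orbit hirr hv w
  rw [← hxw, LinearMap.zero_apply]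
  have : n (x (n v)) = (n * x * n) v := rfl
  rw [this, h2 x hx, LinearMap.zero_apply]

/-- **An irreducible module over an algebra of quadratic elements is spanned by two vectors.** -/
theorem FA_S29_ALG_two_vectors [Nontrivial V] (hirr : FA_S29_ALG_Irr A) (hq : FA_S29_ALG_Quad A) :
    ∃ v w : V, ∀ x : V, ∃ c c' : k, x = c • v + c' • w := by
  by_cases h : ∃ a ∈ A, ∃ α β : k, α ≠ β ∧
      (a - α • (1 : Module.End k V)) * (a - β • (1 : Module.End k V)) = 0 ∧
      a ≠ α • (1 : Module.End k V) ∧ a ≠ β • (1 : Module.End k V)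
  · obtain ⟨a, ha, α, β, hαβ, hfac, haα, haβ⟩ := h
    have hd : α - β ≠ 0 := sub_ne_zero.mpr hαβ
    set e : Module.End k V := (α - β)⁻¹ • (a - β • (1 : Module.End k V)) with he
    have heA : e ∈ A := A.smul_mem (A.sub_mem ha (A.smul_mem A.one_mem β)) _
    have e1 : (a - β • (1 : Module.End k V)) * (a - β • (1 : Module.End k V)) =
        (α - β) • (a - β • (1 : Module.End k V)) := by
      have e2 : (a - β • (1 : Module.End k V)) * (a - β • (1 : Module.End k V)) =
          (a - α • (1 : Module.End k V)) * (a - β • (1 : Module.End k V)) +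
            (α - β) • (a - β • (1 : Module.End k V)) := by
        simp only [sub_mul, mul_sub, smul_mul_assoc, mul_smul_comm, mul_one, one_mul, smul_sub,
          smul_smul, sub_smul]
        module
      rw [e2, hfac, zero_add]
    have hee : e * e = e := by
      rw [he, smul_mul_assoc, mul_smul_comm, e1, smul_smul, smul_smul, mul_assoc,
        inv_mul_cancel₀ hd, mul_one]
    have he0 : e ≠ 0 := by
      intro h0
      rw [he] at h0
      rcases smul_eq_zero.mp h0 with h | h
      · exact hd (inv_eq_zero.mp h)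
      · exact haβ (sub_eq_zero.mp h)
    have he1 : e ≠ 1 := by
      intro h1
      apply haα
      have h2 : (α - β) • e = a - β • (1 : Module.End k V) := by
        rw [he, smul_smul, mul_inv_cancel₀ hd, one_smul]
      rw [h1] at h2
      have : a = (α - β) • (1 : Module.End k V) + β • (1 : Module.End k V) := by
        rw [h2]; abel
      rw [this, ← add_smul, sub_add_cancel]
    have hfA : (1 - e) ∈ A := A.sub_mem A.one_mem heA
    have hff : (1 - e) * (1 - e) = 1 - e := by
      rw [sub_mul, mul_sub, mul_sub, one_mul, mul_one, hee]; abel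
    have hf0 : (1 - e) ≠ 0 := fun h => he1 (sub_eq_zero.mp h).symm
    have hf1 : (1 - e) ≠ 1 := fun h => he0 (by
      have : e = 1 - (1 - e) := by abel
      rw [this, h, sub_self])
    obtain ⟨v, hv⟩ := FA_S29_ALG_idem_line hirr hq heA hee he0 he1
    obtain ⟨w, hw⟩ := FA_S29_ALG_idem_line hirr hq hfA hff hf0 hf1
    refine ⟨v, w, fun x => ?_⟩
    obtain ⟨c, hc⟩ := hv x
    obtain ⟨c', hc'⟩ := hw x
    refine ⟨c, c', ?_⟩
    rw [← hc, ← hc', LinearMap.sub_apply, Module.End.one_apply]
    abel
  · push_neg at h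
    by_cases h2 : ∀ a ∈ A, ∃ c : k, a = c • (1 : Module.End k V)
    · obtain ⟨v, hv⟩ := exists_ne (0 : V)
      refine ⟨v, v, fun x => ?_⟩
      obtain ⟨a, ha, hax⟩ := FA_S29_ALG_orbit hirr hv x
      obtain ⟨c, hc⟩ := h2 a ha
      refine ⟨c, 0, ?_⟩
      rw [← hax, hc, LinearMap.smul_apply, Module.End.one_apply, zero_smul, add_zero]
    · exfalso
      push_neg at h2
      obtain ⟨a, ha, hns⟩ := h2
      have hnil : ∀ a ∈ A, ∃ α : k,
          (a - α • (1 : Module.End k V)) * (a - α • (1 : Module.End k V)) = 0 := by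
        intro a ha
        obtain ⟨T, N, hTN⟩ := hq a ha
        obtain ⟨α, β, -, -, hfac⟩ := FA_S29_ALG_factor a T N hTN
        by_cases hαβ : α = β
        · exact ⟨α, by rw [hαβ] at hfac ⊢; exact hfac⟩
        · by_cases h3 : a = α • (1 : Module.End k V)
          · exact ⟨α, by rw [h3, sub_self, zero_mul]⟩
          · have h4 := h a ha α β hαβ hfac h3
            exact ⟨β, by rw [h4, sub_self, zero_mul]⟩
      obtain ⟨α, hα⟩ := hnil a ha
      have := FA_S29_ALG_no_nilp hirr hnil (A.sub_mem ha (A.smul_mem A.one_mem α)) hα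
      exact hns α (sub_eq_zero.mp this)

end Fermat.Agent.S29
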