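import Fermat.Agent.S29.AlgRep

/-!
# S29/S42, leaf L9 (file AlgMain): main theorem

`FA_S29_ALG_main`: `G` a group, `k` algebraically closed, `V ≠ 0` finite-dimensional,
`ρ : G →* End_k V`, `d : G →* kˣ`, every `ρ g` satisfies `ρ g ^ 2 - t ρ g + d g = 0` for some
`t`.  Then there is `ρ' : G →* M₂(k)` with `ρ' g = 1` whenever `ρ g = 1` and `d g = 1`, and
`charpoly (ρ' g) = X² - t X + d g` for every `g`, `t` with `ρ g ^ 2 - t ρ g + d g = 0`.
-/

set_option autoImplicit false
set_option linter.unusedSectionVars false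
set_option linter.unusedVariables false

noncomputable section

namespace Fermat.Agent.S29

open Polynomial Matrix

variable {k : Type*} [Field k] {G : Type*} [Group G] {V : Type*} [AddCommGroup V] [Module k V]

/-- Matrix form of a representation on a space with a basis. -/
def FA_S29_ALG_toMat {n : ℕ} {W : Type*} [AddCommGroup W] [Module k W]
    (b : Module.Basis (Fin n) k W) (σ : G →* Module.End k W) :
    G →* Matrix (Fin n) (Fin n) k :=
  ((LinearMap.toMatrixAlgEquiv b : Module.End k W ≃ₐ[k] Matrix (Fin n) (Fin n) k) :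
    Module.End k W →* Matrix (Fin n) (Fin n) k).comp σ

theorem FA_S29_ALG_toMat_apply {n : ℕ} {W : Type*} [AddCommGroup W] [Module k W]
    (b : Module.Basis (Fin n) k W) (σ : G →* Module.End k W) (g : G) :
    FA_S29_ALG_toMat b σ g = LinearMap.toMatrixAlgEquiv b (σ g) := rfl

theorem FA_S29_ALG_toMat_rel {n : ℕ} {W : Type*} [AddCommGroup W] [Module k W]
    (b : Module.Basis (Fin n) k W) (σ : G →* Module.End k W) (g : G) (t δ : k)
    (h : σ g * σ g - t • σ g + δ • (1 : Module.End k W) = 0) :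
    FA_S29_ALG_toMat b σ g * FA_S29_ALG_toMat b σ g - t • FA_S29_ALG_toMat b σ g
      + δ • (1 : Matrix (Fin n) (Fin n) k) = 0 := by
  have := congrArg (LinearMap.toMatrixAlgEquiv b) h
  rw [map_add, map_sub, map_mul, map_smul, map_smul, map_one, map_zero] at this
  exact this

theorem FA_S29_ALG_toMat_scalar {n : ℕ} {W : Type*} [AddCommGroup W] [Module k W]
    (b : Module.Basis (Fin n) k W) (σ : G →* Module.End k W) (g : G) (c : k)
    (h : FA_S29_ALG_toMat b σ g = c • (1 : Matrix (Fin n) (Fin n) k)) :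
    σ g = c • (1 : Module.End k W) := by
  apply (LinearMap.toMatrixAlgEquiv b).injective
  rw [map_smul, map_one]
  exact h

/-- The two-dimensional case. -/
theorem FA_S29_ALG_main_two [IsAlgClosed k] [Module.Finite k V]
    (ρ : G →* Module.End k V) (d : G →* kˣ)
    (hquad : ∀ g : G, ∃ t : k,
      ρ g * ρ g - t • ρ g + ((d g : kˣ) : k) • (1 : Module.End k V) = 0)
    (W : Submodule k V) (hW : FA_S29_ALG_Inv ρ W)
    (hmin : ∀ W' : Submodule k V, W' ≤ W → FA_S29_ALG_Inv ρ W' → W' = ⊥ ∨ W' = W)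
    (h2 : Module.finrank k W = 2) :
    ∃ ρ' : G →* Matrix (Fin 2) (Fin 2) k,
      (∀ g : G, ρ g = 1 → d g = 1 → ρ' g = 1) ∧
      ∀ (g : G) (t : k),
        ρ g * ρ g - t • ρ g + ((d g : kˣ) : k) • (1 : Module.End k V) = 0 →
        (ρ' g).charpoly = X ^ 2 - C t * X + C ((d g : kˣ) : k) := by
  classical
  set σ := FA_S29_ALG_restrict ρ W hW with hσ
  let b : Module.Basis (Fin 2) k W := Module.finBasisOfFinrankEq k W h2
  have hquadσ : ∀ g : G, ∃ t : k, FA_S29_ALG_toMat b σ g * FA_S29_ALG_toMat b σ g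
      - t • FA_S29_ALG_toMat b σ g + ((d g : kˣ) : k) • (1 : Matrix (Fin 2) (Fin 2) k) = 0 := by
    intro g
    obtain ⟨t, ht⟩ := hquad g
    exact ⟨t, FA_S29_ALG_toMat_rel b σ g t _ (FA_S29_ALG_restrict_rel ρ W hW g t _ ht)⟩
  -- a non-scalar element
  have hns : ∃ h₀ : G, ∀ c : k, FA_S29_ALG_toMat b σ h₀ ≠ c • (1 : Matrix (Fin 2) (Fin 2) k) := by
    by_contra hcon
    push_neg at hcon
    -- the line spanned by `b 0` is stable
    let L : Submodule k V := (Submodule.span k {b 0}).map W.subtype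
    have hL : FA_S29_ALG_Inv ρ L := by
      rintro g _ ⟨w, hw, rfl⟩
      obtain ⟨c, hc⟩ := hcon g
      have hc' := FA_S29_ALG_toMat_scalar b σ g c hc
      refine ⟨σ g w, ?_, rfl⟩
      rw [hc', LinearMap.smul_apply, Module.End.one_apply]
      exact Submodule.smul_mem _ _ hw
    have hLW : L ≤ W := by
      rintro _ ⟨w, -, rfl⟩
      exact w.2
    rcases hmin L hLW hL with h | h
    · have : (Submodule.span k {b 0} : Submodule k W) = ⊥ := by
        apply Submodule.map_injective_of_injective W.injective_subtype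
        rw [Submodule.map_bot]; exact h
      rw [Submodule.span_singleton_eq_bot] at this
      exact b.ne_zero 0 this
    · have : (Submodule.span k {b 0} : Submodule k W) = ⊤ := by
        apply Submodule.map_injective_of_injective W.injective_subtype
        rw [Submodule.map_subtype_top]; exact h
      have h1 := finrank_span_singleton (K := k) (b.ne_zero 0)
      rw [this, finrank_top, h2] at h1
      omega
  obtain ⟨h₀, hh₀⟩ := hns
  refine ⟨FA_S29_ALG_toMat b σ, ?_, ?_⟩
  · intro g hg _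
    rw [FA_S29_ALG_toMat_apply]
    have : σ g = 1 := by
      ext w
      rw [hσ, FA_S29_ALG_restrict_apply, hg]
      rfl
    rw [this, map_one]
  · intro g t ht
    exact FA_S29_ALG_mat_charpoly (FA_S29_ALG_toMat b σ) d hquadσ h₀ hh₀ g t
      (FA_S29_ALG_toMat_rel b σ g t _ (FA_S29_ALG_restrict_rel ρ W hW g t _ ht))

/-- The one-dimensional case. -/
theorem FA_S29_ALG_main_one
    (ρ : G →* Module.End k V) (d : G →* kˣ)
    (W : Submodule k V) (hW : FA_S29_ALG_Inv ρ W)
    (h1 : Module.finrank k W = 1) :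
    ∃ ρ' : G →* Matrix (Fin 2) (Fin 2) k,
      (∀ g : G, ρ g = 1 → d g = 1 → ρ' g = 1) ∧
      ∀ (g : G) (t : k),
        ρ g * ρ g - t • ρ g + ((d g : kˣ) : k) • (1 : Module.End k V) = 0 →
        (ρ' g).charpoly = X ^ 2 - C t * X + C ((d g : kˣ) : k) := by
  classical
  haveI : Module.Finite k W := Module.finite_of_finrank_eq_succ h1
  set σ := FA_S29_ALG_restrict ρ W hW with hσ
  let b : Module.Basis (Fin 1) k W := Module.finBasisOfFinrankEq k W h1
  -- the character
  let χ₀ : G →* k :=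
    { toFun := fun g => FA_S29_ALG_toMat b σ g 0 0
      map_one' := by rw [map_one, Matrix.one_apply_eq]
      map_mul' := fun g h => by
        rw [map_mul, Matrix.mul_apply, Fin.sum_univ_one] }
  let χ : G →* kˣ := χ₀.toHomUnits
  have hχ : ∀ g, ((χ g : kˣ) : k) = FA_S29_ALG_toMat b σ g 0 0 := fun g => rfl
  refine ⟨FA_S29_ALG_diag χ d, ?_, ?_⟩
  · intro g hg hd
    refine FA_S29_ALG_diag_one χ d g ?_ hd
    apply Units.ext
    rw [hχ, FA_S29_ALG_toMat_apply]
    have : σ g = 1 := by
      ext w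
      rw [hσ, FA_S29_ALG_restrict_apply, hg]
      rfl
    rw [this, map_one, Matrix.one_apply_eq, Units.val_one]
  · intro g t ht
    refine FA_S29_ALG_diag_charpoly χ d g t ?_
    have h3 := FA_S29_ALG_toMat_rel b σ g t _ (FA_S29_ALG_restrict_rel ρ W hW g t _ ht)
    have h4 := congrFun (congrFun h3 0) 0
    simp only [Matrix.add_apply, Matrix.sub_apply, Matrix.smul_apply, Matrix.mul_apply,
      Fin.sum_univ_one, Matrix.one_apply_eq, Matrix.zero_apply, smul_eq_mul, mul_one] at h4
    rw [hχ]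
    exact h4

/-- **Main theorem of leaf L9.** -/
theorem FA_S29_ALG_main [IsAlgClosed k] [Module.Finite k V] [Nontrivial V]
    (ρ : G →* Module.End k V) (d : G →* kˣ)
    (hquad : ∀ g : G, ∃ t : k,
      ρ g * ρ g - t • ρ g + ((d g : kˣ) : k) • (1 : Module.End k V) = 0) :
    ∃ ρ' : G →* Matrix (Fin 2) (Fin 2) k,
      (∀ g : G, ρ g = 1 → d g = 1 → ρ' g = 1) ∧
      ∀ (g : G) (t : k),
        ρ g * ρ g - t • ρ g + ((d g : kˣ) : k) • (1 : Module.End k V) = 0 →
        (ρ' g).charpoly = X ^ 2 - C t * X + C ((d g : kˣ) : k) := by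
  obtain ⟨W, hW, hW0, hmin⟩ := FA_S29_ALG_exists_min ρ
  rcases FA_S29_ALG_finrank_le_two ρ d hquad W hW hW0 hmin with h | h
  · exact FA_S29_ALG_main_one ρ d W hW h
  · exact FA_S29_ALG_main_two ρ d hquad W hW hmin h

end Fermat.Agent.S29
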