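import Mathlib

/-!
# S29/S42, leaf L9 (file AlgMat): 2 × 2 matrix representations with quadratic relations

* `FA_S29_ALG_mat_charpoly`: a matrix representation `R : G →* M₂(k)` with one non-scalar value,
  all of whose values satisfy a quadratic relation with constant term `d g` (`d` a character):
  then `charpoly (R g) = X² - t X + d g` for EVERY `t` such that `R g` satisfies
  `R g ^ 2 - t R g + d g = 0`.
* `FA_S29_ALG_diag`: the representation `χ ⊕ d χ⁻¹` and its characteristic polynomial.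
-/

set_option autoImplicit false
set_option linter.unusedSectionVars false
set_option linter.unusedVariables false

noncomputable section

namespace Fermat.Agent.S29

open Polynomial Matrix

variable {k : Type*} [Field k] {G : Type*} [Group G]

/-- Cayley–Hamilton for 2 × 2 matrices, explicitly. -/
theorem FA_S29_ALG_cayley (M : Matrix (Fin 2) (Fin 2) k) :
    M * M - M.trace • M + M.det • (1 : Matrix (Fin 2) (Fin 2) k) = 0 := by
  ext i j
  fin_cases i <;> fin_cases j <;>
    simp [Matrix.mul_apply, Fin.sum_univ_two, Matrix.det_fin_two, Matrix.trace_fin_two] <;> ring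

/-- A non-scalar 2 × 2 matrix satisfying `M² - tM + δ = 0` has trace `t` and determinant `δ`. -/
theorem FA_S29_ALG_tr_det_of_nonscalar (M : Matrix (Fin 2) (Fin 2) k) (t δ : k)
    (h : M * M - t • M + δ • (1 : Matrix (Fin 2) (Fin 2) k) = 0)
    (hns : ∀ c : k, M ≠ c • (1 : Matrix (Fin 2) (Fin 2) k)) :
    M.trace = t ∧ M.det = δ := by
  have hc := FA_S29_ALG_cayley M
  have h1 : (M.trace - t) • M = (M.det - δ) • (1 : Matrix (Fin 2) (Fin 2) k) := by
    have : (M.trace - t) • M - (M.det - δ) • (1 : Matrix (Fin 2) (Fin 2) k) =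
        (M * M - t • M + δ • (1 : Matrix (Fin 2) (Fin 2) k)) -
          (M * M - M.trace • M + M.det • (1 : Matrix (Fin 2) (Fin 2) k)) := by
      module
    rw [h, hc, sub_zero] at this
    exact sub_eq_zero.mp this
  by_cases ht : M.trace - t = 0
  · refine ⟨sub_eq_zero.mp ht, ?_⟩
    rw [ht, zero_smul] at h1
    have h2 := congrFun (congrFun h1 0) 0
    simp only [Matrix.zero_apply, Matrix.smul_apply, Matrix.one_apply_eq, smul_eq_mul,
      mul_one] at h2
    exact sub_eq_zero.mp h2.symm
  · exfalso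
    apply hns ((M.trace - t)⁻¹ * (M.det - δ))
    rw [mul_smul, ← h1, smul_smul, inv_mul_cancel₀ ht, one_smul]

/-- The characteristic polynomial of a 2 × 2 matrix with given trace and determinant. -/
theorem FA_S29_ALG_charpoly_of_tr_det (M : Matrix (Fin 2) (Fin 2) k) (t δ : k)
    (ht : M.trace = t) (hd : M.det = δ) : M.charpoly = X ^ 2 - C t * X + C δ := by
  rw [Matrix.charpoly_fin_two, ht, hd]

/-- **Exact characteristic polynomials** for a 2 × 2 matrix representation with quadratic
relations whose constant terms form a character, as soon as ONE value is not scalar. -/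
theorem FA_S29_ALG_mat_charpoly (R : G →* Matrix (Fin 2) (Fin 2) k) (d : G →* kˣ)
    (hquad : ∀ g : G, ∃ t : k,
      R g * R g - t • R g + ((d g : kˣ) : k) • (1 : Matrix (Fin 2) (Fin 2) k) = 0)
    (h₀ : G) (hns : ∀ c : k, R h₀ ≠ c • (1 : Matrix (Fin 2) (Fin 2) k))
    (g : G) (t : k)
    (h : R g * R g - t • R g + ((d g : kˣ) : k) • (1 : Matrix (Fin 2) (Fin 2) k) = 0) :
    (R g).charpoly = X ^ 2 - C t * X + C ((d g : kˣ) : k) := by
  by_cases hg : ∀ c : k, R g ≠ c • (1 : Matrix (Fin 2) (Fin 2) k)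
  · obtain ⟨h1, h2⟩ := FA_S29_ALG_tr_det_of_nonscalar (R g) t _ h hg
    exact FA_S29_ALG_charpoly_of_tr_det _ _ _ h1 h2
  · push_neg at hg
    obtain ⟨c, hc⟩ := hg
    -- det (R h₀) = d h₀
    obtain ⟨t₀, ht₀⟩ := hquad h₀
    obtain ⟨-, hd₀⟩ := FA_S29_ALG_tr_det_of_nonscalar (R h₀) t₀ _ ht₀ hns
    -- c ≠ 0
    have hinv : R g * R g⁻¹ = 1 := by rw [← map_mul, mul_inv_cancel, map_one]
    have hc0 : c ≠ 0 := by
      intro h0
      rw [hc, h0, zero_smul, zero_mul] at hinv
      have := congrFun (congrFun hinv 0) 0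
      simp at this
    -- R (g h₀) = c • R h₀ is not scalar
    have hgh : R (g * h₀) = c • R h₀ := by
      rw [map_mul, hc, smul_mul_assoc, one_mul]
    have hns' : ∀ c' : k, R (g * h₀) ≠ c' • (1 : Matrix (Fin 2) (Fin 2) k) := by
      intro c' hc'
      apply hns (c⁻¹ * c')
      rw [mul_smul, ← hc', hgh, smul_smul, inv_mul_cancel₀ hc0, one_smul]
    obtain ⟨t₁, ht₁⟩ := hquad (g * h₀)
    obtain ⟨-, hd₁⟩ := FA_S29_ALG_tr_det_of_nonscalar (R (g * h₀)) t₁ _ ht₁ hns'
    have hd₀ne : ((d h₀ : kˣ) : k) ≠ 0 := (d h₀).ne_zero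
    have hcc : c * c = ((d g : kˣ) : k) := by
      rw [hgh, Matrix.det_smul, Fintype.card_fin, hd₀, map_mul, Units.val_mul] at hd₁
      have : (c * c - ((d g : kˣ) : k)) * ((d h₀ : kˣ) : k) = 0 := by
        linear_combination hd₁
      rcases mul_eq_zero.mp this with h' | h'
      · exact sub_eq_zero.mp h'
      · exact absurd h' hd₀ne
    -- the relation for the scalar c
    have hrel : c * c - t * c + ((d g : kˣ) : k) = 0 := by
      have := congrFun (congrFun h 0) 0
      rw [hc] at this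
      simp only [Matrix.add_apply, Matrix.sub_apply, Matrix.smul_apply, Matrix.mul_apply,
        Fin.sum_univ_two, Matrix.one_apply_eq, Matrix.zero_apply, smul_eq_mul, mul_one] at this
      simp at this
      linear_combination this
    have ht : t = 2 * c := by
      have : c * (2 * c - t) = 0 := by linear_combination hrel + hcc
      rcases mul_eq_zero.mp this with h' | h'
      · exact absurd h' hc0
      · linear_combination -h'
    refine FA_S29_ALG_charpoly_of_tr_det _ _ _ ?_ ?_
    · rw [hc, Matrix.trace_smul, Matrix.trace_one, Fintype.card_fin, ht]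
      simp [mul_comm]
    · rw [hc, Matrix.det_smul, Fintype.card_fin, Matrix.det_one, mul_one, pow_two, hcc]

/-- The representation `χ ⊕ d χ⁻¹`. -/
def FA_S29_ALG_diag (χ d : G →* kˣ) : G →* Matrix (Fin 2) (Fin 2) k where
  toFun g := Matrix.diagonal ![((χ g : kˣ) : k), ((d g : kˣ) : k) * (((χ g)⁻¹ : kˣ) : k)]
  map_one' := by
    ext i j
    fin_cases i <;> fin_cases j <;> simp
  map_mul' g h := by
    ext i j
    fin_cases i <;> fin_cases j <;> simp [Matrix.mul_apply, Fin.sum_univ_two] <;> ring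

theorem FA_S29_ALG_diag_one (χ d : G →* kˣ) (g : G) (h1 : χ g = 1) (h2 : d g = 1) :
    FA_S29_ALG_diag χ d g = 1 := by
  show Matrix.diagonal ![((χ g : kˣ) : k), ((d g : kˣ) : k) * (((χ g)⁻¹ : kˣ) : k)] = 1
  rw [h1, h2]
  ext i j
  fin_cases i <;> fin_cases j <;> simp

theorem FA_S29_ALG_diag_charpoly (χ d : G →* kˣ) (g : G) (t : k)
    (h : ((χ g : kˣ) : k) * ((χ g : kˣ) : k) - t * ((χ g : kˣ) : k) + ((d g : kˣ) : k) = 0) :
    (FA_S29_ALG_diag χ d g).charpoly = X ^ 2 - C t * X + C ((d g : kˣ) : k) := by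
  have hχ : ((χ g : kˣ) : k) ≠ 0 := (χ g).ne_zero
  have hinv : ((χ g : kˣ) : k) * (((χ g)⁻¹ : kˣ) : k) = 1 := by
    rw [← Units.val_mul, mul_inv_cancel, Units.val_one]
  refine FA_S29_ALG_charpoly_of_tr_det _ _ _ ?_ ?_
  · show (Matrix.diagonal ![((χ g : kˣ) : k), ((d g : kˣ) : k) * (((χ g)⁻¹ : kˣ) : k)]).trace = t
    rw [Matrix.trace_fin_two]
    simp only [Matrix.diagonal_apply_eq, Matrix.cons_val_zero, Matrix.cons_val_one]
    have : ((χ g : kˣ) : k) * (((χ g : kˣ) : k) + ((d g : kˣ) : k) * (((χ g)⁻¹ : kˣ) : k) - t)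
        = 0 := by
      linear_combination h + ((d g : kˣ) : k) * hinv
    rcases mul_eq_zero.mp this with h' | h'
    · exact absurd h' hχ
    · linear_combination h'
  · show (Matrix.diagonal ![((χ g : kˣ) : k), ((d g : kˣ) : k) * (((χ g)⁻¹ : kˣ) : k)]).det = _
    rw [Matrix.det_fin_two]
    simp only [Matrix.diagonal_apply_eq, Matrix.cons_val_zero, Matrix.cons_val_one]
    simp only [Matrix.diagonal_apply_ne _ (show (0 : Fin 2) ≠ 1 by decide),
      Matrix.diagonal_apply_ne _ (show (1 : Fin 2) ≠ 0 by decide), mul_zero, sub_zero]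
    linear_combination ((d g : kˣ) : k) * hinv

end Fermat.Agent.S29
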