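import Mathlib

/-!
# S29/S42, leaf L9 (file AlgQuad): quadratic relations with a determinant character

`G` a group, `E` a `k`-algebra, `ρ : G →* E`, `d : G →* kˣ`, and every `ρ g` satisfies a
quadratic relation `ρ g ^ 2 - t • ρ g + d g = 0`.  Then EVERY element of the `k`-span of `ρ(G)`
satisfies a monic quadratic relation over `k` (any characteristic).
-/

set_option autoImplicit false
set_option linter.unusedSectionVars false
set_option linter.unusedVariables false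

noncomputable section

namespace Fermat.Agent.S29

variable {k : Type*} [Field k] {E : Type*} [Ring E] [Algebra k E]
variable {G : Type*} [Group G]

/-- The relation in the form `ρ g + d(g) ρ(g)⁻¹ = t`. -/
theorem FA_S29_ALG_add_inv (ρ : G →* E) (d : G →* kˣ) (g : G) (t : k)
    (h : ρ g * ρ g - t • ρ g + ((d g : kˣ) : k) • (1 : E) = 0) :
    ρ g + ((d g : kˣ) : k) • ρ g⁻¹ = t • (1 : E) := by
  have h1 : ρ g * ρ g⁻¹ = 1 := by rw [← map_mul, mul_inv_cancel, map_one]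
  have h2 : (ρ g * ρ g - t • ρ g + ((d g : kˣ) : k) • (1 : E)) * ρ g⁻¹ = 0 := by
    rw [h, zero_mul]
  rw [add_mul, sub_mul, mul_assoc, h1, mul_one, smul_mul_assoc, h1, smul_mul_assoc, one_mul] at h2
  have : ρ g + ((d g : kˣ) : k) • ρ g⁻¹ - t • (1 : E) = 0 := by
    rw [← h2]; abel
  exact sub_eq_zero.mp this

/-- The set of generating pairs `(ρ g, d(g) ρ(g)⁻¹)`. -/
def FA_S29_ALG_pairs (ρ : G →* E) (d : G →* kˣ) : Set (E × E) :=
  Set.range fun g : G => (ρ g, ((d g : kˣ) : k) • ρ g⁻¹)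

/-- The span of the generating pairs. -/
def FA_S29_ALG_P (ρ : G →* E) (d : G →* kˣ) : Submodule k (E × E) :=
  Submodule.span k (FA_S29_ALG_pairs ρ d)

variable (ρ : G →* E) (d : G →* kˣ)
  (hquad : ∀ g : G, ∃ t : k, ρ g * ρ g - t • ρ g + ((d g : kˣ) : k) • (1 : E) = 0)
include hquad

/-- Bilinear identity: `a b' + b a' ∈ k` for pairs `(a, a')`, `(b, b')` of `P`. -/
theorem FA_S29_ALG_bilin (p q : E × E) (hp : p ∈ FA_S29_ALG_P ρ d) (hq : q ∈ FA_S29_ALG_P ρ d) :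
    ∃ c : k, p.1 * q.2 + q.1 * p.2 = c • (1 : E) := by
  refine Submodule.span_induction₂ (R := k)
    (p := fun p q _ _ => ∃ c : k, p.1 * q.2 + q.1 * p.2 = c • (1 : E))
    ?_ ?_ ?_ ?_ ?_ ?_ ?_ hp hq
  · rintro _ _ ⟨g, rfl⟩ ⟨h, rfl⟩
    obtain ⟨t, ht⟩ := hquad (g * h⁻¹)
    have key := FA_S29_ALG_add_inv ρ d (g * h⁻¹) t ht
    refine ⟨((d h : kˣ) : k) * t, ?_⟩
    have e1 : ρ g * ρ h⁻¹ = ρ (g * h⁻¹) := (map_mul ρ _ _).symm
    have e2 : ρ h * ρ g⁻¹ = ρ (g * h⁻¹)⁻¹ := by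
      rw [← map_mul]; congr 1; group
    have e3' : d g = d h * d (g * h⁻¹) := by
      rw [map_mul, map_inv, mul_comm (d g), mul_inv_cancel_left]
    have e3 : ((d g : kˣ) : k) = ((d h : kˣ) : k) * ((d (g * h⁻¹) : kˣ) : k) := by
      rw [← Units.val_mul, ← e3']
    show ρ g * (((d h : kˣ) : k) • ρ h⁻¹) + ρ h * (((d g : kˣ) : k) • ρ g⁻¹) = _
    rw [mul_smul_comm, mul_smul_comm, e1, e2, e3, mul_smul, ← smul_add, key, mul_smul]
  · intro y _
    exact ⟨0, by simp⟩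
  · intro x _
    exact ⟨0, by simp⟩
  · rintro x y z _ _ _ ⟨c, hc⟩ ⟨c', hc'⟩
    refine ⟨c + c', ?_⟩
    rw [add_smul, ← hc, ← hc']
    simp only [Prod.fst_add, Prod.snd_add, add_mul, mul_add]
    abel
  · rintro x y z _ _ _ ⟨c, hc⟩ ⟨c', hc'⟩
    refine ⟨c + c', ?_⟩
    rw [add_smul, ← hc, ← hc']
    simp only [Prod.fst_add, Prod.snd_add, add_mul, mul_add]
    abel
  · rintro r x y _ _ ⟨c, hc⟩
    refine ⟨r * c, ?_⟩
    rw [mul_smul, ← hc]
    simp only [Prod.smul_fst, Prod.smul_snd, smul_mul_assoc, mul_smul_comm, smul_add]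
  · rintro r x y _ _ ⟨c, hc⟩
    refine ⟨r * c, ?_⟩
    rw [mul_smul, ← hc]
    simp only [Prod.smul_fst, Prod.smul_snd, smul_mul_assoc, mul_smul_comm, smul_add]

/-- `a + a' ∈ k` for pairs `(a, a')` of `P`. -/
theorem FA_S29_ALG_trace (p : E × E) (hp : p ∈ FA_S29_ALG_P ρ d) :
    ∃ c : k, p.1 + p.2 = c • (1 : E) := by
  refine Submodule.span_induction (R := k)
    (p := fun p _ => ∃ c : k, p.1 + p.2 = c • (1 : E)) ?_ ?_ ?_ ?_ hp
  · rintro _ ⟨g, rfl⟩
    obtain ⟨t, ht⟩ := hquad g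
    exact ⟨t, FA_S29_ALG_add_inv ρ d g t ht⟩
  · exact ⟨0, by simp⟩
  · rintro x y _ _ ⟨c, hc⟩ ⟨c', hc'⟩
    refine ⟨c + c', ?_⟩
    rw [add_smul, ← hc, ← hc']
    simp only [Prod.fst_add, Prod.snd_add]
    abel
  · rintro r x _ ⟨c, hc⟩
    refine ⟨r * c, ?_⟩
    rw [mul_smul, ← hc]
    simp only [Prod.smul_fst, Prod.smul_snd, smul_add]

/-- `a a' ∈ k` for pairs `(a, a')` of `P` (quadratic; uses the bilinear identity). -/
theorem FA_S29_ALG_norm (p : E × E) (hp : p ∈ FA_S29_ALG_P ρ d) :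
    ∃ c : k, p.1 * p.2 = c • (1 : E) := by
  refine Submodule.span_induction (R := k)
    (p := fun p _ => ∃ c : k, p.1 * p.2 = c • (1 : E)) ?_ ?_ ?_ ?_ hp
  · rintro _ ⟨g, rfl⟩
    refine ⟨((d g : kˣ) : k), ?_⟩
    show ρ g * (((d g : kˣ) : k) • ρ g⁻¹) = _
    rw [mul_smul_comm, ← map_mul, mul_inv_cancel, map_one]
  · exact ⟨0, by simp⟩
  · rintro x y hx hy ⟨c, hc⟩ ⟨c', hc'⟩
    obtain ⟨c'', hc''⟩ := FA_S29_ALG_bilin ρ d hquad x y hx hy
    refine ⟨c + c' + c'', ?_⟩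
    rw [add_smul, add_smul, ← hc, ← hc', ← hc'']
    simp only [Prod.fst_add, Prod.snd_add, add_mul, mul_add]
    abel
  · rintro r x _ ⟨c, hc⟩
    refine ⟨r * r * c, ?_⟩
    rw [mul_smul, mul_smul, ← hc]
    simp only [Prod.smul_fst, Prod.smul_snd, smul_mul_assoc, mul_smul_comm]

/-- Every element of the span of `ρ(G)` is the first component of a pair of `P`. -/
theorem FA_S29_ALG_exists_pair (a : E) (ha : a ∈ Submodule.span k (Set.range ρ)) :
    ∃ a' : E, (a, a') ∈ FA_S29_ALG_P ρ d := by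
  refine Submodule.span_induction (R := k)
    (p := fun a _ => ∃ a' : E, (a, a') ∈ FA_S29_ALG_P ρ d) ?_ ?_ ?_ ?_ ha
  · rintro _ ⟨g, rfl⟩
    exact ⟨_, Submodule.subset_span ⟨g, rfl⟩⟩
  · exact ⟨0, Submodule.zero_mem _⟩
  · rintro x y _ _ ⟨x', hx'⟩ ⟨y', hy'⟩
    exact ⟨x' + y', Submodule.add_mem _ hx' hy'⟩
  · rintro r x _ ⟨x', hx'⟩
    exact ⟨r • x', Submodule.smul_mem _ r hx'⟩

/-- **Every element of the span of `ρ(G)` satisfies a monic quadratic relation over `k`.** -/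
theorem FA_S29_ALG_quadratic_span (a : E) (ha : a ∈ Submodule.span k (Set.range ρ)) :
    ∃ T N : k, a * a - T • a + N • (1 : E) = 0 := by
  obtain ⟨a', ha'⟩ := FA_S29_ALG_exists_pair ρ d hquad a ha
  obtain ⟨T, hT⟩ := FA_S29_ALG_trace ρ d hquad _ ha'
  obtain ⟨N, hN⟩ := FA_S29_ALG_norm ρ d hquad _ ha'
  refine ⟨T, N, ?_⟩
  simp only at hT hN
  have e : a' = T • (1 : E) - a := by rw [← hT]; abel
  rw [e, mul_sub, mul_smul_comm, mul_one] at hN
  rw [← hN]; abel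

omit hquad in
/-- The span of `ρ(G)` is a subalgebra. -/
theorem FA_S29_ALG_adjoin_eq_span :
    Subalgebra.toSubmodule (Algebra.adjoin k (Set.range ρ)) = Submodule.span k (Set.range ρ) := by
  rw [Algebra.adjoin_eq_span]
  congr 1
  have : (Set.range ρ) = ((MonoidHom.mrange ρ : Submonoid E) : Set E) := by
    ext x; simp
  rw [this, Submonoid.closure_eq]

/-- Every element of the subalgebra generated by `ρ(G)` satisfies a monic quadratic relation. -/
theorem FA_S29_ALG_quadratic_adjoin (a : E) (ha : a ∈ Algebra.adjoin k (Set.range ρ)) :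
    ∃ T N : k, a * a - T • a + N • (1 : E) = 0 := by
  refine FA_S29_ALG_quadratic_span ρ d hquad a ?_
  rw [← FA_S29_ALG_adjoin_eq_span ρ]
  exact ha

end Fermat.Agent.S29
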