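import Fermat.Agent.S29.AlgQuad
import Fermat.Agent.S29.AlgIrr
import Fermat.Agent.S29.AlgMat

/-!
# S29/S42, leaf L9 (file AlgRep): the 2-dimensional representation attached to a module with
quadratic relations

`G` a group, `k` algebraically closed, `V ≠ 0` a finite-dimensional representation of `G` such
that every `ρ g` satisfies a quadratic relation `ρ g ^ 2 - t ρ g + d g = 0`, `d` a character.
Then there is `ρ' : G →* M₂(k)`, trivial on `ker ρ ∩ ker d`, with
`charpoly (ρ' g) = X² - t X + d g` for EVERY `g`, `t` with `ρ g ^ 2 - t ρ g + d g = 0`.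
-/

set_option autoImplicit false
set_option linter.unusedSectionVars false
set_option linter.unusedVariables false

noncomputable section

namespace Fermat.Agent.S29

open Polynomial Matrix

variable {k : Type*} [Field k] {G : Type*} [Group G] {V : Type*} [AddCommGroup V] [Module k V]

/-- `W` is stable under `ρ`. -/
def FA_S29_ALG_Inv (ρ : G →* Module.End k V) (W : Submodule k V) : Prop :=
  ∀ g : G, ∀ w ∈ W, ρ g w ∈ W

/-- A minimal nonzero stable subspace exists. -/
theorem FA_S29_ALG_exists_min [Module.Finite k V] [Nontrivial V] (ρ : G →* Module.End k V) :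
    ∃ W : Submodule k V, FA_S29_ALG_Inv ρ W ∧ W ≠ ⊥ ∧
      ∀ W' : Submodule k V, W' ≤ W → FA_S29_ALG_Inv ρ W' → W' = ⊥ ∨ W' = W := by
  classical
  have hex : ∃ n : ℕ, ∃ W : Submodule k V, FA_S29_ALG_Inv ρ W ∧ W ≠ ⊥ ∧
      Module.finrank k W = n :=
    ⟨_, ⊤, fun g w _ => Submodule.mem_top, top_ne_bot, rfl⟩
  obtain ⟨W, hW, hW0, hWn⟩ := Nat.find_spec hex
  refine ⟨W, hW, hW0, fun W' hle hW' => ?_⟩
  by_cases h0 : W' = ⊥
  · exact Or.inl h0
  · right
    have hmin : Nat.find hex ≤ Module.finrank k W' := Nat.find_min' hex ⟨W', hW', h0, rfl⟩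
    exact Submodule.eq_of_le_of_finrank_le hle (hWn ▸ hmin)

/-- The restriction of `ρ` to a stable subspace. -/
def FA_S29_ALG_restrict (ρ : G →* Module.End k V) (W : Submodule k V)
    (hW : FA_S29_ALG_Inv ρ W) : G →* Module.End k W where
  toFun g := (ρ g).restrict (hW g)
  map_one' := by
    ext w
    simp
  map_mul' g h := by
    ext w
    simp [map_mul]

theorem FA_S29_ALG_restrict_apply (ρ : G →* Module.End k V) (W : Submodule k V)
    (hW : FA_S29_ALG_Inv ρ W) (g : G) (w : W) :
    ((FA_S29_ALG_restrict ρ W hW g) w : V) = ρ g (w : V) := rfl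

/-- Relations restrict. -/
theorem FA_S29_ALG_restrict_rel (ρ : G →* Module.End k V) (W : Submodule k V)
    (hW : FA_S29_ALG_Inv ρ W) (g : G) (t δ : k)
    (h : ρ g * ρ g - t • ρ g + δ • (1 : Module.End k V) = 0) :
    FA_S29_ALG_restrict ρ W hW g * FA_S29_ALG_restrict ρ W hW g
      - t • FA_S29_ALG_restrict ρ W hW g + δ • (1 : Module.End k W) = 0 := by
  ext w
  have := congrArg (fun f : Module.End k V => f (w : V)) h
  simp only [LinearMap.add_apply, LinearMap.sub_apply, Module.End.mul_apply,
    LinearMap.smul_apply, Module.End.one_apply, LinearMap.zero_apply] at this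
  simp only [LinearMap.add_apply, LinearMap.sub_apply, Module.End.mul_apply,
    LinearMap.smul_apply, Module.End.one_apply, LinearMap.zero_apply, Submodule.coe_add,
    Submodule.coe_sub, Submodule.coe_smul, FA_S29_ALG_restrict_apply, Submodule.coe_zero]
  exact this

/-- A minimal stable subspace is irreducible under the algebra generated by `ρ_W(G)`. -/
theorem FA_S29_ALG_irr_of_min (ρ : G →* Module.End k V) (W : Submodule k V)
    (hW : FA_S29_ALG_Inv ρ W)
    (hmin : ∀ W' : Submodule k V, W' ≤ W → FA_S29_ALG_Inv ρ W' → W' = ⊥ ∨ W' = W) :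
    FA_S29_ALG_Irr (Algebra.adjoin k (Set.range (FA_S29_ALG_restrict ρ W hW))) := by
  intro W'' hW''
  have hinv : FA_S29_ALG_Inv ρ (W''.map W.subtype) := by
    rintro g _ ⟨w, hw, rfl⟩
    refine ⟨FA_S29_ALG_restrict ρ W hW g w, ?_, rfl⟩
    exact hW'' _ (Algebra.subset_adjoin ⟨g, rfl⟩) w hw
  have hle : W''.map W.subtype ≤ W := by
    rintro _ ⟨w, -, rfl⟩
    exact w.2
  rcases hmin _ hle hinv with h | h
  · left
    apply Submodule.map_injective_of_injective W.injective_subtype
    rw [h, Submodule.map_bot]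
  · right
    apply Submodule.map_injective_of_injective W.injective_subtype
    rw [h, Submodule.map_subtype_top]

/-- **Dimension at most 2** for a minimal stable subspace. -/
theorem FA_S29_ALG_finrank_le_two [IsAlgClosed k] [Module.Finite k V]
    (ρ : G →* Module.End k V) (d : G →* kˣ)
    (hquad : ∀ g : G, ∃ t : k,
      ρ g * ρ g - t • ρ g + ((d g : kˣ) : k) • (1 : Module.End k V) = 0)
    (W : Submodule k V) (hW : FA_S29_ALG_Inv ρ W) (hW0 : W ≠ ⊥)
    (hmin : ∀ W' : Submodule k V, W' ≤ W → FA_S29_ALG_Inv ρ W' → W' = ⊥ ∨ W' = W) :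
    Module.finrank k W = 1 ∨ Module.finrank k W = 2 := by
  classical
  have : Nontrivial W := Submodule.nontrivial_iff_ne_bot.mpr hW0
  have hq : FA_S29_ALG_Quad (Algebra.adjoin k (Set.range (FA_S29_ALG_restrict ρ W hW))) := by
    intro a ha
    refine FA_S29_ALG_quadratic_adjoin (FA_S29_ALG_restrict ρ W hW) d ?_ a ha
    intro g
    obtain ⟨t, ht⟩ := hquad g
    exact ⟨t, FA_S29_ALG_restrict_rel ρ W hW g t _ ht⟩
  obtain ⟨v, w, hvw⟩ := FA_S29_ALG_two_vectors (FA_S29_ALG_irr_of_min ρ W hW hmin) hq
  have hspan : Submodule.span k ({v, w} : Set W) = ⊤ := by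
    rw [eq_top_iff]
    intro x _
    obtain ⟨c, c', hx⟩ := hvw x
    rw [hx]
    exact Submodule.add_mem _
      (Submodule.smul_mem _ _ (Submodule.subset_span (by simp)))
      (Submodule.smul_mem _ _ (Submodule.subset_span (by simp)))
  have hle : Module.finrank k W ≤ 2 := by
    have h1 := finrank_span_le_card (R := k) ({v, w} : Set W)
    rw [hspan, finrank_top] at h1
    refine h1.trans ?_
    rw [Set.toFinset_card]
    exact (Fintype.card_le_of_surjective (fun b : Bool => (⟨if b then v else w, by
      cases b <;> simp⟩ : ({v, w} : Set W))) (by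
        rintro ⟨x, hx⟩
        rcases hx with rfl | hx
        · exact ⟨true, rfl⟩
        · rw [Set.mem_singleton_iff] at hx
          subst hx
          exact ⟨false, rfl⟩)).trans (by simp)
  have hpos : 0 < Module.finrank k W := Module.finrank_pos
  omega

end Fermat.Agent.S29
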