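import Mathlib
import Fermat.Prelude.Def_GaloisRep_Residual
import Fermat.Agent.S29.Glue
import Fermat.Agent.S29.AlgClosed

/-!
# S29: assembly

* `FA_S29_ASM_GM N g p k₀ φ₀` : the OUTPUT of leaf L10 (a nonzero finite-dimensional Galois module
  over `k₀` of finite level, unramified outside `N p`, with the Eichler–Shimura relation
  `τ² - φ₀(a_ℓ) τ + ℓ = 0` at the Frobenius elements at `ℓ ∤ N p`).
* `FA_S29_ASM_main` : the statement of S29 for `N ≥ 1` from `FA_S29_ASM_GM` at the residue field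
  `ℤ̄ ⧸ ker φ` (which is algebraically closed).
* `FA_S29_ASM_zero` : the statement of S29 for `N = 0` (vacuous conditions).
-/

set_option autoImplicit false
set_option linter.unusedSectionVars false
set_option linter.unusedVariables false
set_option linter.style.haveILetI false

namespace Fermat.Agent.S29

noncomputable section

local notation "Qb" => AlgebraicClosure ℚ
local notation "Γ" => (AlgebraicClosure ℚ ≃ₐ[ℚ] AlgebraicClosure ℚ)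
local notation "Zc" => integralClosure ℤ ℂ

open Polynomial

/-- **The output of leaf L10.** -/
def FA_S29_ASM_GM (N : ℕ) (g : CuspForm (CongruenceSubgroup.Gamma0 N) 2) (p : ℕ)
    (k₀ : Type) [Field k₀] (φ₀ : Zc →+* k₀) : Prop :=
  ∃ (V : Type) (_ : AddCommGroup V) (_ : Module k₀ V) (_ : Module.Finite k₀ V) (_ : Nontrivial V)
    (ρ : Γ →* Module.End k₀ V),
    GaloisFactorsThroughFiniteLevel ρ ∧
    (∀ ℓ : ℕ, ℓ.Prime → ¬ ℓ ∣ N * p → ∀ A : ValuationSubring Qb, A.LiesOverPrime ℓ →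
      ∀ σ ∈ A.inertiaSubgroupIn ℚ, ρ σ = 1) ∧
    (∀ ℓ : ℕ, ℓ.Prime → ¬ ℓ ∣ N * p → ∀ A : ValuationSubring Qb, A.LiesOverPrime ℓ →
      ∀ τ : Γ, A.IsFrobeniusAt τ ℓ → ∃ a : Zc, (a : ℂ) = ModularFormClass.qCoeff g ℓ ∧
        ρ τ * ρ τ - φ₀ a • ρ τ + (ℓ : k₀) • (1 : Module.End k₀ V) = 0)

/-- A representation on `k²` as a `ResidualGaloisRep`. -/
def FA_S29_ASM_rep {k : Type} [Field k] (ρ' : Γ →* Module.End k (Fin 2 → k))
    (h : GaloisFactorsThroughFiniteLevel ρ') : ResidualGaloisRep k where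
  V := Fin 2 → k
  finrank_eq := by simp
  ρ := ρ'
  factorsThroughFiniteLevel := h

/-- **S29 for `N = 0`**: all conditions are vacuous. -/
theorem FA_S29_ASM_zero (g : CuspForm (CongruenceSubgroup.Gamma0 0) 2) (p : ℕ) {k : Type}
    [Field k] (φ : Zc →+* k) :
    ∃ ρ : ResidualGaloisRep k, ρ.IsAttachedTo g φ ∧
      ∀ ℓ : ℕ, ℓ.Prime → ¬ ℓ ∣ 0 * p → ρ.IsUnramifiedAt ℓ := by
  refine ⟨FA_S29_ASM_rep (1 : Γ →* Module.End k (Fin 2 → k))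
    ⟨⊥, inferInstance, fun σ _ => rfl⟩, ?_, ?_⟩
  · intro ℓ _ hℓ
    exact absurd (dvd_zero ℓ) hℓ
  · intro ℓ _ hℓ
    rw [zero_mul] at hℓ
    exact absurd (dvd_zero ℓ) hℓ

/-- **S29 for `N ≥ 1`**, from the output of L10 at the residue field of `φ`. -/
theorem FA_S29_ASM_main_ac {N : ℕ} [NeZero N] (g : CuspForm (CongruenceSubgroup.Gamma0 N) 2)
    {p : ℕ} (hp : p.Prime) {k : Type} [Field k] [CharP k p] (φ : Zc →+* k)
    (hGM : ∀ (k₀ : Type) [Field k₀] [IsAlgClosed k₀] [CharP k₀ p] (φ₀ : Zc →+* k₀),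
      FA_S29_ASM_GM N g p k₀ φ₀) :
    ∃ ρ : ResidualGaloisRep k, ρ.IsAttachedTo g φ ∧
      ∀ ℓ : ℕ, ℓ.Prime → ¬ ℓ ∣ N * p → ρ.IsUnramifiedAt ℓ := by
  classical
  haveI : Fact p.Prime := ⟨hp⟩
  haveI hmax : (RingHom.ker φ).IsMaximal := FA_S29_AC_ker_isMaximal p φ
  letI : Field (Zc ⧸ RingHom.ker φ) := Ideal.Quotient.field (RingHom.ker φ)
  haveI : IsAlgClosed (Zc ⧸ RingHom.ker φ) := FA_S29_AC_isAlgClosed (RingHom.ker φ)
  haveI : CharP (Zc ⧸ RingHom.ker φ) p := FA_S29_AC_charP p φ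
  obtain ⟨V, _, _, _, _, ρ, hlev, hin, hfr⟩ :=
    hGM (Zc ⧸ RingHom.ker φ) (Ideal.Quotient.mk (RingHom.ker φ))
  -- the eigenvalues
  set a : ℕ → Zc := fun ℓ =>
    if h : ∃ a : Zc, (a : ℂ) = ModularFormClass.qCoeff g ℓ then h.choose else 0 with ha
  have ha_spec : ∀ ℓ : ℕ, ∀ b : Zc, (b : ℂ) = ModularFormClass.qCoeff g ℓ → a ℓ = b := by
    intro ℓ b hb
    have h : ∃ a : Zc, (a : ℂ) = ModularFormClass.qCoeff g ℓ := ⟨b, hb⟩
    simp only [ha, dif_pos h]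
    exact Subtype.ext (h.choose_spec.trans hb.symm)
  have hB : N * p ≠ 0 := mul_ne_zero (NeZero.ne N) hp.ne_zero
  obtain ⟨ρ', hρ'lev, hρ'in, hρ'fr⟩ := FA_S29_GL_core (p := p) (N * p) hB (dvd_mul_left p N)
    (FA_S29_AC_ι φ) ρ hlev (fun ℓ => Ideal.Quotient.mk (RingHom.ker φ) (a ℓ)) hin
    (fun ℓ hℓ hℓB A hA τ hτ => by
      obtain ⟨b, hb, hrel⟩ := hfr ℓ hℓ hℓB A hA τ hτ
      rw [ha_spec ℓ b hb]
      exact hrel)
  refine ⟨FA_S29_ASM_rep ρ' hρ'lev, ?_, ?_⟩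
  · intro ℓ hℓ hℓN hℓk A hA σ hσ
    have hℓp : ¬ ℓ ∣ N * p := by
      intro hd
      rcases (Nat.Prime.dvd_mul hℓ).mp hd with h1 | h1
      · exact hℓN h1
      · apply hℓk
        have : ℓ = p := (Nat.prime_dvd_prime_iff_eq hℓ hp).mp h1
        rw [this]
        exact CharP.cast_eq_zero k p
    obtain ⟨b, hb, -⟩ := hfr ℓ hℓ hℓp A hA σ hσ
    refine ⟨b, hb, ?_⟩
    have h1 := (hρ'fr ℓ hℓ hℓp A hA σ hσ).1
    rw [ha_spec ℓ b hb, FA_S29_AC_ι_mk] at h1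
    exact h1
  · intro ℓ hℓ hℓp A hA σ hσ
    exact hρ'in ℓ hℓ hℓp A hA σ hσ

/-- **S29 for `N ≥ 1`**, from the output of L10 at all residue fields. -/
theorem FA_S29_ASM_main {N : ℕ} [NeZero N] (g : CuspForm (CongruenceSubgroup.Gamma0 N) 2)
    {p : ℕ} (hp : p.Prime) {k : Type} [Field k] [CharP k p] (φ : Zc →+* k)
    (hGM : ∀ (k₀ : Type) [Field k₀] [CharP k₀ p] (φ₀ : Zc →+* k₀), FA_S29_ASM_GM N g p k₀ φ₀) :
    ∃ ρ : ResidualGaloisRep k, ρ.IsAttachedTo g φ ∧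
      ∀ ℓ : ℕ, ℓ.Prime → ¬ ℓ ∣ N * p → ρ.IsUnramifiedAt ℓ :=
  FA_S29_ASM_main_ac g hp φ (fun k₀ _ _ _ φ₀ => hGM k₀ φ₀)

/-- **S29**, from the output of L10 for all `N ≥ 1` (and the given `p`). -/
theorem FA_S29_ASM_final {N : ℕ} (g : CuspForm (CongruenceSubgroup.Gamma0 N) 2)
    {p : ℕ} (hp : p.Prime) {k : Type} [Field k] [CharP k p] (φ : Zc →+* k)
    (hGM : N ≠ 0 → ∀ (k₀ : Type) [Field k₀] [IsAlgClosed k₀] [CharP k₀ p] (φ₀ : Zc →+* k₀),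
      FA_S29_ASM_GM N g p k₀ φ₀) :
    ∃ ρ : ResidualGaloisRep k, ρ.IsAttachedTo g φ ∧
      ∀ ℓ : ℕ, ℓ.Prime → ¬ ℓ ∣ N * p → ρ.IsUnramifiedAt ℓ := by
  rcases Nat.eq_zero_or_pos N with rfl | hN
  · exact FA_S29_ASM_zero g p φ
  · haveI : NeZero N := ⟨hN.ne'⟩
    exact FA_S29_ASM_main_ac g hp φ (hGM hN.ne')

end

end Fermat.Agent.S29
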