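import Mathlib
import Fermat.Agent.S37.Frob

/-!
# S29 long shot, leaf CYC: the mod-`p` cyclotomic character of `Gal(ℚ̄/ℚ)`

`FA_S29_CYC_d p K : Gal(ℚ̄/ℚ) →* Kˣ` for a field `K` of characteristic `p`, with
* `FA_S29_CYC_frob` : `d σ = ℓ` for every Frobenius element `σ` at a valuation ring over `ℓ ≠ p`;
* `FA_S29_CYC_inertia` : `d τ = 1` on the inertia groups at `ℓ ≠ p`;
* `FA_S29_CYC_congr`, `FA_S29_CYC_level` : `d` factors through the finite extension `ℚ(μ_p)`.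
-/

set_option autoImplicit false
set_option linter.unusedSectionVars false
set_option linter.style.haveILetI false
set_option linter.unusedVariables false

open scoped Pointwise

namespace Fermat.Agent.S29

noncomputable section

local notation "Qb" => AlgebraicClosure ℚ
local notation "Γ" => (AlgebraicClosure ℚ ≃ₐ[ℚ] AlgebraicClosure ℚ)

variable (p : ℕ) [Fact p.Prime]

theorem FA_S29_CYC_card : Nat.card (rootsOfUnity p Qb) = p :=
  HasEnoughRootsOfUnity.natCard_rootsOfUnity Qb p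

/-- `Gal(ℚ̄/ℚ) → Aut(ℚ̄)`. -/
def FA_S29_CYC_toRingAut : Γ →* (Qb ≃+* Qb) where
  toFun σ := σ.toRingEquiv
  map_one' := rfl
  map_mul' _ _ := rfl

/-- The mod-`p` cyclotomic character with values in `(ZMod p)ˣ`. -/
def FA_S29_CYC_chi : Γ →* (ZMod p)ˣ :=
  (modularCyclotomicCharacter Qb (FA_S29_CYC_card p)).comp FA_S29_CYC_toRingAut

theorem FA_S29_CYC_chi_spec (σ : Γ) (t : Qb) (ht : t ^ p = 1) :
    σ t = t ^ ((FA_S29_CYC_chi p σ : (ZMod p)ˣ) : ZMod p).val := by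
  have ht0 : t ≠ 0 := by
    rintro rfl
    rw [zero_pow (Fact.out (p := p.Prime)).ne_zero] at ht
    exact zero_ne_one ht
  have hu : Units.mk0 t ht0 ∈ rootsOfUnity p Qb := by
    rw [mem_rootsOfUnity]
    ext
    simpa using ht
  have := modularCyclotomicCharacter.spec Qb (FA_S29_CYC_card p) σ.toRingEquiv hu
  simp only [Units.val_mk0] at this
  exact this

theorem FA_S29_CYC_chi_unique (σ : Γ) (c : ZMod p) (hc : ∀ t : Qb, t ^ p = 1 → σ t = t ^ c.val) :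
    (FA_S29_CYC_chi p σ : ZMod p) = c := by
  have := modularCyclotomicCharacter.unique Qb (FA_S29_CYC_card p) σ.toRingEquiv (c := c)
    (fun t ht => by
      have h1 : ((t : Qbˣ) : Qb) ^ p = 1 := by
        have := (mem_rootsOfUnity _ _).mp ht
        have h2 := congrArg Units.val this
        simpa using h2
      simpa using hc _ h1)
  rw [this]
  rfl

/-- If `g` and `h` agree on the `p`-th roots of unity then `χ g = χ h`. -/
theorem FA_S29_CYC_chi_congr (g h : Γ) (hgh : ∀ t : Qb, t ^ p = 1 → g t = h t) :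
    FA_S29_CYC_chi p g = FA_S29_CYC_chi p h := by
  ext
  refine FA_S29_CYC_chi_unique p g _ (fun t ht => ?_)
  rw [hgh t ht, FA_S29_CYC_chi_spec p h t ht]

/-- Reduction modulo a valuation ring over `ℓ ≠ p` is injective on the `p`-th roots of unity
(basic form). -/
theorem FA_S29_CYC_inj (A : ValuationSubring Qb) (ℓ : ℕ) (hℓ : ℓ.Prime) (hℓp : ℓ ≠ p)
    (hA : A.LiesOverPrime ℓ) (η : Qb) (hη : η ^ p = 1) (h : η - 1 ∈ A.nonunits) : η = 1 := by
  by_contra hne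
  have hp : p.Prime := Fact.out
  have hηA : η ∈ A := by
    have h1 : η - 1 ∈ A := A.nonunits_subset h
    have := A.add_mem _ _ h1 A.one_mem
    simpa using this
  have hsum : ∑ j ∈ Finset.range p, η ^ j = 0 := by
    have h1 := mul_geom_sum η p
    rw [hη, sub_self] at h1
    rcases mul_eq_zero.mp h1 with h2 | h2
    · exact absurd (sub_eq_zero.mp h2) hne
    · exact h2
  set z : A := ⟨η, hηA⟩ with hz
  have hres : IsLocalRing.residue A z = 1 := by
    rw [← sub_eq_zero, ← map_one (IsLocalRing.residue A), ← map_sub,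
      IsLocalRing.residue_eq_zero_iff, ← ValuationSubring.coe_mem_nonunits_iff]
    simpa using h
  have hsumA : ∑ j ∈ Finset.range p, z ^ j = 0 := by
    apply Subtype.ext
    push_cast
    simpa using hsum
  have hp0 : (p : IsLocalRing.ResidueField A) = 0 := by
    have := congrArg (IsLocalRing.residue A) hsumA
    rw [map_sum, map_zero] at this
    simp only [map_pow, hres, one_pow, Finset.sum_const, Finset.card_range, nsmul_eq_mul,
      mul_one] at this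
    exact this
  have hℓ0 : (ℓ : IsLocalRing.ResidueField A) = 0 := by
    have h1 : IsLocalRing.residue A (ℓ : A) = 0 := by
      rw [IsLocalRing.residue_eq_zero_iff, ← ValuationSubring.coe_mem_nonunits_iff]
      have hA' : (ℓ : Qb) ∈ A.nonunits := hA
      simpa using hA'
    simpa using h1
  have hcop : IsCoprime (ℓ : ℤ) (p : ℤ) :=
    Nat.isCoprime_iff_coprime.mpr ((Nat.coprime_primes hℓ hp).mpr hℓp)
  obtain ⟨a, b, hab⟩ := hcop
  have h1 := congrArg (Int.cast : ℤ → IsLocalRing.ResidueField A) hab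
  push_cast at h1
  rw [hℓ0, hp0, mul_zero, mul_zero, add_zero] at h1
  exact zero_ne_one h1

theorem FA_S29_CYC_mul_mem_nonunits (A : ValuationSubring Qb) {x y : Qb} (hx : x ∈ A.nonunits)
    (hy : y ∈ A) : x * y ∈ A.nonunits := by
  rw [ValuationSubring.mem_nonunits_iff] at hx ⊢
  rw [map_mul]
  have h1 : A.valuation y ≤ 1 := (A.valuation_le_one_iff y).mpr hy
  calc A.valuation x * A.valuation y ≤ A.valuation x * 1 := by gcongr
    _ = A.valuation x := mul_one _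
    _ < 1 := hx

/-- Reduction is injective on the `p`-th roots of unity. -/
theorem FA_S29_CYC_inj' (A : ValuationSubring Qb) (ℓ : ℕ) (hℓ : ℓ.Prime) (hℓp : ℓ ≠ p)
    (hA : A.LiesOverPrime ℓ) (ζ₁ ζ₂ : Qb) (h₁ : ζ₁ ^ p = 1) (h₂ : ζ₂ ^ p = 1)
    (h : ζ₁ - ζ₂ ∈ A.nonunits) : ζ₁ = ζ₂ := by
  have hp : p.Prime := Fact.out
  have h2A : ζ₂ ^ (p - 1) ∈ A := by
    have h3 : IsIntegral ℤ (ζ₂ ^ (p - 1)) := by
      refine IsIntegral.pow ?_ _
      exact ⟨Polynomial.X ^ p - 1, Polynomial.monic_X_pow_sub_C 1 hp.ne_zero, by simp [h₂]⟩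
    have h4 : IsIntegral A (ζ₂ ^ (p - 1)) := h3.tower_top
    obtain ⟨y, hy⟩ := IsIntegrallyClosed.isIntegral_iff.mp h4
    rw [← hy]
    exact y.2
  have hmul : ζ₂ * ζ₂ ^ (p - 1) = 1 := by
    rw [← pow_succ', Nat.sub_add_cancel hp.one_le, h₂]
  have key : ζ₁ * ζ₂ ^ (p - 1) = 1 := by
    refine FA_S29_CYC_inj p A ℓ hℓ hℓp hA _ ?_ ?_
    · rw [mul_pow, h₁, one_mul, ← pow_mul, mul_comm, pow_mul, h₂, one_pow]
    · have h5 : ζ₁ * ζ₂ ^ (p - 1) - 1 = (ζ₁ - ζ₂) * ζ₂ ^ (p - 1) := by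
        rw [sub_mul, hmul]
      rw [h5]
      exact FA_S29_CYC_mul_mem_nonunits A h h2A
  calc ζ₁ = ζ₁ * (ζ₂ * ζ₂ ^ (p - 1)) := by rw [hmul, mul_one]
    _ = (ζ₁ * ζ₂ ^ (p - 1)) * ζ₂ := by ring
    _ = ζ₂ := by rw [key, one_mul]

theorem FA_S29_CYC_root_mem (A : ValuationSubring Qb) (t : Qb) (ht : t ^ p = 1) : t ∈ A := by
  have hp : p.Prime := Fact.out
  have h3 : IsIntegral ℤ t :=
    ⟨Polynomial.X ^ p - 1, Polynomial.monic_X_pow_sub_C 1 hp.ne_zero, by simp [ht]⟩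
  have h4 : IsIntegral A t := h3.tower_top
  obtain ⟨y, hy⟩ := IsIntegrallyClosed.isIntegral_iff.mp h4
  rw [← hy]
  exact y.2

/-- A Frobenius element at `ℓ ≠ p` raises the `p`-th roots of unity to the `ℓ`-th power. -/
theorem FA_S29_CYC_frob_root (A : ValuationSubring Qb) (ℓ : ℕ) (hℓ : ℓ.Prime) (hℓp : ℓ ≠ p)
    (hA : A.LiesOverPrime ℓ) (σ : Γ) (hσ : A.IsFrobeniusAt σ ℓ) (t : Qb) (ht : t ^ p = 1) :
    σ t = t ^ ℓ := by
  obtain ⟨hσD, hσx⟩ := hσ
  have htA := FA_S29_CYC_root_mem p A t ht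
  set z : A := ⟨t, htA⟩ with hz
  have h1 := hσx (IsLocalRing.residue A z)
  rw [← IsLocalRing.ResidueField.residue_smul, ← map_pow, ← sub_eq_zero, ← map_sub,
    IsLocalRing.residue_eq_zero_iff, ← ValuationSubring.coe_mem_nonunits_iff] at h1
  have hco : (((⟨σ, hσD⟩ : A.decompositionSubgroup ℚ) • z : A) : Qb) = σ t := rfl
  have h2 : σ t - t ^ ℓ ∈ A.nonunits := by
    have h3 : ((((⟨σ, hσD⟩ : A.decompositionSubgroup ℚ) • z - z ^ ℓ : A)) : Qb) =
        σ t - t ^ ℓ := by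
      push_cast
      rw [hco]
    rw [← h3]
    exact h1
  refine FA_S29_CYC_inj' p A ℓ hℓ hℓp hA _ _ ?_ ?_ h2
  · rw [← map_pow, ht, map_one]
  · rw [← pow_mul, mul_comm, pow_mul, ht, one_pow]

/-- An inertia element at `ℓ ≠ p` fixes the `p`-th roots of unity. -/
theorem FA_S29_CYC_inertia_root (A : ValuationSubring Qb) (ℓ : ℕ) (hℓ : ℓ.Prime) (hℓp : ℓ ≠ p)
    (hA : A.LiesOverPrime ℓ) (τ : Γ) (hτ : τ ∈ A.inertiaSubgroupIn ℚ) (t : Qb)
    (ht : t ^ p = 1) : τ t = t := by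
  obtain ⟨hτD, hτx⟩ := Fermat.Agent.S37.FA_S37_FR_inertia_iff.mp hτ
  have htA := FA_S29_CYC_root_mem p A t ht
  set z : A := ⟨t, htA⟩ with hz
  have h1 := hτx (IsLocalRing.residue A z)
  rw [← IsLocalRing.ResidueField.residue_smul, ← sub_eq_zero, ← map_sub,
    IsLocalRing.residue_eq_zero_iff, ← ValuationSubring.coe_mem_nonunits_iff] at h1
  have hco : (((⟨τ, hτD⟩ : A.decompositionSubgroup ℚ) • z : A) : Qb) = τ t := rfl
  have h2 : τ t - t ∈ A.nonunits := by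
    have h3 : ((((⟨τ, hτD⟩ : A.decompositionSubgroup ℚ) • z - z : A)) : Qb) = τ t - t := by
      push_cast
      rw [hco]
    rw [← h3]
    exact h1
  refine FA_S29_CYC_inj' p A ℓ hℓ hℓp hA _ _ ?_ ht h2
  rw [← map_pow, ht, map_one]

theorem FA_S29_CYC_chi_frob (A : ValuationSubring Qb) (ℓ : ℕ) (hℓ : ℓ.Prime) (hℓp : ℓ ≠ p)
    (hA : A.LiesOverPrime ℓ) (σ : Γ) (hσ : A.IsFrobeniusAt σ ℓ) :
    (FA_S29_CYC_chi p σ : ZMod p) = (ℓ : ZMod p) := by
  refine FA_S29_CYC_chi_unique p σ _ (fun t ht => ?_)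
  rw [FA_S29_CYC_frob_root p A ℓ hℓ hℓp hA σ hσ t ht, ZMod.val_natCast]
  conv_lhs => rw [← Nat.div_add_mod ℓ p]
  rw [pow_add, pow_mul, ht, one_pow, one_mul]

theorem FA_S29_CYC_chi_inertia (A : ValuationSubring Qb) (ℓ : ℕ) (hℓ : ℓ.Prime) (hℓp : ℓ ≠ p)
    (hA : A.LiesOverPrime ℓ) (τ : Γ) (hτ : τ ∈ A.inertiaSubgroupIn ℚ) :
    FA_S29_CYC_chi p τ = 1 := by
  rw [← map_one (FA_S29_CYC_chi p)]
  refine FA_S29_CYC_chi_congr p τ 1 (fun t ht => ?_)
  rw [FA_S29_CYC_inertia_root p A ℓ hℓ hℓp hA τ hτ t ht]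
  rfl

section d

variable (K : Type*) [Field K] [CharP K p]

/-- **The mod-`p` cyclotomic character with values in a field of characteristic `p`.** -/
def FA_S29_CYC_d : Γ →* Kˣ :=
  (Units.map ((ZMod.castHom (dvd_refl p) K : ZMod p →+* K) : ZMod p →* K)).comp (FA_S29_CYC_chi p)

theorem FA_S29_CYC_d_apply (σ : Γ) :
    ((FA_S29_CYC_d p K σ : Kˣ) : K) =
      ZMod.castHom (dvd_refl p) K ((FA_S29_CYC_chi p σ : (ZMod p)ˣ) : ZMod p) := rfl

/-- `d σ = ℓ` for every Frobenius element at `ℓ ≠ p`. -/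
theorem FA_S29_CYC_frob (A : ValuationSubring Qb) (ℓ : ℕ) (hℓ : ℓ.Prime) (hℓp : ℓ ≠ p)
    (hA : A.LiesOverPrime ℓ) (σ : Γ) (hσ : A.IsFrobeniusAt σ ℓ) :
    ((FA_S29_CYC_d p K σ : Kˣ) : K) = (ℓ : K) := by
  rw [FA_S29_CYC_d_apply, FA_S29_CYC_chi_frob p A ℓ hℓ hℓp hA σ hσ, map_natCast]

/-- `d τ = 1` on the inertia groups at `ℓ ≠ p`. -/
theorem FA_S29_CYC_inertia (A : ValuationSubring Qb) (ℓ : ℕ) (hℓ : ℓ.Prime) (hℓp : ℓ ≠ p)
    (hA : A.LiesOverPrime ℓ) (τ : Γ) (hτ : τ ∈ A.inertiaSubgroupIn ℚ) :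
    FA_S29_CYC_d p K τ = 1 := by
  rw [FA_S29_CYC_d, MonoidHom.comp_apply, FA_S29_CYC_chi_inertia p A ℓ hℓ hℓp hA τ hτ, map_one]

/-- The field `ℚ(μ_p)` inside `ℚ̄`. -/
def FA_S29_CYC_L : IntermediateField ℚ Qb :=
  IntermediateField.adjoin ℚ ((Polynomial.nthRootsFinset p (1 : Qb) : Finset Qb) : Set Qb)

theorem FA_S29_CYC_root_mem_L (t : Qb) (ht : t ^ p = 1) : t ∈ FA_S29_CYC_L p := by
  refine IntermediateField.subset_adjoin _ _ ?_
  rw [Finset.mem_coe, Polynomial.mem_nthRootsFinset (Fact.out (p := p.Prime)).pos]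
  exact ht

theorem FA_S29_CYC_L_finiteDimensional : FiniteDimensional ℚ (FA_S29_CYC_L p) := by
  haveI : Finite ((Polynomial.nthRootsFinset p (1 : Qb) : Finset Qb) : Set Qb) :=
    Finset.finite_toSet _ |>.to_subtype
  refine IntermediateField.finiteDimensional_adjoin (fun x hx => ?_)
  have hp : p.Prime := Fact.out
  rw [Finset.mem_coe, Polynomial.mem_nthRootsFinset hp.pos] at hx
  exact ⟨Polynomial.X ^ p - 1, Polynomial.monic_X_pow_sub_C 1 hp.ne_zero, by simp [hx]⟩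

/-- `d` only depends on the restriction to `ℚ(μ_p)`. -/
theorem FA_S29_CYC_congr (g h : Γ) (hgh : ∀ x ∈ FA_S29_CYC_L p, g x = h x) :
    FA_S29_CYC_d p K g = FA_S29_CYC_d p K h := by
  rw [FA_S29_CYC_d, MonoidHom.comp_apply, MonoidHom.comp_apply,
    FA_S29_CYC_chi_congr p g h (fun t ht => hgh t (FA_S29_CYC_root_mem_L p t ht))]

/-- `d` has finite level. -/
theorem FA_S29_CYC_level : ∃ L : IntermediateField ℚ Qb, FiniteDimensional ℚ L ∧
    ∀ σ : Γ, (∀ x ∈ L, σ x = x) → FA_S29_CYC_d p K σ = 1 := by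
  refine ⟨FA_S29_CYC_L p, FA_S29_CYC_L_finiteDimensional p, fun σ hσ => ?_⟩
  rw [← map_one (FA_S29_CYC_d p K)]
  exact FA_S29_CYC_congr p K σ 1 (fun x hx => by rw [hσ x hx]; rfl)

end d

end

end Fermat.Agent.S29
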