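import Mathlib

/-!
# S29, leaf L6 (abstract part): specialisation of eigen-homomorphisms

`Γ` a finitely generated group, `R` a commutative ring, `L ⊇ R` a field, `k` a field with a ring
homomorphism `R → k` whose kernel is maximal.  Conditions on a function `c : Γ → V`:
additivity, vanishing on a set `Z`, and "eigen-equations" `∑ j, c (τ i γ j) = a i • c γ`.

`FA_S29_EIG_abstract` : if there is a nonzero `c : Γ → L` satisfying the conditions then there is
a nonzero `d : Γ → k` satisfying them.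

Proof: the universal module `M = (Γ →₀ R) ⧸ K` is finitely generated; `c` gives a nonzero
`R`-linear map `M → L`; by Nakayama `𝔭 M ≠ M` for `𝔭 = ker (R → k)`; a linear functional on
the nonzero `R ⧸ 𝔭`-vector space `M ⧸ 𝔭 M` gives `d`.
-/

set_option autoImplicit false
set_option linter.unusedSectionVars false
set_option linter.unusedVariables false
set_option linter.style.haveILetI false

noncomputable section

namespace Fermat.Agent.S29

open Finsupp

section abs

variable {Γ : Type*} [Group Γ] (R : Type*) [CommRing R]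
  (Z : Set Γ) {I : Type*} (J : I → Type*) [∀ i, Fintype (J i)] (τ : ∀ i, Γ → J i → Γ)
  (a : I → R)

/-- The relations. -/
def FA_S29_EIG_rels : Set (Γ →₀ R) :=
  {x | ∃ γ δ : Γ, x = single (γ * δ) (1 : R) - single γ 1 - single δ 1} ∪
    {x | ∃ z ∈ Z, x = single z (1 : R)} ∪
    {x | ∃ (i : I) (γ : Γ), x = ∑ j, single (τ i γ j) (1 : R) - a i • single γ 1}

/-- The submodule of relations. -/
def FA_S29_EIG_K : Submodule R (Γ →₀ R) := Submodule.span R (FA_S29_EIG_rels R Z J τ a)

/-- The universal module. -/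
abbrev FA_S29_EIG_M : Type _ := (Γ →₀ R) ⧸ FA_S29_EIG_K R Z J τ a

/-- The class of a group element. -/
def FA_S29_EIG_cls (γ : Γ) : FA_S29_EIG_M R Z J τ a :=
  Submodule.Quotient.mk (single γ (1 : R))

theorem FA_S29_EIG_cls_mul (γ δ : Γ) :
    FA_S29_EIG_cls R Z J τ a (γ * δ)
      = FA_S29_EIG_cls R Z J τ a γ + FA_S29_EIG_cls R Z J τ a δ := by
  have h : single (γ * δ) (1 : R) - single γ 1 - single δ 1 ∈ FA_S29_EIG_K R Z J τ a :=
    Submodule.subset_span (Or.inl (Or.inl ⟨γ, δ, rfl⟩))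
  have h2 := (Submodule.Quotient.mk_eq_zero _).mpr h
  rw [Submodule.Quotient.mk_sub, Submodule.Quotient.mk_sub, sub_sub, sub_eq_zero] at h2
  exact h2

theorem FA_S29_EIG_cls_one : FA_S29_EIG_cls R Z J τ a (1 : Γ) = 0 := by
  have := FA_S29_EIG_cls_mul R Z J τ a 1 1
  rw [mul_one] at this
  exact left_eq_add.mp this

theorem FA_S29_EIG_cls_inv (γ : Γ) :
    FA_S29_EIG_cls R Z J τ a γ⁻¹ = - FA_S29_EIG_cls R Z J τ a γ := by
  have := FA_S29_EIG_cls_mul R Z J τ a γ γ⁻¹
  rw [mul_inv_cancel, FA_S29_EIG_cls_one] at this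
  exact (neg_eq_of_add_eq_zero_right this.symm).symm

theorem FA_S29_EIG_cls_Z {z : Γ} (hz : z ∈ Z) : FA_S29_EIG_cls R Z J τ a z = 0 :=
  (Submodule.Quotient.mk_eq_zero _).mpr (Submodule.subset_span (Or.inl (Or.inr ⟨z, hz, rfl⟩)))

theorem FA_S29_EIG_cls_eig (i : I) (γ : Γ) :
    ∑ j, FA_S29_EIG_cls R Z J τ a (τ i γ j) = a i • FA_S29_EIG_cls R Z J τ a γ := by
  have h : ∑ j, single (τ i γ j) (1 : R) - a i • single γ 1 ∈ FA_S29_EIG_K R Z J τ a :=
    Submodule.subset_span (Or.inr ⟨i, γ, rfl⟩)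
  have h2 : (FA_S29_EIG_K R Z J τ a).mkQ (∑ j, single (τ i γ j) (1 : R) - a i • single γ 1) = 0 :=
    (Submodule.Quotient.mk_eq_zero _).mpr h
  rw [map_sub, map_sum, map_smul, sub_eq_zero] at h2
  exact h2

/-- The classes of group elements span the universal module. -/
theorem FA_S29_EIG_span_cls :
    Submodule.span R (Set.range (FA_S29_EIG_cls R Z J τ a)) = ⊤ := by
  rw [eq_top_iff]
  rintro x -
  induction x using Submodule.Quotient.induction_on with
  | _ f =>
    induction f using Finsupp.induction_linear with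
    | zero => exact Submodule.zero_mem _
    | add f g hf hg =>
      rw [Submodule.Quotient.mk_add]
      exact Submodule.add_mem _ hf hg
    | single γ r =>
      have : (single γ r : Γ →₀ R) = r • single γ 1 := by
        rw [smul_single, smul_eq_mul, mul_one]
      rw [this, Submodule.Quotient.mk_smul]
      exact Submodule.smul_mem _ _ (Submodule.subset_span ⟨γ, rfl⟩)

/-- The universal module is finitely generated when `Γ` is. -/
theorem FA_S29_EIG_fg [Group.FG Γ] : (⊤ : Submodule R (FA_S29_EIG_M R Z J τ a)).FG := by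
  classical
  obtain ⟨S, hS⟩ := Group.fg_def.mp (inferInstance : Group.FG Γ)
  refine ⟨S.image (FA_S29_EIG_cls R Z J τ a), ?_⟩
  rw [eq_top_iff, ← FA_S29_EIG_span_cls R Z J τ a, Submodule.span_le]
  rintro _ ⟨γ, rfl⟩
  have hγ : γ ∈ Subgroup.closure (S : Set Γ) := by rw [hS]; trivial
  induction hγ using Subgroup.closure_induction with
  | mem x hx =>
    apply Submodule.subset_span
    rw [Finset.coe_image]
    exact ⟨x, hx, rfl⟩
  | one =>
    show FA_S29_EIG_cls R Z J τ a 1 ∈ _
    rw [FA_S29_EIG_cls_one]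
    exact Submodule.zero_mem _
  | mul x y _ _ hx hy =>
    show FA_S29_EIG_cls R Z J τ a (x * y) ∈ _
    rw [FA_S29_EIG_cls_mul]
    exact Submodule.add_mem _ hx hy
  | inv x _ hx =>
    show FA_S29_EIG_cls R Z J τ a x⁻¹ ∈ _
    rw [FA_S29_EIG_cls_inv]
    exact Submodule.neg_mem _ hx

/-- A function satisfying the conditions induces a linear map on the universal module. -/
theorem FA_S29_EIG_exists_lift {V : Type*} [AddCommGroup V] [Module R V] (c : Γ → V)
    (hcmul : ∀ γ δ, c (γ * δ) = c γ + c δ) (hcZ : ∀ z ∈ Z, c z = 0)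
    (hceig : ∀ i γ, ∑ j, c (τ i γ j) = a i • c γ) :
    ∃ F : FA_S29_EIG_M R Z J τ a →ₗ[R] V, ∀ γ, F (FA_S29_EIG_cls R Z J τ a γ) = c γ := by
  have hle : FA_S29_EIG_K R Z J τ a ≤ LinearMap.ker (Finsupp.lift V R Γ c) := by
    unfold FA_S29_EIG_K
    rw [Submodule.span_le]
    rintro x ((⟨γ, δ, rfl⟩ | ⟨z, hz, rfl⟩) | ⟨i, γ, rfl⟩)
    · simp only [SetLike.mem_coe, LinearMap.mem_ker, map_sub, Finsupp.lift_apply,
        Finsupp.sum_single_index, zero_smul, one_smul]
      rw [hcmul]
      abel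
    · simp only [SetLike.mem_coe, LinearMap.mem_ker, Finsupp.lift_apply,
        Finsupp.sum_single_index, zero_smul, one_smul]
      exact hcZ z hz
    · simp only [SetLike.mem_coe, LinearMap.mem_ker, map_sub, map_sum, map_smul,
        Finsupp.lift_apply, Finsupp.sum_single_index, zero_smul, one_smul]
      rw [hceig, sub_self]
  refine ⟨(FA_S29_EIG_K R Z J τ a).liftQ (Finsupp.lift V R Γ c) hle, fun γ => ?_⟩
  unfold FA_S29_EIG_cls
  rw [Submodule.liftQ_apply]
  simp only [Finsupp.lift_apply, Finsupp.sum_single_index, zero_smul, one_smul]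

end abs

section main

variable {Γ : Type*} [Group Γ] [Group.FG Γ] {R : Type*} [CommRing R]
  {L : Type*} [Field L] [Algebra R L] {k : Type*} [Field k] [Algebra R k]
  (Z : Set Γ) {I : Type*} (J : I → Type*) [∀ i, Fintype (J i)] (τ : ∀ i, Γ → J i → Γ)
  (a : I → R)

/-- **Specialisation of eigen-homomorphisms.** -/
theorem FA_S29_EIG_abstract (hinj : Function.Injective (algebraMap R L))
    (hmax : (RingHom.ker (algebraMap R k)).IsMaximal)
    (c : Γ → L) (hc0 : c ≠ 0) (hcmul : ∀ γ δ, c (γ * δ) = c γ + c δ) (hcZ : ∀ z ∈ Z, c z = 0)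
    (hceig : ∀ i γ, ∑ j, c (τ i γ j) = algebraMap R L (a i) * c γ) :
    ∃ d : Γ → k, d ≠ 0 ∧ (∀ γ δ, d (γ * δ) = d γ + d δ) ∧ (∀ z ∈ Z, d z = 0) ∧
      ∀ i γ, ∑ j, d (τ i γ j) = algebraMap R k (a i) * d γ := by
  classical
  set 𝔭 : Ideal R := RingHom.ker (algebraMap R k) with h𝔭
  haveI : 𝔭.IsMaximal := hmax
  -- the linear map attached to `c`
  obtain ⟨F, hF⟩ := FA_S29_EIG_exists_lift R Z J τ a c hcmul hcZ
    (fun i γ => by rw [hceig, Algebra.smul_def])
  have hF0 : F ≠ 0 := by
    intro h0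
    apply hc0
    funext γ
    rw [← hF γ, h0]
    rfl
  -- Nakayama
  have hne : (𝔭 • (⊤ : Submodule R (FA_S29_EIG_M R Z J τ a))) ≠ ⊤ := by
    intro htop
    obtain ⟨r, hr1, hr⟩ := Submodule.exists_sub_one_mem_and_smul_eq_zero_of_fg_of_le_smul 𝔭
      (⊤ : Submodule R (FA_S29_EIG_M R Z J τ a)) (FA_S29_EIG_fg R Z J τ a) (by rw [htop])
    have hr0 : r ≠ 0 := by
      rintro rfl
      have h1 : (1 : R) ∈ 𝔭 := by
        have := 𝔭.neg_mem hr1
        simpa using this
      exact hmax.ne_top ((Ideal.eq_top_iff_one _).mpr h1)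
    apply hF0
    refine LinearMap.ext fun m => ?_
    have h1 := hr m trivial
    have h2 := congrArg F h1
    rw [map_smul, map_zero, Algebra.smul_def] at h2
    rcases mul_eq_zero.mp h2 with h3 | h3
    · exact absurd (hinj (h3.trans (map_zero _).symm)) hr0
    · rw [h3]; rfl
  -- a nonzero element of the quotient
  obtain ⟨m₀, hm₀⟩ : ∃ m₀ : FA_S29_EIG_M R Z J τ a,
      m₀ ∉ 𝔭 • (⊤ : Submodule R (FA_S29_EIG_M R Z J τ a)) := by
    by_contra hcon
    push Not at hcon
    exact hne (eq_top_iff.mpr fun x _ => hcon x)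
  letI : Field (R ⧸ 𝔭) := Ideal.Quotient.field 𝔭
  have hx : (Submodule.Quotient.mk m₀ :
      FA_S29_EIG_M R Z J τ a ⧸ 𝔭 • (⊤ : Submodule R (FA_S29_EIG_M R Z J τ a))) ≠ 0 := by
    intro h0
    exact hm₀ ((Submodule.Quotient.mk_eq_zero _).mp h0)
  obtain ⟨f, hf⟩ := Module.Projective.exists_dual_ne_zero (R ⧸ 𝔭) hx
  -- the embedding of the residue field
  obtain ⟨ι, hιmk⟩ : ∃ ι : R ⧸ 𝔭 →+* k, ∀ y, ι (Ideal.Quotient.mk 𝔭 y) = algebraMap R k y :=
    ⟨Ideal.Quotient.lift 𝔭 (algebraMap R k) (fun x hx => hx), fun y => rfl⟩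
  have hιinj : Function.Injective ι := by
    rw [injective_iff_map_eq_zero]
    intro x hx
    obtain ⟨y, rfl⟩ := Ideal.Quotient.mk_surjective x
    rw [hιmk] at hx
    exact Ideal.Quotient.eq_zero_iff_mem.mpr hx
  -- the function `D` on `M`
  set D : FA_S29_EIG_M R Z J τ a → k := fun m => ι (f (Submodule.Quotient.mk m)) with hD
  have hDadd : ∀ m m', D (m + m') = D m + D m' := by
    intro m m'
    simp only [hD, Submodule.Quotient.mk_add, map_add]
  have hDzero : D 0 = 0 := by
    simp only [hD, Submodule.Quotient.mk_zero, map_zero]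
  have hDsmul : ∀ (r : R) m, D (r • m) = algebraMap R k r * D m := by
    intro r m
    simp only [hD]
    rw [← Module.Quotient.mk_smul_mk, map_smul, smul_eq_mul, map_mul, hιmk]
  refine ⟨fun γ => D (FA_S29_EIG_cls R Z J τ a γ), ?_, ?_, ?_, ?_⟩
  · -- nonzero
    intro h0
    have hall : ∀ m ∈ Submodule.span R (Set.range (FA_S29_EIG_cls R Z J τ a)), D m = 0 := by
      intro m hm
      induction hm using Submodule.span_induction with
      | mem x hx =>
        obtain ⟨γ, rfl⟩ := hx
        exact congrFun h0 γ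
      | zero => exact hDzero
      | add x y _ _ hx hy => rw [hDadd, hx, hy, add_zero]
      | smul r x _ hx => rw [hDsmul, hx, mul_zero]
    have := hall m₀ (by rw [FA_S29_EIG_span_cls]; trivial)
    simp only [hD] at this
    exact hf (hιinj (this.trans (map_zero ι).symm))
  · intro γ δ
    show D _ = D _ + D _
    rw [FA_S29_EIG_cls_mul, hDadd]
  · intro z hz
    show D _ = 0
    rw [FA_S29_EIG_cls_Z R Z J τ a hz, hDzero]
  · intro i γ
    show ∑ j, D _ = _ * D _
    rw [← hDsmul, ← FA_S29_EIG_cls_eig]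
    -- additivity over finite sums
    have hsum : ∀ (s : Finset (J i)) (g : J i → FA_S29_EIG_M R Z J τ a),
        D (∑ j ∈ s, g j) = ∑ j ∈ s, D (g j) := by
      intro s g
      induction s using Finset.induction_on with
      | empty => simp [hDzero]
      | insert x s hx ih => rw [Finset.sum_insert hx, Finset.sum_insert hx, hDadd, ih]
    rw [hsum]

end main

end Fermat.Agent.S29
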