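import Fermat.Agent.S29.EigGen

/-!
# S29, EIG-BRIDGE, part 2 (MAT): specialisation of a common eigenvector of integer matrices

`R` a commutative ring, `L ⊇ R` a field, `k` a field with a ring homomorphism `R → k` whose
kernel is maximal.  If integer matrices `A i` have a common nonzero eigenvector `v ∈ Lⁿ` with
eigenvalues `a i ∈ R`, they have a common nonzero eigenvector `w ∈ kⁿ` with eigenvalues the
images of the `a i` in `k`.  (Consequence of `FA_S29_EIG_general` for the group `ℤⁿ`.)
-/

set_option autoImplicit false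
set_option linter.unusedSectionVars false
set_option linter.unusedVariables false
set_option linter.style.haveILetI false

noncomputable section

namespace Fermat.Agent.S29

open Finsupp

/-- The standard generators of `ℤⁿ`, multiplicatively. -/
def FA_S29_EIG_e {n : ℕ} (j : Fin n) : Multiplicative (Fin n → ℤ) :=
  Multiplicative.ofAdd (Pi.single j (1 : ℤ))

/-- An additive function on `ℤⁿ` is determined by its values on the standard generators. -/
theorem FA_S29_EIG_additive_eq {n : ℕ} {B : Type*} [AddCommGroup B]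
    (d : Multiplicative (Fin n → ℤ) → B) (hd : ∀ x y, d (x * y) = d x + d y)
    (x : Multiplicative (Fin n → ℤ)) :
    d x = ∑ j, (Multiplicative.toAdd x j) • d (FA_S29_EIG_e j) := by
  classical
  let D : (Fin n → ℤ) →+ B :=
    AddMonoidHom.mk' (fun y => d (Multiplicative.ofAdd y)) (fun y z => hd _ _)
  let E : (Fin n → ℤ) →+ B :=
    { toFun := fun y => ∑ j, (y j) • d (FA_S29_EIG_e j)
      map_zero' := by simp
      map_add' := by
        intro y z
        simp only [Pi.add_apply, add_smul, Finset.sum_add_distrib] }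
  have h : D = E := by
    apply AddMonoidHom.functions_ext
    intro i t
    have h1 : (Pi.single i t : Fin n → ℤ) = t • Pi.single i (1 : ℤ) := by
      funext j
      by_cases hj : j = i
      · subst hj; simp
      · simp [Pi.single_eq_of_ne hj]
    show D (Pi.single i t) = ∑ j, ((Pi.single i t : Fin n → ℤ) j) • d (FA_S29_EIG_e j)
    rw [h1, map_zsmul]
    rw [Finset.sum_eq_single i]
    · simp only [Pi.smul_apply, Pi.single_eq_same, smul_eq_mul, mul_one]
      rfl
    · intro j _ hj
      simp [Pi.single_eq_of_ne hj]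
    · intro hi
      exact absurd (Finset.mem_univ i) hi
  have := congrArg (fun f : (Fin n → ℤ) →+ B => f (Multiplicative.toAdd x)) h
  exact this

theorem FA_S29_EIG_mat_lift {R : Type*} [CommRing R] {V : Type*} [AddCommGroup V] [Module R V]
    {n : ℕ} (d : Multiplicative (Fin n → ℤ) → V) (A : Fin n → ℤ) (a : R) (m : Fin n) :
    Finsupp.lift V R _ d (∑ j, ((A j : ℤ) : R) • Finsupp.single (FA_S29_EIG_e j) (1 : R)
        - a • Finsupp.single (FA_S29_EIG_e m) (1 : R))
      = ∑ j, ((A j : ℤ) : R) • d (FA_S29_EIG_e j) - a • d (FA_S29_EIG_e m) := by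
  rw [map_sub, map_sum, map_smul]
  simp only [map_smul, Finsupp.lift_apply, Finsupp.sum_single_index, zero_smul, one_smul]

theorem FA_S29_EIG_mat {R : Type*} [CommRing R] {L : Type*} [Field L] [Algebra R L]
    {k : Type*} [Field k] [Algebra R k]
    (hinj : Function.Injective (algebraMap R L))
    (hmax : (RingHom.ker (algebraMap R k)).IsMaximal)
    {n : ℕ} {I : Type*} (A : I → Fin n → Fin n → ℤ) (a : I → R)
    (v : Fin n → L) (hv : v ≠ 0)
    (hAv : ∀ i m, ∑ j, ((A i m j : ℤ) : L) * v j = algebraMap R L (a i) * v m) :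
    ∃ w : Fin n → k, w ≠ 0 ∧
      ∀ i m, ∑ j, ((A i m j : ℤ) : k) * w j = algebraMap R k (a i) * w m := by
  classical
  haveI : Group.FG (Multiplicative (Fin n → ℤ)) := inferInstance
  set c : Multiplicative (Fin n → ℤ) → L :=
    fun x => ∑ j, ((Multiplicative.toAdd x j : ℤ) : L) * v j with hc
  have hce : ∀ j, c (FA_S29_EIG_e j) = v j := by
    intro j
    show ∑ j', (((Pi.single j (1 : ℤ) : Fin n → ℤ) j' : ℤ) : L) * v j' = v j
    rw [Finset.sum_eq_single j]
    · simp
    · intro j' _ hj'
      simp [Pi.single_eq_of_ne hj']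
    · intro hj
      exact absurd (Finset.mem_univ j) hj
  have hc0 : c ≠ 0 := by
    intro h0
    apply hv
    funext j
    rw [← hce j, h0]
    rfl
  have hcmul : ∀ x y, c (x * y) = c x + c y := by
    intro x y
    show ∑ j, (((Multiplicative.toAdd (x * y)) j : ℤ) : L) * v j = _
    rw [← Finset.sum_add_distrib]
    refine Finset.sum_congr rfl fun j _ => ?_
    rw [toAdd_mul, Pi.add_apply, Int.cast_add, add_mul]
  set Rel : Set (Multiplicative (Fin n → ℤ) →₀ R) :=
    {ρ | ∃ i m, ρ = ∑ j, ((A i m j : ℤ) : R) • Finsupp.single (FA_S29_EIG_e j) (1 : R)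
      - a i • Finsupp.single (FA_S29_EIG_e m) (1 : R)} with hRel
  obtain ⟨d, hd0, hdmul, hdrel⟩ := FA_S29_EIG_general (R := R) (L := L) (k := k) Rel hinj hmax
    c hc0 hcmul (by
      rintro ρ ⟨i, m, rfl⟩
      rw [FA_S29_EIG_mat_lift c (A i m) (a i) m, sub_eq_zero]
      simp only [hce, Algebra.smul_def, map_intCast]
      exact hAv i m)
  refine ⟨fun j => d (FA_S29_EIG_e j), ?_, ?_⟩
  · intro h0
    apply hd0
    funext x
    rw [FA_S29_EIG_additive_eq d hdmul x]
    have : ∀ j, d (FA_S29_EIG_e j) = 0 := fun j => congrFun h0 j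
    simp [this]
  · intro i m
    have h := hdrel _ ⟨i, m, rfl⟩
    rw [FA_S29_EIG_mat_lift d (A i m) (a i) m, sub_eq_zero] at h
    simp only [Algebra.smul_def, map_intCast] at h
    exact h

end Fermat.Agent.S29
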