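import Fermat.Agent.S29.EigSpan
import Fermat.Agent.S29.EigMat

/-!
# S29, EIG-BRIDGE: from the analytic map `Θ : H → J[p]` to a Hecke eigenvector in `k ⊗ J[p]`

`H = parabolicHoms ℤ (Gamma0 N) ℤ` with its Hecke operators `FA_S29_EIG_TH N ℓ`.

* `FA_S29_EIG_A N ℓ` : the (integer) matrix of `T_ℓ^H` in the basis `FA_S29_EIG_basis N`;
* `FA_S29_EIG_vec`   : the period vector of a normalised eigenform `g` is a nonzero common
  eigenvector `v ∈ ℂ^r` of the matrices `A_ℓ`, with eigenvalues `a_ℓ(g)`;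
* `FA_S29_EIG_vec_k` : hence (MAT) a nonzero common eigenvector `w ∈ k^r` with eigenvalues
  `φ (a_ℓ(g))`;
* `FA_S29_EIG_bridge` : given `Θ : H →+ J'` with `ker Θ ⊆ p H`, Hecke-equivariant for `ℓ ∈ P`,
  and a `k`-module `X` with `ι : J' →+ X` turning `𝔽_p`-independent families into `k`-independent
  ones, Hecke-equivariant for `ℓ ∈ P`: there is a nonzero `x ∈ X` in the `k`-span of `ι (J')`
  with `TX ℓ x = φ (a_ℓ) • x` for all `ℓ ∈ P`.
-/

set_option autoImplicit false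
set_option linter.unusedSectionVars false
set_option linter.unusedVariables false
set_option linter.style.haveILetI false

noncomputable section

namespace Fermat.Agent.S29

open CuspForm ModularFormClass CongruenceSubgroup ModularCurve ModularCurve.Period
  FA_S16 FA_S22 FA_S21
open scoped MatrixGroups

variable {N : ℕ} [NeZero N]

/-- The matrix of `T_ℓ^H` in the basis of `H`. -/
def FA_S29_EIG_A (N : ℕ) [NeZero N] (ℓ : Nat.Primes) (m j : Fin (FA_S29_EIG_r N)) : ℤ :=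
  (FA_S29_EIG_basis N).repr (FA_S29_EIG_TH N ℓ (FA_S29_EIG_basis N j)) m

theorem FA_S29_EIG_TH_basis (ℓ : Nat.Primes) (j : Fin (FA_S29_EIG_r N)) :
    FA_S29_EIG_TH N ℓ (FA_S29_EIG_basis N j)
      = ∑ m, FA_S29_EIG_A N ℓ m j • FA_S29_EIG_basis N m :=
  ((FA_S29_EIG_basis N).sum_repr _).symm

/-- The values of the basis elements. -/
def FA_S29_EIG_B (N : ℕ) [NeZero N] (j : Fin (FA_S29_EIG_r N)) (γ : ↥(Gamma0 N)) : ℤ :=
  ((FA_S29_EIG_basis N j : ↥(parabolicHoms ℤ (Gamma0 N) ℤ)) : Additive ↥(Gamma0 N) →+ ℤ)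
    (Additive.ofMul γ)

theorem FA_S29_EIG_hecke_B (ℓ : Nat.Primes) (j : Fin (FA_S29_EIG_r N)) (γ : ↥(Gamma0 N)) :
    FA_S16_LS_hecke N ℤ ℓ (FA_S29_EIG_B N j) γ
      = ∑ m, FA_S29_EIG_A N ℓ m j * FA_S29_EIG_B N m γ := by
  have h1 := FA_S29_EIG_TH_apply (N := N) ℓ (FA_S29_EIG_basis N j) γ
  have h2 : FA_S16_LS_hecke N ℤ ℓ (FA_S29_EIG_B N j) γ
      = ((FA_S29_EIG_TH N ℓ (FA_S29_EIG_basis N j) : ↥(parabolicHoms ℤ (Gamma0 N) ℤ)) :
          Additive ↥(Gamma0 N) →+ ℤ) (Additive.ofMul γ) := h1.symm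
  rw [h2, FA_S29_EIG_TH_basis]
  simp only [Submodule.coe_sum, Submodule.coe_smul, AddMonoidHom.finsetSum_apply,
    AddMonoidHom.coe_smul, Pi.smul_apply, smul_eq_mul]
  rfl

/-- The period vector of a normalised eigenform: a nonzero common eigenvector of the matrices
of the Hecke operators on `H`. -/
theorem FA_S29_EIG_vec {g : CuspForm (Gamma0 N) 2} (hg : g.IsNormalizedEigenform) :
    ∃ v : Fin (FA_S29_EIG_r N) → ℂ, v ≠ 0 ∧ ∀ (ℓ : Nat.Primes) (m : Fin (FA_S29_EIG_r N)),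
      ∑ j, ((FA_S29_EIG_A N ℓ m j : ℤ) : ℂ) * v j = qCoeff ⇑g ℓ * v m := by
  classical
  obtain ⟨v, hv⟩ := FA_S29_EIG_span N (periodMap N g) (FA_S21_periodMap_mem_parabolicHoms N g)
  have hpm : FA_S16_LP_pm N g = fun γ => ∑ j, v j * ((FA_S29_EIG_B N j γ : ℤ) : ℂ) := by
    funext γ
    exact hv γ
  refine ⟨v, ?_, ?_⟩
  · intro h0
    apply FA_S29_EIG_pm_ne_zero (FA_S29_EIG_ne_zero hg)
    rw [hpm, h0]
    funext γ
    simp
  · intro ℓ
    have h1 := FA_S29_EIG_pm_eigen hg ℓ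
    -- the left-hand side
    have h2 : FA_S16_LS_hecke N ℂ ℓ (FA_S16_LP_pm N g)
        = fun γ => ∑ m, (∑ j, ((FA_S29_EIG_A N ℓ m j : ℤ) : ℂ) * v j) *
            ((FA_S29_EIG_B N m γ : ℤ) : ℂ) := by
      have e1 : FA_S16_LP_pm N g
          = ∑ j, (fun γ => v j * ((FA_S29_EIG_B N j γ : ℤ) : ℂ)) := by
        rw [hpm]
        funext γ
        rw [Finset.sum_apply]
      rw [e1, map_sum]
      funext γ
      rw [Finset.sum_apply]
      have e2 : ∀ j, FA_S16_LS_hecke N ℂ ℓ (fun γ => v j * ((FA_S29_EIG_B N j γ : ℤ) : ℂ)) γ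
          = v j * ∑ m, ((FA_S29_EIG_A N ℓ m j : ℤ) : ℂ) * ((FA_S29_EIG_B N m γ : ℤ) : ℂ) := by
        intro j
        have h3 := congrFun (FA_S29_EIG_hecke_natural (N := N)
          ((AddMonoidHom.mulLeft (v j)).comp (Int.castAddHom ℂ)) ℓ (FA_S29_EIG_B N j)) γ
        simp only [AddMonoidHom.comp_apply, Int.coe_castAddHom, AddMonoidHom.coe_mulLeft] at h3
        rw [h3, FA_S29_EIG_hecke_B]
        push_cast
        rfl
      simp only [e2]
      simp only [Finset.mul_sum, Finset.sum_mul]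
      rw [Finset.sum_comm]
      refine Finset.sum_congr rfl fun m _ => Finset.sum_congr rfl fun j _ => ?_
      ring
    rw [h2, hpm] at h1
    -- compare coefficients
    have h4 : (fun m => (∑ j, ((FA_S29_EIG_A N ℓ m j : ℤ) : ℂ) * v j) - qCoeff ⇑g ℓ * v m) = 0 := by
      apply FA_S29_EIG_indep N
      intro γ
      have h5 : ∑ m, (∑ j, ((FA_S29_EIG_A N ℓ m j : ℤ) : ℂ) * v j) *
            ((FA_S29_EIG_B N m γ : ℤ) : ℂ)
          = qCoeff ⇑g ℓ * ∑ j, v j * ((FA_S29_EIG_B N j γ : ℤ) : ℂ) := congrFun h1 γ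
      show ∑ m, ((∑ j, ((FA_S29_EIG_A N ℓ m j : ℤ) : ℂ) * v j) - qCoeff ⇑g ℓ * v m) *
            ((FA_S29_EIG_B N m γ : ℤ) : ℂ) = 0
      simp only [sub_mul, Finset.sum_sub_distrib]
      rw [h5, Finset.mul_sum, sub_eq_zero]
      refine Finset.sum_congr rfl fun m _ => ?_
      ring
    intro m
    exact sub_eq_zero.mp (congrFun h4 m)

/-- The specialised eigenvector over `k`. -/
theorem FA_S29_EIG_vec_k {g : CuspForm (Gamma0 N) 2} (hg : g.IsNormalizedEigenform)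
    {p : ℕ} (hp : p.Prime) {k : Type*} [Field k] [CharP k p]
    (φ : integralClosure ℤ ℂ →+* k) :
    ∃ w : Fin (FA_S29_EIG_r N) → k, w ≠ 0 ∧ ∀ (ℓ : Nat.Primes), ∃ a : integralClosure ℤ ℂ,
      (a : ℂ) = qCoeff ⇑g ℓ ∧ ∀ m : Fin (FA_S29_EIG_r N),
        ∑ j, ((FA_S29_EIG_A N ℓ m j : ℤ) : k) * w j = φ a * w m := by
  classical
  letI : Algebra (integralClosure ℤ ℂ) k := φ.toAlgebra
  have halg : ∀ r : integralClosure ℤ ℂ, algebraMap (integralClosure ℤ ℂ) k r = φ r :=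
    fun _ => rfl
  set a : Nat.Primes → integralClosure ℤ ℂ :=
    fun ℓ => ⟨qCoeff ⇑g ℓ, FA_S29_EIG_isIntegral hg ℓ⟩ with ha
  have hinj : Function.Injective (algebraMap (integralClosure ℤ ℂ) ℂ) := Subtype.val_injective
  have hmax : (RingHom.ker (algebraMap (integralClosure ℤ ℂ) k)).IsMaximal :=
    FA_S29_EIG_ker_isMaximal hp φ
  obtain ⟨v, hv0, hv⟩ := FA_S29_EIG_vec hg
  obtain ⟨w, hw0, hw⟩ := FA_S29_EIG_mat (R := integralClosure ℤ ℂ) (L := ℂ) (k := k) hinj hmax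
    (fun ℓ : Nat.Primes => FA_S29_EIG_A N ℓ) a v hv0 (fun ℓ m => hv ℓ m)
  exact ⟨w, hw0, fun ℓ => ⟨a ℓ, rfl, fun m => hw ℓ m⟩⟩

/-- **EIG-BRIDGE.** -/
theorem FA_S29_EIG_bridge {g : CuspForm (Gamma0 N) 2} (hg : g.IsNormalizedEigenform)
    {p : ℕ} (hp : p.Prime) {k : Type*} [Field k] [CharP k p]
    (φ : integralClosure ℤ ℂ →+* k) (P : Set Nat.Primes)
    {J' : Type*} [AddCommGroup J']
    (Θ : ↥(parabolicHoms ℤ (Gamma0 N) ℤ) →+ J')
    (hΘ : ∀ ψ, Θ ψ = 0 → ∃ ψ', ψ = (p : ℤ) • ψ')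
    (T' : Nat.Primes → J' →+ J')
    (hT : ∀ ℓ ∈ P, ∀ ψ, Θ (FA_S29_EIG_TH N ℓ ψ) = T' ℓ (Θ ψ))
    {X : Type*} [AddCommGroup X] [Module k X] (ι : J' →+ X)
    (hι : ∀ (n : ℕ) (y : Fin n → J'),
      (∀ m : Fin n → ℤ, ∑ i, m i • y i = 0 → ∀ i, (p : ℤ) ∣ m i) →
      ∀ w : Fin n → k, ∑ i, w i • ι (y i) = 0 → w = 0)
    (TX : Nat.Primes → X →ₗ[k] X)
    (hTX : ∀ ℓ ∈ P, ∀ y, TX ℓ (ι y) = ι (T' ℓ y)) :
    ∃ x : X, x ≠ 0 ∧ x ∈ Submodule.span k (Set.range ι) ∧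
      ∀ ℓ ∈ P, ∃ a : integralClosure ℤ ℂ, (a : ℂ) = qCoeff ⇑g ℓ ∧ TX ℓ x = φ a • x := by
  classical
  obtain ⟨w, hw0, hw⟩ := FA_S29_EIG_vec_k hg hp φ
  set β := FA_S29_EIG_basis N with hβ
  set y : Fin (FA_S29_EIG_r N) → J' := fun j => Θ (β j) with hy
  refine ⟨∑ j, w j • ι (y j), ?_, ?_, ?_⟩
  · intro h0
    apply hw0
    refine hι _ y ?_ w h0
    intro m hm i
    have h1 : Θ (∑ i, m i • β i) = 0 := by
      rw [map_sum, ← hm]
      refine Finset.sum_congr rfl fun i _ => ?_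
      rw [map_zsmul]
    obtain ⟨ψ', hψ'⟩ := hΘ _ h1
    have h2 := congrArg (fun ψ => β.repr ψ i) hψ'
    simp only [map_sum, map_smul, Finsupp.coe_finsetSum, Finsupp.coe_smul, Finset.sum_apply,
      Pi.smul_apply, Module.Basis.repr_self, smul_eq_mul] at h2
    rw [Finset.sum_eq_single i] at h2
    · rw [Finsupp.single_eq_same, mul_one] at h2
      exact ⟨_, h2⟩
    · intro j _ hj
      rw [Finsupp.single_eq_of_ne (Ne.symm hj), mul_zero]
    · intro hi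
      exact absurd (Finset.mem_univ i) hi
  · exact Submodule.sum_mem _ fun j _ =>
      Submodule.smul_mem _ _ (Submodule.subset_span ⟨y j, rfl⟩)
  · intro ℓ hℓ
    obtain ⟨a, ha, haw⟩ := hw ℓ
    refine ⟨a, ha, ?_⟩
    have h1 : ∀ j, TX ℓ (ι (y j)) = ∑ m, ((FA_S29_EIG_A N ℓ m j : ℤ) : k) • ι (y m) := by
      intro j
      rw [hTX ℓ hℓ, hy]
      simp only
      rw [← hT ℓ hℓ, FA_S29_EIG_TH_basis, map_sum, map_sum]
      refine Finset.sum_congr rfl fun m _ => ?_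
      rw [map_zsmul, map_zsmul, Int.cast_smul_eq_zsmul]
    rw [map_sum]
    simp only [map_smul, h1, Finset.smul_sum, smul_smul]
    rw [Finset.sum_comm]
    refine Finset.sum_congr rfl fun m _ => ?_
    rw [← Finset.sum_smul, ← haw m]
    congr 1
    refine Finset.sum_congr rfl fun j _ => ?_
    ring

end Fermat.Agent.S29
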