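import Fermat.Agent.S49.Mod3
import Fermat.Agent.S22.GlueFinal

/-!
# S29, leaf L6: a normalised eigenform is a Hecke eigenvector with integral eigenvalues

* `FA_S29_EIG_coeff` : the coefficient identity `a(nℓ) + [ℓ ∤ N][ℓ ∣ n] ℓ a(n/ℓ) = a(ℓ) a(n)`;
* `FA_S29_EIG_rho_X`, `FA_S29_EIG_gen` : `T_ℓ g = a_ℓ g` (resp. `U_ℓ g = a_ℓ g`) for every prime;
* `FA_S29_EIG_ne_zero` : `g ≠ 0`;
* `FA_S29_EIG_isIntegral` : `a_ℓ` is an algebraic integer (from S22).
-/

set_option autoImplicit false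
set_option linter.unusedSectionVars false
set_option linter.unusedVariables false
set_option linter.style.haveILetI false

noncomputable section

namespace Fermat.Agent.S29

open CuspForm ModularFormClass CongruenceSubgroup Fermat.Agent.S49 Polynomial

variable {N : ℕ} [NeZero N] {g : CuspForm (Gamma0 N) 2}

/-- The coefficient identity of a normalised eigenform. -/
theorem FA_S29_EIG_coeff (hg : g.IsNormalizedEigenform) {ℓ : ℕ} (hℓ : ℓ.Prime) (n : ℕ) :
    qCoeff ⇑g (n * ℓ) +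
        (if ℓ ∣ N then 0 else if ℓ ∣ n then (ℓ : ℂ) * qCoeff ⇑g (n / ℓ) else 0)
      = qCoeff ⇑g ℓ * qCoeff ⇑g n := by
  rcases Nat.eq_zero_or_pos n with rfl | hn
  · rw [zero_mul, Nat.zero_div, FA_S49_qCoeff_zero, mul_zero, mul_zero]
    split_ifs <;> simp
  obtain ⟨r, m, hm, rfl⟩ : ∃ r m, ¬ ℓ ∣ m ∧ n = ℓ ^ r * m :=
    Nat.exists_eq_pow_mul_and_not_dvd hn.ne' ℓ hℓ.ne_one
  have hcop : ∀ s, Nat.Coprime (ℓ ^ s) m := fun s =>
    Nat.Coprime.pow_left s ((Nat.Prime.coprime_iff_not_dvd hℓ).mpr hm)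
  have e1 : ℓ ^ r * m * ℓ = ℓ ^ (r + 1) * m := by ring
  rw [e1, hg.qCoeff_mul_of_coprime _ _ (hcop (r + 1)), hg.qCoeff_mul_of_coprime _ _ (hcop r)]
  cases r with
  | zero =>
    have hnd : ¬ ℓ ∣ ℓ ^ 0 * m := by rwa [pow_zero, one_mul]
    rw [if_neg hnd]
    simp only [zero_add, pow_one, pow_zero, ite_self, add_zero, hg.qCoeff_one, one_mul]
  | succ s =>
    have hdvd : ℓ ∣ ℓ ^ (s + 1) * m := Dvd.dvd.mul_right (dvd_pow_self ℓ (Nat.succ_ne_zero s)) m
    have hdiv : ℓ ^ (s + 1) * m / ℓ = ℓ ^ s * m := by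
      rw [pow_succ, mul_assoc, mul_comm ℓ m, ← mul_assoc, Nat.mul_div_cancel _ hℓ.pos]
    rw [if_pos hdvd, hdiv, hg.qCoeff_mul_of_coprime _ _ (hcop s)]
    by_cases hN : ℓ ∣ N
    · rw [if_pos hN, add_zero, hg.qCoeff_prime_pow_of_dvd ℓ s hℓ hN]
      ring
    · rw [if_neg hN, hg.qCoeff_prime_pow_of_not_dvd ℓ s hℓ hN]
      ring

/-- A normalised eigenform is an eigenvector of `ρ(X_ℓ)` (`T_ℓ` or `U_ℓ`). -/
theorem FA_S29_EIG_rho_X (hg : g.IsNormalizedEigenform) (ℓ : Nat.Primes) :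
    FA_S49_rho N (MvPolynomial.X ℓ) g = qCoeff ⇑g ℓ • g := by
  rw [← sub_eq_zero]
  apply FA_S49_eq_zero_of_qCoeff
  intro n
  rw [FA_S49_qCoeff_sub, FA_S49_qCoeff_smul, FA_S49_qCoeff_rho_X, FA_S29_EIG_coeff hg ℓ.2 n,
    sub_self]

/-- A normalised eigenform is an eigenvector of the Hecke generators. -/
theorem FA_S29_EIG_gen (hg : g.IsNormalizedEigenform) (ℓ : Nat.Primes) :
    ((heckeFormsGen N 2 ℓ : heckeAlgebra N 2 ∅) : Module.End ℂ (CuspForm (Gamma0 N) 2)) g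
      = qCoeff ⇑g ℓ • g := by
  rw [← FA_S29_EIG_rho_X hg ℓ]
  have : FA_S49_rho N (MvPolynomial.X ℓ)
      = ((heckeFormsGen N 2 ℓ : heckeAlgebra N 2 ∅) : Module.End ℂ (CuspForm (Gamma0 N) 2)) := by
    have h := CuspForm.heckeEvalForms_heckeGen N 2 ℓ
    unfold ModularCurve.heckeGen at h
    simp only [FA_S49_rho, RingHom.coe_comp, Function.comp_apply, h]
    rfl
  rw [this]

/-- A normalised eigenform is nonzero. -/
theorem FA_S29_EIG_ne_zero (hg : g.IsNormalizedEigenform) : g ≠ 0 := by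
  rintro rfl
  have h1 := hg.qCoeff_one
  have h0 : qCoeff ⇑(0 : CuspForm (Gamma0 N) 2) 1 = 0 := by
    have := FA_S49_qCoeff_smul (0 : ℂ) (0 : CuspForm (Gamma0 N) 2) 1
    rw [zero_smul, zero_mul] at this
    exact this
  rw [h0] at h1
  exact zero_ne_one h1

/-- Polynomials in an endomorphism act on an eigenvector through the eigenvalue. -/
theorem FA_S29_EIG_aeval_eigen {V : Type*} [AddCommGroup V] [Module ℂ V] (T : Module.End ℂ V)
    {v : V} {a : ℂ} (h : T v = a • v) (Q : ℤ[X]) :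
    (aeval T Q) v = (aeval a Q) • v := by
  have hpow : ∀ n : ℕ, (T ^ n) v = a ^ n • v := by
    intro n
    induction n with
    | zero => simp
    | succ n ih =>
      rw [pow_succ, Module.End.mul_apply, h, map_smul, ih, smul_smul, pow_succ, mul_comm]
  induction Q using Polynomial.induction_on' with
  | add p q hp hq =>
    rw [map_add, map_add, LinearMap.add_apply, hp, hq, add_smul]
  | monomial n r =>
    rw [aeval_monomial, aeval_monomial, Module.End.mul_apply, hpow]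
    rw [Algebra.algebraMap_eq_smul_one, Algebra.algebraMap_eq_smul_one]
    simp only [LinearMap.smul_apply, Module.End.one_apply]
    rw [← smul_assoc]
    simp

/-- The eigenvalues of a normalised eigenform are algebraic integers. -/
theorem FA_S29_EIG_isIntegral (hg : g.IsNormalizedEigenform) (ℓ : Nat.Primes) :
    IsIntegral ℤ (qCoeff ⇑g ℓ) := by
  haveI : Module.Finite ℤ (heckeAlgebra N 2 ∅) := FA_S22.FA_S22_main N 2 ∅
  have hint : IsIntegral ℤ (heckeFormsGen N 2 ℓ : heckeAlgebra N 2 ∅) :=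
    IsIntegral.of_finite ℤ _
  have hint' : IsIntegral ℤ
      ((heckeFormsGen N 2 ℓ : heckeAlgebra N 2 ∅) : Module.End ℂ (CuspForm (Gamma0 N) 2)) :=
    hint.map (heckeAlgebra N 2 ∅).val
  obtain ⟨P, hP, hPe⟩ := hint'
  refine ⟨P, hP, ?_⟩
  have h1 := FA_S29_EIG_aeval_eigen _ (FA_S29_EIG_gen hg ℓ) P
  have h2 : (aeval ((heckeFormsGen N 2 ℓ : heckeAlgebra N 2 ∅) :
      Module.End ℂ (CuspForm (Gamma0 N) 2)) P) = 0 := hPe
  rw [h2, LinearMap.zero_apply] at h1
  have h3 := (smul_eq_zero.mp h1.symm).resolve_right (FA_S29_EIG_ne_zero hg)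
  exact h3

end Fermat.Agent.S29
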