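import Fermat.Agent.S29.EigGen
import Fermat.Agent.S29.EigForm
import Fermat.Agent.S16.LShimPeriodA
import Fermat.Agent.S21.Parabolic

/-!
# S29, leaf L6: the mod-`p` eigensystem of a normalised eigenform occurs in the parabolic
cohomology of `Γ₀(N)` with coefficients in `k`

`FA_S29_EIG_main` : for a normalised eigenform `g` of weight 2 on `Γ₀(N)` and a ring homomorphism
`φ : ℤ̄ → k` to a field of characteristic `p` there is a NONZERO homomorphism `d : Γ₀(N) → k`,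
vanishing on the elements of trace `±2` and on the elements of finite order, with
`T_ℓ d = φ(a_ℓ) d` (`ℓ ∤ N`), `U_ℓ d = φ(a_ℓ) d` (`ℓ ∣ N`) for every prime `ℓ`.
The Hecke operators on functions `Γ₀(N) → k` are `FA_S16.FA_S16_LS_hecke N k ℓ`
(`(T d)(γ) = ∑ i, d (t γ i)`, `α_i γ = (t γ i) α_{σ γ i}`).
-/

set_option autoImplicit false
set_option linter.unusedSectionVars false
set_option linter.unusedVariables false
set_option linter.style.haveILetI false

noncomputable section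

namespace Fermat.Agent.S29

open CuspForm ModularFormClass CongruenceSubgroup ModularCurve ModularCurve.Period
  FA_S16 FA_S22 FA_S21
open P2MW.S_ModularForm_heckeT_slash_eq_self_of_mem_Gamma0.ModularForm.HeckeSlashInvariance
open scoped MatrixGroups

variable {N : ℕ} [NeZero N]

/-- Naturality of the Hecke operators on functions in the coefficient group. -/
theorem FA_S29_EIG_hecke_natural {A B : Type*} [AddCommGroup A] [AddCommGroup B] (F : A →+ B)
    (ℓ : Nat.Primes) (ψ : ↥(Gamma0 N) → A) :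
    FA_S16_LS_hecke N B ℓ (fun γ => F (ψ γ)) = fun γ => F (FA_S16_LS_hecke N A ℓ ψ γ) := by
  funext γ
  by_cases h : (ℓ : ℕ) ∣ N
  · haveI : NeZero (ℓ : ℕ) := ⟨ℓ.2.ne_zero⟩
    simp only [FA_S16_LS_hecke, dif_pos h]
    show FA_S22_heckeCoc (FA_S22_phi N) (FA_S22_alphaU (ℓ : ℕ)) (FA_S22_hexU N (ℓ : ℕ) h)
        (FA_S16_LS_triv B) (fun γ => F (ψ γ)) γ
      = F (FA_S22_heckeCoc (FA_S22_phi N) (FA_S22_alphaU (ℓ : ℕ)) (FA_S22_hexU N (ℓ : ℕ) h)
        (FA_S16_LS_triv A) ψ γ)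
    simp only [FA_S22_heckeCoc_apply, FA_S16_LS_triv, AddMonoidHom.id_apply, map_sum]
  · haveI : Fact (ℓ : ℕ).Prime := ⟨ℓ.2⟩
    simp only [FA_S16_LS_hecke, dif_neg h]
    show FA_S22_heckeCoc (FA_S22_phi N) (heckeRep (ℓ : ℕ)) (FA_S22_hexT N (ℓ : ℕ) h)
        (FA_S16_LS_triv B) (fun γ => F (ψ γ)) γ
      = F (FA_S22_heckeCoc (FA_S22_phi N) (heckeRep (ℓ : ℕ)) (FA_S22_hexT N (ℓ : ℕ) h)
        (FA_S16_LS_triv A) ψ γ)
    simp only [FA_S22_heckeCoc_apply, FA_S16_LS_triv, AddMonoidHom.id_apply, map_sum]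

/-- The universal Hecke element: `T_ℓ` applied to `δ ↦ [δ]`, at `γ`. -/
def FA_S29_EIG_x (N : ℕ) [NeZero N] (R : Type*) [CommRing R] (ℓ : Nat.Primes)
    (γ : ↥(Gamma0 N)) : ↥(Gamma0 N) →₀ R :=
  FA_S16_LS_hecke N (↥(Gamma0 N) →₀ R) ℓ (fun δ => Finsupp.single δ (1 : R)) γ

theorem FA_S29_EIG_lift_x {R : Type*} [CommRing R] {V : Type*} [AddCommGroup V] [Module R V]
    (d : ↥(Gamma0 N) → V) (ℓ : Nat.Primes) (γ : ↥(Gamma0 N)) :
    Finsupp.lift V R ↥(Gamma0 N) d (FA_S29_EIG_x N R ℓ γ) = FA_S16_LS_hecke N V ℓ d γ := by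
  have h := FA_S29_EIG_hecke_natural (N := N)
    (Finsupp.lift V R ↥(Gamma0 N) d).toAddMonoidHom ℓ (fun δ => Finsupp.single δ (1 : R))
  have h2 := congrFun h γ
  simp only [LinearMap.toAddMonoidHom_coe] at h2
  unfold FA_S29_EIG_x
  rw [← h2]
  have e : (fun γ => (Finsupp.lift V R ↥(Gamma0 N) d) (Finsupp.single γ (1 : R))) = d := by
    funext δ
    simp only [Finsupp.lift_apply, Finsupp.sum_single_index, zero_smul, one_smul]
  rw [e]

/-- The period function of a nonzero cusp form is nonzero. -/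
theorem FA_S29_EIG_pm_ne_zero {g : CuspForm (Gamma0 N) 2} (hg : g ≠ 0) :
    FA_S16_LP_pm N g ≠ 0 := by
  intro h0
  apply hg
  have hrel := FA_S16_LP_rel_pm N g
  have hz : FA_S16_LP_pmV N g = 0 := by
    funext γ j
    exact congrFun h0 γ
  rw [hz] at hrel
  exact FA_S22_rel_inj N 0 g hrel

/-- The period function is linear in the form. -/
theorem FA_S29_EIG_pm_smul (a : ℂ) (g : CuspForm (Gamma0 N) 2) :
    FA_S16_LP_pm N (a • g) = fun γ => a * FA_S16_LP_pm N g γ := by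
  funext γ
  show FA_S21_pml N (a • g) (Additive.ofMul γ) = _
  rw [map_smul]
  rfl

/-- The period function is a homomorphism. -/
theorem FA_S29_EIG_pm_mul (g : CuspForm (Gamma0 N) 2) (γ δ : ↥(Gamma0 N)) :
    FA_S16_LP_pm N g (γ * δ) = FA_S16_LP_pm N g γ + FA_S16_LP_pm N g δ := by
  show periodMap N g (Additive.ofMul (γ * δ)) = _
  rw [ofMul_mul, map_add]
  rfl

/-- The period function kills the elements of trace `±2`. -/
theorem FA_S29_EIG_pm_parabolic (g : CuspForm (Gamma0 N) 2) (γ : ↥(Gamma0 N))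
    (hγ : ((γ : SL(2, ℤ)) : Matrix (Fin 2) (Fin 2) ℤ).trace ^ 2 = 4) :
    FA_S16_LP_pm N g γ = 0 :=
  (mem_parabolicHoms_iff.mp (FA_S21_periodMap_mem_parabolicHoms N g)) γ hγ

/-- A homomorphism to a torsion-free group kills the elements of finite order. -/
theorem FA_S29_EIG_pm_torsion (g : CuspForm (Gamma0 N) 2) (γ : ↥(Gamma0 N))
    (hγ : IsOfFinOrder γ) : FA_S16_LP_pm N g γ = 0 := by
  obtain ⟨n, hn, hγn⟩ := isOfFinOrder_iff_pow_eq_one.mp hγ
  have h1 : periodMap N g (n • Additive.ofMul γ) = 0 := by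
    rw [← ofMul_pow, hγn]
    exact map_zero _
  rw [map_nsmul, nsmul_eq_mul] at h1
  rcases mul_eq_zero.mp h1 with h2 | h2
  · exact absurd (Nat.cast_eq_zero.mp h2) hn.ne'
  · exact h2

/-- The period function of a normalised eigenform is a Hecke eigenvector. -/
theorem FA_S29_EIG_pm_eigen {g : CuspForm (Gamma0 N) 2} (hg : g.IsNormalizedEigenform)
    (ℓ : Nat.Primes) :
    FA_S16_LS_hecke N ℂ ℓ (FA_S16_LP_pm N g) = fun γ => qCoeff ⇑g ℓ * FA_S16_LP_pm N g γ := by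
  rw [← FA_S16_LP_pm_hecke N ℓ g, FA_S29_EIG_gen hg ℓ, FA_S29_EIG_pm_smul]

/-- The kernel of a ring homomorphism from `ℤ̄` to a field of positive characteristic is
maximal. -/
theorem FA_S29_EIG_ker_isMaximal {p : ℕ} (hp : p.Prime) {k : Type*} [Field k] [CharP k p]
    (φ : integralClosure ℤ ℂ →+* k) : (RingHom.ker φ).IsMaximal := by
  haveI : (RingHom.ker φ).IsPrime := RingHom.ker_isPrime φ
  haveI : Algebra.IsIntegral ℤ (integralClosure ℤ ℂ) := inferInstance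
  apply Ideal.isMaximal_of_isIntegral_of_isMaximal_comap (R := ℤ) (RingHom.ker φ)
  have hprime : (Ideal.comap (algebraMap ℤ (integralClosure ℤ ℂ)) (RingHom.ker φ)).IsPrime :=
    Ideal.comap_isPrime _ _
  have hne : Ideal.comap (algebraMap ℤ (integralClosure ℤ ℂ)) (RingHom.ker φ) ≠ ⊥ := by
    intro h
    have hpmem : (p : ℤ) ∈ Ideal.comap (algebraMap ℤ (integralClosure ℤ ℂ)) (RingHom.ker φ) := by
      rw [Ideal.mem_comap, RingHom.mem_ker, map_natCast, map_natCast]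
      exact CharP.cast_eq_zero k p
    rw [h, Ideal.mem_bot] at hpmem
    exact hp.ne_zero (by exact_mod_cast hpmem)
  exact hprime.isMaximal hne

/-- **L6**: the mod-`p` eigensystem of a normalised eigenform occurs in
`Hom_par(Γ₀(N), k)`. -/
theorem FA_S29_EIG_main {g : CuspForm (Gamma0 N) 2} (hg : g.IsNormalizedEigenform)
    {p : ℕ} (hp : p.Prime) {k : Type*} [Field k] [CharP k p]
    (φ : integralClosure ℤ ℂ →+* k) :
    ∃ d : ↥(Gamma0 N) → k, d ≠ 0 ∧ (∀ γ δ, d (γ * δ) = d γ + d δ) ∧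
      (∀ γ : ↥(Gamma0 N),
        ((γ : SL(2, ℤ)) : Matrix (Fin 2) (Fin 2) ℤ).trace ^ 2 = 4 → d γ = 0) ∧
      (∀ γ : ↥(Gamma0 N), IsOfFinOrder γ → d γ = 0) ∧
      ∀ ℓ : Nat.Primes, ∃ a : integralClosure ℤ ℂ, (a : ℂ) = qCoeff ⇑g ℓ ∧
        FA_S16_LS_hecke N k ℓ d = fun γ => φ a * d γ := by
  classical
  letI : Algebra (integralClosure ℤ ℂ) k := φ.toAlgebra
  have halg : ∀ r : integralClosure ℤ ℂ, algebraMap (integralClosure ℤ ℂ) k r = φ r :=
    fun _ => rfl
  set a : Nat.Primes → integralClosure ℤ ℂ :=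
    fun ℓ => ⟨qCoeff ⇑g ℓ, FA_S29_EIG_isIntegral hg ℓ⟩ with ha
  set Z : Set ↥(Gamma0 N) :=
    {γ | ((γ : SL(2, ℤ)) : Matrix (Fin 2) (Fin 2) ℤ).trace ^ 2 = 4 ∨ IsOfFinOrder γ} with hZ
  set Rel : Set (↥(Gamma0 N) →₀ integralClosure ℤ ℂ) :=
    {x | ∃ z ∈ Z, x = Finsupp.single z 1} ∪
      {x | ∃ (ℓ : Nat.Primes) (γ : ↥(Gamma0 N)),
        x = FA_S29_EIG_x N (integralClosure ℤ ℂ) ℓ γ - a ℓ • Finsupp.single γ 1} with hRel
  have hinj : Function.Injective (algebraMap (integralClosure ℤ ℂ) ℂ) := Subtype.val_injective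
  have hmax : (RingHom.ker (algebraMap (integralClosure ℤ ℂ) k)).IsMaximal :=
    FA_S29_EIG_ker_isMaximal hp φ
  obtain ⟨d, hd0, hdmul, hdrel⟩ := FA_S29_EIG_general (R := integralClosure ℤ ℂ) (L := ℂ)
    (k := k) Rel hinj hmax (FA_S16_LP_pm N g)
    (FA_S29_EIG_pm_ne_zero (FA_S29_EIG_ne_zero hg)) (FA_S29_EIG_pm_mul g)
    (by
      rintro ρ (⟨z, hz, rfl⟩ | ⟨ℓ, γ, rfl⟩)
      · simp only [Finsupp.lift_apply, Finsupp.sum_single_index, zero_smul, one_smul]
        rcases hz with hz | hz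
        · exact FA_S29_EIG_pm_parabolic g z hz
        · exact FA_S29_EIG_pm_torsion g z hz
      · rw [map_sub, map_smul, FA_S29_EIG_lift_x, FA_S29_EIG_pm_eigen hg ℓ]
        simp only [Finsupp.lift_apply, Finsupp.sum_single_index, zero_smul, one_smul]
        rw [Algebra.smul_def]
        exact sub_self _)
  refine ⟨d, hd0, hdmul, ?_, ?_, ?_⟩
  · intro γ hγ
    have := hdrel (Finsupp.single γ 1) (Or.inl ⟨γ, Or.inl hγ, rfl⟩)
    simpa only [Finsupp.lift_apply, Finsupp.sum_single_index, zero_smul, one_smul] using this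
  · intro γ hγ
    have := hdrel (Finsupp.single γ 1) (Or.inl ⟨γ, Or.inr hγ, rfl⟩)
    simpa only [Finsupp.lift_apply, Finsupp.sum_single_index, zero_smul, one_smul] using this
  · intro ℓ
    refine ⟨a ℓ, rfl, ?_⟩
    funext γ
    have := hdrel _ (Or.inr ⟨ℓ, γ, rfl⟩)
    rw [map_sub, map_smul, FA_S29_EIG_lift_x] at this
    simp only [Finsupp.lift_apply, Finsupp.sum_single_index, zero_smul, one_smul] at this
    rw [Algebra.smul_def, halg] at this
    exact sub_eq_zero.mp this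

end Fermat.Agent.S29
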