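import Fermat.Agent.S29.EigLat

/-!
# S29, EIG-BRIDGE, part 3: a `ℤ`-basis of `H = parabolicHoms ℤ (Gamma0 N) ℤ` is a `ℂ`-basis of
the complex parabolic homomorphisms

* `FA_S29_EIG_equiv N : H ≃ₗ[ℤ] Hom(Γ̄, ℤ)`, `Γ̄ = Γ₀(N) / ⟨parabolic elements⟩`;
* `FA_S29_EIG_basis N : Basis (Fin r) ℤ H`;
* `FA_S29_EIG_span`  : every complex parabolic homomorphism is a `ℂ`-combination of the basis;
* `FA_S29_EIG_indep` : the basis is linearly independent over `ℂ`.
-/

set_option autoImplicit false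
set_option linter.unusedSectionVars false
set_option linter.unusedVariables false
set_option linter.style.haveILetI false

noncomputable section

namespace Fermat.Agent.S29

open CuspForm ModularFormClass CongruenceSubgroup ModularCurve ModularCurve.Period
  FA_S16 FA_S22 FA_S21
open scoped MatrixGroups

/-- Integer-valued functions that are independent over `ℤ` are independent over `ℂ`. -/
theorem FA_S29_EIG_indep_gen {n : ℕ} {X : Type*} (β : Fin n → X → ℤ)
    (hβ : ∀ m : Fin n → ℤ, (∀ x, ∑ j, m j * β j x = 0) → m = 0)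
    (v : Fin n → ℂ) (h : ∀ x, ∑ j, v j * (β j x : ℂ) = 0) : v = 0 := by
  classical
  by_contra hv
  obtain ⟨j0, hj0⟩ : ∃ j0, v j0 ≠ 0 := by
    by_contra hcon
    exact hv (funext fun j => by
      by_contra hj
      exact hcon ⟨j, hj⟩)
  obtain ⟨f, hf⟩ : ∃ f : Module.Dual ℚ ℂ, f (v j0) ≠ 0 := by
    by_contra hcon
    exact hj0 ((Module.forall_dual_apply_eq_zero_iff ℚ (v j0)).mp fun φ => by
      by_contra hφ
      exact hcon ⟨φ, hφ⟩)
  set q : Fin n → ℚ := fun j => f (v j) with hq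
  have hqx : ∀ x, ∑ j, q j * (β j x : ℚ) = 0 := by
    intro x
    have h1 := congrArg f (h x)
    rw [map_sum, map_zero] at h1
    rw [← h1]
    refine Finset.sum_congr rfl fun j _ => ?_
    have e : v j * (β j x : ℂ) = (β j x : ℚ) • v j := by
      rw [mul_comm]
      rw [Algebra.smul_def]
      simp
    rw [e, map_smul, smul_eq_mul, mul_comm]
  obtain ⟨D, hD⟩ := IsLocalization.exist_integer_multiples_of_finite (nonZeroDivisors ℤ) q
  choose m hm using hD
  have hD0 : (D : ℤ) ≠ 0 := nonZeroDivisors.coe_ne_zero D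
  have hm' : ∀ j, (m j : ℚ) = (D : ℤ) * q j := by
    intro j
    have := hm j
    rw [Algebra.smul_def] at this
    simpa using this
  have hm0 : m = 0 := by
    apply hβ
    intro x
    have : ((∑ j, m j * β j x : ℤ) : ℚ) = 0 := by
      push_cast
      simp only [hm']
      simp only [mul_assoc]
      rw [← Finset.mul_sum, hqx x, mul_zero]
    exact_mod_cast this
  have : (D : ℚ) * q j0 = 0 := by
    rw [← hm' j0, hm0]
    simp
  rcases mul_eq_zero.mp this with h1 | h1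
  · exact hD0 (by exact_mod_cast h1)
  · exact hf h1

variable (N : ℕ) [NeZero N]

/-- `H ≃ Hom(Γ̄, ℤ)`. -/
def FA_S29_EIG_equiv :
    ↥(parabolicHoms ℤ (Gamma0 N) ℤ) ≃ₗ[ℤ] (Additive (FA_S16_LR_Gbar N) →+ ℤ) where
  toFun ψ := FA_S16_LR_desc N ψ.1 ψ.2
  map_add' a b := AddMonoidHom.ext fun x => rfl
  map_smul' c a := AddMonoidHom.ext fun x => rfl
  invFun χ := ⟨FA_S16_LR_pull N χ, FA_S16_LR_pull_parabolic N χ⟩
  left_inv ψ := by
    apply Subtype.ext
    refine AddMonoidHom.ext fun x => ?_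
    obtain ⟨γ, rfl⟩ := Additive.ofMul.surjective x
    exact FA_S16_LR_desc_mk N ψ.1 ψ.2 γ
  right_inv χ := by
    refine AddMonoidHom.ext fun x => ?_
    obtain ⟨y, rfl⟩ := Additive.ofMul.surjective x
    obtain ⟨γ, rfl⟩ := QuotientGroup.mk_surjective y
    exact FA_S16_LR_desc_mk N (FA_S16_LR_pull N χ) (FA_S16_LR_pull_parabolic N χ) γ

/-- The rank of `H`. -/
abbrev FA_S29_EIG_r : ℕ := FA_S16_LR_rank (FA_S16_LR_Gbar N)

/-- A basis of `H`. -/
def FA_S29_EIG_basis :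
    Module.Basis (Fin (FA_S29_EIG_r N)) ℤ ↥(parabolicHoms ℤ (Gamma0 N) ℤ) :=
  (FA_S16_LR_basis (FA_S16_LR_Gbar N)).map (FA_S29_EIG_equiv N).symm

theorem FA_S29_EIG_basis_apply (j : Fin (FA_S29_EIG_r N)) (γ : ↥(Gamma0 N)) :
    ((FA_S29_EIG_basis N j : ↥(parabolicHoms ℤ (Gamma0 N) ℤ)) : Additive ↥(Gamma0 N) →+ ℤ)
        (Additive.ofMul γ)
      = FA_S16_LR_basis (FA_S16_LR_Gbar N) j (Additive.ofMul (γ : FA_S16_LR_Gbar N)) := by
  unfold FA_S29_EIG_basis
  rw [Module.Basis.map_apply]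
  rfl

/-- Every complex parabolic homomorphism is a complex combination of the basis of `H`. -/
theorem FA_S29_EIG_span (c : Additive ↥(Gamma0 N) →+ ℂ)
    (hc : c ∈ parabolicHoms ℂ (Gamma0 N) ℂ) :
    ∃ v : Fin (FA_S29_EIG_r N) → ℂ, ∀ γ : ↥(Gamma0 N),
      c (Additive.ofMul γ) = ∑ j, v j *
        ((((FA_S29_EIG_basis N j : ↥(parabolicHoms ℤ (Gamma0 N) ℤ)) :
          Additive ↥(Gamma0 N) →+ ℤ) (Additive.ofMul γ) : ℤ) : ℂ) := by
  classical
  set Δ := FA_S16_LR_Gbar N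
  set b := FA_S16_LR_basis Δ
  set χ := FA_S16_LR_desc N c hc
  let vv : Fin (FA_S16_LR_rank Δ) → (Δ → Fin 1 → ℂ) :=
    fun i => FA_S16_LR_coeC Δ ((Int.castAddHom ℂ).comp (b i))
  have hint : ∀ c ∈ FA_S22_intCocycles (FA_S16_LR_M Δ), c ∈ Submodule.span ℂ (Set.range vv) := by
    intro c hc
    obtain ⟨ψ, rfl⟩ := FA_S16_LR_exists_int Δ c hc
    have hψ : ψ = ∑ i, b.repr ψ i • b i := (b.sum_repr ψ).symm
    have h2 : FA_S16_LR_coeC Δ ((Int.castAddHom ℂ).comp ψ)
        = ∑ i, ((b.repr ψ i : ℤ) : ℂ) • vv i := by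
      funext γ j
      conv_lhs => rw [hψ]
      simp only [FA_S16_LR_coeC, LinearMap.coe_mk, AddHom.coe_mk, AddMonoidHom.comp_apply,
        Int.coe_castAddHom, vv, Finset.sum_apply, Pi.smul_apply, smul_eq_mul,
        AddMonoidHom.finsetSum_apply, AddMonoidHom.coe_smul]
      push_cast
      rfl
    rw [h2]
    exact Submodule.sum_mem _ fun i _ => Submodule.smul_mem _ _ (Submodule.subset_span ⟨i, rfl⟩)
  have h1 := FA_S22_cocycles_le_span (FA_S16_LR_M Δ) rfl _ (FA_S16_LR_coeC_mem Δ χ)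
  have h3 : FA_S16_LR_coeC Δ χ ∈ Submodule.span ℂ (Set.range vv) :=
    (Submodule.span_le.mpr hint) h1
  obtain ⟨v, hv⟩ := (Submodule.mem_span_range_iff_exists_fun ℂ).mp h3
  refine ⟨v, fun γ => ?_⟩
  have h4 := congrFun (congrFun hv (γ : Δ)) 0
  have h5 : FA_S16_LR_coeC Δ χ (γ : Δ) 0 = c (Additive.ofMul γ) :=
    FA_S16_LR_desc_mk N c hc γ
  rw [← h5, ← h4]
  simp only [Finset.sum_apply, Pi.smul_apply, smul_eq_mul]
  refine Finset.sum_congr rfl fun j _ => ?_
  rw [FA_S29_EIG_basis_apply]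
  rfl

/-- The basis of `H` is linearly independent over `ℂ`. -/
theorem FA_S29_EIG_indep (v : Fin (FA_S29_EIG_r N) → ℂ)
    (h : ∀ γ : ↥(Gamma0 N), ∑ j, v j *
        ((((FA_S29_EIG_basis N j : ↥(parabolicHoms ℤ (Gamma0 N) ℤ)) :
          Additive ↥(Gamma0 N) →+ ℤ) (Additive.ofMul γ) : ℤ) : ℂ) = 0) : v = 0 := by
  classical
  refine FA_S29_EIG_indep_gen
    (fun j (γ : ↥(Gamma0 N)) => ((FA_S29_EIG_basis N j : ↥(parabolicHoms ℤ (Gamma0 N) ℤ)) :
          Additive ↥(Gamma0 N) →+ ℤ) (Additive.ofMul γ)) ?_ v h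
  intro m hm
  have h0 : ∑ j, m j • FA_S29_EIG_basis N j = 0 := by
    apply Subtype.ext
    refine AddMonoidHom.ext fun x => ?_
    obtain ⟨γ, rfl⟩ := Additive.ofMul.surjective x
    refine Eq.trans ?_ (hm γ)
    simp only [Submodule.coe_sum, Submodule.coe_smul, AddMonoidHom.finsetSum_apply,
      AddMonoidHom.coe_smul, Pi.smul_apply, smul_eq_mul]
  funext j
  exact Fintype.linearIndependent_iff.mp (FA_S29_EIG_basis N).linearIndependent m h0 j

end Fermat.Agent.S29
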