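import Fermat.Agent.S29.EigBridge

/-!
# S29, EIG-BRIDGE, tensor form: the Hecke eigenvector in `k ⊗[ℤ] J'`

`J'` an abelian group killed by `p`, `k` a field of characteristic `p`.

* `FA_S29_EIG_iota` : a family of `J'` that is independent over `𝔽_p` gives a `k`-independent
  family `1 ⊗ yᵢ` of `k ⊗[ℤ] J'` (the hypothesis `hι` of `FA_S29_EIG_bridge` for
  `X = k ⊗[ℤ] J'`);
* `FA_S29_EIG_bridge_tensor` : the bridge with `X = k ⊗[ℤ] J'`, `ι y = 1 ⊗ₜ y`,
  `TX ℓ = (T' ℓ).baseChange k`.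
-/

set_option autoImplicit false
set_option linter.unusedSectionVars false
set_option linter.unusedVariables false
set_option linter.style.haveILetI false

noncomputable section

namespace Fermat.Agent.S29

open CuspForm ModularFormClass CongruenceSubgroup ModularCurve ModularCurve.Period
open scoped MatrixGroups TensorProduct

/-- Dual functionals of an independent family over `ZMod p`. -/
theorem FA_S29_EIG_dual {p : ℕ} [Fact p.Prime] {J' : Type*} [AddCommGroup J']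
    [Module (ZMod p) J'] (n : ℕ) (y : Fin n → J')
    (hy : ∀ c : Fin n → ZMod p, ∑ i, c i • y i = 0 → c = 0) :
    ∃ h : J' →+ (Fin n → ZMod p), ∀ j, h (y j) = Pi.single j 1 := by
  classical
  have hker : LinearMap.ker (Fintype.linearCombination (ZMod p) y) = ⊥ := by
    rw [LinearMap.ker_eq_bot']
    intro c hc
    rw [Fintype.linearCombination_apply] at hc
    exact hy c hc
  obtain ⟨g, hg⟩ := LinearMap.exists_leftInverse_of_injective _ hker
  refine ⟨g.toAddMonoidHom, fun j => ?_⟩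
  have h1 : Fintype.linearCombination (ZMod p) y (Pi.single j 1) = y j := by
    rw [Fintype.linearCombination_apply]
    rw [Finset.sum_eq_single j]
    · simp
    · intro i _ hi
      simp [Pi.single_eq_of_ne hi]
    · intro hj
      exact absurd (Finset.mem_univ j) hj
  rw [← h1]
  exact congrArg (fun F : (Fin n → ZMod p) →ₗ[ZMod p] (Fin n → ZMod p) => F (Pi.single j 1)) hg

/-- Dual functionals of a family that is independent modulo `p`. -/
theorem FA_S29_EIG_dual' {p : ℕ} (hp : p.Prime) {J' : Type*} [AddCommGroup J']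
    (hpJ : ∀ y : J', p • y = 0) (n : ℕ) (y : Fin n → J')
    (hy : ∀ m : Fin n → ℤ, ∑ i, m i • y i = 0 → ∀ i, (p : ℤ) ∣ m i) :
    ∃ h : J' →+ (Fin n → ZMod p), ∀ j, h (y j) = Pi.single j 1 := by
  classical
  haveI : Fact p.Prime := ⟨hp⟩
  letI : Module (ZMod p) J' := AddCommGroup.zmodModule hpJ
  refine FA_S29_EIG_dual n y ?_
  intro c hc
  have h1 : ∑ i, ((c i).val : ℤ) • y i = 0 := by
    rw [← hc]
    refine Finset.sum_congr rfl fun i _ => ?_
    rw [← Int.cast_smul_eq_zsmul (ZMod p)]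
    congr 1
    simp
  have h2 := hy _ h1
  funext i
  have h3 := h2 i
  have h4 : (((c i).val : ℤ) : ZMod p) = 0 := by
    rw [ZMod.intCast_zmod_eq_zero_iff_dvd]
    exact h3
  simpa using h4

/-- `𝔽_p`-independent families of `J'` stay independent in `k ⊗[ℤ] J'`. -/
theorem FA_S29_EIG_iota {p : ℕ} (hp : p.Prime) {k : Type*} [Field k] [CharP k p]
    {J' : Type*} [AddCommGroup J'] (hpJ : ∀ y : J', p • y = 0)
    (n : ℕ) (y : Fin n → J')
    (hy : ∀ m : Fin n → ℤ, ∑ i, m i • y i = 0 → ∀ i, (p : ℤ) ∣ m i)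
    (w : Fin n → k) (hw : ∑ i, w i • ((1 : k) ⊗ₜ[ℤ] y i) = 0) : w = 0 := by
  classical
  obtain ⟨g, hgy⟩ := FA_S29_EIG_dual' hp hpJ n y hy
  funext i
  -- the `i`-th coordinate functional
  let h : J' →ₗ[ℤ] k :=
    ((ZMod.castHom (dvd_refl p) k).toAddMonoidHom.comp
      ((Pi.evalAddMonoidHom (fun _ : Fin n => ZMod p) i).comp g)).toIntLinearMap
  have hhy : ∀ j, h (y j) = if j = i then 1 else 0 := by
    intro j
    show (ZMod.castHom (dvd_refl p) k) (g (y j) i) = _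
    rw [hgy j]
    by_cases hji : j = i
    · subst hji
      simp
    · rw [if_neg hji, Pi.single_eq_of_ne (Ne.symm hji), map_zero]
  let F : k ⊗[ℤ] J' →ₗ[ℤ] k := TensorProduct.lift ((LinearMap.mul ℤ k).compl₂ h)
  have hF : ∀ (a : k) (z : J'), F (a ⊗ₜ[ℤ] z) = a * h z := by
    intro a z
    show TensorProduct.lift ((LinearMap.mul ℤ k).compl₂ h) (a ⊗ₜ[ℤ] z) = _
    rw [TensorProduct.lift.tmul]
    rfl
  have h5 := congrArg F hw
  rw [map_sum, map_zero] at h5
  have h6 : ∀ j, F (w j • ((1 : k) ⊗ₜ[ℤ] y j)) = if j = i then w j else 0 := by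
    intro j
    rw [TensorProduct.smul_tmul', smul_eq_mul, mul_one, hF, hhy]
    split_ifs <;> simp
  simp only [h6] at h5
  rw [Finset.sum_ite_eq' Finset.univ i] at h5
  simpa using h5

variable {N : ℕ} [NeZero N]

/-- **EIG-BRIDGE, tensor form.** -/
theorem FA_S29_EIG_bridge_tensor {g : CuspForm (Gamma0 N) 2} (hg : g.IsNormalizedEigenform)
    {p : ℕ} (hp : p.Prime) {k : Type*} [Field k] [CharP k p]
    (φ : integralClosure ℤ ℂ →+* k) (P : Set Nat.Primes)
    {J' : Type*} [AddCommGroup J'] (hpJ : ∀ y : J', p • y = 0)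
    (Θ : ↥(parabolicHoms ℤ (Gamma0 N) ℤ) →+ J')
    (hΘ : ∀ ψ, Θ ψ = 0 → ∃ ψ', ψ = (p : ℤ) • ψ')
    (T' : Nat.Primes → J' →+ J')
    (hT : ∀ ℓ ∈ P, ∀ ψ, Θ (FA_S29_EIG_TH N ℓ ψ) = T' ℓ (Θ ψ)) :
    ∃ x : k ⊗[ℤ] J', x ≠ 0 ∧
      x ∈ Submodule.span k (Set.range fun y : J' => (1 : k) ⊗ₜ[ℤ] y) ∧
      ∀ ℓ ∈ P, ∃ a : integralClosure ℤ ℂ, (a : ℂ) = qCoeff ⇑g ℓ ∧
        (T' ℓ).toIntLinearMap.baseChange k x = φ a • x := by
  classical
  let ι : J' →+ k ⊗[ℤ] J' :=
    { toFun := fun y => (1 : k) ⊗ₜ[ℤ] y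
      map_zero' := TensorProduct.tmul_zero _ _
      map_add' := fun a b => TensorProduct.tmul_add _ _ _ }
  obtain ⟨x, hx0, hxs, hx⟩ := FA_S29_EIG_bridge hg hp φ P Θ hΘ T' hT ι
    (fun n y hy w hw => FA_S29_EIG_iota hp hpJ n y hy w hw)
    (fun ℓ => (T' ℓ).toIntLinearMap.baseChange k)
    (fun ℓ hℓ y => by
      show (T' ℓ).toIntLinearMap.baseChange k ((1 : k) ⊗ₜ[ℤ] y) = (1 : k) ⊗ₜ[ℤ] (T' ℓ y)
      rw [LinearMap.baseChange_tmul]
      rfl)
  exact ⟨x, hx0, hxs, hx⟩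

end Fermat.Agent.S29
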