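import Mathlib

/-!
# Item 87, leaf L1: Eisenstein series with weights (`FA_S29_EC_*`)

For a bounded weight `w : ℤ² → ℂ` the series `E_w(z) = ∑_v w(v) (v₀ z + v₁)^(-k)` (`k ≥ 3`)
is holomorphic on `ℍ`, all its slashes by `SL(2, ℤ)` are again of this form (hence bounded at
`i∞`).
-/

set_option autoImplicit false

namespace Fermat.Agent.S29

open UpperHalfPlane EisensteinSeries Filter Topology ModularForm CongruenceSubgroup Matrix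
open scoped MatrixGroups Manifold

noncomputable section

/-- The weighted Eisenstein series `∑_v w(v) (v₀ z + v₁)^(-k)` over all `v ∈ ℤ²`. -/
def FA_S29_EC_E (k : ℤ) (w : (Fin 2 → ℤ) → ℂ) (z : ℍ) : ℂ :=
  ∑' v : Fin 2 → ℤ, w v * eisSummand k v z

theorem FA_S29_EC_norm_le {k : ℤ} {w : (Fin 2 → ℤ) → ℂ} (hw : ∀ v, ‖w v‖ ≤ 1)
    (v : Fin 2 → ℤ) (z : ℍ) : ‖w v * eisSummand k v z‖ ≤ ‖eisSummand k v z‖ := by
  rw [norm_mul]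
  calc ‖w v‖ * ‖eisSummand k v z‖ ≤ 1 * ‖eisSummand k v z‖ :=
        mul_le_mul_of_nonneg_right (hw v) (norm_nonneg _)
    _ = ‖eisSummand k v z‖ := one_mul _

theorem FA_S29_EC_summable {k : ℤ} (hk : 3 ≤ k) {w : (Fin 2 → ℤ) → ℂ} (hw : ∀ v, ‖w v‖ ≤ 1)
    (z : ℍ) : Summable fun v : Fin 2 → ℤ => w v * eisSummand k v z :=
  Summable.of_norm_bounded (summable_norm_eisSummand hk z) (fun v => FA_S29_EC_norm_le hw v z)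

theorem FA_S29_EC_mul_inv (σ : SL(2, ℤ)) :
    (σ : Matrix (Fin 2) (Fin 2) ℤ) * (↑(σ⁻¹) : Matrix (Fin 2) (Fin 2) ℤ) = 1 := by
  have h := congrArg (fun A : SL(2, ℤ) => (A : Matrix (Fin 2) (Fin 2) ℤ)) (mul_inv_cancel σ)
  exact h

theorem FA_S29_EC_inv_mul (σ : SL(2, ℤ)) :
    (↑(σ⁻¹) : Matrix (Fin 2) (Fin 2) ℤ) * (σ : Matrix (Fin 2) (Fin 2) ℤ) = 1 := by
  have h := congrArg (fun A : SL(2, ℤ) => (A : Matrix (Fin 2) (Fin 2) ℤ)) (inv_mul_cancel σ)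
  exact h

/-- Right multiplication by `σ ∈ SL(2, ℤ)` as a permutation of `ℤ²`. -/
def FA_S29_EC_equiv (σ : SL(2, ℤ)) : (Fin 2 → ℤ) ≃ (Fin 2 → ℤ) where
  toFun v := v ᵥ* (σ : Matrix (Fin 2) (Fin 2) ℤ)
  invFun v := v ᵥ* (↑(σ⁻¹) : Matrix (Fin 2) (Fin 2) ℤ)
  left_inv v := by
    show (v ᵥ* (σ : Matrix (Fin 2) (Fin 2) ℤ)) ᵥ* (↑(σ⁻¹) : Matrix (Fin 2) (Fin 2) ℤ) = v
    rw [vecMul_vecMul, FA_S29_EC_mul_inv, vecMul_one]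
  right_inv v := by
    show (v ᵥ* (↑(σ⁻¹) : Matrix (Fin 2) (Fin 2) ℤ)) ᵥ* (σ : Matrix (Fin 2) (Fin 2) ℤ) = v
    rw [vecMul_vecMul, FA_S29_EC_inv_mul, vecMul_one]

theorem FA_S29_EC_equiv_apply (σ : SL(2, ℤ)) (v : Fin 2 → ℤ) :
    FA_S29_EC_equiv σ v = v ᵥ* (σ : Matrix (Fin 2) (Fin 2) ℤ) := rfl

theorem FA_S29_EC_equiv_symm_apply (σ : SL(2, ℤ)) (v : Fin 2 → ℤ) :
    (FA_S29_EC_equiv σ).symm v = v ᵥ* (↑(σ⁻¹) : Matrix (Fin 2) (Fin 2) ℤ) := rfl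

/-- The slash of a weighted Eisenstein series is the Eisenstein series of the translated weight. -/
theorem FA_S29_EC_slash (k : ℤ) (w : (Fin 2 → ℤ) → ℂ) (σ : SL(2, ℤ)) :
    (FA_S29_EC_E k w) ∣[k] σ =
      FA_S29_EC_E k (fun v => w (v ᵥ* (↑(σ⁻¹) : Matrix (Fin 2) (Fin 2) ℤ))) := by
  ext1 z
  simp_rw [SL_slash_apply, _root_.zpow_neg,
    mul_inv_eq_iff_eq_mul₀ (zpow_ne_zero _ <| denom_ne_zero _ z),
    FA_S29_EC_E, eisSummand_SL2_apply, ← tsum_mul_right]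
  refine Eq.trans ?_ ((FA_S29_EC_equiv σ).tsum_eq _)
  refine tsum_congr fun v => ?_
  have h1 : (FA_S29_EC_equiv σ v) ᵥ* (↑(σ⁻¹) : Matrix (Fin 2) (Fin 2) ℤ) = v :=
    (FA_S29_EC_equiv σ).left_inv v
  rw [h1, FA_S29_EC_equiv_apply]
  ring

/-! ### Holomorphy -/

theorem FA_S29_EC_tendstoLocallyUniformly {k : ℤ} (hk : 3 ≤ k) {w : (Fin 2 → ℤ) → ℂ}
    (hw : ∀ v, ‖w v‖ ≤ 1) :
    TendstoLocallyUniformly (fun (s : Finset (Fin 2 → ℤ)) ↦ (∑ x ∈ s, w x * eisSummand k x ·))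
      (FA_S29_EC_E k w ·) Filter.atTop := by
  have hk' : (2 : ℝ) < k := by norm_cast
  have p_sum : Summable fun x : Fin 2 → ℤ ↦ ‖x‖ ^ (-k) :=
    mod_cast (summable_one_div_norm_rpow hk')
  simp only [tendstoLocallyUniformly_iff_forall_isCompact, FA_S29_EC_E]
  intro K hK
  obtain ⟨A, B, hB, HABK⟩ := subset_verticalStrip_of_isCompact hK
  refine (tendstoUniformlyOn_tsum (hu := p_sum.mul_left <| r ⟨⟨A, B⟩, hB⟩ ^ (-k : ℝ))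
    (fun p z hz ↦ ?_)).mono HABK
  refine (FA_S29_EC_norm_le hw p z).trans ?_
  simpa only [eisSummand, one_div, ← _root_.zpow_neg, norm_zpow, ← Real.rpow_intCast,
    Int.cast_neg] using summand_bound_of_mem_verticalStrip (by positivity) p hB hz

theorem FA_S29_EC_tendstoLocallyUniformlyOn {k : ℤ} (hk : 3 ≤ k) {w : (Fin 2 → ℤ) → ℂ}
    (hw : ∀ v, ‖w v‖ ≤ 1) :
    TendstoLocallyUniformlyOn (fun (s : Finset (Fin 2 → ℤ)) ↦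
      ↑ₕ(fun (z : ℍ) ↦ ∑ x ∈ s, w x * eisSummand k x z)) (↑ₕ(FA_S29_EC_E k w))
          Filter.atTop {z : ℂ | 0 < z.im} := by
  rw [← upperHalfPlaneSet, ← range_coe, ← Set.image_univ]
  apply TendstoLocallyUniformlyOn.comp (s := ⊤) _ _ _ (OpenPartialHomeomorph.continuousOn_symm _)
  · simp only [Set.top_eq_univ, tendstoLocallyUniformlyOn_univ]
    exact FA_S29_EC_tendstoLocallyUniformly hk hw
  · simp only [IsOpenEmbedding.toOpenPartialHomeomorph_target, Set.top_eq_univ,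
      Set.mapsTo_range_iff, Set.mem_univ, forall_const]

/-- Weighted Eisenstein series are holomorphic. -/
theorem FA_S29_EC_mdifferentiable {k : ℤ} (hk : 3 ≤ k) {w : (Fin 2 → ℤ) → ℂ}
    (hw : ∀ v, ‖w v‖ ≤ 1) : MDiff (FA_S29_EC_E k w) := by
  intro τ
  suffices DifferentiableAt ℂ (↑ₕ(FA_S29_EC_E k w)) τ.1 by
    convert!
      MDifferentiableAt.comp τ (DifferentiableAt.mdifferentiableAt this) τ.mdifferentiable_coe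
    exact funext fun z ↦ (comp_ofComplex (FA_S29_EC_E k w) z).symm
  refine DifferentiableOn.differentiableAt ?_ (isOpen_upperHalfPlaneSet.mem_nhds τ.2)
  refine (FA_S29_EC_tendstoLocallyUniformlyOn hk hw).differentiableOn
    (Eventually.of_forall fun s ↦ ?_) isOpen_upperHalfPlaneSet
  have : (↑ₕ(fun (z : ℍ) ↦ ∑ x ∈ s, w x * eisSummand k x z)) =
      fun z : ℂ => ∑ x ∈ s, w x * (↑ₕ(eisSummand k x)) z := by
    funext z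
    simp only [Function.comp_apply]
  rw [this]
  exact DifferentiableOn.fun_sum fun x _ ↦
    (eisSummand_extension_differentiableOn k x).const_smul (w x) |>.congr
      (fun z _ => by simp [smul_eq_mul])

/-! ### Boundedness at `i∞` -/

/-- A uniform bound on the vertical strip `|Re z| ≤ 1`, `Im z ≥ 2`. -/
theorem FA_S29_EC_bound_strip {k : ℤ} (hk : 3 ≤ k) {w : (Fin 2 → ℤ) → ℂ}
    (hw : ∀ v, ‖w v‖ ≤ 1) {z : ℍ} (hz : z ∈ verticalStrip 1 2) :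
    ‖FA_S29_EC_E k w z‖ ≤
      ∑' x : Fin 2 → ℤ, r ⟨⟨1, 2⟩, Nat.ofNat_pos⟩ ^ (-k) * ‖x‖ ^ (-k) := by
  have hk' : (2 : ℝ) < k := by norm_cast
  have hs : Summable fun x : Fin 2 → ℤ => ‖w x * eisSummand k x z‖ :=
    (summable_norm_eisSummand hk z).of_nonneg_of_le (fun _ => norm_nonneg _)
      (fun v => FA_S29_EC_norm_le hw v z)
  refine (norm_tsum_le_tsum_norm hs).trans ?_
  refine hs.tsum_le_tsum (fun x => ?_) ?_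
  · refine (FA_S29_EC_norm_le hw x z).trans ?_
    simp_rw [eisSummand, norm_zpow]
    exact_mod_cast
      summand_bound_of_mem_verticalStrip (lt_trans two_pos hk').le x two_pos hz
  · exact_mod_cast (summable_one_div_norm_rpow hk').mul_left <|
      r ⟨⟨1, 2⟩, Nat.ofNat_pos⟩ ^ (-k)

/-- The shear `v ↦ (v₀, n v₀ + v₁)` of `ℤ²` (right multiplication by `T ^ n`). -/
def FA_S29_EC_shear (n : ℤ) : (Fin 2 → ℤ) ≃ (Fin 2 → ℤ) where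
  toFun v := ![v 0, n * v 0 + v 1]
  invFun v := ![v 0, -n * v 0 + v 1]
  left_inv v := by
    ext i
    fin_cases i <;> simp
  right_inv v := by
    ext i
    fin_cases i <;> simp

theorem FA_S29_EC_shear_zero (n : ℤ) (v : Fin 2 → ℤ) : FA_S29_EC_shear n v 0 = v 0 := rfl

theorem FA_S29_EC_shear_one (n : ℤ) (v : Fin 2 → ℤ) :
    FA_S29_EC_shear n v 1 = n * v 0 + v 1 := rfl

theorem FA_S29_EC_eisSummand_vadd (k : ℤ) (v : Fin 2 → ℤ) (n : ℤ) (z : ℍ) :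
    eisSummand k v ((n : ℝ) +ᵥ z) = eisSummand k (FA_S29_EC_shear n v) z := by
  simp only [eisSummand, FA_S29_EC_shear_zero, FA_S29_EC_shear_one, coe_vadd]
  congr 1
  push_cast
  ring

/-- Translating the argument by `n` amounts to shearing the weight. -/
theorem FA_S29_EC_vadd (k : ℤ) (w : (Fin 2 → ℤ) → ℂ) (n : ℤ) (z : ℍ) :
    FA_S29_EC_E k (fun v => w (FA_S29_EC_shear n v)) ((n : ℝ) +ᵥ z) = FA_S29_EC_E k w z := by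
  simp_rw [FA_S29_EC_E, FA_S29_EC_eisSummand_vadd]
  exact (FA_S29_EC_shear n).tsum_eq (fun u => w u * eisSummand k u z)

theorem FA_S29_EC_bound {k : ℤ} (hk : 3 ≤ k) {w : (Fin 2 → ℤ) → ℂ}
    (hw : ∀ v, ‖w v‖ ≤ 1) {z : ℍ} (hz : 2 ≤ z.im) :
    ‖FA_S29_EC_E k w z‖ ≤
      ∑' x : Fin 2 → ℤ, r ⟨⟨1, 2⟩, Nat.ofNat_pos⟩ ^ (-k) * ‖x‖ ^ (-k) := by
  obtain ⟨n, hn⟩ := ModularGroup_T_zpow_mem_verticalStrip z (N := 1) one_pos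
  rw [modular_T_zpow_smul] at hn
  have hn' : (((((1 : ℕ) : ℤ) * n : ℤ) : ℝ) +ᵥ z) ∈ verticalStrip 1 z.im := by
    simpa using hn
  rw [← FA_S29_EC_vadd k w (((1 : ℕ) : ℤ) * n) z]
  exact FA_S29_EC_bound_strip hk (fun v => hw _) (verticalStrip_anti_right 1 hz hn')

/-- Weighted Eisenstein series are bounded at `i∞`. -/
theorem FA_S29_EC_isBoundedAtImInfty {k : ℤ} (hk : 3 ≤ k) {w : (Fin 2 → ℤ) → ℂ}
    (hw : ∀ v, ‖w v‖ ≤ 1) : IsBoundedAtImInfty (FA_S29_EC_E k w) := by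
  rw [UpperHalfPlane.isBoundedAtImInfty_iff]
  exact ⟨_, 2, fun z hz => FA_S29_EC_bound hk hw hz⟩

/-- All slashes of a weighted Eisenstein series are bounded at `i∞`. -/
theorem FA_S29_EC_isBoundedAtImInfty_slash {k : ℤ} (hk : 3 ≤ k) {w : (Fin 2 → ℤ) → ℂ}
    (hw : ∀ v, ‖w v‖ ≤ 1) (σ : SL(2, ℤ)) : IsBoundedAtImInfty ((FA_S29_EC_E k w) ∣[k] σ) := by
  rw [FA_S29_EC_slash]
  exact FA_S29_EC_isBoundedAtImInfty hk (fun v => hw _)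

/-! ### Decay of the part with `v 0 ≠ 0` -/

theorem FA_S29_EC_term_decay {k : ℤ} (hk : 4 ≤ k) (v : Fin 2 → ℤ) (hv : v 0 ≠ 0) {z : ℍ}
    (hz : z ∈ verticalStrip 1 2) :
    ‖eisSummand k v z‖ ≤
      z.im⁻¹ * (r ⟨⟨1, 2⟩, Nat.ofNat_pos⟩ ^ (-(k - 1)) * ‖v‖ ^ (-(k - 1))) := by
  have hk' : (0 : ℝ) ≤ ((k - 1 : ℤ) : ℝ) := by
    have : (0 : ℤ) ≤ k - 1 := by omega
    exact_mod_cast this
  set a : ℂ := (v 0 : ℂ) * (z : ℂ) + (v 1 : ℂ) with ha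
  have him : a.im = (v 0 : ℝ) * z.im := by
    simp [ha]
  have hzpos : 0 < z.im := z.im_pos
  have h1 : z.im ≤ ‖a‖ := by
    have h2 : |a.im| ≤ ‖a‖ := Complex.abs_im_le_norm a
    have h3 : (1 : ℝ) ≤ |(v 0 : ℝ)| := by
      have : (1 : ℤ) ≤ |v 0| := Int.one_le_abs hv
      exact_mod_cast this
    calc z.im = 1 * z.im := (one_mul _).symm
      _ ≤ |(v 0 : ℝ)| * z.im := mul_le_mul_of_nonneg_right h3 hzpos.le
      _ = |a.im| := by rw [him, abs_mul, abs_of_pos hzpos]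
      _ ≤ ‖a‖ := h2
  have hapos : 0 < ‖a‖ := lt_of_lt_of_le hzpos h1
  have hb := summand_bound_of_mem_verticalStrip (k := ((k - 1 : ℤ) : ℝ)) hk' v two_pos hz
  have hsplit : ‖a‖ ^ (-k) = ‖a‖⁻¹ * ‖a‖ ^ (-(k - 1)) := by
    rw [← _root_.zpow_neg_one, ← zpow_add₀ hapos.ne']
    congr 1
    ring
  have hinv : ‖a‖⁻¹ ≤ z.im⁻¹ := inv_anti₀ hzpos h1
  have hb' : ‖a‖ ^ (-(k - 1)) ≤
      r ⟨⟨1, 2⟩, Nat.ofNat_pos⟩ ^ (-(k - 1)) * ‖v‖ ^ (-(k - 1)) := by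
    have := hb
    simp only [← Real.rpow_intCast] 
    simpa [ha] using this
  calc ‖eisSummand k v z‖ = ‖a‖ ^ (-k) := by simp only [eisSummand, norm_zpow, ha]
    _ = ‖a‖⁻¹ * ‖a‖ ^ (-(k - 1)) := hsplit
    _ ≤ z.im⁻¹ * (r ⟨⟨1, 2⟩, Nat.ofNat_pos⟩ ^ (-(k - 1)) * ‖v‖ ^ (-(k - 1))) :=
        mul_le_mul hinv hb' (zpow_nonneg hapos.le _) (inv_nonneg.mpr hzpos.le)

/-- The constant in the decay estimate. -/
def FA_S29_EC_C (k : ℤ) : ℝ :=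
  ∑' x : Fin 2 → ℤ, r ⟨⟨1, 2⟩, Nat.ofNat_pos⟩ ^ (-(k - 1)) * ‖x‖ ^ (-(k - 1))

theorem FA_S29_EC_C_summable {k : ℤ} (hk : 4 ≤ k) :
    Summable fun x : Fin 2 → ℤ =>
      r ⟨⟨1, 2⟩, Nat.ofNat_pos⟩ ^ (-(k - 1)) * ‖x‖ ^ (-(k - 1)) := by
  have hk' : (2 : ℝ) < ((k - 1 : ℤ) : ℝ) := by
    have : (2 : ℤ) < k - 1 := by omega
    exact_mod_cast this
  exact_mod_cast (summable_one_div_norm_rpow hk').mul_left <|
    r ⟨⟨1, 2⟩, Nat.ofNat_pos⟩ ^ (-(k - 1))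

theorem FA_S29_EC_decay_strip {k : ℤ} (hk : 4 ≤ k) {w : (Fin 2 → ℤ) → ℂ}
    (hw : ∀ v, ‖w v‖ ≤ 1) (hw0 : ∀ v, v 0 = 0 → w v = 0) {z : ℍ}
    (hz : z ∈ verticalStrip 1 2) :
    ‖FA_S29_EC_E k w z‖ ≤ z.im⁻¹ * FA_S29_EC_C k := by
  have hk3 : 3 ≤ k := by omega
  have hs : Summable fun x : Fin 2 → ℤ => ‖w x * eisSummand k x z‖ :=
    (summable_norm_eisSummand hk3 z).of_nonneg_of_le (fun _ => norm_nonneg _)
      (fun v => FA_S29_EC_norm_le hw v z)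
  refine (norm_tsum_le_tsum_norm hs).trans ?_
  rw [FA_S29_EC_C, ← tsum_mul_left]
  refine hs.tsum_le_tsum (fun x => ?_) ((FA_S29_EC_C_summable hk).mul_left _)
  by_cases hx : x 0 = 0
  · rw [hw0 x hx, zero_mul, norm_zero]
    have h1 : 0 ≤ r ⟨⟨1, 2⟩, Nat.ofNat_pos⟩ := (r_pos _).le
    have h2 : (0 : ℝ) ≤ ‖x‖ := norm_nonneg _
    have h3 : 0 ≤ z.im⁻¹ := inv_nonneg.mpr z.im_pos.le
    positivity
  · exact (FA_S29_EC_norm_le hw x z).trans (FA_S29_EC_term_decay hk x hx hz)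

theorem FA_S29_EC_decay {k : ℤ} (hk : 4 ≤ k) {w : (Fin 2 → ℤ) → ℂ}
    (hw : ∀ v, ‖w v‖ ≤ 1) (hw0 : ∀ v, v 0 = 0 → w v = 0) {z : ℍ} (hz : 2 ≤ z.im) :
    ‖FA_S29_EC_E k w z‖ ≤ z.im⁻¹ * FA_S29_EC_C k := by
  obtain ⟨n, hn⟩ := ModularGroup_T_zpow_mem_verticalStrip z (N := 1) one_pos
  rw [modular_T_zpow_smul] at hn
  have hn' : (((((1 : ℕ) : ℤ) * n : ℤ) : ℝ) +ᵥ z) ∈ verticalStrip 1 z.im := by
    simpa using hn
  rw [← FA_S29_EC_vadd k w (((1 : ℕ) : ℤ) * n) z]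
  have him : (((((1 : ℕ) : ℤ) * n : ℤ) : ℝ) +ᵥ z).im = z.im := vadd_im _ _
  have := FA_S29_EC_decay_strip hk (w := fun v => w (FA_S29_EC_shear (((1 : ℕ) : ℤ) * n) v))
    (fun v => hw _) (fun v hv => hw0 _ (by rw [FA_S29_EC_shear_zero]; exact hv))
    (verticalStrip_anti_right 1 hz hn')
  rwa [him] at this

/-- A weighted Eisenstein series whose weight vanishes on `v 0 = 0` tends to `0` at `i∞`. -/
theorem FA_S29_EC_isZeroAtImInfty {k : ℤ} (hk : 4 ≤ k) {w : (Fin 2 → ℤ) → ℂ}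
    (hw : ∀ v, ‖w v‖ ≤ 1) (hw0 : ∀ v, v 0 = 0 → w v = 0) :
    IsZeroAtImInfty (FA_S29_EC_E k w) := by
  rw [UpperHalfPlane.isZeroAtImInfty_iff]
  intro ε hε
  have hC : 0 ≤ FA_S29_EC_C k := by
    refine tsum_nonneg fun x => ?_
    have h1 : 0 ≤ r ⟨⟨1, 2⟩, Nat.ofNat_pos⟩ := (r_pos _).le
    have h2 : (0 : ℝ) ≤ ‖x‖ := norm_nonneg _
    positivity
  refine ⟨max 2 (FA_S29_EC_C k / ε), fun z hz => ?_⟩
  have hz2 : 2 ≤ z.im := le_trans (le_max_left _ _) hz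
  have hz3 : FA_S29_EC_C k / ε ≤ z.im := le_trans (le_max_right _ _) hz
  refine (FA_S29_EC_decay hk hw hw0 hz2).trans ?_
  have hzpos : 0 < z.im := z.im_pos
  rw [inv_mul_le_iff₀ hzpos]
  rw [div_le_iff₀ hε] at hz3
  linarith

/-! ### The weight attached to a character of `Γ₀(N)` -/

/-- The bottom row of `γ`. -/
def FA_S29_EC_row (γ : SL(2, ℤ)) : Fin 2 → ℤ := ![γ 1 0, γ 1 1]

theorem FA_S29_EC_row_mul (g γ : SL(2, ℤ)) :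
    FA_S29_EC_row (g * γ) = FA_S29_EC_row g ᵥ* (γ : Matrix (Fin 2) (Fin 2) ℤ) := by
  ext j
  fin_cases j <;>
  simp [FA_S29_EC_row, vecMul, dotProduct, Fin.sum_univ_two, Matrix.mul_apply]

theorem FA_S29_EC_row_one : FA_S29_EC_row 1 = ![0, 1] := by
  ext j
  fin_cases j <;> simp [FA_S29_EC_row]

theorem FA_S29_EC_row_neg_one : FA_S29_EC_row (-1) = ![0, -1] := by
  ext j
  fin_cases j <;> simp [FA_S29_EC_row]

theorem FA_S29_EC_diag_of_row (γ : SL(2, ℤ)) (h : γ 1 0 = 0) :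
    γ 0 0 = 1 ∧ γ 1 1 = 1 ∨ γ 0 0 = -1 ∧ γ 1 1 = -1 := by
  have hdet := γ.det_coe
  rw [Matrix.det_fin_two] at hdet
  rw [h, mul_zero, sub_zero] at hdet
  exact Int.eq_one_or_neg_one_of_mul_eq_one' hdet

theorem FA_S29_EC_trace_of_row (γ : SL(2, ℤ)) (h : γ 1 0 = 0) :
    (γ : Matrix (Fin 2) (Fin 2) ℤ).trace ^ 2 = 4 := by
  rw [Matrix.trace_fin_two]
  rcases FA_S29_EC_diag_of_row γ h with ⟨h1, h2⟩ | ⟨h1, h2⟩
  · show (γ 0 0 + γ 1 1) ^ 2 = 4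
    rw [h1, h2]; norm_num
  · show (γ 0 0 + γ 1 1) ^ 2 = 4
    rw [h1, h2]; norm_num

theorem FA_S29_EC_trace_conj (σ γ : SL(2, ℤ)) :
    ((σ * γ * σ⁻¹ : SL(2, ℤ)) : Matrix (Fin 2) (Fin 2) ℤ).trace =
      (γ : Matrix (Fin 2) (Fin 2) ℤ).trace := by
  rw [Matrix.SpecialLinearGroup.coe_mul, Matrix.trace_mul_comm,
    ← Matrix.SpecialLinearGroup.coe_mul, inv_mul_cancel_left]

theorem FA_S29_EC_trace_T_zpow (n : ℤ) :
    ((ModularGroup.T ^ n : SL(2, ℤ)) : Matrix (Fin 2) (Fin 2) ℤ).trace = 2 := by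
  rw [ModularGroup.coe_T_zpow, Matrix.trace_fin_two]
  norm_num

theorem FA_S29_EC_shear_eq (n : ℤ) (v : Fin 2 → ℤ) :
    FA_S29_EC_shear n v = v ᵥ* ((ModularGroup.T ^ n : SL(2, ℤ)) : Matrix (Fin 2) (Fin 2) ℤ) := by
  rw [ModularGroup.coe_T_zpow]
  ext j
  fin_cases j <;>
  simp [FA_S29_EC_shear, vecMul, dotProduct, Fin.sum_univ_two, mul_comm]

section char

variable {N : ℕ} (χ : ↥(Gamma0 N) →* ℂˣ)

open Classical in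
/-- The weight `v ↦ χ(γ)⁻¹` if `v` is the bottom row of `γ ∈ Γ₀(N)`, and `0` otherwise. -/
def FA_S29_EC_w (v : Fin 2 → ℤ) : ℂ :=
  if h : ∃ γ : ↥(Gamma0 N), FA_S29_EC_row (γ : SL(2, ℤ)) = v then ((χ h.choose)⁻¹ : ℂˣ) else 0

variable {χ}

theorem FA_S29_EC_chi_eq_of_row
    (hχ : ∀ γ : ↥(Gamma0 N), ((γ : SL(2, ℤ)) : Matrix (Fin 2) (Fin 2) ℤ).trace ^ 2 = 4 → χ γ = 1)
    {γ γ' : ↥(Gamma0 N)} (h : FA_S29_EC_row (γ : SL(2, ℤ)) = FA_S29_EC_row (γ' : SL(2, ℤ))) :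
    χ γ = χ γ' := by
  have h1 : FA_S29_EC_row ((γ * γ'⁻¹ : ↥(Gamma0 N)) : SL(2, ℤ)) = ![0, 1] := by
    rw [Subgroup.coe_mul, FA_S29_EC_row_mul, h, ← FA_S29_EC_row_mul, Subgroup.coe_inv,
      mul_inv_cancel, FA_S29_EC_row_one]
  have h2 : ((γ * γ'⁻¹ : ↥(Gamma0 N)) : SL(2, ℤ)) 1 0 = 0 := by
    have := congrFun h1 0
    simpa [FA_S29_EC_row] using this
  have h3 := hχ (γ * γ'⁻¹) (FA_S29_EC_trace_of_row _ h2)
  rw [map_mul, map_inv, mul_inv_eq_one] at h3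
  exact h3

theorem FA_S29_EC_w_row
    (hχ : ∀ γ : ↥(Gamma0 N), ((γ : SL(2, ℤ)) : Matrix (Fin 2) (Fin 2) ℤ).trace ^ 2 = 4 → χ γ = 1)
    (γ : ↥(Gamma0 N)) : FA_S29_EC_w χ (FA_S29_EC_row (γ : SL(2, ℤ))) = ((χ γ)⁻¹ : ℂˣ) := by
  have h : ∃ γ' : ↥(Gamma0 N), FA_S29_EC_row (γ' : SL(2, ℤ)) = FA_S29_EC_row (γ : SL(2, ℤ)) :=
    ⟨γ, rfl⟩
  rw [FA_S29_EC_w, dif_pos h, FA_S29_EC_chi_eq_of_row hχ h.choose_spec]

theorem FA_S29_EC_w_of_not {v : Fin 2 → ℤ}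
    (h : ¬ ∃ γ : ↥(Gamma0 N), FA_S29_EC_row (γ : SL(2, ℤ)) = v) : FA_S29_EC_w χ v = 0 := by
  rw [FA_S29_EC_w, dif_neg h]

theorem FA_S29_EC_w_norm (hn : ∀ γ : ↥(Gamma0 N), ‖((χ γ : ℂˣ) : ℂ)‖ = 1) (v : Fin 2 → ℤ) :
    ‖FA_S29_EC_w χ v‖ ≤ 1 := by
  rw [FA_S29_EC_w]
  split_ifs with h
  · rw [Units.val_inv_eq_inv_val, norm_inv, hn, inv_one]
  · rw [norm_zero]; exact zero_le_one

/-- Equivariance of the weight. -/
theorem FA_S29_EC_w_mul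
    (hχ : ∀ γ : ↥(Gamma0 N), ((γ : SL(2, ℤ)) : Matrix (Fin 2) (Fin 2) ℤ).trace ^ 2 = 4 → χ γ = 1)
    (γ : ↥(Gamma0 N)) (v : Fin 2 → ℤ) :
    FA_S29_EC_w χ (v ᵥ* ((γ : SL(2, ℤ)) : Matrix (Fin 2) (Fin 2) ℤ)) =
      ((χ γ)⁻¹ : ℂˣ) * FA_S29_EC_w χ v := by
  by_cases h : ∃ g : ↥(Gamma0 N), FA_S29_EC_row (g : SL(2, ℤ)) = v
  · obtain ⟨g, rfl⟩ := h
    rw [← FA_S29_EC_row_mul, ← Subgroup.coe_mul, FA_S29_EC_w_row hχ, FA_S29_EC_w_row hχ,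
      map_mul, _root_.mul_inv_rev, Units.val_mul]
  · rw [FA_S29_EC_w_of_not h, mul_zero]
    refine FA_S29_EC_w_of_not ?_
    rintro ⟨g, hg⟩
    refine h ⟨g * γ⁻¹, ?_⟩
    rw [Subgroup.coe_mul, FA_S29_EC_row_mul, hg, Subgroup.coe_inv, vecMul_vecMul,
      FA_S29_EC_mul_inv, vecMul_one]

end char

/-! ### The Eisenstein series with character -/

section main

variable {N : ℕ} (χ : ↥(Gamma0 N) →* ℂˣ)

/-- **The Eisenstein series of weight `k` with character `χ`** on `Γ₀(N)`. -/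
def FA_S29_EC_char (k : ℤ) : ℍ → ℂ := FA_S29_EC_E k (FA_S29_EC_w χ)

variable {χ}

/-- `E_χ` is holomorphic. -/
theorem FA_S29_EC_char_mdifferentiable {k : ℤ} (hk : 3 ≤ k)
    (hn : ∀ γ : ↥(Gamma0 N), ‖((χ γ : ℂˣ) : ℂ)‖ = 1) : MDiff (FA_S29_EC_char χ k) :=
  FA_S29_EC_mdifferentiable hk (FA_S29_EC_w_norm hn)

/-- `E_χ ∣[k] γ = χ(γ) E_χ` for `γ ∈ Γ₀(N)`. -/
theorem FA_S29_EC_char_slash (k : ℤ)
    (hχ : ∀ γ : ↥(Gamma0 N), ((γ : SL(2, ℤ)) : Matrix (Fin 2) (Fin 2) ℤ).trace ^ 2 = 4 → χ γ = 1)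
    (γ : ↥(Gamma0 N)) :
    (FA_S29_EC_char χ k) ∣[k] (γ : SL(2, ℤ)) = ((χ γ : ℂˣ) : ℂ) • FA_S29_EC_char χ k := by
  rw [FA_S29_EC_char, FA_S29_EC_slash]
  ext1 z
  rw [Pi.smul_apply, smul_eq_mul, FA_S29_EC_E, FA_S29_EC_E, ← tsum_mul_left]
  refine tsum_congr fun v => ?_
  have h := FA_S29_EC_w_mul hχ γ⁻¹ v
  rw [Subgroup.coe_inv, map_inv, inv_inv] at h
  rw [h]
  ring

/-- Every slash of `E_χ` by an element of `SL(2, ℤ)` is bounded at `i∞`. -/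
theorem FA_S29_EC_char_isBoundedAtImInfty {k : ℤ} (hk : 3 ≤ k)
    (hn : ∀ γ : ↥(Gamma0 N), ‖((χ γ : ℂˣ) : ℂ)‖ = 1) (σ : SL(2, ℤ)) :
    IsBoundedAtImInfty ((FA_S29_EC_char χ k) ∣[k] σ) :=
  FA_S29_EC_isBoundedAtImInfty_slash hk (FA_S29_EC_w_norm hn) σ

/-- Every slash of `E_χ` by an element of `SL(2, ℤ)` is `N`-periodic. -/
theorem FA_S29_EC_char_periodic (k : ℤ)
    (hχ : ∀ γ : ↥(Gamma0 N), ((γ : SL(2, ℤ)) : Matrix (Fin 2) (Fin 2) ℤ).trace ^ 2 = 4 → χ γ = 1)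
    (σ : SL(2, ℤ))
    (hmem : σ * ModularGroup.T ^ (N : ℤ) * σ⁻¹ ∈ Gamma0 N) (z : ℍ) :
    ((FA_S29_EC_char χ k) ∣[k] σ) (((N : ℤ) : ℝ) +ᵥ z) = ((FA_S29_EC_char χ k) ∣[k] σ) z := by
  rw [FA_S29_EC_char, FA_S29_EC_slash]
  conv_rhs => rw [← FA_S29_EC_vadd k _ (N : ℤ) z]
  congr 1
  funext v
  rw [FA_S29_EC_shear_eq, vecMul_vecMul]
  have h1 : ((ModularGroup.T ^ (N : ℤ) : SL(2, ℤ)) : Matrix (Fin 2) (Fin 2) ℤ) *
      ((σ⁻¹ : SL(2, ℤ)) : Matrix (Fin 2) (Fin 2) ℤ) =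
      ((σ⁻¹ : SL(2, ℤ)) : Matrix (Fin 2) (Fin 2) ℤ) *
        (((⟨_, hmem⟩ : ↥(Gamma0 N)) : SL(2, ℤ)) : Matrix (Fin 2) (Fin 2) ℤ) := by
    rw [← Matrix.SpecialLinearGroup.coe_mul, ← Matrix.SpecialLinearGroup.coe_mul]
    congr 1
    show ModularGroup.T ^ (N : ℤ) * σ⁻¹ = σ⁻¹ * (σ * ModularGroup.T ^ (N : ℤ) * σ⁻¹)
    group
  rw [h1, ← vecMul_vecMul, FA_S29_EC_w_mul hχ]
  have h2 : χ ⟨_, hmem⟩ = 1 := by
    refine hχ _ ?_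
    show ((σ * ModularGroup.T ^ (N : ℤ) * σ⁻¹ : SL(2, ℤ)) : Matrix (Fin 2) (Fin 2) ℤ).trace ^ 2 = 4
    rw [FA_S29_EC_trace_conj, FA_S29_EC_trace_T_zpow]
    norm_num
  rw [h2, inv_one, Units.val_one, one_mul]

end main

end

end Fermat.Agent.S29
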