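import Mathlib
import Fermat.Prelude.Def_GaloisRep_Residual
import Fermat.Agent.Lib.FrobeniusExists

/-!
# S29/S42, glue leaf FREY (general part): a finite torsion module of a Weierstrass curve over `ℚ`
is cut out by a finite extension of `ℚ`

`FA_S29_FL_of_finite` : if `E[n](ℚ̄)` is finite then the Galois representation on it factors
through a finite level.
-/

set_option autoImplicit false
set_option linter.unusedSectionVars false
set_option linter.unusedVariables false
set_option linter.style.haveILetI false

namespace Fermat.Agent.S29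

noncomputable section

local notation "Qb" => AlgebraicClosure ℚ
local notation "Γ" => (AlgebraicClosure ℚ ≃ₐ[ℚ] AlgebraicClosure ℚ)

open WeierstrassCurve WeierstrassCurve.Affine WeierstrassCurve.Affine.Point
open Fermat.Agent.Lib
open scoped WeierstrassCurve.Affine

variable [DecidableEq Qb]

/-- The coordinates of a point. -/
def FA_S29_FL_coords (W : WeierstrassCurve ℚ) : (W⁄Qb).Point → Set Qb
  | 0 => ∅
  | .some x y _ => {x, y}

theorem FA_S29_FL_coords_finite (W : WeierstrassCurve ℚ) (P : (W⁄Qb).Point) :
    (FA_S29_FL_coords W P).Finite := by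
  cases P with
  | zero => exact Set.finite_empty
  | some x y h => exact Set.toFinite {x, y}

/-- An automorphism fixing the coordinates of a point fixes the point. -/
theorem FA_S29_FL_smul_eq (W : WeierstrassCurve ℚ) (σ : Γ) (P : (W⁄Qb).Point)
    (h : ∀ x ∈ FA_S29_FL_coords W P, σ x = x) : σ • P = P := by
  cases P with
  | zero => rfl
  | some x y hxy =>
    rw [algEquiv_smul_def, Point.map_some]
    have hx : σ x = x := h x (by simp [FA_S29_FL_coords])
    have hy : σ y = y := h y (by simp [FA_S29_FL_coords])
    have hx' : (σ.toAlgHom : Qb →ₐ[ℚ] Qb) x = x := hx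
    have hy' : (σ.toAlgHom : Qb →ₐ[ℚ] Qb) y = y := hy
    simp only [hx', hy']

/-- **FREY (general)**: a finite `n`-torsion module is cut out by a finite extension. -/
theorem FA_S29_FL_of_finite (W : WeierstrassCurve ℚ) (n : ℕ)
    (hfin : Finite (Submodule.torsionBy ℤ (W⁄Qb).Point n)) :
    GaloisFactorsThroughFiniteLevel
      (WeierstrassCurve.Affine.Point.galoisRepModuleEnd (K := Qb) ℚ W n) := by
  classical
  haveI : Algebra.IsAlgebraic ℚ Qb := FA_isAlgebraic_Qb
  haveI : Algebra.IsIntegral ℚ Qb := Algebra.IsAlgebraic.isIntegral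
  set S : Set Qb := ⋃ P : Submodule.torsionBy ℤ (W⁄Qb).Point n,
    FA_S29_FL_coords W (P : (W⁄Qb).Point) with hS
  have hSfin : S.Finite := Set.finite_iUnion fun P => FA_S29_FL_coords_finite W _
  haveI : Finite S := hSfin.to_subtype
  refine ⟨IntermediateField.adjoin ℚ S, ?_, fun σ hσ => ?_⟩
  · exact IntermediateField.finiteDimensional_adjoin
      fun x _ => Algebra.IsIntegral.isIntegral (R := ℚ) x
  · apply LinearMap.ext
    intro P
    rw [galoisRepModuleEnd_apply]
    apply Subtype.ext
    show σ • (P : (W⁄Qb).Point) = P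
    apply FA_S29_FL_smul_eq
    intro x hx
    apply hσ
    apply IntermediateField.subset_adjoin
    exact Set.mem_iUnion.mpr ⟨P, hx⟩

end

end Fermat.Agent.S29
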