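import Mathlib
import Fermat.Agent.S29.FreyLevelGen
import Fermat.Agent.S13.Final
import Fermat.Agent.S13.LevB2

/-!
# S42, glue leaf FREY: the mod `p` representation of the Frey curve has finite level
-/

set_option autoImplicit false
set_option linter.unusedSectionVars false
set_option linter.unusedVariables false
set_option linter.style.haveILetI false

namespace Fermat.Agent.S29

noncomputable section

open WeierstrassCurve WeierstrassCurve.Affine WeierstrassCurve.Affine.Point
open Fermat.Agent.S13
open scoped WeierstrassCurve.Affine

/-- **FREY**: the mod `p` Galois representation of the Frey curve factors through a finite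
extension of `ℚ`. -/
theorem FA_S29_FL_frey (P : FreyPackage) :
    GaloisFactorsThroughFiniteLevel
      (galoisRepModuleEnd (S := ℚ) (K := AlgebraicClosure ℚ) P.freyCurve P.p) :=
  FA_S29_FL_of_finite P.freyCurve P.p
    (FA_S13_card_of FA_S13_u FA_S13_lev FA_S13_place P).1

end

end Fermat.Agent.S29
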