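import Mathlib

/-!
# S29 long shot, leaf L8b: counting primes of degree one in the fixed field of a subgroup

`L/ℚ` Galois with group `G`, `H ≤ G`, `E = L^H`, `p` a prime number unramified in `L`.
* `FA_S29_FC_card_stab` : the decomposition group of a prime `P ∣ p` has `f_p` elements.
* `FA_S29_FC_deg_one_iff` : `P ∩ 𝓞 E` has degree one over `p` iff the decomposition group of `P`
  is contained in `H`.
* `FA_S29_FC_count` : `|H| · #{primes of E of norm p} = f_p · #{P ∣ p : D(P) ≤ H}`.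
* `FA_S29_FC_unram` : all but finitely many `p` are unramified in `L`.
-/

set_option autoImplicit false
set_option linter.unusedSectionVars false
set_option linter.style.haveILetI false
set_option linter.unusedVariables false

open scoped NumberField Pointwise
open NumberField IsDedekindDomain

namespace Fermat.Agent.S29

noncomputable section

variable (L : Type) [Field L] [NumberField L] (G : Type) [Group G] [Finite G]
  [MulSemiringAction G L] [IsGaloisGroup G ℚ L]

theorem FA_S29_FC_isGaloisGroup (H : Subgroup G) :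
    IsGaloisGroup H (𝓞 (FixedPoints.intermediateField H : IntermediateField ℚ L)) (𝓞 L) :=
  IsGaloisGroup.of_isFractionRing H _ _ (FixedPoints.intermediateField H : IntermediateField ℚ L) L

theorem FA_S29_FC_prime_int (p : ℕ) (hp : p.Prime) : Prime (p : ℤ) :=
  Nat.prime_iff_prime_int.mp hp

theorem FA_S29_FC_span_isMaximal (p : ℕ) (hp : p.Prime) : (Ideal.span {(p : ℤ)}).IsMaximal :=
  PrincipalIdealRing.isMaximal_of_irreducible (FA_S29_FC_prime_int p hp).irreducible

variable {L}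

/-- The decomposition group of an unramified prime has `f_p` elements. -/
theorem FA_S29_FC_card_stab (p : ℕ) (hp : p.Prime) (P : Ideal (𝓞 L)) [P.IsPrime]
    [P.LiesOver (Ideal.span {(p : ℤ)})]
    (hunr : (Ideal.span {(p : ℤ)}).ramificationIdxIn (𝓞 L) = 1) :
    Nat.card (MulAction.stabilizer G P) = (Ideal.span {(p : ℤ)}).inertiaDegIn (𝓞 L) := by
  haveI := FA_S29_FC_span_isMaximal p hp
  haveI : Fact p.Prime := ⟨hp⟩
  rw [Ideal.card_stabilizer_eq (Ideal.span {(p : ℤ)}) P, hunr, one_mul]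

variable {G}

/-- `P ∩ 𝓞 E` has degree one iff the decomposition group of `P` is contained in `H`. -/
theorem FA_S29_FC_deg_one_iff (H : Subgroup G) (p : ℕ) (hp : p.Prime) (P : Ideal (𝓞 L)) [P.IsPrime]
    [P.LiesOver (Ideal.span {(p : ℤ)})]
    (hunr : (Ideal.span {(p : ℤ)}).ramificationIdxIn (𝓞 L) = 1) :
    (P.under (𝓞 (FixedPoints.intermediateField H : IntermediateField ℚ L))).inertiaDeg ℤ = 1 ↔
      MulAction.stabilizer G P ≤ H := by
  haveI := FA_S29_FC_span_isMaximal p hp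
  haveI : Fact p.Prime := ⟨hp⟩
  haveI := FA_S29_FC_isGaloisGroup L G H
  set 𝔮 := P.under (𝓞 (FixedPoints.intermediateField H : IntermediateField ℚ L)) with h𝔮
  haveI : P.LiesOver 𝔮 := ⟨rfl⟩
  haveI : 𝔮.IsPrime := Ideal.IsPrime.under _ P
  have hf := Ideal.inertiaDeg_tower (R := ℤ) 𝔮 P
  have he := Ideal.ramificationIdx_tower (R := ℤ) 𝔮 P
  have he1 : P.ramificationIdx ℤ = 1 := by
    rw [← Ideal.ramificationIdxIn_eq_ramificationIdx (Ideal.span {(p : ℤ)}) P G, hunr]
  have he2 : P.ramificationIdx (𝓞 (FixedPoints.intermediateField H : IntermediateField ℚ L)) = 1 := by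
    rw [he1] at he
    exact Nat.eq_one_of_mul_eq_one_left he.symm
  have hG : Nat.card (MulAction.stabilizer G P) = P.inertiaDeg ℤ := by
    rw [FA_S29_FC_card_stab G p hp P hunr,
      Ideal.inertiaDegIn_eq_inertiaDeg (Ideal.span {(p : ℤ)}) P G]
  have hH : Nat.card ((MulAction.stabilizer G P).subgroupOf H) =
      P.inertiaDeg (𝓞 (FixedPoints.intermediateField H : IntermediateField ℚ L)) := by
    have h1 := Ideal.card_stabilizer_eq (G := H) 𝔮 P
    rw [Ideal.ramificationIdxIn_eq_ramificationIdx 𝔮 P H,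
      Ideal.inertiaDegIn_eq_inertiaDeg 𝔮 P H, he2, one_mul] at h1
    rw [← h1]
    refine Nat.card_congr (Equiv.subtypeEquivRight fun h => ?_)
    rw [Subgroup.mem_subgroupOf, MulAction.mem_stabilizer_iff, MulAction.mem_stabilizer_iff]
    rfl
  have hfpos : 0 < P.inertiaDeg (𝓞 (FixedPoints.intermediateField H : IntermediateField ℚ L)) :=
    Ideal.inertiaDeg_pos ..
  have hcard : Nat.card ((MulAction.stabilizer G P).subgroupOf H) =
      Nat.card ((MulAction.stabilizer G P ⊓ H : Subgroup G)) := by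
    rw [← Subgroup.inf_subgroupOf_right]
    exact Nat.card_congr (Subgroup.subgroupOfEquivOfLe inf_le_right).toEquiv
  constructor
  · intro h1
    rw [h1, one_mul, ← hH, hcard] at hf
    rw [← hG] at hf
    have := Subgroup.eq_of_le_of_card_ge (inf_le_left : MulAction.stabilizer G P ⊓ H ≤ _) hf.le
    rw [← this]
    exact inf_le_right
  · intro h1
    have h2 : MulAction.stabilizer G P ⊓ H = MulAction.stabilizer G P := inf_eq_left.mpr h1
    rw [h2, hG, hH] at hcard
    -- hcard : f(P/𝔮) = f(P/ℤ)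
    rw [← hcard] at hf
    have h3 : 𝔮.inertiaDeg ℤ *
        P.inertiaDeg (𝓞 (FixedPoints.intermediateField H : IntermediateField ℚ L)) =
        1 * P.inertiaDeg (𝓞 (FixedPoints.intermediateField H : IntermediateField ℚ L)) := by
      rw [one_mul]
      exact hf.symm
    exact Nat.eq_of_mul_eq_mul_right hfpos h3

/-- Tower relations for an unramified prime. -/
theorem FA_S29_FC_tower (H : Subgroup G) (p : ℕ) (hp : p.Prime)
    (𝔮 : Ideal (𝓞 (FixedPoints.intermediateField H : IntermediateField ℚ L))) [𝔮.IsPrime]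
    (P : Ideal (𝓞 L)) [P.IsPrime] [P.LiesOver 𝔮] [P.LiesOver (Ideal.span {(p : ℤ)})]
    (hunr : (Ideal.span {(p : ℤ)}).ramificationIdxIn (𝓞 L) = 1) :
    P.ramificationIdx (𝓞 (FixedPoints.intermediateField H : IntermediateField ℚ L)) = 1 ∧
    (Ideal.span {(p : ℤ)}).inertiaDegIn (𝓞 L) = 𝔮.inertiaDeg ℤ *
      P.inertiaDeg (𝓞 (FixedPoints.intermediateField H : IntermediateField ℚ L)) := by
  haveI := FA_S29_FC_span_isMaximal p hp
  have hf := Ideal.inertiaDeg_tower (R := ℤ) 𝔮 P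
  have he := Ideal.ramificationIdx_tower (R := ℤ) 𝔮 P
  have he1 : P.ramificationIdx ℤ = 1 := by
    rw [← Ideal.ramificationIdxIn_eq_ramificationIdx (Ideal.span {(p : ℤ)}) P G, hunr]
  refine ⟨?_, ?_⟩
  · rw [he1] at he
    exact Nat.eq_one_of_mul_eq_one_left he.symm
  · rw [Ideal.inertiaDegIn_eq_inertiaDeg (Ideal.span {(p : ℤ)}) P G]
    exact hf

/-- A prime of `𝓞 E` of norm `p` lies over `p` and has degree one. -/
theorem FA_S29_FC_norm_prime {E : Type} [Field E] [NumberField E] (p : ℕ) (hp : p.Prime)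
    (𝔮 : Ideal (𝓞 E)) [𝔮.IsPrime] (h : Ideal.absNorm 𝔮 = p) :
    𝔮.LiesOver (Ideal.span {(p : ℤ)}) ∧ 𝔮.inertiaDeg ℤ = 1 := by
  have hmem : ((p : ℤ) : 𝓞 E) ∈ 𝔮 := by
    have := Ideal.absNorm_mem 𝔮
    rw [h] at this
    simpa using this
  have hlo : 𝔮.LiesOver (Ideal.span {(p : ℤ)}) :=
    (Ideal.liesOver_span_iff (Ideal.IsPrime.ne_top inferInstance)
      (FA_S29_FC_prime_int p hp)).mpr hmem
  refine ⟨hlo, ?_⟩
  haveI := hlo
  have h1 := Ideal.natAbs_pow_inertiaDeg (p : ℤ) 𝔮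
  rw [h, Int.natAbs_natCast] at h1
  have h2 : p ^ 𝔮.inertiaDeg ℤ = p ^ 1 := by rw [h1, pow_one]
  exact Nat.pow_right_injective hp.two_le h2

/-- A prime of `𝓞 E` over `p` of degree one has norm `p`. -/
theorem FA_S29_FC_norm_of_deg_one {E : Type} [Field E] [NumberField E] (p : ℕ) (hp : p.Prime)
    (𝔮 : Ideal (𝓞 E)) [𝔮.IsPrime] [𝔮.LiesOver (Ideal.span {(p : ℤ)})]
    (h : 𝔮.inertiaDeg ℤ = 1) : Ideal.absNorm 𝔮 = p := by
  have h1 := Ideal.natAbs_pow_inertiaDeg (p : ℤ) 𝔮
  rw [h, Int.natAbs_natCast, pow_one] at h1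
  exact h1.symm

theorem FA_S29_FC_ne_bot_of_liesOver {E : Type} [Field E] [NumberField E] (p : ℕ) (hp : p.Prime)
    (𝔮 : Ideal (𝓞 E)) [𝔮.LiesOver (Ideal.span {(p : ℤ)})] : 𝔮 ≠ ⊥ := by
  intro h
  have h1 : (p : ℤ) ∈ Ideal.under ℤ 𝔮 := by
    rw [← Ideal.LiesOver.over (P := 𝔮) (p := Ideal.span {(p : ℤ)})]
    exact Ideal.mem_span_singleton_self _
  rw [h, Ideal.under, Ideal.mem_comap, Ideal.mem_bot] at h1
  have h2 : ((p : ℤ) : 𝓞 E) = 0 := by simpa using h1
  have h3 : (p : 𝓞 E) = 0 := by simpa using h2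
  exact hp.ne_zero (by exact_mod_cast h3)

/-- The number of primes over a degree-one prime `𝔮` of `E`, times `f_p`, is `|H|`. -/
theorem FA_S29_FC_fibre (H : Subgroup G) (p : ℕ) (hp : p.Prime)
    (hunr : (Ideal.span {(p : ℤ)}).ramificationIdxIn (𝓞 L) = 1)
    (𝔮 : Ideal (𝓞 (FixedPoints.intermediateField H : IntermediateField ℚ L))) [𝔮.IsPrime]
    (h : Ideal.absNorm 𝔮 = p) :
    (𝔮.primesOver (𝓞 L)).ncard * (Ideal.span {(p : ℤ)}).inertiaDegIn (𝓞 L) = Nat.card H := by
  haveI := FA_S29_FC_span_isMaximal p hp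
  haveI := FA_S29_FC_isGaloisGroup L G H
  obtain ⟨hlo, hdeg⟩ := FA_S29_FC_norm_prime p hp 𝔮 h
  haveI := hlo
  obtain ⟨⟨P, hP1, hP2⟩⟩ := (inferInstance : Nonempty (𝔮.primesOver (𝓞 L)))
  haveI := hP1
  haveI := hP2
  haveI : P.LiesOver (Ideal.span {(p : ℤ)}) := Ideal.LiesOver.trans P 𝔮 _
  obtain ⟨he, hf⟩ := FA_S29_FC_tower H p hp 𝔮 P hunr
  have h1 := Ideal.ncard_primesOver_mul_ramificationIdxIn_mul_inertiaDegIn 𝔮 (𝓞 L) H
  rw [Ideal.ramificationIdxIn_eq_ramificationIdx 𝔮 P H,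
    Ideal.inertiaDegIn_eq_inertiaDeg 𝔮 P H, he, one_mul] at h1
  rw [hf, hdeg, one_mul]
  exact h1

/-- **L8b, the count**: `|H| · #{primes of E of norm p} = f_p · #{P ∣ p : D(P) ≤ H}`. -/
theorem FA_S29_FC_count (H : Subgroup G) (p : ℕ) (hp : p.Prime)
    (hunr : (Ideal.span {(p : ℤ)}).ramificationIdxIn (𝓞 L) = 1) :
    Nat.card H * Nat.card {𝔮 : HeightOneSpectrum
        (𝓞 (FixedPoints.intermediateField H : IntermediateField ℚ L)) //
        Ideal.absNorm 𝔮.asIdeal = p}
      = (Ideal.span {(p : ℤ)}).inertiaDegIn (𝓞 L) *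
        Nat.card {P : Ideal (𝓞 L) // P.IsPrime ∧ P.LiesOver (Ideal.span {(p : ℤ)}) ∧
          MulAction.stabilizer G P ≤ H} := by
  classical
  haveI := FA_S29_FC_span_isMaximal p hp
  haveI := FA_S29_FC_isGaloisGroup L G H
  -- the map `P ↦ P ∩ 𝓞 E`
  let f : {P : Ideal (𝓞 L) // P.IsPrime ∧ P.LiesOver (Ideal.span {(p : ℤ)}) ∧
          MulAction.stabilizer G P ≤ H} →
      {𝔮 : HeightOneSpectrum (𝓞 (FixedPoints.intermediateField H : IntermediateField ℚ L)) //
        Ideal.absNorm 𝔮.asIdeal = p} := fun x =>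
    haveI := x.2.1
    haveI := x.2.2.1
    ⟨⟨x.1.under (𝓞 (FixedPoints.intermediateField H : IntermediateField ℚ L)),
        Ideal.IsPrime.under _ _, FA_S29_FC_ne_bot_of_liesOver p hp _⟩,
      FA_S29_FC_norm_of_deg_one p hp _ ((FA_S29_FC_deg_one_iff H p hp x.1 hunr).mpr x.2.2.2)⟩
  haveI : Finite {𝔮 : HeightOneSpectrum
      (𝓞 (FixedPoints.intermediateField H : IntermediateField ℚ L)) //
      Ideal.absNorm 𝔮.asIdeal = p} := by
    haveI : Finite {I : Ideal (𝓞 (FixedPoints.intermediateField H : IntermediateField ℚ L)) |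
        Ideal.absNorm I = p} := (Ideal.finite_setOfPred_absNorm_eq p).to_subtype
    refine Finite.of_injective (β := {I : Ideal
      (𝓞 (FixedPoints.intermediateField H : IntermediateField ℚ L)) | Ideal.absNorm I = p})
      (fun y => ⟨y.1.asIdeal, y.2⟩) ?_
    intro y y' hyy'
    have := congrArg Subtype.val hyy'
    exact Subtype.ext (HeightOneSpectrum.ext this)
  letI := Fintype.ofFinite {𝔮 : HeightOneSpectrum
      (𝓞 (FixedPoints.intermediateField H : IntermediateField ℚ L)) //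
      Ideal.absNorm 𝔮.asIdeal = p}
  -- the fibres
  have hfib : ∀ y, Nat.card {x // f x = y} * (Ideal.span {(p : ℤ)}).inertiaDegIn (𝓞 L) =
      Nat.card H := by
    intro y
    haveI := y.1.isPrime
    rw [← FA_S29_FC_fibre H p hp hunr y.1.asIdeal y.2, ← Nat.card_coe_set_eq]
    congr 1
    obtain ⟨hlo, hdeg⟩ := FA_S29_FC_norm_prime p hp y.1.asIdeal y.2
    haveI := hlo
    refine Nat.card_congr
      { toFun := fun x => ⟨x.1.1, x.1.2.1, ⟨?_⟩⟩
        invFun := fun P =>
          haveI := P.2.1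
          haveI := P.2.2
          haveI : P.1.LiesOver (Ideal.span {(p : ℤ)}) := Ideal.LiesOver.trans P.1 y.1.asIdeal _
          ⟨⟨P.1, P.2.1, inferInstance, ?_⟩, ?_⟩
        left_inv := fun x => rfl
        right_inv := fun P => rfl }
    · have := congrArg (fun z => z.1.asIdeal) x.2
      exact this.symm
    · refine (FA_S29_FC_deg_one_iff H p hp P.1 hunr).mp ?_
      rw [← Ideal.LiesOver.over (P := P.1) (p := y.1.asIdeal)]
      exact hdeg
    · refine Subtype.ext (HeightOneSpectrum.ext ?_)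
      exact (Ideal.LiesOver.over (P := P.1) (p := y.1.asIdeal)).symm
  have hX : Nat.card {P : Ideal (𝓞 L) // P.IsPrime ∧ P.LiesOver (Ideal.span {(p : ℤ)}) ∧
          MulAction.stabilizer G P ≤ H} = ∑ y, Nat.card {x // f x = y} := by
    haveI : ∀ y, Finite {x // f x = y} := by
      intro y
      refine Nat.finite_of_card_ne_zero fun h0 => ?_
      have := hfib y
      rw [h0, zero_mul] at this
      exact Nat.card_pos.ne' this.symm
    rw [← Nat.card_sigma]
    exact Nat.card_congr (Equiv.sigmaFiberEquiv f).symm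
  rw [hX, Finset.mul_sum, mul_comm]
  rw [Finset.sum_congr rfl (fun y _ => by rw [mul_comm, hfib y])]
  simp [Nat.card_eq_fintype_card]

variable (L G) in
include G in
/-- **All but finitely many primes are unramified.** -/
theorem FA_S29_FC_unram : ∃ S₀ : Finset ℕ, ∀ p : ℕ, p.Prime → p ∉ S₀ →
    (Ideal.span {(p : ℤ)}).ramificationIdxIn (𝓞 L) = 1 := by
  refine ⟨(NumberField.discr L).natAbs.primeFactors, fun p hp hpS => ?_⟩
  haveI := FA_S29_FC_span_isMaximal p hp
  have hnd : ¬ (p : ℤ) ∣ NumberField.discr L := by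
    intro hdvd
    apply hpS
    rw [Nat.mem_primeFactors]
    refine ⟨hp, ?_, ?_⟩
    · exact Int.natCast_dvd.mp hdvd
    · exact Int.natAbs_ne_zero.mpr (NumberField.discr_ne_zero L)
  have h1 := (NumberField.not_dvd_discr_iff_forall_liesOver L (𝓞 L)
    (FA_S29_FC_prime_int p hp)).mp hnd
  obtain ⟨⟨P, hP1, hP2⟩⟩ := (inferInstance : Nonempty ((Ideal.span {(p : ℤ)}).primesOver (𝓞 L)))
  haveI := hP1
  haveI := hP2
  have hPmax : P.IsMaximal :=
    Ideal.IsPrime.isMaximal hP1 (FA_S29_FC_ne_bot_of_liesOver p hp P)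
  haveI := h1 P hPmax hP2
  rw [Ideal.ramificationIdxIn_eq_ramificationIdx (Ideal.span {(p : ℤ)}) P G]
  exact Ideal.ramificationIdx_eq_one_of_isUnramifiedAt

end

end Fermat.Agent.S29
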