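import Mathlib

/-!
# S29 long shot, leaf L8c: a Dirichlet-density calculus for bounded functions on the primes

`FA_S29_FD_HasDens c δ` : `c` is bounded on the primes and
`∑_p c(p) p^{-s} = δ · log (1/(s-1)) + O(1)` as `s → 1⁺`.
-/

set_option autoImplicit false
set_option linter.style.haveILetI false

open Filter Topology Asymptotics

namespace Fermat.Agent.S29

noncomputable section

/-- The prime Dirichlet series of `c`. -/
def FA_S29_FD_series (c : ℕ → ℝ) (s : ℝ) : ℝ :=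
  ∑' p : Nat.Primes, c p * ((p : ℕ) : ℝ) ^ (-s)

/-- `c` is bounded on primes and has Dirichlet density `δ` (with `O(1)` error). -/
def FA_S29_FD_HasDens (c : ℕ → ℝ) (δ : ℝ) : Prop :=
  (∃ B : ℝ, ∀ p : Nat.Primes, |c p| ≤ B) ∧
  (fun s : ℝ => FA_S29_FD_series c s - δ * Real.log (1 / (s - 1)))
    =O[𝓝[>] (1 : ℝ)] (fun _ => (1 : ℝ))

theorem FA_S29_FD_series_summable {c : ℕ → ℝ} (hc : ∃ B : ℝ, ∀ p : Nat.Primes, |c p| ≤ B) {s : ℝ}
    (hs : 1 < s) : Summable (fun p : Nat.Primes => c p * ((p : ℕ) : ℝ) ^ (-s)) := by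
  obtain ⟨B, hB⟩ := hc
  have h1 : Summable (fun p : Nat.Primes => B * ((p : ℕ) : ℝ) ^ (-s)) :=
    (Nat.Primes.summable_rpow.mpr (by linarith)).mul_left B
  refine Summable.of_norm_bounded h1 (fun p => ?_)
  rw [Real.norm_eq_abs, abs_mul]
  have h2 : (0 : ℝ) ≤ ((p : ℕ) : ℝ) ^ (-s) := Real.rpow_nonneg (Nat.cast_nonneg _) _
  rw [abs_of_nonneg h2]
  exact mul_le_mul_of_nonneg_right (hB p) h2

theorem FA_S29_FD_HasDens.add {c c' : ℕ → ℝ} {δ δ' : ℝ} (h : FA_S29_FD_HasDens c δ)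
    (h' : FA_S29_FD_HasDens c' δ') : FA_S29_FD_HasDens (fun p => c p + c' p) (δ + δ') := by
  obtain ⟨⟨B, hB⟩, hO⟩ := h
  obtain ⟨⟨B', hB'⟩, hO'⟩ := h'
  refine ⟨⟨B + B', fun p => (abs_add_le _ _).trans (add_le_add (hB p) (hB' p))⟩, ?_⟩
  refine (hO.add hO').congr' ?_ EventuallyEq.rfl
  filter_upwards [self_mem_nhdsWithin] with s hs
  have hs1 : 1 < s := hs
  simp only [FA_S29_FD_series]
  rw [show (fun p : Nat.Primes => (c p + c' p) * ((p : ℕ) : ℝ) ^ (-s)) =
    fun p : Nat.Primes => c p * ((p : ℕ) : ℝ) ^ (-s) + c' p * ((p : ℕ) : ℝ) ^ (-s) from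
    funext fun p => add_mul _ _ _]
  rw [(FA_S29_FD_series_summable ⟨B, hB⟩ hs1).tsum_add (FA_S29_FD_series_summable ⟨B', hB'⟩ hs1)]
  ring

theorem FA_S29_FD_HasDens.const_mul {c : ℕ → ℝ} {δ : ℝ} (h : FA_S29_FD_HasDens c δ) (a : ℝ) :
    FA_S29_FD_HasDens (fun p => a * c p) (a * δ) := by
  obtain ⟨⟨B, hB⟩, hO⟩ := h
  refine ⟨⟨|a| * B, fun p => ?_⟩, ?_⟩
  · rw [abs_mul]; exact mul_le_mul_of_nonneg_left (hB p) (abs_nonneg a)
  refine (hO.const_mul_left a).congr' ?_ EventuallyEq.rfl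
  filter_upwards [self_mem_nhdsWithin] with s hs
  simp only [FA_S29_FD_series]
  rw [show (fun p : Nat.Primes => a * c p * ((p : ℕ) : ℝ) ^ (-s)) =
    fun p : Nat.Primes => a * (c p * ((p : ℕ) : ℝ) ^ (-s)) from funext fun p => mul_assoc _ _ _]
  rw [tsum_mul_left]
  ring

theorem FA_S29_FD_HasDens.neg {c : ℕ → ℝ} {δ : ℝ} (h : FA_S29_FD_HasDens c δ) :
    FA_S29_FD_HasDens (fun p => - c p) (-δ) := by
  have := h.const_mul (-1)
  simpa using this

theorem FA_S29_FD_HasDens.sub {c c' : ℕ → ℝ} {δ δ' : ℝ} (h : FA_S29_FD_HasDens c δ)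
    (h' : FA_S29_FD_HasDens c' δ') : FA_S29_FD_HasDens (fun p => c p - c' p) (δ - δ') := by
  have := h.add h'.neg
  simpa [sub_eq_add_neg] using this

theorem FA_S29_FD_HasDens.zero : FA_S29_FD_HasDens (fun _ => 0) 0 := by
  refine ⟨⟨0, fun p => by simp⟩, ?_⟩
  have : (fun s : ℝ => FA_S29_FD_series (fun _ => 0) s - 0 * Real.log (1 / (s - 1))) =
      fun _ => (0 : ℝ) := by
    funext s; simp [FA_S29_FD_series]
  rw [this]
  exact isBigO_zero _ _

theorem FA_S29_FD_HasDens.finset_sum {ι : Type*} (T : Finset ι) (c : ι → ℕ → ℝ) (δ : ι → ℝ)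
    (h : ∀ i ∈ T, FA_S29_FD_HasDens (c i) (δ i)) :
    FA_S29_FD_HasDens (fun p => ∑ i ∈ T, c i p) (∑ i ∈ T, δ i) := by
  classical
  induction T using Finset.induction_on with
  | empty => simpa using FA_S29_FD_HasDens.zero
  | insert a T ha ih =>
    have h1 := (h a (Finset.mem_insert_self a T)).add
      (ih (fun i hi => h i (Finset.mem_insert_of_mem hi)))
    simpa [Finset.sum_insert ha] using h1

/-- A function vanishing at the primes outside a finite set has density `0`. -/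
theorem FA_S29_FD_HasDens.of_finite_support (d : ℕ → ℝ) (S : Finset ℕ)
    (hS : ∀ p : ℕ, p.Prime → p ∉ S → d p = 0) : FA_S29_FD_HasDens d 0 := by
  classical
  have hbd : ∀ p : Nat.Primes, |d p| ≤ ∑ q ∈ S, |d q| := by
    intro p
    by_cases hp : (p : ℕ) ∈ S
    · exact Finset.single_le_sum (f := fun q => |d q|) (fun q _ => abs_nonneg _) hp
    · rw [hS p p.2 hp, abs_zero]
      exact Finset.sum_nonneg fun q _ => abs_nonneg _
  refine ⟨⟨_, hbd⟩, ?_⟩
  let T : Finset Nat.Primes := Finset.subtype Nat.Prime S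
  refine IsBigO.of_bound (∑ q ∈ T, |d q|) ?_
  filter_upwards [self_mem_nhdsWithin] with s hs
  have hs1 : (1 : ℝ) < s := hs
  simp only [zero_mul, sub_zero, norm_one, mul_one, Real.norm_eq_abs, FA_S29_FD_series]
  rw [tsum_eq_sum (s := T)]
  · refine (Finset.abs_sum_le_sum_abs _ _).trans (Finset.sum_le_sum fun q _ => ?_)
    rw [abs_mul]
    have h1 : |((q : ℕ) : ℝ) ^ (-s)| ≤ 1 := by
      rw [abs_of_nonneg (Real.rpow_nonneg (Nat.cast_nonneg _) _)]
      refine Real.rpow_le_one_of_one_le_of_nonpos ?_ (by linarith)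
      exact_mod_cast q.2.one_lt.le
    calc |d q| * |((q : ℕ) : ℝ) ^ (-s)| ≤ |d q| * 1 :=
          mul_le_mul_of_nonneg_left h1 (abs_nonneg _)
      _ = |d q| := mul_one _
  · intro q hq
    have : (q : ℕ) ∉ S := fun h => hq (Finset.mem_subtype.mpr h)
    rw [hS q q.2 this, zero_mul]

/-- Changing a bounded function at finitely many primes does not change the density. -/
theorem FA_S29_FD_HasDens.congr_finite {c c' : ℕ → ℝ} {δ : ℝ} (h : FA_S29_FD_HasDens c δ)
    (S : Finset ℕ) (hS : ∀ p : ℕ, p.Prime → p ∉ S → c p = c' p) : FA_S29_FD_HasDens c' δ := by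
  have h0 : FA_S29_FD_HasDens (fun p => c' p - c p) 0 :=
    FA_S29_FD_HasDens.of_finite_support _ S (fun p hp hpS => by rw [hS p hp hpS, sub_self])
  have := h.add h0
  simpa using this

theorem FA_S29_FD_log_tendsto :
    Tendsto (fun s : ℝ => Real.log (1 / (s - 1))) (𝓝[>] (1 : ℝ)) atTop := by
  have h1 : Tendsto (fun s : ℝ => s - 1) (𝓝[>] (1 : ℝ)) (𝓝[>] (0 : ℝ)) := by
    refine tendsto_nhdsWithin_of_tendsto_nhds_of_eventually_within _ ?_ ?_
    · have : Tendsto (fun s : ℝ => s - 1) (𝓝 (1 : ℝ)) (𝓝 ((1 : ℝ) - 1)) :=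
        (continuous_id.sub continuous_const).tendsto 1
      rw [sub_self] at this
      exact this.mono_left nhdsWithin_le_nhds
    · filter_upwards [self_mem_nhdsWithin] with s hs
      have hs1 : (1 : ℝ) < s := hs
      show (0 : ℝ) < s - 1
      linarith
  have h2 : Tendsto (fun s : ℝ => (s - 1)⁻¹) (𝓝[>] (1 : ℝ)) atTop :=
    tendsto_inv_nhdsGT_zero.comp h1
  have h3 := Real.tendsto_log_atTop.comp h2
  refine h3.congr fun s => ?_
  simp [one_div]

/-- A function with nonzero density is nonzero at some prime outside any finite set. -/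
theorem FA_S29_FD_HasDens.exists_ne_zero {c : ℕ → ℝ} {δ : ℝ} (h : FA_S29_FD_HasDens c δ)
    (hδ : δ ≠ 0) (S : Finset ℕ) : ∃ p : ℕ, p.Prime ∧ p ∉ S ∧ c p ≠ 0 := by
  by_contra hcon
  push Not at hcon
  have h0 : FA_S29_FD_HasDens c 0 := FA_S29_FD_HasDens.of_finite_support c S hcon
  have h1 := (h0.2.sub h.2)
  have h2 : (fun s : ℝ => δ * Real.log (1 / (s - 1))) =O[𝓝[>] (1 : ℝ)] (fun _ => (1 : ℝ)) := by
    refine h1.congr' ?_ EventuallyEq.rfl
    filter_upwards with s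
    ring
  obtain ⟨C, hC⟩ := h2.bound
  have h3 := FA_S29_FD_log_tendsto.eventually (eventually_gt_atTop (max (C / |δ|) 0))
  obtain ⟨s, hs1, hs2⟩ := (hC.and h3).exists
  simp only [norm_one, mul_one, Real.norm_eq_abs, abs_mul] at hs1
  have hpos : 0 < |δ| := abs_pos.mpr hδ
  have h4 : 0 < Real.log (1 / (s - 1)) := lt_of_le_of_lt (le_max_right _ _) hs2
  have h5 : C / |δ| < Real.log (1 / (s - 1)) := lt_of_le_of_lt (le_max_left _ _) hs2
  rw [abs_of_pos h4] at hs1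
  rw [div_lt_iff₀ hpos] at h5
  linarith [mul_comm |δ| (Real.log (1 / (s - 1)))]

/-- Moebius-type inversion: if `∑_{m ∣ k} b_m` has density `k` for every `k ∣ n`,
then `b_m` has density `φ(m)` for every `m ∣ n`. -/
theorem FA_S29_FD_mobius (n : ℕ) (b : ℕ → ℕ → ℝ)
    (h : ∀ k : ℕ, k ∣ n → 0 < k → FA_S29_FD_HasDens (fun p => ∑ m ∈ k.divisors, b m p) k) :
    ∀ m : ℕ, m ∣ n → 0 < m → FA_S29_FD_HasDens (b m) (m.totient) := by
  intro m
  induction m using Nat.strong_induction_on with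
  | _ m ih =>
    intro hmn hm
    have h1 := h m hmn hm
    have h2 : FA_S29_FD_HasDens (fun p => ∑ m' ∈ m.properDivisors, b m' p)
        (∑ m' ∈ m.properDivisors, (m'.totient : ℝ)) := by
      refine FA_S29_FD_HasDens.finset_sum _ _ _ fun m' hm' => ?_
      rw [Nat.mem_properDivisors] at hm'
      exact ih m' hm'.2 (hm'.1.trans hmn) (Nat.pos_of_dvd_of_pos hm'.1 hm)
    have h3 := h1.sub h2
    have e1 : (fun p => (∑ m' ∈ m.divisors, b m' p) - ∑ m' ∈ m.properDivisors, b m' p) = b m := by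
      funext p
      rw [← Nat.cons_self_properDivisors hm.ne', Finset.sum_cons]
      ring
    have e2 : (m : ℝ) - ∑ m' ∈ m.properDivisors, (m'.totient : ℝ) = (m.totient : ℝ) := by
      have := Nat.sum_totient m
      rw [← Nat.cons_self_properDivisors hm.ne', Finset.sum_cons] at this
      have h4 : (m.totient : ℝ) + ((∑ m' ∈ m.properDivisors, m'.totient : ℕ) : ℝ) = (m : ℝ) := by
        exact_mod_cast this
      push_cast at h4
      linarith
    rw [e1, e2] at h3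
    exact h3

/-- From an explicit bound on `(1,2]`. -/
theorem FA_S29_FD_HasDens.of_bound {c : ℕ → ℝ} {δ : ℝ}
    (hc : ∃ B : ℝ, ∀ p : Nat.Primes, |c p| ≤ B)
    (h : ∃ C : ℝ, ∀ s : ℝ, 1 < s → s ≤ 2 →
      |(∑' p : Nat.Primes, c p * ((p : ℕ) : ℝ) ^ (-s)) - δ * Real.log (1 / (s - 1))| ≤ C) :
    FA_S29_FD_HasDens c δ := by
  obtain ⟨C, hC⟩ := h
  refine ⟨hc, IsBigO.of_bound C ?_⟩
  have hmem : Set.Ioc (1 : ℝ) 2 ∈ 𝓝[>] (1 : ℝ) := Ioc_mem_nhdsGT (by norm_num)
  filter_upwards [hmem] with s hs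
  simpa [FA_S29_FD_series] using hC s hs.1 hs.2

end

end Fermat.Agent.S29
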