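import Fermat.Agent.S29.FrobZeta
import Fermat.Agent.S29.FrobDens
import Fermat.Agent.S29.FrobCount

/-!
# S29 long shot, leaf L8 (abstract form): the Frobenius density theorem, existence form

`L/ℚ` finite Galois with group `G`, `g ∈ G`, `S` a finite set of primes: there are a prime
`p ∉ S` unramified in `L` and a prime `P ∣ p` of `L` whose decomposition group is `⟨g⟩`.
-/

set_option autoImplicit false
set_option linter.unusedSectionVars false
set_option linter.style.haveILetI false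
set_option linter.unusedVariables false

open scoped NumberField Pointwise
open NumberField IsDedekindDomain

namespace Fermat.Agent.S29

noncomputable section

section Group

variable {G : Type} [Group G] [Finite G]

theorem FA_S29_FE_card_zpowers (g : G) (k : ℕ) (hk : k ∣ orderOf g) (hk0 : 0 < k) :
    Nat.card (Subgroup.zpowers (g ^ (orderOf g / k))) = k := by
  have hn : 0 < orderOf g := orderOf_pos g
  have hd : orderOf g / k ∣ orderOf g := Nat.div_dvd_of_dvd hk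
  have hd0 : orderOf g / k ≠ 0 := (Nat.div_pos (Nat.le_of_dvd hn hk) hk0).ne'
  rw [Nat.card_zpowers, orderOf_pow_of_dvd hd0 hd, Nat.div_div_self hk hn.ne']

theorem FA_S29_FE_zpowers_le (g : G) (k : ℕ) :
    Subgroup.zpowers (g ^ (orderOf g / k)) ≤ Subgroup.zpowers g :=
  Subgroup.zpowers_le.mpr (Subgroup.pow_mem _ (Subgroup.mem_zpowers g) _)

theorem FA_S29_FE_le_zpowers (g : G) (k : ℕ) (hk : k ∣ orderOf g) (hk0 : 0 < k)
    (D : Subgroup G) (hD : D ≤ Subgroup.zpowers g) (hcard : Nat.card D ∣ k) :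
    D ≤ Subgroup.zpowers (g ^ (orderOf g / k)) := by
  intro x hx
  have hxg := hD hx
  rw [← mem_powers_iff_mem_zpowers, Submonoid.mem_powers_iff] at hxg
  obtain ⟨j, rfl⟩ := hxg
  have h1 : (⟨g ^ j, hx⟩ : D) ^ Nat.card D = 1 := pow_card_eq_one'
  have h2 : (g ^ j) ^ Nat.card D = 1 := by
    have h1' := congrArg Subtype.val h1
    rw [Subgroup.coe_pow, Subgroup.coe_one] at h1'
    exact h1'
  obtain ⟨c, hc⟩ := hcard
  have h3 : g ^ (j * k) = 1 := by
    rw [pow_mul, hc, pow_mul, h2, one_pow]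
  have h4 : orderOf g ∣ j * k := orderOf_dvd_of_pow_eq_one h3
  have h5 : orderOf g / k * k = orderOf g := Nat.div_mul_cancel hk
  rw [← h5] at h4
  obtain ⟨t, ht⟩ := Nat.dvd_of_mul_dvd_mul_right hk0 h4
  rw [ht, pow_mul]
  exact Subgroup.pow_mem _ (Subgroup.mem_zpowers _) _

/-- In the cyclic group `⟨g⟩`: a subgroup `D` is in the subgroup of order `k` iff
`D ≤ ⟨g⟩` and `|D| ∣ k`. -/
theorem FA_S29_FE_le_iff (g : G) (k : ℕ) (hk : k ∣ orderOf g) (hk0 : 0 < k) (D : Subgroup G) :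
    D ≤ Subgroup.zpowers (g ^ (orderOf g / k)) ↔ D ≤ Subgroup.zpowers g ∧ Nat.card D ∣ k := by
  constructor
  · intro h
    refine ⟨h.trans (FA_S29_FE_zpowers_le g k), ?_⟩
    have := Subgroup.card_dvd_of_le h
    rwa [FA_S29_FE_card_zpowers g k hk hk0] at this
  · rintro ⟨h1, h2⟩
    exact FA_S29_FE_le_zpowers g k hk hk0 D h1 h2

end Group

section Main

variable (L : Type) [Field L] [NumberField L] (G : Type) [Group G] [Finite G]
  [MulSemiringAction G L] [IsGaloisGroup G ℚ L]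

/-- The number of primes `P ∣ p` of `L` with decomposition group inside `C`. -/
def FA_S29_FE_X (C : Subgroup G) (p : ℕ) : ℕ :=
  Nat.card {P : Ideal (𝓞 L) // P.IsPrime ∧ P.LiesOver (Ideal.span {(p : ℤ)}) ∧
    MulAction.stabilizer G P ≤ C}

/-- The inertia degree of `p` in `L`. -/
def FA_S29_FE_f (p : ℕ) : ℕ := (Ideal.span {(p : ℤ)}).inertiaDegIn (𝓞 L)

open Classical in
/-- The weight `b_m(p) = [p good, f_p = m] · m · X_C(p)`. -/
def FA_S29_FE_b (S₀ : Finset ℕ) (C : Subgroup G) (m p : ℕ) : ℝ :=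
  if p.Prime ∧ p ∉ S₀ ∧ FA_S29_FE_f L p = m then (m : ℝ) * (FA_S29_FE_X L G C p : ℝ) else 0

variable {L G}

/-- For `H_k ≤ ⟨g⟩` of order `k`: `X_{H_k}(p) = [f_p ∣ k] · X_{⟨g⟩}(p)`. -/
theorem FA_S29_FE_X_eq (g : G) (k : ℕ) (hk : k ∣ orderOf g) (hk0 : 0 < k) (p : ℕ) (hp : p.Prime)
    (hunr : (Ideal.span {(p : ℤ)}).ramificationIdxIn (𝓞 L) = 1) :
    FA_S29_FE_X L G (Subgroup.zpowers (g ^ (orderOf g / k))) p =
      if FA_S29_FE_f L p ∣ k then FA_S29_FE_X L G (Subgroup.zpowers g) p else 0 := by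
  have key : ∀ P : Ideal (𝓞 L), P.IsPrime → P.LiesOver (Ideal.span {(p : ℤ)}) →
      (MulAction.stabilizer G P ≤ Subgroup.zpowers (g ^ (orderOf g / k)) ↔
        MulAction.stabilizer G P ≤ Subgroup.zpowers g ∧ FA_S29_FE_f L p ∣ k) := by
    intro P hP1 hP2
    haveI := hP1
    haveI := hP2
    rw [FA_S29_FE_le_iff g k hk hk0, FA_S29_FC_card_stab G p hp P hunr]
    rfl
  split_ifs with hdvd
  · refine Nat.card_congr (Equiv.subtypeEquivRight fun P => ?_)
    constructor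
    · rintro ⟨h1, h2, h3⟩
      exact ⟨h1, h2, ((key P h1 h2).mp h3).1⟩
    · rintro ⟨h1, h2, h3⟩
      exact ⟨h1, h2, (key P h1 h2).mpr ⟨h3, hdvd⟩⟩
  · rw [FA_S29_FE_X, Nat.card_eq_zero]
    left
    refine ⟨fun x => hdvd ?_⟩
    exact ((key x.1 x.2.1 x.2.2.1).mp x.2.2.2).2

/-- `k · a_{E_k}(p) = ∑_{m ∣ k} b_m(p)` at the unramified primes. -/
theorem FA_S29_FE_sum_b (S₀ : Finset ℕ)
    (hS₀ : ∀ p : ℕ, p.Prime → p ∉ S₀ → (Ideal.span {(p : ℤ)}).ramificationIdxIn (𝓞 L) = 1)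
    (g : G) (k : ℕ) (hk : k ∣ orderOf g) (hk0 : 0 < k) (p : ℕ) (hp : p.Prime) (hpS : p ∉ S₀) :
    (k : ℝ) * (FA_S29_FD_a (FixedPoints.intermediateField
        (Subgroup.zpowers (g ^ (orderOf g / k))) : IntermediateField ℚ L) p : ℝ) =
      ∑ m ∈ k.divisors, FA_S29_FE_b L G S₀ (Subgroup.zpowers g) m p := by
  classical
  have hunr := hS₀ p hp hpS
  have h1 := FA_S29_FC_count (Subgroup.zpowers (g ^ (orderOf g / k))) p hp hunr
  rw [FA_S29_FE_card_zpowers g k hk hk0] at h1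
  have h2 := FA_S29_FE_X_eq (L := L) g k hk hk0 p hp hunr
  rw [FA_S29_FE_X] at h2
  rw [h2] at h1
  have h3 : (k : ℝ) * (FA_S29_FD_a (FixedPoints.intermediateField
        (Subgroup.zpowers (g ^ (orderOf g / k))) : IntermediateField ℚ L) p : ℝ) =
      ((FA_S29_FE_f L p * (if FA_S29_FE_f L p ∣ k then FA_S29_FE_X L G (Subgroup.zpowers g) p
        else 0) : ℕ) : ℝ) := by
    rw [← Nat.cast_mul]
    congr 1
  rw [h3]
  have h4 : ∀ m ∈ k.divisors, FA_S29_FE_b L G S₀ (Subgroup.zpowers g) m p =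
      if FA_S29_FE_f L p = m then (m : ℝ) * (FA_S29_FE_X L G (Subgroup.zpowers g) p : ℝ)
        else 0 := by
    intro m _
    rw [FA_S29_FE_b]
    by_cases hm : FA_S29_FE_f L p = m
    · rw [if_pos ⟨hp, hpS, hm⟩, if_pos hm]
    · rw [if_neg (fun h => hm h.2.2), if_neg hm]
  rw [Finset.sum_congr rfl h4, Finset.sum_ite_eq]
  by_cases hdvd : FA_S29_FE_f L p ∣ k
  · rw [if_pos hdvd, if_pos (Nat.mem_divisors.mpr ⟨hdvd, hk0.ne'⟩)]
    push_cast
    ring
  · rw [if_neg hdvd, if_neg (fun h => hdvd (Nat.mem_divisors.mp h).1)]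
    simp

variable (L G) in
/-- **L8 (abstract form), the Frobenius density theorem, existence form.** -/
theorem FA_S29_FD_exists (g : G) (S : Finset ℕ) :
    ∃ (p : ℕ) (P : Ideal (𝓞 L)), p.Prime ∧ p ∉ S ∧ P.IsPrime ∧
      P.LiesOver (Ideal.span {(p : ℤ)}) ∧
      (Ideal.span {(p : ℤ)}).ramificationIdxIn (𝓞 L) = 1 ∧
      MulAction.stabilizer G P = Subgroup.zpowers g := by
  classical
  obtain ⟨S₀, hS₀⟩ := FA_S29_FC_unram L G
  have hdens : ∀ k : ℕ, k ∣ orderOf g → 0 < k → FA_S29_FD_HasDens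
      (fun p => ∑ m ∈ k.divisors, FA_S29_FE_b L G S₀ (Subgroup.zpowers g) m p) k := by
    intro k hk hk0
    have h1 : FA_S29_FD_HasDens (fun p => (FA_S29_FD_a (FixedPoints.intermediateField
        (Subgroup.zpowers (g ^ (orderOf g / k))) : IntermediateField ℚ L) p : ℝ)) 1 := by
      refine FA_S29_FD_HasDens.of_bound ⟨(Module.finrank ℚ (FixedPoints.intermediateField
        (Subgroup.zpowers (g ^ (orderOf g / k))) : IntermediateField ℚ L) : ℝ), fun p => ?_⟩ ?_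
      · rw [abs_of_nonneg (Nat.cast_nonneg _)]
        exact_mod_cast FA_S29_FD_a_le _ _
      · obtain ⟨C, hC⟩ := FA_S29_FD_asymp (FixedPoints.intermediateField
          (Subgroup.zpowers (g ^ (orderOf g / k))) : IntermediateField ℚ L)
        exact ⟨C, fun s hs hs2 => by simpa using hC s hs hs2⟩
    have h2 := h1.const_mul (k : ℝ)
    have h3 := h2.congr_finite S₀
      (fun p hp hpS => FA_S29_FE_sum_b (L := L) S₀ hS₀ g k hk hk0 p hp hpS)
    simpa using h3
  have hmob := FA_S29_FD_mobius (orderOf g) (FA_S29_FE_b L G S₀ (Subgroup.zpowers g)) hdens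
    (orderOf g) dvd_rfl (orderOf_pos g)
  have hφ : ((orderOf g).totient : ℝ) ≠ 0 := by
    exact_mod_cast (Nat.totient_pos.mpr (orderOf_pos g)).ne'
  obtain ⟨p, hp, hpS, hne⟩ := hmob.exists_ne_zero hφ (S ∪ S₀)
  rw [Finset.notMem_union] at hpS
  rw [FA_S29_FE_b] at hne
  split_ifs at hne with hcond
  swap
  · exact absurd rfl hne
  obtain ⟨-, -, hf⟩ := hcond
  have hX : FA_S29_FE_X L G (Subgroup.zpowers g) p ≠ 0 := by
    intro h0
    rw [h0] at hne
    simp at hne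
  rw [FA_S29_FE_X] at hX
  have hne' := (Nat.card_ne_zero.mp hX).1
  obtain ⟨⟨P, hP1, hP2, hP3⟩⟩ := hne'
  haveI := hP1
  haveI := hP2
  have hunr := hS₀ p hp hpS.2
  refine ⟨p, P, hp, hpS.1, hP1, hP2, hunr, ?_⟩
  refine Subgroup.eq_of_le_of_card_ge hP3 ?_
  rw [FA_S29_FC_card_stab G p hp P hunr, Nat.card_zpowers]
  exact hf.ge

end Main

end

end Fermat.Agent.S29
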