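import Fermat.Agent.S14.An1

/-!
# S29, leaf L8a: the sum over the primes of degree one of a number field

For a number field `E` let `a_E(p)` be the number of primes of `E` of absolute norm `p`.  Then
`∑_p a_E(p) p^{-s} = log (1/(s-1)) + O(1)` for `s ∈ (1,2]`
(`FA_S29_FD_asymp`), from the simple pole of the Dedekind zeta function at `s = 1`.
-/

set_option autoImplicit false
set_option linter.unusedSectionVars false
set_option linter.style.haveILetI false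
set_option linter.unusedVariables false

open scoped NumberField
open NumberField Filter Topology IsDedekindDomain Fermat.Agent.S14

namespace Fermat.Agent.S29

noncomputable section

variable (E : Type) [Field E] [NumberField E]

/-- The number of primes of `E` of absolute norm `p`. -/
def FA_S29_FD_a (p : ℕ) : ℕ :=
  Nat.card {𝔮 : HeightOneSpectrum (𝓞 E) // Ideal.absNorm 𝔮.asIdeal = p}

open Classical in
/-- The finite set of the nonzero prime ideals of norm `p`. -/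
def FA_S29_FD_G (p : ℕ) : Finset (Ideal (𝓞 E)) :=
  (FA_S14_dens_primes E p).filter (fun 𝔭 => Ideal.absNorm 𝔭 = p)

variable {E}

theorem FA_S29_FD_mem_G {p : ℕ} {𝔭 : Ideal (𝓞 E)} :
    𝔭 ∈ FA_S29_FD_G E p ↔ 𝔭.IsPrime ∧ 𝔭 ≠ ⊥ ∧ Ideal.absNorm 𝔭 = p := by
  classical
  rw [FA_S29_FD_G, Finset.mem_filter, FA_S14_dens_mem_primes]
  constructor
  · rintro ⟨⟨-, h1, h2⟩, h3⟩
    exact ⟨h1, h2, h3⟩
  · rintro ⟨h1, h2, h3⟩
    exact ⟨⟨h3.le, h1, h2⟩, h3⟩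

theorem FA_S29_FD_G_spec (p : ℕ) : ∀ 𝔭 ∈ FA_S29_FD_G E p, 𝔭.IsPrime ∧ 𝔭 ≠ ⊥ :=
  fun _ h => ⟨(FA_S29_FD_mem_G.mp h).1, (FA_S29_FD_mem_G.mp h).2.1⟩

variable (E) in
/-- `a_E(p)` is the cardinality of the finite set of primes of norm `p`. -/
theorem FA_S29_FD_a_eq_card (p : ℕ) : FA_S29_FD_a E p = (FA_S29_FD_G E p).card := by
  rw [FA_S29_FD_a, ← Nat.card_eq_finsetCard]
  refine Nat.card_congr
    { toFun := fun 𝔮 => ⟨𝔮.1.asIdeal, FA_S29_FD_mem_G.mpr ⟨𝔮.1.isPrime, 𝔮.1.ne_bot, 𝔮.2⟩⟩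
      invFun := fun I => ⟨⟨I.1, (FA_S29_FD_mem_G.mp I.2).1, (FA_S29_FD_mem_G.mp I.2).2.1⟩,
        (FA_S29_FD_mem_G.mp I.2).2.2⟩
      left_inv := fun 𝔮 => rfl
      right_inv := fun I => rfl }

/-- The rational prime under a prime of norm `p` is the least prime factor of `p`. -/
theorem FA_S29_FD_pi_eq {p : ℕ} {𝔭 : Ideal (𝓞 E)} (h : 𝔭 ∈ FA_S29_FD_G E p) :
    FA_S14_dens_pi 𝔭 = p.minFac := by
  obtain ⟨h1, h2, h3⟩ := FA_S29_FD_mem_G.mp h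
  have hπ := FA_S14_dens_pi_prime h1 h2
  have hpow := FA_S14_dens_pi_pow h1
  rw [h3] at hpow
  have hp1 : p ≠ 1 := by
    have := FA_S14_dens_two_le_absNorm h1 h2
    omega
  have hmf : p.minFac.Prime := Nat.minFac_prime hp1
  have hdvd : p.minFac ∣ FA_S14_dens_pi 𝔭 ^ 𝔭.inertiaDeg ℤ := by
    rw [hpow]
    exact Nat.minFac_dvd p
  exact ((Nat.prime_dvd_prime_iff_eq hmf hπ).mp (hmf.dvd_of_dvd_pow hdvd)).symm

variable (E) in
/-- **At most `[E : ℚ]` primes of norm `p`.** -/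
theorem FA_S29_FD_a_le (p : ℕ) : FA_S29_FD_a E p ≤ Module.finrank ℚ E := by
  classical
  rw [FA_S29_FD_a_eq_card]
  refine le_trans (Finset.card_le_card ?_)
    (FA_S14_dens_card_fiber_pi (FA_S29_FD_G E p) (FA_S29_FD_G_spec p) p.minFac)
  intro 𝔭 h𝔭
  exact Finset.mem_filter.mpr ⟨h𝔭, FA_S29_FD_pi_eq h𝔭⟩

/-- The sum of the weights over the primes of norm `p`. -/
theorem FA_S29_FD_sum_G (s : ℝ) (p : ℕ) :
    ∑ 𝔭 ∈ FA_S29_FD_G E p, FA_S14_dens_w E s 𝔭 = (FA_S29_FD_a E p : ℝ) * (p : ℝ) ^ (-s) := by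
  rw [FA_S29_FD_a_eq_card, Finset.sum_congr rfl (g := fun _ => (p : ℝ) ^ (-s))]
  · simp
  · intro 𝔭 h𝔭
    rw [FA_S14_dens_w, (FA_S29_FD_mem_G.mp h𝔭).2.2]

open Classical in
variable (E) in
/-- The finite set of the primes of `E` whose norm is one of the primes in `P`. -/
def FA_S29_FD_U (P : Finset Nat.Primes) : Finset (Ideal (𝓞 E)) :=
  P.biUnion (fun p => FA_S29_FD_G E (p : ℕ))

theorem FA_S29_FD_U_spec (P : Finset Nat.Primes) :
    ∀ 𝔭 ∈ FA_S29_FD_U E P, 𝔭.IsPrime ∧ 𝔭 ≠ ⊥ := by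
  classical
  intro 𝔭 h
  obtain ⟨p, -, hp⟩ := Finset.mem_biUnion.mp h
  exact FA_S29_FD_G_spec _ 𝔭 hp

theorem FA_S29_FD_sum_U (s : ℝ) (P : Finset Nat.Primes) :
    ∑ 𝔭 ∈ FA_S29_FD_U E P, FA_S14_dens_w E s 𝔭
      = ∑ p ∈ P, (FA_S29_FD_a E (p : ℕ) : ℝ) * ((p : ℕ) : ℝ) ^ (-s) := by
  classical
  rw [FA_S29_FD_U, Finset.sum_biUnion]
  · exact Finset.sum_congr rfl fun p _ => FA_S29_FD_sum_G s p
  · intro p _ q _ hpq
    refine Finset.disjoint_left.mpr fun 𝔭 h1 h2 => hpq ?_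
    have e1 := (FA_S29_FD_mem_G.mp h1).2.2
    have e2 := (FA_S29_FD_mem_G.mp h2).2.2
    exact Subtype.ext (e1.symm.trans e2)

theorem FA_S29_FD_term_nonneg (s : ℝ) (p : Nat.Primes) :
    0 ≤ (FA_S29_FD_a E (p : ℕ) : ℝ) * ((p : ℕ) : ℝ) ^ (-s) :=
  mul_nonneg (Nat.cast_nonneg _) (Real.rpow_nonneg (Nat.cast_nonneg _) _)

theorem FA_S29_FD_Z_pos {s : ℝ} (hs : 1 < s) : 1 ≤ FA_S14_dens_Z E s := by
  classical
  have h := FA_S14_dens_sum_le_Z hs ({⊤} : Finset (Ideal (𝓞 E)))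
    (fun I hI => by
      rw [Finset.mem_singleton] at hI
      rw [hI]
      exact top_ne_bot)
  rwa [Finset.sum_singleton, FA_S14_dens_w_top] at h

/-- Finite partial sums are at most `log ζ_E(s)`. -/
theorem FA_S29_FD_sum_le_log {s : ℝ} (hs : 1 < s) (P : Finset Nat.Primes) :
    ∑ p ∈ P, (FA_S29_FD_a E (p : ℕ) : ℝ) * ((p : ℕ) : ℝ) ^ (-s)
      ≤ Real.log (FA_S14_dens_Z E s) := by
  rw [← FA_S29_FD_sum_U]
  have h := FA_S14_dens_exp_sum_le_Z hs (FA_S29_FD_U E P) (FA_S29_FD_U_spec P)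
  have hpos : 0 < FA_S14_dens_Z E s := lt_of_lt_of_le one_pos (FA_S29_FD_Z_pos hs)
  calc ∑ 𝔭 ∈ FA_S29_FD_U E P, FA_S14_dens_w E s 𝔭
      = Real.log (Real.exp (∑ 𝔭 ∈ FA_S29_FD_U E P, FA_S14_dens_w E s 𝔭)) :=
        (Real.log_exp _).symm
    _ ≤ Real.log (FA_S14_dens_Z E s) := Real.log_le_log (Real.exp_pos _) h

variable (E) in
theorem FA_S29_FD_summable {s : ℝ} (hs : 1 < s) :
    Summable (fun p : Nat.Primes => (FA_S29_FD_a E (p : ℕ) : ℝ) * ((p : ℕ) : ℝ) ^ (-s)) :=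
  summable_of_sum_le (FA_S29_FD_term_nonneg s) (FA_S29_FD_sum_le_log hs)

variable (E) in
/-- **Upper bound**: `∑_p a(p) p^{-s} ≤ log ζ_E(s)`. -/
theorem FA_S29_FD_tsum_le_log {s : ℝ} (hs : 1 < s) :
    ∑' p : Nat.Primes, (FA_S29_FD_a E (p : ℕ) : ℝ) * ((p : ℕ) : ℝ) ^ (-s)
      ≤ Real.log (FA_S14_dens_Z E s) :=
  (FA_S29_FD_summable E hs).tsum_le_of_sum_le (FA_S29_FD_sum_le_log hs)

open Classical in
variable (E) in
/-- **Lower bound**: `log ζ_E(s) ≤ ∑_p a(p) p^{-s} + 6 [E : ℚ]`. -/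
theorem FA_S29_FD_log_le_tsum {s : ℝ} (hs : 1 < s) :
    Real.log (FA_S14_dens_Z E s)
      ≤ (∑' p : Nat.Primes, (FA_S29_FD_a E (p : ℕ) : ℝ) * ((p : ℕ) : ℝ) ^ (-s))
        + 6 * (Module.finrank ℚ E : ℝ) := by
  have hpos : 0 < FA_S14_dens_Z E s := lt_of_lt_of_le one_pos (FA_S29_FD_Z_pos hs)
  rw [← Real.log_exp ((∑' p : Nat.Primes, (FA_S29_FD_a E (p : ℕ) : ℝ) * ((p : ℕ) : ℝ) ^ (-s))
        + 6 * (Module.finrank ℚ E : ℝ))]
  refine Real.log_le_log hpos ?_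
  refine FA_S14_dens_Z_le hs _ fun N => ?_
  refine (FA_S14_dens_ball_le_exp hs ∅ N).trans (Real.exp_le_exp.mpr ?_)
  have hcard : ((∅ : Finset (Ideal (𝓞 E))).card : ℝ) = 0 := by simp
  rw [hcard, zero_add]
  refine add_le_add ?_ le_rfl
  -- the finite sum over the primes of degree one of norm at most `N`
  set P : Finset Nat.Primes := Finset.subtype Nat.Prime (Finset.range (N + 1)) with hP
  have hsub : (FA_S14_dens_primes E N).filter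
      (fun 𝔭 => (Ideal.absNorm 𝔭).Prime ∧ 𝔭 ∉ (∅ : Finset (Ideal (𝓞 E)))) ⊆ FA_S29_FD_U E P := by
    intro 𝔭 h𝔭
    rw [Finset.mem_filter, FA_S14_dens_mem_primes] at h𝔭
    obtain ⟨⟨hle, h1, h2⟩, hpr, -⟩ := h𝔭
    rw [FA_S29_FD_U, Finset.mem_biUnion]
    refine ⟨⟨Ideal.absNorm 𝔭, hpr⟩, ?_, FA_S29_FD_mem_G.mpr ⟨h1, h2, rfl⟩⟩
    exact (Finset.mem_subtype (p := Nat.Prime) (s := Finset.range (N + 1))
      (a := ⟨Ideal.absNorm 𝔭, hpr⟩)).mpr (Finset.mem_range.mpr (Nat.lt_succ_of_le hle))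
  calc ∑ 𝔭 ∈ (FA_S14_dens_primes E N).filter
        (fun 𝔭 => (Ideal.absNorm 𝔭).Prime ∧ 𝔭 ∉ (∅ : Finset (Ideal (𝓞 E)))), FA_S14_dens_w E s 𝔭
      ≤ ∑ 𝔭 ∈ FA_S29_FD_U E P, FA_S14_dens_w E s 𝔭 :=
        Finset.sum_le_sum_of_subset_of_nonneg hsub (fun 𝔭 _ _ => FA_S14_dens_w_nonneg s 𝔭)
    _ = ∑ p ∈ P, (FA_S29_FD_a E (p : ℕ) : ℝ) * ((p : ℕ) : ℝ) ^ (-s) := FA_S29_FD_sum_U s P
    _ ≤ ∑' p : Nat.Primes, (FA_S29_FD_a E (p : ℕ) : ℝ) * ((p : ℕ) : ℝ) ^ (-s) :=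
        (FA_S29_FD_summable E hs).sum_le_tsum _ (fun p _ => FA_S29_FD_term_nonneg s p)

variable (E) in
/-- `c/(s-1) ≤ ζ_E(s)` on `(1,2]` for some `c > 0`. -/
theorem FA_S29_FD_Z_ge : ∃ c : ℝ, 0 < c ∧ ∀ s : ℝ, 1 < s → s ≤ 2 →
    c / (s - 1) ≤ FA_S14_dens_Z E s := by
  have hres := NumberField.dedekindZeta_residue_pos E
  have hev := (FA_S14_dens_tendsto E).eventually_const_lt
    (half_lt_self hres)
  rw [Filter.Eventually, mem_nhdsGT_iff_exists_Ioo_subset] at hev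
  obtain ⟨u, hu, hsub⟩ := hev
  have hu1 : (1 : ℝ) < u := hu
  refine ⟨min (NumberField.dedekindZeta_residue E / 2) (u - 1), lt_min (half_pos hres)
    (by linarith), ?_⟩
  intro s hs hs2
  rw [div_le_iff₀ (by linarith), mul_comm]
  by_cases hsu : s < u
  · have : NumberField.dedekindZeta_residue E / 2 < (s - 1) * FA_S14_dens_Z E s :=
      hsub ⟨hs, hsu⟩
    exact (min_le_left _ _).trans this.le
  · have h1 : u - 1 ≤ s - 1 := by linarith [not_lt.mp hsu]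
    have h2 := FA_S29_FD_Z_pos (E := E) hs
    calc min (NumberField.dedekindZeta_residue E / 2) (u - 1) ≤ u - 1 := min_le_right _ _
      _ ≤ (s - 1) * 1 := by linarith
      _ ≤ (s - 1) * FA_S14_dens_Z E s := mul_le_mul_of_nonneg_left h2 (by linarith)

variable (E) in
/-- **L8a**: `∑_p a_E(p) p^{-s} = log (1/(s-1)) + O(1)` on `(1,2]`. -/
theorem FA_S29_FD_asymp : ∃ C : ℝ, ∀ s : ℝ, 1 < s → s ≤ 2 →
    |(∑' p : Nat.Primes, (FA_S29_FD_a E (p : ℕ) : ℝ) * ((p : ℕ) : ℝ) ^ (-s))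
      - Real.log (1 / (s - 1))| ≤ C := by
  obtain ⟨C₁, hC₁, hup⟩ := FA_S14_an_Z_le E
  obtain ⟨c, hc, hlow⟩ := FA_S29_FD_Z_ge E
  refine ⟨max (Real.log C₁) (6 * (Module.finrank ℚ E : ℝ) - Real.log c), ?_⟩
  intro s hs hs2
  have hs0 : 0 < s - 1 := by linarith
  have hZ : 0 < FA_S14_dens_Z E s := lt_of_lt_of_le one_pos (FA_S29_FD_Z_pos hs)
  have e1 : Real.log (C₁ / (s - 1)) = Real.log C₁ + Real.log (1 / (s - 1)) := by
    rw [div_eq_mul_one_div, Real.log_mul hC₁.ne' (one_div_pos.mpr hs0).ne']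
  have e2 : Real.log (c / (s - 1)) = Real.log c + Real.log (1 / (s - 1)) := by
    rw [div_eq_mul_one_div, Real.log_mul hc.ne' (one_div_pos.mpr hs0).ne']
  have h1 := (FA_S29_FD_tsum_le_log E hs).trans (Real.log_le_log hZ (hup s hs hs2))
  have h2 := (Real.log_le_log (div_pos hc hs0) (hlow s hs hs2)).trans (FA_S29_FD_log_le_tsum E hs)
  rw [e1] at h1
  rw [e2] at h2
  rw [abs_le]
  constructor
  · have := le_max_right (Real.log C₁) (6 * (Module.finrank ℚ E : ℝ) - Real.log c)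
    linarith
  · have := le_max_left (Real.log C₁) (6 * (Module.finrank ℚ E : ℝ) - Real.log c)
    linarith

end

end Fermat.Agent.S29
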