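import Fermat.Agent.S29.HeckeMul
import Fermat.Agent.S29.RatioMain

/-!
# S29, leaf L5 (goodness): the Hecke translates of good functions are good

* `FA_S29_HG_pull_good`: `x` `M`-good `⟹` `x ∘ α_i` is `M ℓ`-good (`α_i = heckeRep ℓ i`).
* `FA_S29_HG_good`: if all `SL(2, ℤ)`-translates of `x` are `M`-good, then all
  `SL(2, ℤ)`-translates of `x ∘ α_i` are `M ℓ`-good.
* `FA_S29_HG_prod_good`: the same for the product `∏_i x ∘ α_i`.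
* `FA_S29_HG_ratio_mem_F0`: if `h` is `χ`-equivariant and `h'` is `T_ℓ χ`-equivariant (both with
  good translates), then `(∏_i h ∘ α_i) / h' ∈ F₀ = ℂ(j (d z) : d ∣ N)`.
* `FA_S29_HG_prod_mem_F0`: `x ∈ F₀ ⟹ ∏_i x ∘ α_i ∈ F₀`.
-/

set_option autoImplicit false
set_option linter.unusedSectionVars false
set_option linter.style.haveILetI false
set_option linter.unusedVariables false

noncomputable section

open UpperHalfPlane CongruenceSubgroup Filter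
open P2MW.S_ModularForm_heckeT_slash_eq_self_of_mem_Gamma0.ModularForm.HeckeSlashInvariance
open scoped MatrixGroups Manifold Topology

namespace Fermat.Agent.S29

open Fermat.Agent.Mero Fermat.Agent.S24 FA_S22

/-- The Hecke representatives act on `ℍ` as integral affine maps of determinant `ℓ`. -/
theorem FA_S29_HG_heckeRep_smul (ℓ : ℕ) [NeZero ℓ] (i : OnePoint (ZMod ℓ)) :
    ∃ (a b δ : ℤ) (ha : 0 < a) (hδ : 0 < δ), a * δ = ℓ ∧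
      ∀ z : ℍ, heckeRep ℓ i • z = FA_S24_aff a b δ ha hδ z := by
  have hℓ : ℓ ≠ 0 := NeZero.ne ℓ
  have hℓpos : (0 : ℤ) < (ℓ : ℤ) := by exact_mod_cast Nat.pos_of_ne_zero hℓ
  induction i using OnePoint.rec with
  | infty =>
    refine ⟨ℓ, 0, 1, hℓpos, one_pos, by ring, fun z => ?_⟩
    apply UpperHalfPlane.ext
    rw [heckeRep_infty, ModularForm.coe_heckeDiagMatrix_smul hℓ, FA_S24_aff_coe]
    push_cast
    ring
  | coe j =>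
    refine ⟨1, (j.val : ℤ), ℓ, one_pos, hℓpos, by ring, fun z => ?_⟩
    apply UpperHalfPlane.ext
    rw [heckeRep_coe, ModularForm.coe_heckeMatrix_smul hℓ, FA_S24_aff_coe]
    push_cast
    ring

/-- Periodicity of `f ((a z + b) / δ)`. -/
theorem FA_S29_HG_aff_periodic (f : ℍ → ℂ) (M : ℕ)
    (hper : Function.Periodic (f ∘ ofComplex) (M : ℝ))
    (M' : ℕ) (a b δ : ℤ) (ha : 0 < a) (hδ : 0 < δ) (k : ℕ)
    (hk : (k : ℤ) * M * δ = a * M') :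
    Function.Periodic ((f ∘ FA_S24_aff a b δ ha hδ) ∘ ofComplex) (M' : ℝ) := by
  intro w
  have hδ' : (δ : ℂ) ≠ 0 := by exact_mod_cast hδ.ne'
  by_cases hw : 0 < w.im
  · have hw' : 0 < (w + ((M' : ℝ) : ℂ)).im := by simpa using hw
    simp only [Function.comp_apply]
    rw [FA_S24_QE_aff_ofComplex a b δ ha hδ hw, FA_S24_QE_aff_ofComplex a b δ ha hδ hw']
    have h1 : FA_S24_QE_affC a b δ (w + ((M' : ℝ) : ℂ))
        = FA_S24_QE_affC a b δ w + (k : ℂ) * ((M : ℝ) : ℂ) := by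
      unfold FA_S24_QE_affC
      have hk' : (k : ℂ) * (M : ℂ) * (δ : ℂ) = (a : ℂ) * (M' : ℂ) := by exact_mod_cast hk
      field_simp
      push_cast
      linear_combination -hk'
    rw [h1]
    exact hper.nat_mul k _
  · have hw1 : w.im ≤ 0 := not_lt.mp hw
    have hw2 : (w + ((M' : ℝ) : ℂ)).im ≤ 0 := by simpa using hw1
    simp only [Function.comp_apply]
    rw [ofComplex_apply_eq_of_im_nonpos hw2 hw1]

/-- `f ∈ 𝓗⁺_M ⟹ f ((a z + b) / δ) ∈ 𝓗⁺_{M'}` if `δ M ∣ a M'`. -/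
theorem FA_S29_HG_aff_HolPlus (M : ℕ) {f : ℍ → ℂ} (hf : f ∈ FA_S24_HolPlus M)
    (M' : ℕ) (a b δ : ℤ) (ha : 0 < a) (hδ : 0 < δ) (k : ℕ)
    (hk : (k : ℤ) * M * δ = a * M') :
    f ∘ FA_S24_aff a b δ ha hδ ∈ FA_S24_HolPlus M' :=
  ⟨FA_S24_QE_mdiff f hf.1 a b δ ha hδ,
    FA_S29_HG_aff_periodic f M hf.2.1 M' a b δ ha hδ k hk,
    FA_S24_QE_bdd f hf.2.2 a b δ ha hδ⟩

/-- The pull-back by a Hecke representative maps `𝓗⁺_M` into `𝓗⁺_{M ℓ}`. -/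
theorem FA_S29_HG_pullHol (ℓ : ℕ) [NeZero ℓ] (M : ℕ) (i : OnePoint (ZMod ℓ))
    (f : FA_S24_HolPlus M) :
    ∃ f' : FA_S24_HolPlus (M * ℓ),
      FA_S29_HK_pullHol (heckeRep ℓ i) (FA_S29_HK_det_heckeRep_pos ℓ i) (FA_S24_toHol M f)
        = FA_S24_toHol (M * ℓ) f' := by
  obtain ⟨a, b, δ, ha, hδ, had, hz⟩ := FA_S29_HG_heckeRep_smul ℓ i
  have hk : (((a * a).toNat : ℕ) : ℤ) * M * δ = a * ((M * ℓ : ℕ) : ℤ) := by
    rw [Int.toNat_of_nonneg (by positivity)]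
    push_cast
    rw [← had]
    ring
  refine ⟨⟨(f : ℍ → ℂ) ∘ FA_S24_aff a b δ ha hδ,
    FA_S29_HG_aff_HolPlus M f.2 (M * ℓ) a b δ ha hδ _ hk⟩, ?_⟩
  apply Subtype.ext
  funext z
  show (f : ℍ → ℂ) (heckeRep ℓ i • z) = (f : ℍ → ℂ) (FA_S24_aff a b δ ha hδ z)
  rw [hz]

/-- `x` `M`-good `⟹` `x ∘ α_i` is `M ℓ`-good. -/
theorem FA_S29_HG_pull_good (ℓ : ℕ) [NeZero ℓ] (M : ℕ) (i : OnePoint (ZMod ℓ))
    {x : FA_Mero_Field} (hx : x ∈ FA_S24_good M) :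
    FA_S29_HK_pull (heckeRep ℓ i) x ∈ FA_S24_good (M * ℓ) := by
  obtain ⟨y, rfl⟩ := hx
  obtain ⟨f, g, -, rfl⟩ := IsFractionRing.div_surjective (A := FA_S24_HolPlus M) y
  obtain ⟨f', hf'⟩ := FA_S29_HG_pullHol ℓ M i f
  obtain ⟨g', hg'⟩ := FA_S29_HG_pullHol ℓ M i g
  rw [map_div₀, FA_S24_kappa_algebraMap, FA_S24_kappa_algebraMap, map_div₀,
    FA_S29_HK_pull_algebraMap _ (FA_S29_HK_det_heckeRep_pos ℓ i),
    FA_S29_HK_pull_algebraMap _ (FA_S29_HK_det_heckeRep_pos ℓ i), hf', hg']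
  exact div_mem (FA_S24_hol_mem_good _) (FA_S24_hol_mem_good _)

variable (ℓ : ℕ) [Fact ℓ.Prime]

/-- The `SL(2, ℤ)`-translates of `x ∘ α_i` are of the form `(γ • x) ∘ α_j`. -/
theorem FA_S29_HG_smul_pull (i : OnePoint (ZMod ℓ)) (σ : SL(2, ℤ)) (x : FA_Mero_Field) :
    ∃ (j : OnePoint (ZMod ℓ)) (γ : SL(2, ℤ)),
      σ • FA_S29_HK_pull (heckeRep ℓ i) x = FA_S29_HK_pull (heckeRep ℓ j) (γ • x) := by
  have h1 : ¬ ℓ ∣ 1 := fun h => (Fact.out : ℓ.Prime).one_lt.ne' (Nat.dvd_one.mp h)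
  obtain ⟨g', -, hmul⟩ := heckeRep_mul (p := ℓ) (N := 1) h1 σ⁻¹ (by simp) i
  refine ⟨redMatrix ℓ σ⁻¹ • i, g'⁻¹, ?_⟩
  rw [FA_S29_HK_smul_eq_pull, ← FA_S29_HK_pull_mul _ _ (FA_S29_HK_det_heckeRep_pos ℓ i)
    (FA_S29_HK_det_mapGL_pos σ⁻¹), hmul,
    FA_S29_HK_pull_mul _ _ (FA_S29_HK_det_mapGL_pos g') (FA_S29_HK_det_heckeRep_pos ℓ _),
    FA_S29_HK_pull_mapGL]

/-- **L5 (goodness)**: all translates of `x ∘ α_i` are `M ℓ`-good. -/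
theorem FA_S29_HG_good (M : ℕ) (x : FA_Mero_Field)
    (hgood : ∀ σ : SL(2, ℤ), σ • x ∈ FA_S24_good M) (i : OnePoint (ZMod ℓ)) (σ : SL(2, ℤ)) :
    σ • FA_S29_HK_pull (heckeRep ℓ i) x ∈ FA_S24_good (M * ℓ) := by
  obtain ⟨j, γ, h⟩ := FA_S29_HG_smul_pull ℓ i σ x
  rw [h]
  exact FA_S29_HG_pull_good ℓ M j (hgood γ)

/-- **L5 (goodness)** for the product of the Hecke translates. -/
theorem FA_S29_HG_prod_good (M : ℕ) (x : FA_Mero_Field)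
    (hgood : ∀ σ : SL(2, ℤ), σ • x ∈ FA_S24_good M) (σ : SL(2, ℤ)) :
    σ • (∏ i : OnePoint (ZMod ℓ), FA_S29_HK_pull (heckeRep ℓ i) x) ∈ FA_S24_good (M * ℓ) := by
  have h1 : σ • (∏ i : OnePoint (ZMod ℓ), FA_S29_HK_pull (heckeRep ℓ i) x)
      = ∏ i : OnePoint (ZMod ℓ), σ • FA_S29_HK_pull (heckeRep ℓ i) x :=
    map_prod (MulSemiringAction.toRingHom SL(2, ℤ) FA_Mero_Field σ) _ _
  rw [h1]
  exact prod_mem fun i _ => FA_S29_HG_good ℓ M x hgood i σ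

variable (N : ℕ) [NeZero N]

/-- **L5, consumer form**: if `h` is `χ`-equivariant and `h'` is equivariant for the
multiplicative Hecke transform of `χ`, then `(∏_i h ∘ α_i) / h'` lies in `F₀`. -/
theorem FA_S29_HG_ratio_mem_F0 (hℓN : ¬ ℓ ∣ N) (M M' : ℕ) [NeZero M] [NeZero M']
    (χ : ↥(Gamma0 N) → ℂ) (h h' : FA_Mero_Field)
    (hχ : ∀ γ, FA_S29_HK_pull (FA_S22_phi N γ) h = χ γ • h)
    (hgood : ∀ σ : SL(2, ℤ), σ • h ∈ FA_S24_good M)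
    (hχ' : ∀ γ, FA_S29_HK_pull (FA_S22_phi N γ) h'
      = (∏ i, χ (FA_S22_tee (FA_S22_phi N) (heckeRep ℓ) (FA_S22_hexT N ℓ hℓN) γ i)) • h')
    (hne : ∀ γ, (∏ i, χ (FA_S22_tee (FA_S22_phi N) (heckeRep ℓ) (FA_S22_hexT N ℓ hℓN) γ i)) ≠ 0)
    (hgood' : ∀ σ : SL(2, ℤ), σ • h' ∈ FA_S24_good M') :
    (∏ i : OnePoint (ZMod ℓ), FA_S29_HK_pull (heckeRep ℓ i) h) / h'
      ∈ FA_S24_F0 ℂ FA_S24_g N := by
  have hℓ0 : ℓ ≠ 0 := (Fact.out : ℓ.Prime).ne_zero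
  haveI : NeZero (M * ℓ * M') :=
    ⟨Nat.mul_ne_zero (Nat.mul_ne_zero (NeZero.ne M) hℓ0) (NeZero.ne M')⟩
  set H := ∏ i : OnePoint (ZMod ℓ), FA_S29_HK_pull (heckeRep ℓ i) h with hH
  refine FA_S29_RT_main N (M * ℓ * M') (H / h') ?_ ?_
  · -- invariance
    have key : ∀ γ : ↥(Gamma0 N), (γ : SL(2, ℤ))⁻¹ • (H / h') = H / h' := by
      intro γ
      rw [← FA_S29_HK_pull_phi N γ, map_div₀, FA_S29_HK_hecke_char N ℓ hℓN χ h hχ γ, hχ' γ,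
        Algebra.smul_def, Algebra.smul_def]
      have hc : algebraMap ℂ FA_Mero_Field
          (∏ i, χ (FA_S22_tee (FA_S22_phi N) (heckeRep ℓ) (FA_S22_hexT N ℓ hℓN) γ i)) ≠ 0 :=
        (map_ne_zero _).mpr (hne γ)
      rw [mul_div_mul_left _ _ hc]
    intro γ hγ
    have := key ⟨γ⁻¹, inv_mem hγ⟩
    simpa using this
  · intro σ
    rw [smul_div₀']
    exact div_mem
      (FA_S29_RT_good_mono (Dvd.intro _ rfl) (FA_S29_HG_prod_good ℓ M h hgood σ))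
      (FA_S29_RT_good_mono (Dvd.intro_left _ rfl) (hgood' σ))

/-- **L5, invariant case**: `x ∈ F₀ ⟹ ∏_i x ∘ α_i ∈ F₀`. -/
theorem FA_S29_HG_prod_mem_F0 (hℓN : ¬ ℓ ∣ N) (x : FA_Mero_Field)
    (hx : x ∈ FA_S24_F0 ℂ FA_S24_g N) :
    ∏ i : OnePoint (ZMod ℓ), FA_S29_HK_pull (heckeRep ℓ i) x ∈ FA_S24_F0 ℂ FA_S24_g N := by
  have hP := FA_S24_props_final ℂ FA_S24_tower_complex N
  have hinv : ∀ γ : ↥(Gamma0 N), FA_S29_HK_pull (FA_S22_phi N γ) x = (1 : ℂ) • x := by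
    intro γ
    rw [FA_S29_HK_pull_phi, one_smul]
    exact hP.fix_F0 _ (inv_mem γ.2) hx
  have hgood : ∀ σ : SL(2, ℤ), σ • x ∈ FA_S24_good N := fun σ =>
    FA_S24_E_le_good FA_S24_UT FA_S24_QE ℂ FA_S24_tower_complex N
      (FA_S24_map_mem_E (FA_S24_rho ℂ FA_S24_tower_complex) FA_S24_g N σ
        (FA_S24_F0_le_E (FA_S24_rho ℂ FA_S24_tower_complex) FA_S24_g N hx))
  have h1 := FA_S29_HG_ratio_mem_F0 ℓ N hℓN N 1 (fun _ => 1) x 1 hinv hgood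
    (fun γ => by simp [map_one]) (fun γ => by simp)
    (fun σ => by rw [smul_one]; exact one_mem _)
  simpa using h1

end Fermat.Agent.S29
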