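import Fermat.Agent.S29.HeckePull
import Fermat.Agent.S16.LShimDefs

/-!
# S29, leaf L5b: multiplicative Hecke equivariance

If `h` is a meromorphic function on `ℍ` with `h ∘ γ = χ(γ) h` for `γ ∈ Γ₀(N)`, then
`H := ∏_{i ∈ P¹(𝔽_ℓ)} h ∘ α_i` (`α_i = heckeRep ℓ i`) satisfies `H ∘ γ = (∏_i χ(t γ i)) H`,
where `α_i γ = (t γ i) α_{σ γ i}`.  For `χ = e ∘ c` with `e` an exponential this is
`H ∘ γ = e((T_ℓ c)(γ)) H` with `T_ℓ = FA_S16_LS_hecke N A ℓ` (the operator of leaf L6).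
-/

set_option autoImplicit false
set_option linter.unusedSectionVars false
set_option linter.style.haveILetI false
set_option linter.unusedVariables false

noncomputable section

open UpperHalfPlane CongruenceSubgroup
open P2MW.S_ModularForm_heckeT_slash_eq_self_of_mem_Gamma0.ModularForm.HeckeSlashInvariance
open scoped MatrixGroups

namespace Fermat.Agent.S29

open Fermat.Agent.Mero FA_S22 FA_S16

section abs

variable {G Γ I : Type*} [Group G] [Group Γ] [Fintype I] (φ : Γ →* G) (α : I → G)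
  (hex : ∀ i (γ : Γ), ∃ j, ∃ γ' : Γ, α i * φ γ = φ γ' * α j)
  (hφ : Function.Injective φ) (huniq : ∀ i j (γ : Γ), α i = φ γ * α j → i = j)

include hφ huniq in
/-- Abstract multiplicative Hecke equivariance. -/
theorem FA_S29_HK_mul_abs {Ω : Type*} [Field Ω] [Algebra ℂ Ω] (pull : G → (Ω →ₐ[ℂ] Ω))
    (hα : ∀ i γ x, pull (α i * φ γ) x = pull (φ γ) (pull (α i) x))
    (hα' : ∀ γ j x, pull (φ γ * α j) x = pull (α j) (pull (φ γ) x))
    (χ : Γ → ℂ) (h : Ω) (hχ : ∀ γ, pull (φ γ) h = χ γ • h) (γ : Γ) :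
    pull (φ γ) (∏ i, pull (α i) h)
      = (∏ i, χ (FA_S22_tee φ α hex γ i)) • ∏ i, pull (α i) h := by
  rw [map_prod]
  have key : ∀ i, pull (φ γ) (pull (α i) h)
      = algebraMap ℂ Ω (χ (FA_S22_tee φ α hex γ i)) * pull (α (FA_S22_sigma φ α hex γ i)) h := by
    intro i
    rw [← hα, FA_S22_sigma_tee_spec φ α hex γ i, hα', hχ, map_smul, Algebra.smul_def]
  rw [Finset.prod_congr rfl fun i _ => key i, Finset.prod_mul_distrib, Algebra.smul_def,
    map_prod]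
  congr 1
  exact Function.Bijective.prod_comp (FA_S22_sigma_bijective φ α hex hφ huniq γ)
    (fun j => pull (α j) h)

end abs

theorem FA_S29_HK_det_phi_pos (N : ℕ) (γ : ↥(Gamma0 N)) :
    0 < (FA_S22_phi N γ).det.val := by
  rw [FA_S22_phi_apply]
  exact FA_S29_HK_det_mapGL_pos _

theorem FA_S29_HK_det_heckeRep_pos (ℓ : ℕ) (i : OnePoint (ZMod ℓ)) :
    0 < (heckeRep ℓ i).det.val := by
  induction i using OnePoint.rec with
  | infty => exact ModularForm.det_heckeDiagMatrix_pos ℓ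
  | coe j => exact ModularForm.det_heckeMatrix_pos ℓ j.val

/-- The pull-back by `γ ∈ Γ₀(N)` is the `Lib/Mero` action of `γ⁻¹`. -/
theorem FA_S29_HK_pull_phi (N : ℕ) (γ : ↥(Gamma0 N)) (x : FA_Mero_Field) :
    FA_S29_HK_pull (FA_S22_phi N γ) x = (γ : SL(2, ℤ))⁻¹ • x := by
  rw [FA_S22_phi_apply, FA_S29_HK_pull_mapGL]

variable (N : ℕ) [NeZero N] (ℓ : ℕ) [Fact ℓ.Prime]

/-- **L5b**: the product of the Hecke translates of a `χ`-equivariant function is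
equivariant with the multiplicative Hecke transform of `χ`. -/
theorem FA_S29_HK_hecke_char (hℓN : ¬ ℓ ∣ N) (χ : ↥(Gamma0 N) → ℂ) (h : FA_Mero_Field)
    (hχ : ∀ γ, FA_S29_HK_pull (FA_S22_phi N γ) h = χ γ • h) (γ : ↥(Gamma0 N)) :
    FA_S29_HK_pull (FA_S22_phi N γ) (∏ i : OnePoint (ZMod ℓ), FA_S29_HK_pull (heckeRep ℓ i) h)
      = (∏ i, χ (FA_S22_tee (FA_S22_phi N) (heckeRep ℓ) (FA_S22_hexT N ℓ hℓN) γ i)) •
          ∏ i : OnePoint (ZMod ℓ), FA_S29_HK_pull (heckeRep ℓ i) h :=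
  FA_S29_HK_mul_abs (FA_S22_phi N) (heckeRep ℓ) (FA_S22_hexT N ℓ hℓN)
    (FA_S22_phi_injective N) (FA_S22_huniqT N ℓ) FA_S29_HK_pull
    (fun i γ x => FA_S29_HK_pull_mul _ _ (FA_S29_HK_det_heckeRep_pos ℓ i)
      (FA_S29_HK_det_phi_pos N γ) x)
    (fun γ j x => FA_S29_HK_pull_mul _ _ (FA_S29_HK_det_phi_pos N γ)
      (FA_S29_HK_det_heckeRep_pos ℓ j) x)
    χ h hχ γ

/-- **L5b, exponential form**: if `h ∘ γ = e(c γ) h` then the product `H` of the Hecke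
translates of `h` satisfies `H ∘ γ = e((T_ℓ c) γ) H`, `T_ℓ = FA_S16_LS_hecke N A ℓ`. -/
theorem FA_S29_HK_hecke_exp (hℓN : ¬ ℓ ∣ N) {A : Type*}
    [AddCommGroup A] (e : Multiplicative A →* ℂ) (c : ↥(Gamma0 N) → A) (h : FA_Mero_Field)
    (hχ : ∀ γ, FA_S29_HK_pull (FA_S22_phi N γ) h = e (Multiplicative.ofAdd (c γ)) • h)
    (γ : ↥(Gamma0 N)) :
    FA_S29_HK_pull (FA_S22_phi N γ)
        (∏ i : OnePoint (ZMod ℓ), FA_S29_HK_pull (heckeRep ℓ i) h)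
      = e (Multiplicative.ofAdd (FA_S16_LS_hecke N A ⟨ℓ, Fact.out⟩ c γ)) •
          ∏ i : OnePoint (ZMod ℓ), FA_S29_HK_pull (heckeRep ℓ i) h := by
  rw [FA_S29_HK_hecke_char N ℓ hℓN (fun γ => e (Multiplicative.ofAdd (c γ))) h hχ γ]
  congr 1
  unfold FA_S16_LS_hecke
  rw [dif_neg (show ¬ ((⟨ℓ, Fact.out⟩ : Nat.Primes) : ℕ) ∣ N from hℓN)]
  show _ = e (Multiplicative.ofAdd (∑ i, FA_S16_LS_triv A _ (c _)))
  rw [ofAdd_sum, map_prod]
  rfl

end Fermat.Agent.S29
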