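import Fermat.Agent.S29.HeckeMul
import Fermat.Agent.S37.ConjAbs
import Fermat.Agent.S37.ConjDeg

/-!
# S29, leaf L5c (abstract form): the norm along `α` of `β f` is the product of the Hecke translates

`F_N = modularFunctionFieldBar N`, `α = heckeAlphaBar` (inclusion `F_N → F_{Nℓ}`),
`β = heckeBetaBar` (`q ↦ q ^ ℓ`), `τ : F_N → Ω`, `τ' : F_{Nℓ} → Ω` embeddings into the field of
meromorphic functions on `ℍ` with `τ' ∘ α = τ`, `τ' ∘ β = pull (heckeRep ℓ ∞) ∘ τ`, `τ F_N`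
invariant under `Γ₀(N)`, and `Γ₀(Nℓ)` the stabiliser of `τ' F_{Nℓ}` in `Γ₀(N)`.  Then
`τ (Norm_α (β f)) = ∏_{i ∈ P¹(𝔽_ℓ)} pull (heckeRep ℓ i) (τ f)`.
-/

set_option autoImplicit false
set_option linter.unusedSectionVars false
set_option linter.style.haveILetI false
set_option linter.unusedVariables false

noncomputable section

open UpperHalfPlane CongruenceSubgroup ModularCurve AlgebraicCurve
open P2MW.S_ModularForm_heckeT_slash_eq_self_of_mem_Gamma0.ModularForm.HeckeSlashInvariance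
open scoped MatrixGroups

namespace Fermat.Agent.S29

open Fermat.Agent.Mero FA_S22 FA_S16 Fermat.Agent.S37

local notation "Qb" => AlgebraicClosure ℚ

variable (N : ℕ) [NeZero N] (ℓ : ℕ) [Fact ℓ.Prime]

/-- For every `i ∈ P¹(𝔽_ℓ)` there is `δ ∈ Γ₀(N)` with `[ℓ 0; 0 1] δ ∈ Γ₀(N) α_i`. -/
theorem FA_S29_HK_exists_delta (hℓN : ¬ ℓ ∣ N) (i : OnePoint (ZMod ℓ)) :
    ∃ δ γ' : ↥(Gamma0 N),
      heckeRep ℓ OnePoint.infty * FA_S22_phi N δ = FA_S22_phi N γ' * heckeRep ℓ i := by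
  have hp : ℓ ≠ 0 := (Fact.out : ℓ.Prime).ne_zero
  induction i using OnePoint.rec with
  | infty => exact ⟨1, 1, by simp⟩
  | coe j =>
    have hcop : IsCoprime (ℓ : ℤ) (N : ℤ) :=
      Nat.isCoprime_iff_coprime.mpr ((Nat.Prime.coprime_iff_not_dvd Fact.out).mpr hℓN)
    obtain ⟨u, v, huv⟩ := hcop
    -- `u ℓ + v N = 1`; `δ = [1, j - v; N, N j + ℓ u]`
    let δ : SL(2, ℤ) := ⟨!![1, (j.val : ℤ) - v; (N : ℤ), (N : ℤ) * j.val + ℓ * u], by
      rw [Matrix.det_fin_two_of]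
      linear_combination huv⟩
    have hδ : δ ∈ Gamma0 N := by
      rw [Gamma0_mem]
      show (((N : ℤ) : ℤ) : ZMod N) = 0
      simp
    obtain ⟨g', hg', hmul⟩ := heckeDiagMatrix_mul_of_eq hp δ j.val u (by
      show (N : ℤ) * j.val + ℓ * u = (N : ℤ) * j.val + ℓ * u
      rfl)
    have hg'N : g' ∈ Gamma0 N := by
      rw [Gamma0_mem, hg']
      show (((N : ℤ) : ℤ) : ZMod N) = 0
      simp
    exact ⟨⟨δ, hδ⟩, ⟨g', hg'N⟩, hmul⟩

/-- `[ℓ 0; 0 1] η = η' [ℓ 0; 0 1]` with `η' ∈ Γ₀(N)` for `η ∈ Γ₀(N ℓ)`. -/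
theorem FA_S29_HK_diag_comm (η : ↥(Gamma0 N)) (hη : (η : SL(2, ℤ)) ∈ Gamma0 (N * ℓ)) :
    ∃ η' : ↥(Gamma0 N),
      heckeRep ℓ OnePoint.infty * FA_S22_phi N η = FA_S22_phi N η' * heckeRep ℓ OnePoint.infty := by
  have hp : ℓ ≠ 0 := (Fact.out : ℓ.Prime).ne_zero
  have hdvd : ((N * ℓ : ℕ) : ℤ) ∣ (η : SL(2, ℤ)) 1 0 :=
    (ZMod.intCast_zmod_eq_zero_iff_dvd _ _).mp (Gamma0_mem.mp hη)
  obtain ⟨e, he⟩ := hdvd
  have he' : (η : SL(2, ℤ)) 1 0 = ℓ * ((N : ℤ) * e) := by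
    rw [he]
    push_cast
    ring
  obtain ⟨g', hg', hmul⟩ := heckeDiagMatrix_mul_of_eq' hp (η : SL(2, ℤ)) ((N : ℤ) * e) he'
  have hg'N : g' ∈ Gamma0 N := by
    rw [Gamma0_mem, hg']
    push_cast
    simp
  exact ⟨⟨g', hg'N⟩, hmul⟩

/-- The number of points of `P¹(𝔽_ℓ)`. -/
theorem FA_S29_HK_card : Fintype.card (OnePoint (ZMod ℓ)) = ℓ + 1 := by
  have h : Fintype.card (Option (ZMod ℓ)) = ℓ + 1 := by
    rw [Fintype.card_option, ZMod.card]
  exact h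

/-- **L5c, abstract form.** -/
theorem FA_S29_HK_norm_abs (hℓN : ¬ ℓ ∣ N)
    (τ : ↥(modularFunctionFieldBar N) →+* FA_Mero_Field)
    (τ' : ↥(modularFunctionFieldBar (N * ℓ)) →+* FA_Mero_Field)
    (hα : ∀ x, τ' (heckeAlphaBar Qb N ℓ x) = τ x)
    (hβ : ∀ x, τ' (heckeBetaBar Qb N ℓ x) = FA_S29_HK_pull (heckeRep ℓ OnePoint.infty) (τ x))
    (hinv : ∀ (γ : ↥(Gamma0 N)) x, FA_S29_HK_pull (FA_S22_phi N γ) (τ x) = τ x)
    (hstab : ∀ γ : ↥(Gamma0 N), (∀ y, FA_S29_HK_pull (FA_S22_phi N γ) (τ' y) = τ' y) →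
      (γ : SL(2, ℤ)) ∈ Gamma0 (N * ℓ))
    (f : ↥(modularFunctionFieldBar N)) :
    letI := algebraAlong (heckeAlphaBar Qb N ℓ)
    τ (Algebra.norm ↥(modularFunctionFieldBar N) (heckeBetaBar Qb N ℓ f))
      = ∏ i : OnePoint (ZMod ℓ), FA_S29_HK_pull (heckeRep ℓ i) (τ f) := by
  classical
  have hℓ : ℓ.Prime := Fact.out
  letI algα := algebraAlong (heckeAlphaBar Qb N ℓ)
  haveI := isScalarTower_along (heckeAlphaBar Qb N ℓ)
  have hfr : Module.finrank ↥(modularFunctionFieldBar N) ↥(modularFunctionFieldBar (N * ℓ))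
      = ℓ + 1 := FA_S37_CJ_finrank N ℓ hℓ hℓN
  haveI hfin : FiniteDimensional ↥(modularFunctionFieldBar N) ↥(modularFunctionFieldBar (N * ℓ)) :=
    Module.finite_of_finrank_pos (by rw [hfr]; exact Nat.succ_pos ℓ)
  haveI hsep : Algebra.IsSeparable ↥(modularFunctionFieldBar N)
      ↥(modularFunctionFieldBar (N * ℓ)) := inferInstance
  have hαalg : ∀ x : ↥(modularFunctionFieldBar N),
      algebraMap ↥(modularFunctionFieldBar N) ↥(modularFunctionFieldBar (N * ℓ)) x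
        = heckeAlphaBar Qb N ℓ x := fun _ => rfl
  -- the coset representatives
  choose δ γ' hδ using FA_S29_HK_exists_delta N ℓ hℓN
  have hposφ := FA_S29_HK_det_phi_pos N
  have hposα := FA_S29_HK_det_heckeRep_pos ℓ
  -- the embeddings
  let e : Fin (ℓ + 1) ≃ OnePoint (ZMod ℓ) :=
    (Fintype.equivFinOfCardEq (FA_S29_HK_card ℓ)).symm
  let E : Fin (ℓ + 1) → (↥(modularFunctionFieldBar (N * ℓ)) →+* FA_Mero_Field) := fun k =>
    ((FA_S29_HK_pull (FA_S22_phi N (δ (e k)))) : FA_Mero_Field →+* FA_Mero_Field).comp τ'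
  have hEapp : ∀ k y, E k y = FA_S29_HK_pull (FA_S22_phi N (δ (e k))) (τ' y) := fun _ _ => rfl
  have hE : ∀ k x, E k (algebraMap ↥(modularFunctionFieldBar N)
      ↥(modularFunctionFieldBar (N * ℓ)) x) = τ x := by
    intro k x
    rw [hEapp, hαalg, hα, hinv]
  have hEβ : ∀ k x, E k (heckeBetaBar Qb N ℓ x) = FA_S29_HK_pull (heckeRep ℓ (e k)) (τ x) := by
    intro k x
    rw [hEapp, hβ, ← FA_S29_HK_pull_mul _ _ (hposα _) (hposφ _), hδ (e k),
      FA_S29_HK_pull_mul _ _ (hposφ _) (hposα _), hinv]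
  have hinj : Function.Injective E := by
    intro k k' hkk
    have hy : ∀ y, FA_S29_HK_pull (FA_S22_phi N (δ (e k))) (τ' y)
        = FA_S29_HK_pull (FA_S22_phi N (δ (e k'))) (τ' y) := fun y => by
      rw [← hEapp, ← hEapp, hkk]
    -- `η = δ' δ⁻¹` fixes the image of `τ'`
    set η : ↥(Gamma0 N) := δ (e k') * (δ (e k))⁻¹ with hη
    have hfix : ∀ y, FA_S29_HK_pull (FA_S22_phi N η) (τ' y) = τ' y := by
      intro y
      rw [hη, map_mul, FA_S29_HK_pull_mul _ _ (hposφ _) (hposφ _), ← hy,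
        ← FA_S29_HK_pull_mul _ _ (hposφ _) (hposφ _), ← map_mul, mul_inv_cancel, map_one,
        FA_S29_HK_pull_one]
    obtain ⟨η', hη'⟩ := FA_S29_HK_diag_comm N ℓ η (hstab η hfix)
    -- `α_{k'} = φ(γ'_{k'}⁻¹ η' γ'_k) α_k`
    have h1 : heckeRep ℓ (e k') = FA_S22_phi N ((γ' (e k'))⁻¹ * η' * γ' (e k)) * heckeRep ℓ (e k) := by
      have hδk' : δ (e k') = η * δ (e k) := by
        rw [hη, inv_mul_cancel_right]
      have h2 : FA_S22_phi N (γ' (e k')) * heckeRep ℓ (e k')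
          = FA_S22_phi N η' * (FA_S22_phi N (γ' (e k)) * heckeRep ℓ (e k)) := by
        rw [← hδ (e k'), hδk', map_mul, ← mul_assoc, hη', mul_assoc, hδ (e k)]
      rw [map_mul, map_mul, map_inv, mul_assoc, mul_assoc, ← h2, inv_mul_cancel_left]
    have h3 := FA_S22_huniqT N ℓ _ _ _ h1
    exact e.injective h3.symm
  have key := FA_S37_CJ_norm_abs τ hfr E hE hinj (heckeBetaBar Qb N ℓ f)
  rw [key, Finset.prod_congr rfl fun k _ => hEβ k f]
  exact Fintype.prod_equiv e _ _ fun _ => rfl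

end Fermat.Agent.S29
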