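import Mathlib
import Fermat.Agent.Lib.Mero

/-!
# S29, leaf L5a: pull-back of meromorphic functions on `ℍ` by `GL(2, ℝ)⁺`

* `FA_S29_HK_pullHol g hg : FA_Mero_Hol →ₐ[ℂ] FA_Mero_Hol`, `f ↦ f ∘ (g • ·)` (`0 < det g`).
* `FA_S29_HK_pull g : FA_Mero_Field →ₐ[ℂ] FA_Mero_Field` (total in `g`; the identity if
  `det g ≤ 0`), with `pull (g₁ * g₂) = (pull g₂).comp (pull g₁)` for `det g₁, det g₂ > 0`.
* `FA_S29_HK_pull_mapGL` : `pull (mapGL ℝ γ) x = γ⁻¹ • x` for the `SL(2, ℤ)`-action of `Lib/Mero`.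
-/

set_option autoImplicit false
set_option linter.unusedSectionVars false
set_option linter.style.haveILetI false
set_option linter.unusedVariables false

noncomputable section

open UpperHalfPlane Complex
open scoped MatrixGroups Manifold Topology

namespace Fermat.Agent.S29

open Fermat.Agent.Mero

/-- Pull-back of holomorphic functions by `g ∈ GL(2, ℝ)` with positive determinant. -/
def FA_S29_HK_pullHol (g : GL (Fin 2) ℝ) (hg : 0 < g.det.val) : FA_Mero_Hol →ₐ[ℂ] FA_Mero_Hol where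
  toFun f := ⟨fun z => (f : ℍ → ℂ) (g • z), f.2.comp (mdifferentiable_smul hg)⟩
  map_one' := rfl
  map_mul' _ _ := rfl
  map_zero' := rfl
  map_add' _ _ := rfl
  commutes' _ := rfl

theorem FA_S29_HK_pullHol_apply (g : GL (Fin 2) ℝ) (hg : 0 < g.det.val) (f : FA_Mero_Hol)
    (z : ℍ) : ((FA_S29_HK_pullHol g hg f : FA_Mero_Hol) : ℍ → ℂ) z = (f : ℍ → ℂ) (g • z) := rfl

theorem FA_S29_HK_pullHol_injective (g : GL (Fin 2) ℝ) (hg : 0 < g.det.val) :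
    Function.Injective (FA_S29_HK_pullHol g hg) := by
  intro f₁ f₂ h
  apply Subtype.ext
  funext z
  have := congrFun (congrArg Subtype.val h) (g⁻¹ • z)
  simpa [FA_S29_HK_pullHol, smul_smul] using this

theorem FA_S29_HK_det_mul_pos {g₁ g₂ : GL (Fin 2) ℝ} (h₁ : 0 < g₁.det.val)
    (h₂ : 0 < g₂.det.val) : 0 < (g₁ * g₂).det.val := by
  rw [map_mul, Units.val_mul]
  exact mul_pos h₁ h₂

theorem FA_S29_HK_det_inv_pos {g : GL (Fin 2) ℝ} (h : 0 < g.det.val) : 0 < (g⁻¹).det.val := by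
  rw [map_inv, Units.val_inv_eq_inv_val]
  exact inv_pos.mpr h

theorem FA_S29_HK_pullHol_mul (g₁ g₂ : GL (Fin 2) ℝ) (h₁ : 0 < g₁.det.val)
    (h₂ : 0 < g₂.det.val) (f : FA_Mero_Hol) :
    FA_S29_HK_pullHol (g₁ * g₂) (FA_S29_HK_det_mul_pos h₁ h₂) f
      = FA_S29_HK_pullHol g₂ h₂ (FA_S29_HK_pullHol g₁ h₁ f) := by
  apply Subtype.ext
  funext z
  show (f : ℍ → ℂ) ((g₁ * g₂) • z) = (f : ℍ → ℂ) (g₁ • g₂ • z)
  rw [mul_smul]

/-- The pull-back on the field of meromorphic functions, for `0 < det g`. -/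
def FA_S29_HK_pullPos (g : GL (Fin 2) ℝ) (hg : 0 < g.det.val) :
    FA_Mero_Field →ₐ[ℂ] FA_Mero_Field :=
  IsFractionRing.liftAlgHom
    (g := (IsScalarTower.toAlgHom ℂ FA_Mero_Hol FA_Mero_Field).comp (FA_S29_HK_pullHol g hg))
    (FA_Mero_algebraMap_injective.comp (FA_S29_HK_pullHol_injective g hg))

theorem FA_S29_HK_pullPos_algebraMap (g : GL (Fin 2) ℝ) (hg : 0 < g.det.val) (f : FA_Mero_Hol) :
    FA_S29_HK_pullPos g hg (algebraMap FA_Mero_Hol FA_Mero_Field f)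
      = algebraMap FA_Mero_Hol FA_Mero_Field (FA_S29_HK_pullHol g hg f) := by
  unfold FA_S29_HK_pullPos
  rw [IsFractionRing.liftAlgHom_apply, IsFractionRing.lift_algebraMap]
  rfl

/-- Two `ℂ`-algebra maps from the field of meromorphic functions which agree on holomorphic
functions are equal. -/
theorem FA_S29_HK_ext {A : Type*} [Field A] [Algebra ℂ A] (F G : FA_Mero_Field →ₐ[ℂ] A)
    (h : ∀ f : FA_Mero_Hol, F (algebraMap FA_Mero_Hol FA_Mero_Field f)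
      = G (algebraMap FA_Mero_Hol FA_Mero_Field f)) (x : FA_Mero_Field) : F x = G x := by
  obtain ⟨a, b, hb, rfl⟩ := IsFractionRing.div_surjective (A := FA_Mero_Hol) x
  rw [map_div₀, map_div₀, h a, h b]

theorem FA_S29_HK_pullPos_mul (g₁ g₂ : GL (Fin 2) ℝ) (h₁ : 0 < g₁.det.val)
    (h₂ : 0 < g₂.det.val) (x : FA_Mero_Field) :
    FA_S29_HK_pullPos (g₁ * g₂) (FA_S29_HK_det_mul_pos h₁ h₂) x
      = FA_S29_HK_pullPos g₂ h₂ (FA_S29_HK_pullPos g₁ h₁ x) := by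
  refine FA_S29_HK_ext (FA_S29_HK_pullPos (g₁ * g₂) (FA_S29_HK_det_mul_pos h₁ h₂))
    ((FA_S29_HK_pullPos g₂ h₂).comp (FA_S29_HK_pullPos g₁ h₁)) (fun f => ?_) x
  rw [AlgHom.comp_apply, FA_S29_HK_pullPos_algebraMap, FA_S29_HK_pullPos_algebraMap,
    FA_S29_HK_pullPos_algebraMap, FA_S29_HK_pullHol_mul]

open Classical in
/-- **The pull-back** `x ↦ x ∘ g` on meromorphic functions (the identity if `det g ≤ 0`). -/
def FA_S29_HK_pull (g : GL (Fin 2) ℝ) : FA_Mero_Field →ₐ[ℂ] FA_Mero_Field :=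
  if hg : 0 < g.det.val then FA_S29_HK_pullPos g hg else AlgHom.id ℂ FA_Mero_Field

theorem FA_S29_HK_pull_of_pos (g : GL (Fin 2) ℝ) (hg : 0 < g.det.val) :
    FA_S29_HK_pull g = FA_S29_HK_pullPos g hg := by
  rw [FA_S29_HK_pull, dif_pos hg]

theorem FA_S29_HK_pull_algebraMap (g : GL (Fin 2) ℝ) (hg : 0 < g.det.val) (f : FA_Mero_Hol) :
    FA_S29_HK_pull g (algebraMap FA_Mero_Hol FA_Mero_Field f)
      = algebraMap FA_Mero_Hol FA_Mero_Field (FA_S29_HK_pullHol g hg f) := by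
  rw [FA_S29_HK_pull_of_pos g hg, FA_S29_HK_pullPos_algebraMap]

/-- `pull (g₁ g₂) = pull g₂ ∘ pull g₁`. -/
theorem FA_S29_HK_pull_mul (g₁ g₂ : GL (Fin 2) ℝ) (h₁ : 0 < g₁.det.val)
    (h₂ : 0 < g₂.det.val) (x : FA_Mero_Field) :
    FA_S29_HK_pull (g₁ * g₂) x = FA_S29_HK_pull g₂ (FA_S29_HK_pull g₁ x) := by
  rw [FA_S29_HK_pull_of_pos _ (FA_S29_HK_det_mul_pos h₁ h₂), FA_S29_HK_pull_of_pos _ h₁,
    FA_S29_HK_pull_of_pos _ h₂, FA_S29_HK_pullPos_mul]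

theorem FA_S29_HK_pull_one (x : FA_Mero_Field) : FA_S29_HK_pull 1 x = x := by
  have h1 : (0 : ℝ) < (1 : GL (Fin 2) ℝ).det.val := by simp
  refine FA_S29_HK_ext (FA_S29_HK_pull 1) (AlgHom.id ℂ FA_Mero_Field) (fun f => ?_) x
  rw [FA_S29_HK_pull_algebraMap 1 h1, AlgHom.id_apply]
  congr 1
  apply Subtype.ext
  funext z
  show (f : ℍ → ℂ) ((1 : GL (Fin 2) ℝ) • z) = (f : ℍ → ℂ) z
  rw [one_smul]

theorem FA_S29_HK_det_mapGL_pos (γ : SL(2, ℤ)) :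
    0 < (Matrix.SpecialLinearGroup.mapGL ℝ γ : GL (Fin 2) ℝ).det.val := by
  simp

/-- The pull-back by `γ ∈ SL(2, ℤ)` is the action of `γ⁻¹` of `Lib/Mero`. -/
theorem FA_S29_HK_pull_mapGL (γ : SL(2, ℤ)) (x : FA_Mero_Field) :
    FA_S29_HK_pull (Matrix.SpecialLinearGroup.mapGL ℝ γ) x = γ⁻¹ • x := by
  refine FA_S29_HK_ext (FA_S29_HK_pull (Matrix.SpecialLinearGroup.mapGL ℝ γ))
    (MulSemiringAction.toAlgHom ℂ FA_Mero_Field γ⁻¹) (fun f => ?_) x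
  rw [FA_S29_HK_pull_algebraMap _ (FA_S29_HK_det_mapGL_pos γ)]
  show _ = γ⁻¹ • (algebraMap FA_Mero_Hol FA_Mero_Field f)
  rw [FA_Mero_smul_algebraMap]
  congr 1
  apply Subtype.ext
  funext z
  show (f : ℍ → ℂ) ((Matrix.SpecialLinearGroup.mapGL ℝ γ : GL (Fin 2) ℝ) • z)
    = (f : ℍ → ℂ) ((γ⁻¹)⁻¹ • z)
  rw [inv_inv]
  rfl

/-- The action of `γ ∈ SL(2, ℤ)` of `Lib/Mero` is the pull-back by `γ⁻¹`. -/
theorem FA_S29_HK_smul_eq_pull (γ : SL(2, ℤ)) (x : FA_Mero_Field) :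
    γ • x = FA_S29_HK_pull (Matrix.SpecialLinearGroup.mapGL ℝ γ⁻¹) x := by
  rw [FA_S29_HK_pull_mapGL, inv_inv]

end Fermat.Agent.S29
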