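import Fermat.Agent.S29.HeckeGood

/-!
# S29, leaf L5, consumer form for the class map

`FA_S29_HG_hecke_rel`: let `h` be `χ`-equivariant and `h'` be `T_ℓ χ`-equivariant (both with good
translates).  If `f = c u^p h^p` and `f' = c' u'^p h'^p` with `u, u' ∈ F₀ˣ`, `c, c' ∈ ℂˣ`, then

    ∏_i f ∘ α_i = c'' · w^p · f'   with `c'' ∈ ℂˣ`, `w ∈ F₀ˣ`.

Together with the norm formula `τ (N_α (β f₀)) = ∏_i (τ f₀) ∘ α_i` (leaf L5c) this is the Hecke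
equivariance of the class map `χ ↦ [div (f_χ) / p]`.

`FA_S29_HG_mul_rel`, `FA_S29_HG_const_of_pow`: additivity and injectivity of the class map in
the same form.
-/

set_option autoImplicit false
set_option linter.unusedSectionVars false
set_option linter.style.haveILetI false
set_option linter.unusedVariables false

noncomputable section

open UpperHalfPlane CongruenceSubgroup Filter
open P2MW.S_ModularForm_heckeT_slash_eq_self_of_mem_Gamma0.ModularForm.HeckeSlashInvariance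
open scoped MatrixGroups Manifold Topology

namespace Fermat.Agent.S29

open Fermat.Agent.Mero Fermat.Agent.S24 FA_S22

variable (ℓ : ℕ) [Fact ℓ.Prime] (N : ℕ) [NeZero N]

/-- **L5, Hecke equivariance of the class map (analytic form).** -/
theorem FA_S29_HG_hecke_rel (hℓN : ¬ ℓ ∣ N) (p : ℕ) (M M' : ℕ) [NeZero M] [NeZero M']
    (χ : ↥(Gamma0 N) → ℂ) (h h' : FA_Mero_Field) (hh : h ≠ 0) (hh' : h' ≠ 0)
    (hχ : ∀ γ, FA_S29_HK_pull (FA_S22_phi N γ) h = χ γ • h)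
    (hgood : ∀ σ : SL(2, ℤ), σ • h ∈ FA_S24_good M)
    (hχ' : ∀ γ, FA_S29_HK_pull (FA_S22_phi N γ) h'
      = (∏ i, χ (FA_S22_tee (FA_S22_phi N) (heckeRep ℓ) (FA_S22_hexT N ℓ hℓN) γ i)) • h')
    (hgood' : ∀ σ : SL(2, ℤ), σ • h' ∈ FA_S24_good M')
    (f f' : FA_Mero_Field) (c c' : ℂ) (hc : c ≠ 0) (hc' : c' ≠ 0) (u u' : FA_Mero_Field)
    (hu : u ∈ FA_S24_F0 ℂ FA_S24_g N) (hu0 : u ≠ 0)
    (hu' : u' ∈ FA_S24_F0 ℂ FA_S24_g N) (hu'0 : u' ≠ 0)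
    (hf : f = c • (u ^ p * h ^ p)) (hf' : f' = c' • (u' ^ p * h' ^ p)) :
    ∃ (c'' : ℂ) (w : FA_Mero_Field), c'' ≠ 0 ∧ w ≠ 0 ∧ w ∈ FA_S24_F0 ℂ FA_S24_g N ∧
      ∏ i : OnePoint (ZMod ℓ), FA_S29_HK_pull (heckeRep ℓ i) f = c'' • (w ^ p * f') := by
  -- the characters do not vanish
  have hne : ∀ γ, (∏ i, χ (FA_S22_tee (FA_S22_phi N) (heckeRep ℓ) (FA_S22_hexT N ℓ hℓN) γ i))
      ≠ 0 := by
    intro γ h0
    have h1 := hχ' γ
    rw [h0, zero_smul] at h1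
    exact hh' ((map_eq_zero _).mp h1)
  set U := ∏ i : OnePoint (ZMod ℓ), FA_S29_HK_pull (heckeRep ℓ i) u with hU
  set H := ∏ i : OnePoint (ZMod ℓ), FA_S29_HK_pull (heckeRep ℓ i) h with hH
  have hUF : U ∈ FA_S24_F0 ℂ FA_S24_g N := FA_S29_HG_prod_mem_F0 ℓ N hℓN u hu
  have hRF : H / h' ∈ FA_S24_F0 ℂ FA_S24_g N :=
    FA_S29_HG_ratio_mem_F0 ℓ N hℓN M M' χ h h' hχ hgood hχ' hne hgood'
  have hU0 : U ≠ 0 := Finset.prod_ne_zero_iff.mpr fun i _ => (map_ne_zero _).mpr hu0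
  have hH0 : H ≠ 0 := Finset.prod_ne_zero_iff.mpr fun i _ => (map_ne_zero _).mpr hh
  set n := Fintype.card (OnePoint (ZMod ℓ)) with hn
  refine ⟨c ^ n / c', U * (H / h') / u', div_ne_zero (pow_ne_zero _ hc) hc',
    div_ne_zero (mul_ne_zero hU0 (div_ne_zero hH0 hh')) hu'0,
    div_mem (mul_mem hUF hRF) hu', ?_⟩
  have h1 : ∀ i : OnePoint (ZMod ℓ), FA_S29_HK_pull (heckeRep ℓ i) f
      = algebraMap ℂ FA_Mero_Field c *
        (FA_S29_HK_pull (heckeRep ℓ i) u ^ p * FA_S29_HK_pull (heckeRep ℓ i) h ^ p) := by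
    intro i
    rw [hf, Algebra.smul_def, map_mul, AlgHom.commutes, map_mul, map_pow, map_pow]
  rw [Finset.prod_congr rfl fun i _ => h1 i, Finset.prod_mul_distrib, Finset.prod_const,
    Finset.prod_mul_distrib, Finset.prod_pow, Finset.prod_pow, ← hU, ← hH, hf',
    Algebra.smul_def, Algebra.smul_def, Finset.card_univ, ← hn]
  have hc'' : algebraMap ℂ FA_Mero_Field c' ≠ 0 := (map_ne_zero _).mpr hc'
  have key : (U * (H / h') / u') ^ p * (u' ^ p * h' ^ p) = U ^ p * H ^ p := by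
    rw [← mul_pow, ← mul_pow, ← mul_pow]
    congr 1
    field_simp
  rw [map_div₀, map_pow, div_mul_eq_mul_div, mul_div_assoc]
  congr 1
  rw [mul_comm (algebraMap ℂ FA_Mero_Field c'), ← mul_assoc, mul_div_assoc, div_self hc'',
    mul_one, key]

/-- Additivity of the class map (analytic form): if `h₁, h₂, h₃` are equivariant for
`χ₁, χ₂, χ₁ χ₂`, then `h₃ / (h₁ h₂) ∈ F₀`. -/
theorem FA_S29_HG_mul_rel (M₁ M₂ M₃ : ℕ) [NeZero M₁] [NeZero M₂] [NeZero M₃]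
    (χ₁ χ₂ : ↥(Gamma0 N) → ℂ) (h₁ h₂ h₃ : FA_Mero_Field) (hh₁ : h₁ ≠ 0) (hh₂ : h₂ ≠ 0)
    (hχ₁ : ∀ γ : ↥(Gamma0 N), (γ : SL(2, ℤ)) • h₁ = χ₁ γ • h₁)
    (hχ₂ : ∀ γ : ↥(Gamma0 N), (γ : SL(2, ℤ)) • h₂ = χ₂ γ • h₂)
    (hχ₃ : ∀ γ : ↥(Gamma0 N), (γ : SL(2, ℤ)) • h₃ = (χ₁ γ * χ₂ γ) • h₃)
    (hg₁ : ∀ σ : SL(2, ℤ), σ • h₁ ∈ FA_S24_good M₁)
    (hg₂ : ∀ σ : SL(2, ℤ), σ • h₂ ∈ FA_S24_good M₂)
    (hg₃ : ∀ σ : SL(2, ℤ), σ • h₃ ∈ FA_S24_good M₃) :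
    h₃ / (h₁ * h₂) ∈ FA_S24_F0 ℂ FA_S24_g N := by
  haveI : NeZero (M₁ * M₂ * M₃) :=
    ⟨Nat.mul_ne_zero (Nat.mul_ne_zero (NeZero.ne M₁) (NeZero.ne M₂)) (NeZero.ne M₃)⟩
  refine FA_S29_RT_main N (M₁ * M₂ * M₃) _ ?_ ?_
  · intro γ hγ
    have e1 := hχ₁ ⟨γ, hγ⟩
    have e2 := hχ₂ ⟨γ, hγ⟩
    have e3 := hχ₃ ⟨γ, hγ⟩
    simp only [Algebra.smul_def] at e1 e2 e3
    have hc1 : algebraMap ℂ FA_Mero_Field (χ₁ ⟨γ, hγ⟩) ≠ 0 := by
      intro h0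
      rw [h0, zero_mul] at e1
      exact FA_Mero_smul_ne_zero γ hh₁ e1
    have hc2 : algebraMap ℂ FA_Mero_Field (χ₂ ⟨γ, hγ⟩) ≠ 0 := by
      intro h0
      rw [h0, zero_mul] at e2
      exact FA_Mero_smul_ne_zero γ hh₂ e2
    rw [smul_div₀', smul_mul', e1, e2, e3, map_mul]
    field_simp
  · intro σ
    rw [smul_div₀', smul_mul']
    exact div_mem (FA_S29_RT_good_mono (Dvd.intro_left _ rfl) (hg₃ σ))
      (mul_mem (FA_S29_RT_good_mono (Dvd.intro _ rfl |>.mul_right _) (hg₁ σ))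
        (FA_S29_RT_good_mono ((Dvd.intro_left _ rfl : M₂ ∣ M₁ * M₂).mul_right _) (hg₂ σ)))

/-- A meromorphic function whose `p`-th power is constant is constant. -/
theorem FA_S29_HG_const_of_pow (p : ℕ) (hp : 0 < p) (y : FA_Mero_Field) (c : ℂ)
    (hy : y ^ p = algebraMap ℂ FA_Mero_Field c) :
    ∃ d : ℂ, y = algebraMap ℂ FA_Mero_Field d := by
  have hroot : Polynomial.aeval y (Polynomial.X ^ p - Polynomial.C c : Polynomial ℂ) = 0 := by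
    simp [hy]
  have hint : IsIntegral ℂ y :=
    ⟨Polynomial.X ^ p - Polynomial.C c,
      Polynomial.monic_X_pow_sub_C c (Nat.pos_iff_ne_zero.mp hp), hroot⟩
  have hdeg := IsAlgClosed.degree_eq_one_of_irreducible ℂ (minpoly.irreducible hint)
  obtain ⟨d, hd⟩ := minpoly.mem_range_of_degree_eq_one ℂ y hdeg
  exact ⟨d, hd.symm⟩

/-- Injectivity of the class map (analytic form): if `h` is `χ`-equivariant and `h ^ p` is a
constant times a `p`-th power in `F₀`, then `χ = 1`. -/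
theorem FA_S29_HG_char_trivial (p : ℕ) (hp : 0 < p)
    (χ : ↥(Gamma0 N) → ℂ) (h : FA_Mero_Field) (hh : h ≠ 0)
    (hχ : ∀ γ : ↥(Gamma0 N), (γ : SL(2, ℤ)) • h = χ γ • h)
    (c : ℂ) (u : FA_Mero_Field) (hu : u ∈ FA_S24_F0 ℂ FA_S24_g N) (hu0 : u ≠ 0)
    (hpow : h ^ p = c • u ^ p) (γ : ↥(Gamma0 N)) : χ γ = 1 := by
  have hP := FA_S24_props_final ℂ FA_S24_tower_complex N
  have h1 : (h / u) ^ p = algebraMap ℂ FA_Mero_Field c := by
    rw [div_pow, hpow, Algebra.smul_def, mul_div_assoc, div_self (pow_ne_zero _ hu0), mul_one]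
  obtain ⟨d, hd⟩ := FA_S29_HG_const_of_pow p hp (h / u) c h1
  have h2 : h = algebraMap ℂ FA_Mero_Field d * u := by
    rw [← hd, div_mul_cancel₀ _ hu0]
  have h3 : (γ : SL(2, ℤ)) • h = h := by
    have hfix : (γ : SL(2, ℤ)) • u = u := hP.fix_F0 _ γ.2 hu
    rw [h2, smul_mul', FA_Mero_smul_algebraMap_complex, hfix]
  have h4 := hχ γ
  rw [h3, Algebra.smul_def] at h4
  have h5 : (algebraMap ℂ FA_Mero_Field (χ γ) - 1) * h = 0 := by
    rw [sub_mul, one_mul, ← h4, sub_self]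
  rcases mul_eq_zero.mp h5 with h6 | h6
  · have h7 : algebraMap ℂ FA_Mero_Field (χ γ) = algebraMap ℂ FA_Mero_Field 1 := by
      rw [map_one]
      exact sub_eq_zero.mp h6
    exact (algebraMap ℂ FA_Mero_Field).injective h7
  · exact absurd h6 hh

end Fermat.Agent.S29
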