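import Fermat.Agent.S29.ModPkg

/-!
# Item 87, leaf L3*/L2: fixed fields in the Galois package

* `FA_S29_MOD_Fam.ker_le` : the kernel of the action on `E_S` is contained in `Γ₀(N)`;
* `FA_S29_MOD_Fam.fix_F0` : `Γ₀(N)` fixes `F₀`;
* `FA_S29_MOD_Fam.mem_F0_of_fixed` : `E_S^{Γ₀(N)} = F₀` (Galois correspondence).
-/

set_option autoImplicit false

noncomputable section

open UpperHalfPlane Complex MatrixGroups
open scoped Manifold Topology

namespace Fermat.Agent.S29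

open Fermat.Agent.Mero Fermat.Agent.S24 AlgebraicCurve IntermediateField

variable {N : ℕ} [NeZero N] {S : Set FA_Mero_Field}

/-- The analytic package of S24 over `ℂ`. -/
theorem FA_S29_MOD_props (N : ℕ) [NeZero N] : FA_S24_Props FA_S29_MOD_rho FA_S24_g N :=
  FA_S24_props_final ℂ FA_S24_tower_complex N

namespace FA_S29_MOD_Fam

variable (hS : FA_S29_MOD_Fam N S)

include hS

theorem gN_mem : FA_S24_g N ∈ FA_S29_MOD_E S :=
  hS.F0_le (FA_S24_g_mem_F0 ℂ FA_S24_g N dvd_rfl)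

theorem g1_mem : FA_S24_g 1 ∈ FA_S29_MOD_E S :=
  hS.F0_le (FA_S24_g_mem_F0 ℂ FA_S24_g N (one_dvd N))

theorem ker_le : hS.phi.ker ≤ CongruenceSubgroup.Gamma0 N := by
  intro γ hγ
  rw [MonoidHom.mem_ker] at hγ
  apply (FA_S29_MOD_props N).stab
  have h1 := congrArg (fun σ : FA_S29_MOD_E S ≃ₐ[ℂ] FA_S29_MOD_E S =>
    ((σ ⟨FA_S24_g N, hS.gN_mem⟩ : FA_S29_MOD_E S) : FA_Mero_Field)) hγ
  exact h1

omit hS in
theorem fix_F0 (γ : SL(2, ℤ)) (hγ : γ ∈ CongruenceSubgroup.Gamma0 N) {e : FA_Mero_Field}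
    (he : e ∈ FA_S24_F0 ℂ FA_S24_g N) : γ • e = e :=
  (FA_S29_MOD_props N).fix_F0 γ hγ he

set_option synthInstance.maxHeartbeats 400000 in
/-- Galois correspondence: an element of `E_S` fixed by `Γ₀(N)` lies in `F₀`. -/
theorem mem_F0_of_fixed (hL1 : FA_S29_MOD_LevelOne N) (e : FA_S29_MOD_E S)
    (he : ∀ γ ∈ CongruenceSubgroup.Gamma0 N, hS.phi γ e = e) :
    (e : FA_Mero_Field) ∈ FA_S24_F0 ℂ FA_S24_g N := by
  classical
  -- the finite group `G`
  let G : Subgroup (FA_S29_MOD_E S ≃ₐ[ℂ] FA_S29_MOD_E S) := hS.phi.range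
  have hfin : Finite G := Set.finite_coe_iff.mpr hS.finite_range
  -- the intermediate field `F₀'` of `E / E^G`
  let S' : Subfield (FA_S29_MOD_E S) :=
    (FA_S24_F0 ℂ FA_S24_g N).toSubfield.comap (FA_S29_MOD_E S).val
  have hS' : ∀ x : FixedPoints.subfield G (FA_S29_MOD_E S),
      algebraMap (FixedPoints.subfield G (FA_S29_MOD_E S)) (FA_S29_MOD_E S) x ∈ S' := by
    intro x
    show ((x : FA_S29_MOD_E S) : FA_Mero_Field) ∈ FA_S24_F0 ℂ FA_S24_g N
    have hx : ∀ γ : SL(2, ℤ), γ • ((x : FA_S29_MOD_E S) : FA_Mero_Field)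
        = ((x : FA_S29_MOD_E S) : FA_Mero_Field) := by
      intro γ
      have h1 := x.2 ⟨hS.phi γ, ⟨γ, rfl⟩⟩
      exact congrArg (fun y : FA_S29_MOD_E S => (y : FA_Mero_Field)) h1
    have h2 := hS.invariants hL1 _ (x : FA_S29_MOD_E S).2 hx
    have h3 : IntermediateField.adjoin ℂ {FA_S24_g 1} ≤ FA_S24_F0 ℂ FA_S24_g N := by
      rw [adjoin_le_iff]
      rintro y hy
      rw [Set.mem_singleton_iff] at hy
      subst hy
      exact FA_S24_g_mem_F0 ℂ FA_S24_g N (one_dvd N)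
    exact h3 h2
  let F0' : IntermediateField (FixedPoints.subfield G (FA_S29_MOD_E S)) (FA_S29_MOD_E S) :=
    S'.toIntermediateField hS'
  have hcomm : SMulCommClass G (FixedPoints.subfield G (FA_S29_MOD_E S)) (FA_S29_MOD_E S) :=
    inferInstance
  have hcomm' : SMulCommClass (fixingSubgroup G (F0' : Set (FA_S29_MOD_E S)))
      (FixedPoints.subfield G (FA_S29_MOD_E S)) (FA_S29_MOD_E S) :=
    ⟨fun h x e => smul_comm (h : G) x e⟩
  have key := IsGaloisGroup.fixedPoints_fixingSubgroup G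
    (FixedPoints.subfield G (FA_S29_MOD_E S)) (FA_S29_MOD_E S) F0'
  have hmem : e ∈ (FixedPoints.intermediateField (fixingSubgroup G (F0' : Set (FA_S29_MOD_E S))) :
      IntermediateField (FixedPoints.subfield G (FA_S29_MOD_E S)) (FA_S29_MOD_E S)) := by
    rw [FixedPoints.mem_intermediateField_iff]
    rintro ⟨⟨σ, ⟨γ, rfl⟩⟩, hσ⟩
    show hS.phi γ e = e
    apply he
    apply (FA_S29_MOD_props N).stab
    rw [_root_.mem_fixingSubgroup_iff] at hσ
    have h1 := hσ ⟨FA_S24_g N, hS.gN_mem⟩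
      (show ((⟨FA_S24_g N, hS.gN_mem⟩ : FA_S29_MOD_E S) : FA_Mero_Field)
          ∈ FA_S24_F0 ℂ FA_S24_g N from FA_S24_g_mem_F0 ℂ FA_S24_g N dvd_rfl)
    exact congrArg (fun y : FA_S29_MOD_E S => (y : FA_Mero_Field)) h1
  rw [key] at hmem
  exact hmem

/-- **Leaf L2 in the package**: an element of `E_S` fixed by `Γ₀(N)` lies in `F₀`. -/
theorem mem_F0_of_fixed' (hL1 : FA_S29_MOD_LevelOne N) (e : FA_Mero_Field)
    (heS : e ∈ FA_S29_MOD_E S)
    (he : ∀ γ ∈ CongruenceSubgroup.Gamma0 N, γ • e = e) :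
    e ∈ FA_S24_F0 ℂ FA_S24_g N :=
  hS.mem_F0_of_fixed hL1 ⟨e, heS⟩ (fun γ hγ => Subtype.ext (he γ hγ))

end FA_S29_MOD_Fam

end Fermat.Agent.S29

end
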