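import Fermat.Agent.S29.ModPlaces

/-!
# Item 87, leaf L3* (concrete half): `p ∣ ord_v (h ^ p)` at every place of `F₀`

`FA_S29_MOD_Model N L F0` : the Galois model `ℂ(j) ⊆ F0 ⊆ L` inside `FA_Mero_Field`
(`L` stable under `SL(2, ℤ)` with finite image, `L^{SL(2,ℤ)} = ℂ(j)`, `L^{Γ₀(N)} = F0`, all
elements of `L` good, the inertia images are large enough).  It is stated for *variable*
intermediate fields `L`, `F0` (this keeps the kernel away from comparing the two concrete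
subtypes).  For `h ∈ L`, `h ≠ 0`, fixed by the elliptic and parabolic elements of `Γ₀(N)`, with
`h ^ p = f ∈ F0`:

* `FA_S29_MOD_Model.dvd_fin` : `p ∣ ord_v f` at the places `v` of `F0` over `j = c`;
* `FA_S29_MOD_Model.dvd_inf` : `p ∣ ord_v f` at the places `v` of `F0` over `j = ∞`;
* `FA_S29_MOD_Model.dvd` : `p ∣ ord_v f` at all places `v` of `F0`;
* `FA_S29_MOD_Model.isFF` : `F0` is a function field;
* `FA_S29_MOD_Fam.model` : the model of a family, `L = E_S`, `F0 = ℂ(j (d z) : d ∣ N)`.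
-/

set_option autoImplicit false
set_option linter.style.haveILetI false

noncomputable section

open UpperHalfPlane Complex MatrixGroups
open scoped Manifold Topology

namespace Fermat.Agent.S29

open Fermat.Agent.Mero Fermat.Agent.S24 AlgebraicCurve IntermediateField

/-- The Galois model inside the field of meromorphic functions. -/
structure FA_S29_MOD_Model (N : ℕ) (L F0 : IntermediateField ℂ FA_Mero_Field) : Prop where
  le : F0 ≤ L
  stable : ∀ (γ : SL(2, ℤ)), ∀ e ∈ L, FA_S29_MOD_rho γ e ∈ L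
  fin : (Set.range (FA_S29_MOD_res FA_S29_MOD_rho L stable)).Finite
  g1 : FA_S24_g 1 ∈ F0
  invariants : ∀ e ∈ L, (∀ γ : SL(2, ℤ), γ • e = e) →
    e ∈ IntermediateField.adjoin ℂ {FA_S24_g 1}
  ker_le : (FA_S29_MOD_res FA_S29_MOD_rho L stable).ker ≤ CongruenceSubgroup.Gamma0 N
  fix_F0 : ∀ γ ∈ CongruenceSubgroup.Gamma0 N, ∀ e ∈ F0, γ • e = e
  mem_F0 : ∀ e ∈ L, (∀ γ ∈ CongruenceSubgroup.Gamma0 N, γ • e = e) → e ∈ F0
  good : ∀ e ∈ L, e ∈ FA_S24_good N
  card : ∀ c : ℂ, FA_S24_eBound c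
    ≤ Nat.card ((FA_S24_IK c).map (FA_S29_MOD_res FA_S29_MOD_rho L stable))
  cardT : (N : ℤ)
    ≤ Nat.card ((Subgroup.zpowers ModularGroup.T).map (FA_S29_MOD_res FA_S29_MOD_rho L stable))

theorem FA_S29_MOD_smul_g_one (γ : SL(2, ℤ)) :
    γ • (FA_S24_g 1 : FA_Mero_Field) = FA_S24_g 1 :=
  (FA_S29_MOD_props 1).fix_g_one γ

variable {N : ℕ} [NeZero N] {L F0 : IntermediateField ℂ FA_Mero_Field}

namespace FA_S29_MOD_Model

variable (hM : FA_S29_MOD_Model N L F0)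

include hM

/-- The action of `SL(2, ℤ)` on `L`. -/
def phi : SL(2, ℤ) →* (L ≃ₐ[ℂ] L) := FA_S29_MOD_res FA_S29_MOD_rho L hM.stable

theorem phi_coe (γ : SL(2, ℤ)) (e : L) :
    ((hM.phi γ e : L) : FA_Mero_Field) = γ • (e : FA_Mero_Field) := rfl

/-- `j` as an element of `F0`. -/
def jF : ↥F0 := ⟨FA_S24_g 1, hM.g1⟩

theorem jF_coe : ((hM.jF : ↥F0) : FA_Mero_Field) = FA_S24_g 1 := rfl

theorem jF_transc : Transcendental ℂ hM.jF := by
  intro halg
  apply FA_S24_transc ℂ FA_S24_tower_complex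
  have := halg.algHom F0.val
  exact this

theorem adjoin_map :
    (IntermediateField.adjoin ℂ {hM.jF}).map F0.val
      = IntermediateField.adjoin ℂ {FA_S24_g 1} := by
  rw [IntermediateField.adjoin_map, Set.image_singleton]
  rfl

/-- The inclusion `F0 → L`. -/
def incl : ↥F0 →ₐ[ℂ] ↥L := IntermediateField.inclusion hM.le

/-- The `F0`-algebra structure of `L`. -/
@[reducible]
def alg : Algebra ↥F0 ↥L := hM.incl.toRingHom.toAlgebra

set_option synthInstance.maxHeartbeats 400000 in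
theorem tower :
    letI := hM.alg
    IsScalarTower ℂ ↥F0 ↥L :=
  letI := hM.alg
  IsScalarTower.of_algebraMap_eq (fun c => (hM.incl.commutes c).symm)

theorem algebraMap_coe (f : ↥F0) :
    letI := hM.alg
    ((algebraMap ↥F0 ↥L f : ↥L) : FA_Mero_Field) = (f : FA_Mero_Field) := rfl

/-- The invariants of `SL(2, ℤ)` in `L`, in the form of the abstract model. -/
theorem hfixΓ (x : ↥F0)
    (hx : IntermediateField.adjoin ℂ {hM.jF} ≤ IntermediateField.adjoin ℂ {x}) :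
    letI := hM.alg
    ∀ e : ↥L, (∀ γ : SL(2, ℤ), hM.phi γ e = e) →
      ∃ f : ↥F0, f ∈ IntermediateField.adjoin ℂ {x} ∧
        algebraMap ↥F0 ↥L f = e := by
  letI := hM.alg
  intro e he
  have he' : ∀ γ : SL(2, ℤ), γ • (e : FA_Mero_Field) = (e : FA_Mero_Field) := fun γ =>
    congrArg (fun y : ↥L => (y : FA_Mero_Field)) (he γ)
  have h1 := hM.invariants (e : FA_Mero_Field) e.2 he'
  rw [← hM.adjoin_map] at h1
  obtain ⟨f, hf, hfe⟩ := h1
  exact ⟨f, hx hf, Subtype.ext hfe⟩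

theorem hH :
    letI := hM.alg
    ∀ γ ∈ CongruenceSubgroup.Gamma0 N, ∀ f : ↥F0,
      hM.phi γ (algebraMap ↥F0 ↥L f)
        = algebraMap ↥F0 ↥L f := by
  letI := hM.alg
  intro γ hγ f
  apply Subtype.ext
  show γ • (f : FA_Mero_Field) = (f : FA_Mero_Field)
  exact hM.fix_F0 γ hγ _ f.2

theorem hfixH :
    letI := hM.alg
    ∀ e : ↥L, (∀ γ ∈ CongruenceSubgroup.Gamma0 N, hM.phi γ e = e) →
      e ∈ Set.range (algebraMap ↥F0 ↥L) := by
  letI := hM.alg
  intro e he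
  have h1 := hM.mem_F0 (e : FA_Mero_Field) e.2
    (fun γ hγ => congrArg (fun y : ↥L => (y : FA_Mero_Field)) (he γ hγ))
  exact ⟨⟨(e : FA_Mero_Field), h1⟩, Subtype.ext rfl⟩

theorem hxΓ (x : ↥F0)
    (hx : ∀ γ : SL(2, ℤ), γ • (x : FA_Mero_Field) = (x : FA_Mero_Field)) :
    letI := hM.alg
    ∀ γ : SL(2, ℤ), hM.phi γ (algebraMap ↥F0 ↥L x)
      = algebraMap ↥F0 ↥L x := by
  letI := hM.alg
  intro γ
  apply Subtype.ext
  exact hx γ


/-- **L3\*, finite part.** -/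
theorem dvd_fin (c : ℂ) (h : FA_Mero_Field) (hhE : h ∈ L)
    (hh0 : h ≠ 0)
    (hχ : ∀ γ : SL(2, ℤ), ∀ i ∈ FA_S24_IK c, γ * i * γ⁻¹ ∈ CongruenceSubgroup.Gamma0 N →
      (γ * i * γ⁻¹) • h = h)
    (p : ℕ) (f : ↥F0) (hf : h ^ p = (f : FA_Mero_Field))
    (v : Place ℂ ↥F0)
    (hv : 0 < v.ord (hM.jF - algebraMap ℂ ↥F0 c)) :
    (p : ℤ) ∣ v.ord f := by
  letI := hM.alg
  haveI := hM.tower
  set x : ↥F0 :=
    hM.jF - algebraMap ℂ ↥F0 c with hxdef
  have hxcoe : (x : FA_Mero_Field) = FA_S24_g 1 - algebraMap ℂ FA_Mero_Field c := rfl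
  have hxT : Transcendental ℂ x := FA_RR.transcendental_sub_const (hM.jF_transc) c
  have hadj : IntermediateField.adjoin ℂ {hM.jF} ≤ IntermediateField.adjoin ℂ {x} := by
    rw [IntermediateField.adjoin_le_iff]
    rintro y hy
    rw [Set.mem_singleton_iff] at hy
    subst hy
    have h1 : hM.jF = x + algebraMap ℂ ↥F0 c := by
      rw [hxdef]; ring
    rw [h1]
    exact add_mem (IntermediateField.subset_adjoin ℂ _ rfl) (IntermediateField.algebraMap_mem _ _)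
  have hxfix : ∀ γ : SL(2, ℤ), γ • (x : FA_Mero_Field) = (x : FA_Mero_Field) := by
    intro γ
    rw [hxcoe, smul_sub, FA_S29_MOD_smul_g_one, FA_Mero_smul_algebraMap_complex]
  -- the place
  have hν := FA_S29_MOD_isVal_pt (L) (hM.le hM.g1) c
  obtain ⟨w, m, hm, hord, -⟩ := hν.exists_place
  have hpos := FA_S29_MOD_ord_g_one_sub_pos c
  have hle := FA_S29_MOD_ord_g_one_sub_le c
  have ha0 : algebraMap ↥F0 ↥L x ≠ 0 := by
    intro h0
    exact hxT ((map_eq_zero _).mp h0 ▸ isAlgebraic_zero)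
  have hval : FA_Mero_ord (FA_S24_pt ℂ c) (FA_S24_g 1 - algebraMap ℂ FA_Mero_Field c)
      = m * w.ord (algebraMap ↥F0 ↥L x) := by
    rw [← hord _ ha0]
    rfl
  have hwpos : 0 < w.ord (algebraMap ↥F0 ↥L x) := by
    rw [hval] at hpos
    by_contra hcon
    have hcon' := not_lt.mp hcon
    exact absurd hpos (not_lt.mpr (mul_nonpos_of_nonneg_of_nonpos hm.le hcon'))
  have hI : ∀ γ ∈ FA_S24_IK c, ∀ e : ↥L, w.ord (hM.phi γ e) = w.ord e := by
    intro γ hγ e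
    by_cases he0 : e = 0
    · subst he0
      rw [map_zero]
    have he0' : hM.phi γ e ≠ 0 := by
      rwa [ne_eq, EmbeddingLike.map_eq_zero_iff]
    have h1 := hord _ he0
    have h2 := hord _ he0'
    have h3 : FA_Mero_ord (FA_S24_pt ℂ c) ((hM.phi γ e : ↥L) : FA_Mero_Field)
        = FA_Mero_ord (FA_S24_pt ℂ c) (e : FA_Mero_Field) := by
      rw [hM.phi_coe, FA_Mero_ord_smul, FA_S24_IK_fix ℂ c hγ]
    rw [h3, h1] at h2
    exact (mul_left_cancel₀ hm.ne' h2).symm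
  have he : w.ord (algebraMap ↥F0 ↥L x)
      ≤ (Nat.card ((FA_S24_IK c).map hM.phi) : ℤ) := by
    have h1 : w.ord (algebraMap ↥F0 ↥L x)
        ≤ m * w.ord (algebraMap ↥F0 ↥L x) := by
      nlinarith
    calc w.ord (algebraMap ↥F0 ↥L x)
        ≤ FA_Mero_ord (FA_S24_pt ℂ c) (FA_S24_g 1 - algebraMap ℂ FA_Mero_Field c) := by
          rw [hval]; exact h1
      _ ≤ FA_S24_eBound c := hle
      _ ≤ _ := hM.card c
  exact FA_S29_PL_dvd ℂ ↥F0 ↥L SL(2, ℤ) hM.phi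
    hM.fin x hxT (hM.hxΓ x hxfix) (hM.hfixΓ x hadj) (CongruenceSubgroup.Gamma0 N)
    hM.ker_le hM.hH hM.hfixH (FA_S24_IK c) w hwpos hI he ⟨h, hhE⟩
    (fun h0 => hh0 (congrArg Subtype.val h0))
    (fun γ i hi hmem => Subtype.ext (hχ γ i hi hmem)) p f (Subtype.ext hf) v hv

/-- **L3\*, the part at infinity.** -/
theorem dvd_inf (h : FA_Mero_Field) (hhE : h ∈ L)
    (hh0 : h ≠ 0)
    (hχ : ∀ γ : SL(2, ℤ), ∀ i ∈ Subgroup.zpowers ModularGroup.T,
      γ * i * γ⁻¹ ∈ CongruenceSubgroup.Gamma0 N → (γ * i * γ⁻¹) • h = h)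
    (p : ℕ) (f : ↥F0) (hf : h ^ p = (f : FA_Mero_Field))
    (v : Place ℂ ↥F0)
    (hv : v.ord (hM.jF) < 0) :
    (p : ℤ) ∣ v.ord f := by
  letI := hM.alg
  haveI := hM.tower
  set x : ↥F0 := (hM.jF)⁻¹ with hxdef
  have hxcoe : (x : FA_Mero_Field) = (FA_S24_g 1)⁻¹ := rfl
  have hxT : Transcendental ℂ x := FA_RR.transcendental_inv (hM.jF_transc)
  have hadj : IntermediateField.adjoin ℂ {hM.jF} ≤ IntermediateField.adjoin ℂ {x} := by
    rw [IntermediateField.adjoin_le_iff]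
    rintro y hy
    rw [Set.mem_singleton_iff] at hy
    subst hy
    have h1 : hM.jF = x⁻¹ := by
      rw [hxdef, inv_inv]
    rw [h1]
    exact inv_mem (IntermediateField.subset_adjoin ℂ _ rfl)
  have hxfix : ∀ γ : SL(2, ℤ), γ • (x : FA_Mero_Field) = (x : FA_Mero_Field) := by
    intro γ
    rw [hxcoe, smul_inv'', FA_S29_MOD_smul_g_one]
  -- the place
  have hν := FA_S29_MOD_isVal_inf (L) N (hM.le hM.g1) hM.good
  obtain ⟨w, m, hm, hord, -⟩ := hν.exists_place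
  have hg1 := FA_S29_MOD_order_g_one N
  have hN0 : (0 : ℤ) < N := by exact_mod_cast Nat.pos_of_ne_zero (NeZero.ne N)
  have ha0 : algebraMap ↥F0 ↥L (hM.jF) ≠ 0 := by
    intro h0
    exact (hM.jF_transc) ((map_eq_zero _).mp h0 ▸ isAlgebraic_zero)
  have hval : -(N : ℤ)
      = m * w.ord (algebraMap ↥F0 ↥L (hM.jF)) := by
    rw [← hord _ ha0, ← hg1]
    rfl
  have hxord : w.ord (algebraMap ↥F0 ↥L x)
      = - w.ord (algebraMap ↥F0 ↥L (hM.jF)) := by
    rw [hxdef, map_inv₀, Place.ord_inv]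
  have hwneg : w.ord (algebraMap ↥F0 ↥L
      (hM.jF)) < 0 := by
    by_contra hcon
    have hcon' := not_lt.mp hcon
    have := mul_nonneg hm.le hcon'
    omega
  have hwpos : 0 < w.ord (algebraMap ↥F0 ↥L x) := by
    rw [hxord]
    omega
  have hI : ∀ γ ∈ Subgroup.zpowers ModularGroup.T, ∀ e : ↥L,
      w.ord (hM.phi γ e) = w.ord e := by
    intro γ hγ e
    by_cases he0 : e = 0
    · subst he0
      rw [map_zero]
    have he0' : hM.phi γ e ≠ 0 := by
      rwa [ne_eq, EmbeddingLike.map_eq_zero_iff]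
    have h1 := hord _ he0
    have h2 := hord _ he0'
    have h3 : (FA_S24_Qinf N ((hM.phi γ e : ↥L) : FA_Mero_Field)).order
        = (FA_S24_Qinf N (e : FA_Mero_Field)).order := by
      rw [hM.phi_coe]
      exact (FA_S24_TW_good FA_S24_TW N (hM.good _ e.2) γ hγ).2
    rw [h3, h1] at h2
    exact (mul_left_cancel₀ hm.ne' h2).symm
  have he : w.ord (algebraMap ↥F0 ↥L x)
      ≤ (Nat.card ((Subgroup.zpowers ModularGroup.T).map hM.phi) : ℤ) := by
    have h1 : - w.ord (algebraMap ↥F0 ↥L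
        (hM.jF))
        ≤ - (m * w.ord (algebraMap ↥F0 ↥L
          (hM.jF))) := by
      nlinarith
    calc w.ord (algebraMap ↥F0 ↥L x)
        = - w.ord (algebraMap ↥F0 ↥L
            (hM.jF)) := hxord
      _ ≤ (N : ℤ) := by omega
      _ ≤ _ := hM.cardT
  have hv' : 0 < v.ord x := by
    rw [hxdef, Place.ord_inv]
    omega
  exact FA_S29_PL_dvd ℂ ↥F0 ↥L SL(2, ℤ) hM.phi
    hM.fin x hxT (hM.hxΓ x hxfix) (hM.hfixΓ x hadj) (CongruenceSubgroup.Gamma0 N)
    hM.ker_le hM.hH hM.hfixH (Subgroup.zpowers ModularGroup.T) w hwpos hI he ⟨h, hhE⟩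
    (fun h0 => hh0 (congrArg Subtype.val h0))
    (fun γ i hi hmem => Subtype.ext (hχ γ i hi hmem)) p f (Subtype.ext hf) v hv'

/-- `F0` is a function field. -/
theorem isFF : FA_RR_IsFF ℂ ↥F0 := by
  letI := hM.alg
  haveI := hM.tower
  exact (FA_S24_A_degree ℂ ↥F0 ↥L SL(2, ℤ) hM.phi
    hM.fin (hM.jF) (hM.jF_transc)
    (hM.hxΓ (hM.jF) (fun γ => FA_S29_MOD_smul_g_one γ))
    (hM.hfixΓ (hM.jF) le_rfl) (CongruenceSubgroup.Gamma0 N)
    hM.ker_le hM.hH hM.hfixH).1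

/-- **L3\*.**  If `h ∈ E_S`, `h ≠ 0`, is fixed by the elliptic and parabolic elements of
`Γ₀(N)` and `h ^ p = f ∈ F0`, then `p ∣ ord_v f` at every place `v` of `F0`. -/
theorem dvd (h : FA_Mero_Field) (hhE : h ∈ L) (hh0 : h ≠ 0)
    (hχ : ∀ γ i : SL(2, ℤ),
      (i ∈ Subgroup.zpowers ModularGroup.S ∨
        i ∈ Subgroup.zpowers (ModularGroup.S * ModularGroup.T) ∨
        i ∈ Subgroup.zpowers ModularGroup.T) →
      γ * i * γ⁻¹ ∈ CongruenceSubgroup.Gamma0 N → (γ * i * γ⁻¹) • h = h)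
    (p : ℕ) (f : ↥F0) (hf : h ^ p = (f : FA_Mero_Field))
    (v : Place ℂ ↥F0) :
    (p : ℤ) ∣ v.ord f := by
  classical
  rcases lt_or_ge (v.ord (hM.jF)) 0 with hneg | hnn
  · exact hM.dvd_inf h hhE hh0 (fun γ i hi => hχ γ i (Or.inr (Or.inr hi))) p f hf v hneg
  · obtain ⟨c, hc⟩ := FA_RR.exists_const_ord_pos hM.isFF v (hM.jF_transc) hnn
    refine hM.dvd_fin c h hhE hh0 ?_ p f hf v hc
    intro γ i hi
    unfold FA_S24_IK at hi
    split_ifs at hi with h0 h1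
    · exact hχ γ i (Or.inr (Or.inl hi))
    · exact hχ γ i (Or.inl hi)
    · rw [Subgroup.mem_bot] at hi
      subst hi
      exact hχ γ 1 (Or.inl (one_mem _))

end FA_S29_MOD_Model

/-! ### The model of a family -/

variable {S : Set FA_Mero_Field}

/-- The model of a family. -/
theorem FA_S29_MOD_Fam.model (hS : FA_S29_MOD_Fam N S) (hN : 2 ≤ N) :
    FA_S29_MOD_Model N (FA_S29_MOD_E S) (FA_S24_F0 ℂ FA_S24_g N) where
  le := hS.F0_le
  stable := hS.map_mem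
  fin := hS.finite_range
  g1 := FA_S24_g_mem_F0 ℂ FA_S24_g N (one_dvd N)
  invariants := hS.invariants (FA_S29_MOD_levelOne N)
  ker_le := hS.ker_le
  fix_F0 := fun γ hγ _ he => FA_S29_MOD_Fam.fix_F0 γ hγ he
  mem_F0 := fun e he hfix => hS.mem_F0_of_fixed' (FA_S29_MOD_levelOne N) e he hfix
  good := hS.le_good
  card := hS.eBound_le_card hN
  cardT := hS.card_T

end Fermat.Agent.S29

end
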