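import Fermat.Agent.S24.DGeneric

/-!
# Item 87 (S42/S29), leaf L3*/L2: the Galois package of a family of good functions

`Ω = FA_Mero_Field`, with the action `ρ` of `SL(2, ℤ)`.  A *family* is an `SL(2, ℤ)`-stable set
`S ⊆ Ω` of `N`-good functions containing the generators `j (d γ z)` of S24 and fixed pointwise by
a normal subgroup of finite index.  `E_S := ℂ(S)`.

* `FA_S29_MOD_res` : the action of `SL(2, ℤ)` on a stable intermediate field;
* `FA_S29_MOD_Fam.finite_range`, `.ker_le` (`ker ≤ Γ₀(N)`), `.le_good`;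
* `FA_S29_MOD_Fam.invariants` : `E_S^{SL(2,ℤ)} = ℂ(j)`, from the level one statement
  `FA_S29_MOD_LevelOne N`;
* `FA_S29_MOD_Fam.mem_F0_of_fixed` : `E_S^{Γ₀(N)} = F₀ = ℂ(j (d z) : d ∣ N)`.
-/

set_option autoImplicit false

noncomputable section

open UpperHalfPlane Complex MatrixGroups
open scoped Manifold Topology

namespace Fermat.Agent.S29

open Fermat.Agent.Mero Fermat.Agent.S24 AlgebraicCurve IntermediateField

/-! ### Restriction of an action to a stable intermediate field -/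

section restrict

variable {K M : Type} [Field K] [Field M] [Algebra K M]
variable (ρ : SL(2, ℤ) →* (M ≃ₐ[K] M)) (L : IntermediateField K M)
  (hL : ∀ (γ : SL(2, ℤ)), ∀ e ∈ L, ρ γ e ∈ L)

/-- The restriction of `ρ γ` to `L` as an algebra homomorphism. -/
def FA_S29_MOD_resHom (γ : SL(2, ℤ)) : L →ₐ[K] L :=
  AlgHom.codRestrict (((ρ γ : M →ₐ[K] M)).comp L.val) L.toSubalgebra (fun e => hL γ e e.2)

theorem FA_S29_MOD_resHom_coe (γ : SL(2, ℤ)) (e : L) :
    ((FA_S29_MOD_resHom ρ L hL γ e : L) : M) = ρ γ (e : M) := rfl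

/-- The restriction of `ρ γ` to `L`. -/
def FA_S29_MOD_resEquiv (γ : SL(2, ℤ)) : L ≃ₐ[K] L :=
  AlgEquiv.ofAlgHom (FA_S29_MOD_resHom ρ L hL γ) (FA_S29_MOD_resHom ρ L hL γ⁻¹)
    (by
      ext e
      show ρ γ (ρ γ⁻¹ (e : M)) = (e : M)
      rw [← AlgEquiv.mul_apply, ← map_mul, mul_inv_cancel, map_one]
      rfl)
    (by
      ext e
      show ρ γ⁻¹ (ρ γ (e : M)) = (e : M)
      rw [← AlgEquiv.mul_apply, ← map_mul, inv_mul_cancel, map_one]
      rfl)

/-- The action of `SL(2, ℤ)` on a stable intermediate field. -/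
def FA_S29_MOD_res : SL(2, ℤ) →* (L ≃ₐ[K] L) where
  toFun := FA_S29_MOD_resEquiv ρ L hL
  map_one' := by
    ext e
    show ρ 1 (e : M) = (e : M)
    rw [map_one]
    rfl
  map_mul' γ γ' := by
    ext e
    show ρ (γ * γ') (e : M) = ρ γ (ρ γ' (e : M))
    rw [map_mul]
    rfl

@[simp]
theorem FA_S29_MOD_res_coe (γ : SL(2, ℤ)) (e : L) :
    ((FA_S29_MOD_res ρ L hL γ e : L) : M) = ρ γ (e : M) := rfl

end restrict

/-! ### Families -/

/-- The action of `SL(2, ℤ)` on the meromorphic functions, `ℂ`-linearly. -/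
abbrev FA_S29_MOD_rho : SL(2, ℤ) →* (FA_Mero_Field ≃ₐ[ℂ] FA_Mero_Field) :=
  FA_S24_rho ℂ FA_S24_tower_complex

/-- The level one statement (leaf L2, G1): an `SL(2, ℤ)`-invariant `N`-good function is a
rational function of `j`. -/
def FA_S29_MOD_LevelOne (N : ℕ) : Prop :=
  ∀ x : FA_Mero_Field, (∀ γ : SL(2, ℤ), γ • x = x) → x ∈ FA_S24_good N →
    x ∈ IntermediateField.adjoin ℂ {FA_S24_g 1}

variable (N : ℕ) (S : Set FA_Mero_Field)

/-- A family of good functions. -/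
structure FA_S29_MOD_Fam : Prop where
  gens : FA_S24_gens FA_S29_MOD_rho FA_S24_g N ⊆ S
  stable : ∀ (γ : SL(2, ℤ)), ∀ s ∈ S, γ • s ∈ S
  fin : ∃ Γ' : Subgroup SL(2, ℤ), Γ'.Normal ∧ Γ'.FiniteIndex ∧ ∀ γ ∈ Γ', ∀ s ∈ S, γ • s = s
  good : ∀ s ∈ S, s ∈ FA_S24_good N

/-- The field generated by a family. -/
def FA_S29_MOD_E : IntermediateField ℂ FA_Mero_Field := adjoin ℂ S

theorem FA_S29_MOD_E_le_S24 (h : FA_S24_gens FA_S29_MOD_rho FA_S24_g N ⊆ S) :
    FA_S24_E FA_S29_MOD_rho FA_S24_g N ≤ FA_S29_MOD_E S :=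
  adjoin.mono ℂ _ _ h

variable {N S}

namespace FA_S29_MOD_Fam

variable (hS : FA_S29_MOD_Fam N S)

include hS

theorem E_le : FA_S24_E FA_S29_MOD_rho FA_S24_g N ≤ FA_S29_MOD_E S :=
  FA_S29_MOD_E_le_S24 N S hS.gens

theorem F0_le : FA_S24_F0 ℂ FA_S24_g N ≤ FA_S29_MOD_E S :=
  (FA_S24_F0_le_E FA_S29_MOD_rho FA_S24_g N).trans hS.E_le

theorem map_mem (γ : SL(2, ℤ)) : ∀ e ∈ FA_S29_MOD_E S, FA_S29_MOD_rho γ e ∈ FA_S29_MOD_E S := by
  intro e he
  have h1 : (FA_S29_MOD_E S).map (FA_S29_MOD_rho γ : FA_Mero_Field →ₐ[ℂ] FA_Mero_Field)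
      ≤ FA_S29_MOD_E S := by
    unfold FA_S29_MOD_E
    rw [adjoin_map, adjoin_le_iff]
    rintro x ⟨s, hs, rfl⟩
    exact subset_adjoin ℂ _ (hS.stable γ s hs)
  exact h1 ⟨e, he, rfl⟩

/-- The action of `SL(2, ℤ)` on `E_S`. -/
def phi : SL(2, ℤ) →* (FA_S29_MOD_E S ≃ₐ[ℂ] FA_S29_MOD_E S) :=
  FA_S29_MOD_res FA_S29_MOD_rho (FA_S29_MOD_E S) hS.map_mem

theorem phi_coe (γ : SL(2, ℤ)) (e : FA_S29_MOD_E S) :
    ((hS.phi γ e : FA_S29_MOD_E S) : FA_Mero_Field) = γ • (e : FA_Mero_Field) := rfl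

/-- An element fixing the family pointwise acts trivially on `E_S`. -/
theorem fix_of_fix_S (γ : SL(2, ℤ)) (h : ∀ s ∈ S, γ • s = s) :
    ∀ e ∈ FA_S29_MOD_E S, γ • e = e := by
  intro e he
  unfold FA_S29_MOD_E at he
  induction he using IntermediateField.adjoin_induction with
  | mem x hx => exact h x hx
  | algebraMap x => exact FA_Mero_smul_algebraMap_complex γ x
  | add x y _ _ hx hy => rw [smul_add, hx, hy]
  | inv x _ hx => rw [smul_inv'', hx]
  | mul x y _ _ hx hy => rw [smul_mul', hx, hy]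

theorem finite_range : (Set.range hS.phi).Finite := by
  obtain ⟨Γ', hn, hfi, hfix⟩ := hS.fin
  have hle : Γ' ≤ hS.phi.ker := by
    intro γ hγ
    rw [MonoidHom.mem_ker]
    ext e
    exact hS.fix_of_fix_S γ (hfix γ hγ) e e.2
  have h1 : hS.phi.ker.FiniteIndex := Subgroup.finiteIndex_of_le hle
  have h2 : Finite (SL(2, ℤ) ⧸ hS.phi.ker) := Subgroup.finite_quotient_of_finiteIndex
  have h3 : Finite hS.phi.range :=
    Finite.of_equiv _ (QuotientGroup.quotientKerEquivRange hS.phi).toEquiv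
  exact Set.finite_coe_iff.mp h3

/-- Every element of `E_S` is `N`-good. -/
theorem le_good : ∀ e ∈ FA_S29_MOD_E S, e ∈ FA_S24_good N := by
  intro e he
  unfold FA_S29_MOD_E at he
  induction he using IntermediateField.adjoin_induction with
  | mem x hx => exact hS.good x hx
  | algebraMap x => exact FA_S24_const_mem_good (N := N) x
  | add x y _ _ hx hy => exact add_mem hx hy
  | inv x _ hx => exact inv_mem hx
  | mul x y _ _ hx hy => exact mul_mem hx hy

/-- `E_S^{SL(2, ℤ)} = ℂ(j)`. -/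
theorem invariants (hL1 : FA_S29_MOD_LevelOne N) :
    ∀ e ∈ FA_S29_MOD_E S, (∀ γ : SL(2, ℤ), γ • e = e) →
      e ∈ IntermediateField.adjoin ℂ {FA_S24_g 1} :=
  fun e he hinv => hL1 e hinv (hS.le_good e he)

end FA_S29_MOD_Fam

end Fermat.Agent.S29

end
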