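import Mathlib
import Fermat.Agent.S24.ACount

/-!
# Item 87, leaf L3* (abstract half): invariants of the stabiliser have order divisible by `e`

* `FA_S29_PL_exists_inv` : in a chart, for a finite group `G` fixing `x`, a place `w₀` and an
  element `h ≠ 0` fixed by the stabiliser of `w₀` in `G`, there is a `G`-invariant `y ≠ 0` with
  `ord_{w₀} y = ord_{w₀} h` (CRT + averaging, characteristic `0`).
-/

set_option autoImplicit false
set_option linter.style.haveILetI false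

noncomputable section

namespace Fermat.Agent.S29

open AlgebraicCurve IntermediateField IsDedekindDomain Fermat.Agent.S24

section Sum

variable {K E : Type*} [Field K] [Field E] [Algebra K E]

/-- a finite sum of elements of order `≥ n` is `0` or of order `≥ n` -/
theorem FA_S29_PL_ord_sum_ge {ι : Type*} (s : Finset ι) (a : ι → E) (w : Place K E) (n : ℤ)
    (ha : ∀ i ∈ s, a i = 0 ∨ n ≤ w.ord (a i)) :
    (∑ i ∈ s, a i) = 0 ∨ n ≤ w.ord (∑ i ∈ s, a i) := by
  classical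
  induction s using Finset.induction_on with
  | empty => left; simp
  | insert b s hb ih =>
    rw [Finset.sum_insert hb]
    by_cases h0 : a b + ∑ i ∈ s, a i = 0
    · exact Or.inl h0
    · right
      exact FA_RR.ord_add_ge w h0 n (ha b (Finset.mem_insert_self b s))
        (ih fun i hi => ha i (Finset.mem_insert_of_mem hi))

/-- `A + R` with `R` of larger order -/
theorem FA_S29_PL_ord_add_of_lt (w : Place K E) {A R : E} (hA : A ≠ 0)
    (hR : R = 0 ∨ w.ord A + 1 ≤ w.ord R) : A + R ≠ 0 ∧ w.ord (A + R) = w.ord A := by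
  refine ⟨?_, FA_RR.ord_add_eq_of_lt w hA (hR.imp id fun h => by omega)⟩
  intro h
  rcases hR with rfl | hR
  · exact hA (by simpa using h)
  · have : R = -A := by
      rw [eq_neg_iff_add_eq_zero, add_comm]
      exact h
    rw [this, FA_RR.ord_neg] at hR
    omega

end Sum

section Core

variable {K E : Type*} [Field K] [Field E] [Algebra K E] [CharZero K]
  {x : E} (hx : Transcendental K x) [FiniteDimensional K⟮x⟯ E]
include hx

/-- **CRT + averaging**: a nonzero element fixed by the stabiliser of `w₀` in the finite group `G`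
has the same order at `w₀` as some nonzero `G`-invariant element. -/
theorem FA_S29_PL_exists_inv (G : Subgroup (E ≃ₐ[K] E)) [Finite G]
    (hxG : ∀ g ∈ G, g x = x) (w₀ : Place K E) (h₀ : x ∈ w₀.toValuationSubring)
    (h : E) (hh : h ≠ 0) (hD : ∀ g ∈ G, g • w₀ = w₀ → g h = h) :
    ∃ y : E, y ≠ 0 ∧ (∀ g ∈ G, g y = y) ∧ w₀.ord y = w₀.ord h := by
  classical
  cases nonempty_fintype G
  haveI := FA_RR.isDedekindDomain_chartRing hx
  -- the places of the orbit
  have hmem : ∀ g : G, x ∈ ((g : E ≃ₐ[K] E) • w₀).toValuationSubring := fun g => by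
    have := FA_S24_apply_mem_smul (g : E ≃ₐ[K] E) w₀ h₀
    rwa [hxG g g.2] at this
  choose P hP using fun g : G => FA_RR.exists_chartPlace_eq hx _ (hmem g)
  obtain ⟨P₀, hP₀⟩ := FA_RR.exists_chartPlace_eq hx w₀ h₀
  -- for every `g` an element `z g ∉ P₀`, in `P g` if `g • w₀ ≠ w₀`
  have hz : ∀ g : G, ∃ z : FA_RR.chartRing K x, z ∉ P₀.asIdeal ∧
      ((g : E ≃ₐ[K] E) • w₀ ≠ w₀ → z ∈ (P g).asIdeal) := by
    intro g
    by_cases hg : (g : E ≃ₐ[K] E) • w₀ = w₀
    · exact ⟨1, fun h1 => P₀.isPrime.ne_top ((Ideal.eq_top_iff_one _).mpr h1),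
        fun h => absurd hg h⟩
    · have hne : P g ∉ ({P₀} : Finset (@HeightOneSpectrum (FA_RR.chartRing K x) _)) := by
        rw [Finset.mem_singleton]
        intro h
        apply hg
        rw [← hP g, h, hP₀]
      obtain ⟨z, hz1, hz2⟩ := FA_S24_exists_mem_not_mem hx {P₀} (P g) hne
      exact ⟨z, hz2 P₀ (Finset.mem_singleton_self _), fun _ => hz1⟩
  choose z hz0 hz1 using hz
  set Z : FA_RR.chartRing K x := ∏ g : G, z g with hZ
  have hZ0 : Z ∉ P₀.asIdeal := by
    intro h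
    obtain ⟨g, -, hg⟩ := (P₀.isPrime.prod_mem_iff).mp h
    exact hz0 g hg
  have hZ1 : ∀ g : G, (g : E ≃ₐ[K] E) • w₀ ≠ w₀ → Z ∈ (P g).asIdeal := fun g hg =>
    Ideal.mem_of_dvd _ (Finset.dvd_prod_of_mem z (Finset.mem_univ g)) (hz1 g hg)
  -- invert `Z` modulo `P₀`
  obtain ⟨b, i, hi, hbi⟩ := P₀.isMaximal.exists_inv hZ0
  set u₁ : FA_RR.chartRing K x := b * Z with hu₁
  have hu1 : u₁ - 1 ∈ P₀.asIdeal := by
    have : u₁ - 1 = -i := by
      rw [hu₁, ← hbi]
      ring
    rw [this]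
    exact P₀.asIdeal.neg_mem hi
  have hu2 : ∀ g : G, (g : E ≃ₐ[K] E) • w₀ ≠ w₀ → u₁ ∈ (P g).asIdeal := fun g hg =>
    Ideal.mul_mem_left _ _ (hZ1 g hg)
  have hu0 : (u₁ : E) ≠ 0 := by
    intro h
    have h1 : u₁ = 0 := Subtype.ext h
    rw [h1, zero_sub] at hu1
    exact P₀.isPrime.ne_top ((Ideal.eq_top_iff_one _).mpr (by simpa using P₀.asIdeal.neg_mem hu1))
  -- the exponent
  set n : ℤ := w₀.ord h with hn
  set m : ℕ := ∑ g : G, (n + 1 - ((g : E ≃ₐ[K] E) • w₀).ord h).toNat with hm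
  have hmg : ∀ g : G, n + 1 - ((g : E ≃ₐ[K] E) • w₀).ord h ≤ (m : ℤ) := by
    intro g
    have h1 : (n + 1 - ((g : E ≃ₐ[K] E) • w₀).ord h).toNat ≤ m :=
      Finset.single_le_sum (f := fun g : G => (n + 1 - ((g : E ≃ₐ[K] E) • w₀).ord h).toNat)
        (fun _ _ => Nat.zero_le _) (Finset.mem_univ g)
    have h2 := Int.self_le_toNat (n + 1 - ((g : E ≃ₐ[K] E) • w₀).ord h)
    omega
  set U : E := (u₁ : E) ^ m with hU
  have hU0 : U ≠ 0 := pow_ne_zero _ hu0
  -- orders of `U`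
  have hUord : ∀ g : G, (g : E ≃ₐ[K] E) • w₀ ≠ w₀ →
      (m : ℤ) ≤ ((g : E ≃ₐ[K] E) • w₀).ord U := by
    intro g hg
    have h1 : 0 < ((g : E ≃ₐ[K] E) • w₀).ord (u₁ : E) := by
      rw [← hP g]
      exact FA_S24_ord_pos_of_mem hx _ u₁ (hu2 g hg) hu0
    have h2 : ((g : E ≃ₐ[K] E) • w₀).ord U = m * ((g : E ≃ₐ[K] E) • w₀).ord (u₁ : E) := by
      rw [hU, ← zpow_natCast, Place.ord_zpow]
    rw [h2]
    nlinarith
  have hU1 : U - 1 = 0 ∨ 1 ≤ w₀.ord (U - 1) := by
    by_cases h0 : U - 1 = 0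
    · exact Or.inl h0
    right
    have hmemP : u₁ ^ m - 1 ∈ P₀.asIdeal := by
      have hdvd : u₁ - 1 ∣ u₁ ^ m - 1 := by
        have := sub_dvd_pow_sub_pow u₁ 1 m
        rwa [one_pow] at this
      exact Ideal.mem_of_dvd _ hdvd hu1
    have hcoe : ((u₁ ^ m - 1 : FA_RR.chartRing K x) : E) = U - 1 := by
      rw [hU]
      rfl
    have := FA_S24_ord_pos_of_mem hx P₀ (u₁ ^ m - 1) hmemP (by rw [hcoe]; exact h0)
    rw [hP₀, hcoe] at this
    omega
  -- the average
  set y : E := ∑ g : G, (g : E ≃ₐ[K] E) (h * U) with hy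
  have hyinv : ∀ g ∈ G, g y = y := by
    intro g hg
    rw [hy, map_sum]
    exact Fintype.sum_equiv (Equiv.mulLeft (⟨g, hg⟩ : G)) _ _ (fun g' => rfl)
  -- main part and remainder
  set c : G → E := fun g => if (g : E ≃ₐ[K] E) • w₀ = w₀ then h else 0 with hc
  have hrem : ∀ g : G, (g : E ≃ₐ[K] E) (h * U) - c g = 0 ∨
      n + 1 ≤ w₀.ord ((g : E ≃ₐ[K] E) (h * U) - c g) := by
    intro g
    by_cases hg : (g : E ≃ₐ[K] E) • w₀ = w₀
    · have hgh : (g : E ≃ₐ[K] E) h = h := hD g g.2 hg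
      have hginv : ((g : E ≃ₐ[K] E))⁻¹ • w₀ = w₀ := by
        rw [inv_smul_eq_iff, hg]
      have heq : (g : E ≃ₐ[K] E) (h * U) - c g = h * (g : E ≃ₐ[K] E) (U - 1) := by
        simp only [hc, hg, if_true, map_mul, map_sub, map_one, hgh]
        ring
      rw [heq]
      rcases hU1 with h1 | h1
      · left
        rw [h1, map_zero, mul_zero]
      · right
        have hne : (g : E ≃ₐ[K] E) (U - 1) ≠ 0 := by
          intro h0
          have : U - 1 = 0 := by
            have := (map_eq_zero_iff (g : E ≃ₐ[K] E) (g : E ≃ₐ[K] E).injective).mp h0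
            exact this
          rw [this, w₀.ord_zero] at h1
          omega
        rw [w₀.ord_mul hh hne, FA_S24_ord_apply, hginv]
        omega
    · right
      have heq : (g : E ≃ₐ[K] E) (h * U) - c g = (g : E ≃ₐ[K] E) (h * U) := by
        simp only [hc, hg, if_false, sub_zero]
      have hginv : ((g⁻¹ : G) : E ≃ₐ[K] E) • w₀ ≠ w₀ := by
        intro h1
        apply hg
        have : ((g : E ≃ₐ[K] E))⁻¹ • w₀ = w₀ := h1
        rw [inv_smul_eq_iff] at this
        exact this.symm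
      rw [heq, FA_S24_ord_apply]
      have h1 := hUord g⁻¹ hginv
      have h2 := hmg g⁻¹
      have h3 : (((g : E ≃ₐ[K] E))⁻¹ • w₀).ord (h * U) =
          (((g : E ≃ₐ[K] E))⁻¹ • w₀).ord h + (((g : E ≃ₐ[K] E))⁻¹ • w₀).ord U :=
        Place.ord_mul _ hh hU0
      rw [h3]
      have e1 : ((g⁻¹ : G) : E ≃ₐ[K] E) = ((g : E ≃ₐ[K] E))⁻¹ := rfl
      rw [e1] at h1 h2
      omega
  have hsplit : y = (∑ g : G, c g) + ∑ g : G, ((g : E ≃ₐ[K] E) (h * U) - c g) := by
    rw [hy, ← Finset.sum_add_distrib]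
    exact Finset.sum_congr rfl fun g _ => by ring
  have hmain : (∑ g : G, c g) =
      algebraMap K E ((Finset.univ.filter fun g : G => (g : E ≃ₐ[K] E) • w₀ = w₀).card : K) * h := by
    simp only [hc]
    rw [← Finset.sum_filter, Finset.sum_const, nsmul_eq_mul, map_natCast]
  have hcard : ((Finset.univ.filter fun g : G => (g : E ≃ₐ[K] E) • w₀ = w₀).card : K) ≠ 0 := by
    have : 0 < (Finset.univ.filter fun g : G => (g : E ≃ₐ[K] E) • w₀ = w₀).card :=
      Finset.card_pos.mpr ⟨1, by simp⟩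
    exact_mod_cast this.ne'
  have hA0 : (∑ g : G, c g) ≠ 0 := by
    rw [hmain]
    exact mul_ne_zero ((map_ne_zero_iff _ (algebraMap K E).injective).mpr hcard) hh
  have hAord : w₀.ord (∑ g : G, c g) = n := by
    rw [hmain, w₀.ord_mul ((map_ne_zero_iff _ (algebraMap K E).injective).mpr hcard) hh,
      FA_RR.ord_algebraMap, zero_add]
  have hR := FA_S29_PL_ord_sum_ge Finset.univ
    (fun g : G => (g : E ≃ₐ[K] E) (h * U) - c g) w₀ (n + 1) (fun g _ => hrem g)
  have hR' : (∑ g : G, ((g : E ≃ₐ[K] E) (h * U) - c g)) = 0 ∨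
      w₀.ord (∑ g : G, c g) + 1 ≤ w₀.ord (∑ g : G, ((g : E ≃ₐ[K] E) (h * U) - c g)) := by
    rw [hAord]
    exact hR
  obtain ⟨hy0, hyord⟩ := FA_S29_PL_ord_add_of_lt w₀ hA0 hR'
  rw [← hsplit] at hy0 hyord
  exact ⟨y, hy0, hyinv, by rw [hyord, hAord]⟩

end Core

end Fermat.Agent.S29

end
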