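import Mathlib
import Fermat.Agent.S29.Places

/-!
# Item 87, leaf L3* (abstract half): `FA_S29_PL_unr`

In the setting of `FA_S24_Target_A_count` (Galois model `K ⊆ K(x) ⊆ F ⊆ E`, `E^Γ = K(x)`,
`E^H = F`, a place `w` over `x = 0` with stabiliser `φ(I)`): if `h ∈ E^×` is fixed by all
`φ(γ i γ⁻¹)` with `i ∈ I`, `γ i γ⁻¹ ∈ H`, then `e(w'|F) ∣ ord_{w'} h` for every place `w'` of `E`
over `x = 0`.  Corollary: if moreover `h ^ p = f ∈ F` then `p ∣ ord_v f` for every place `v` of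
`F` over `x = 0`.
-/

set_option autoImplicit false
set_option linter.style.haveILetI false

noncomputable section

namespace Fermat.Agent.S29

open AlgebraicCurve IntermediateField Fermat.Agent.S24

section Model

variable {K F E Γ : Type} [Field K] [IsAlgClosed K] [CharZero K] [Field F] [Algebra K F]
    [Field E] [Algebra K E] [Algebra F E] [IsScalarTower K F E] [Group Γ]
    (φ : Γ →* (E ≃ₐ[K] E))

/-- transitivity of `Γ` on the zeros of `x` and the stabiliser of `w` (extracted from the proof of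
`FA_S24_A_count`) -/
theorem FA_S29_PL_trans_stab (hfin : (Set.range φ).Finite) (x : F) (hx : Transcendental K x)
    (hxΓ : ∀ γ : Γ, φ γ (algebraMap F E x) = algebraMap F E x)
    (hfixΓ : ∀ e : E, (∀ γ : Γ, φ γ e = e) →
      ∃ f : F, f ∈ IntermediateField.adjoin K {x} ∧ algebraMap F E f = e)
    (I : Subgroup Γ) (w : Place K E) (hw : 0 < w.ord (algebraMap F E x))
    (hI : ∀ γ ∈ I, ∀ e : E, w.ord (φ γ e) = w.ord e)
    (he : w.ord (algebraMap F E x) ≤ (Nat.card (I.map φ) : ℤ)) :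
    (∀ w' : Place K E, 0 < w'.ord (algebraMap F E x) → ∃ γ : Γ, w' = φ γ • w) ∧
    (∀ γ : Γ, φ γ • w = w → ∃ i ∈ I, φ i = φ γ) := by
  classical
  have hxE : Transcendental K (algebraMap F E x) :=
    (transcendental_algebraMap_iff (algebraMap F E).injective).mpr hx
  obtain ⟨hFE, hcardG⟩ := FA_S24_isFF_top φ hfin x hx hxΓ hfixΓ
  haveI : FiniteDimensional K⟮algebraMap F E x⟯ E := FA_RR.finiteDimensional_adjoin hFE hxE
  haveI hfinI : Finite (I.map φ) := FA_S24_finite_map φ hfin I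
  haveI hfinG : Finite φ.range := hfin
  -- (a) transitivity of `Γ` on the zeros of `x`
  have hT1 : ∀ w' : Place K E, 0 < w'.ord (algebraMap F E x) → ∃ γ : Γ, w' = φ γ • w := by
    intro w' hw'
    obtain ⟨g, ⟨γ, rfl⟩, hg⟩ := FA_S24_exists_smul_eq hxE φ.range
      (by rintro g ⟨γ, rfl⟩; exact hxΓ γ) w w'
      ((FA_RR.mem_iff_ord w).mpr (Or.inr hw.le)) ((FA_RR.mem_iff_ord w').mpr (Or.inr hw'.le))
      (by
        intro z hz hpos
        obtain ⟨f, hf, rfl⟩ := hfixΓ z (fun γ => hz (φ γ) ⟨γ, rfl⟩)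
        obtain ⟨m, hm⟩ := FA_S24_ord_ratfunc (K := K) (FA_S24_mem_adjoin_map (E := E) hf)
        rw [hm w' hw'] at hpos
        rw [hm w hw]
        have hm0 : 0 < m := by
          by_contra hneg
          push Not at hneg
          have : m * w'.ord (algebraMap F E x) ≤ 0 :=
            mul_nonpos_of_nonpos_of_nonneg hneg hw'.le
          omega
        exact mul_pos hm0 hw)
    exact ⟨γ, hg⟩
  refine ⟨hT1, ?_⟩
  -- (b) all ramification indices are equal
  have hord : ∀ γ : Γ, (φ γ • w).ord (algebraMap F E x) = w.ord (algebraMap F E x) :=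
    fun γ => FA_S24_ord_smul_of_fixed (φ γ) w (hxΓ γ)
  -- (c) `#zeros * e = #G`
  have hdeg := FA_RR.degree_zeroDiv hFE hxE
  have hsum : Divisor.degree (FA_RR.zeroDiv hFE hxE) =
      ∑ w' ∈ (FA_RR.zeroDiv hFE hxE).support, FA_RR.zeroDiv hFE hxE w' := by
    conv_lhs => rw [← Finsupp.sum_single (FA_RR.zeroDiv hFE hxE)]
    rw [Finsupp.sum, map_sum]
    simp only [Divisor.degree_single, FA_RR.deg_eq_one hFE, Nat.cast_one, mul_one]
  have hcount : ((FA_RR.zeroDiv hFE hxE).support.card : ℤ) * w.ord (algebraMap F E x) =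
      (Nat.card φ.range : ℤ) := by
    rw [← hcardG, ← hdeg, hsum]
    have : ∀ w' ∈ (FA_RR.zeroDiv hFE hxE).support,
        FA_RR.zeroDiv hFE hxE w' = w.ord (algebraMap F E x) := by
      intro w' hw'
      have hpos := (FA_RR.mem_support_zeroDiv hFE hxE w').mp hw'
      obtain ⟨γ, rfl⟩ := hT1 w' hpos
      rw [FA_RR.zeroDiv_apply, max_eq_left hpos.le, hord]
    rw [Finset.sum_congr rfl this, Finset.sum_const, nsmul_eq_mul]
  -- (d) orbit-stabiliser
  have horb : MulAction.orbit φ.range w = {w' : Place K E | 0 < w'.ord (algebraMap F E x)} := by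
    ext w'
    constructor
    · rintro ⟨⟨g, γ, rfl⟩, rfl⟩
      show 0 < (φ γ • w).ord (algebraMap F E x)
      rw [hord]
      exact hw
    · intro hw'
      obtain ⟨γ, rfl⟩ := hT1 w' hw'
      exact ⟨⟨φ γ, γ, rfl⟩, rfl⟩
  have hos : Nat.card (MulAction.stabilizer φ.range w) *
      (FA_RR.zeroDiv hFE hxE).support.card = Nat.card φ.range := by
    rw [FA_RR.card_support_zeroDiv hFE hxE]
    have h1 := Subgroup.card_mul_index (MulAction.stabilizer φ.range w)
    rw [MulAction.index_stabilizer, horb] at h1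
    exact h1
  have hsupp_pos : 0 < (FA_RR.zeroDiv hFE hxE).support.card :=
    Finset.card_pos.mpr ⟨w, (FA_RR.mem_support_zeroDiv hFE hxE w).mpr hw⟩
  have hstab_card : (Nat.card (MulAction.stabilizer φ.range w) : ℤ) =
      w.ord (algebraMap F E x) := by
    have h1 : (Nat.card (MulAction.stabilizer φ.range w) : ℤ) *
        ((FA_RR.zeroDiv hFE hxE).support.card : ℤ) =
        ((FA_RR.zeroDiv hFE hxE).support.card : ℤ) * w.ord (algebraMap F E x) := by
      rw [hcount]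
      exact_mod_cast hos
    have h2 : ((FA_RR.zeroDiv hFE hxE).support.card : ℤ) ≠ 0 := by
      exact_mod_cast hsupp_pos.ne'
    rw [mul_comm] at h1
    exact mul_left_cancel₀ h2 h1
  -- (e) the stabiliser is `φ(I)`
  have hIle : (I.map φ).subgroupOf φ.range ≤ MulAction.stabilizer φ.range w := by
    rintro ⟨g, hg⟩ hmem
    rw [Subgroup.mem_subgroupOf] at hmem
    obtain ⟨i, hi, rfl⟩ := hmem
    rw [MulAction.mem_stabilizer_iff]
    exact FA_S24_smul_eq_of_ord (φ i) w (hI i hi)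
  have hIeq : (I.map φ).subgroupOf φ.range = MulAction.stabilizer φ.range w := by
    refine Subgroup.eq_of_le_of_card_ge hIle ?_
    have hle : I.map φ ≤ φ.range := by
      rintro g ⟨i, -, rfl⟩
      exact ⟨i, rfl⟩
    rw [Nat.card_congr (Subgroup.subgroupOfEquivOfLe hle).toEquiv]
    have : (Nat.card (MulAction.stabilizer φ.range w) : ℤ) ≤ (Nat.card (I.map φ) : ℤ) := by
      rw [hstab_card]
      exact he
    exact_mod_cast this
  intro γ hγ
  have hmem : (⟨φ γ, γ, rfl⟩ : φ.range) ∈ MulAction.stabilizer φ.range w := by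
    rw [MulAction.mem_stabilizer_iff]
    exact hγ
  rw [← hIeq, Subgroup.mem_subgroupOf] at hmem
  exact hmem

/-- **L3\* (abstract form).**  In the Galois model of `FA_S24_Target_A_count`, an element `h ≠ 0`
of `E` fixed by the conjugates of `I` lying in `H` has order divisible by the ramification index
over `F` at every place `w'` of `E` over `x = 0`. -/
theorem FA_S29_PL_unr (K F E Γ : Type) [Field K] [IsAlgClosed K] [CharZero K] [Field F]
    [Algebra K F] [Field E] [Algebra K E] [Algebra F E] [IsScalarTower K F E] [Group Γ]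
    (φ : Γ →* (E ≃ₐ[K] E)) (hfin : (Set.range φ).Finite) (x : F) (hx : Transcendental K x)
    (hxΓ : ∀ γ : Γ, φ γ (algebraMap F E x) = algebraMap F E x)
    (hfixΓ : ∀ e : E, (∀ γ : Γ, φ γ e = e) →
      ∃ f : F, f ∈ IntermediateField.adjoin K {x} ∧ algebraMap F E f = e)
    (H : Subgroup Γ) (hker : φ.ker ≤ H)
    (hH : ∀ γ ∈ H, ∀ f : F, φ γ (algebraMap F E f) = algebraMap F E f)
    (hfixH : ∀ e : E, (∀ γ ∈ H, φ γ e = e) → e ∈ Set.range (algebraMap F E))
    (I : Subgroup Γ) (w : Place K E) (hw : 0 < w.ord (algebraMap F E x))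
    (hI : ∀ γ ∈ I, ∀ e : E, w.ord (φ γ e) = w.ord e)
    (he : w.ord (algebraMap F E x) ≤ (Nat.card (I.map φ) : ℤ))
    (h : E) (hh : h ≠ 0)
    (hχ : ∀ γ : Γ, ∀ i ∈ I, γ * i * γ⁻¹ ∈ H → φ (γ * i * γ⁻¹) h = h) :
    ∀ w' : Place K E, 0 < w'.ord (algebraMap F E x) →
      ((w'.ramificationIndex F : ℕ) : ℤ) ∣ w'.ord h := by
  classical
  intro w' hw'
  have hxE : Transcendental K (algebraMap F E x) :=
    (transcendental_algebraMap_iff (algebraMap F E).injective).mpr hx
  obtain ⟨hFE, hcardG⟩ := FA_S24_isFF_top φ hfin x hx hxΓ hfixΓ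
  haveI : FiniteDimensional K⟮algebraMap F E x⟯ E := FA_RR.finiteDimensional_adjoin hFE hxE
  have hG2 : IsGaloisGroup (H.map φ) F E := FA_S24_isGaloisGroup_map φ F H hH hfixH
  haveI hfinH : Finite (H.map φ) := FA_S24_finite_map φ hfin H
  haveI : FiniteDimensional F E := IsGaloisGroup.finiteDimensional (H.map φ) F E
  obtain ⟨hT1, hstab⟩ := FA_S29_PL_trans_stab φ hfin x hx hxΓ hfixΓ I w hw hI he
  obtain ⟨γ₀, rfl⟩ := hT1 w' hw'
  -- the stabiliser of `w'` in `φ(H)` fixes `h`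
  have hD : ∀ g ∈ H.map φ, g • (φ γ₀ • w) = φ γ₀ • w → g h = h := by
    rintro g ⟨η, hη, rfl⟩ hg
    have hfix : φ (γ₀⁻¹ * η * γ₀) • w = w := by
      rw [map_mul, map_mul, mul_smul, mul_smul, hg, map_inv, inv_smul_smul]
    obtain ⟨i, hi, hφi⟩ := hstab _ hfix
    have hφ : φ (γ₀ * i * γ₀⁻¹) = φ η := by
      rw [map_mul, map_mul, hφi, map_mul, map_mul, map_inv]
      group
    have hmemH : γ₀ * i * γ₀⁻¹ ∈ H := by
      have hk : γ₀ * i * γ₀⁻¹ * η⁻¹ ∈ φ.ker := by
        rw [MonoidHom.mem_ker, map_mul, hφ, map_inv, mul_inv_cancel]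
      have := H.mul_mem (hker hk) hη
      rwa [inv_mul_cancel_right] at this
    have := hχ γ₀ i hi hmemH
    rw [hφ] at this
    exact this
  obtain ⟨y, hy0, hyinv, hyord⟩ := FA_S29_PL_exists_inv hxE (H.map φ)
    (by rintro g ⟨γ, -, rfl⟩; exact hxΓ γ) (φ γ₀ • w)
    ((FA_RR.mem_iff_ord _).mpr (Or.inr hw'.le)) h hh hD
  obtain ⟨y₀, rfl⟩ := hfixH y (fun γ hγ => hyinv (φ γ) ⟨γ, hγ, rfl⟩)
  have hy₀ : y₀ ≠ 0 := by
    rintro rfl
    exact hy0 (map_zero _)
  rw [← hyord]
  exact (φ γ₀ • w).ramificationIndex_dvd_ord hy₀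

/-- **L3\* (abstract corollary).**  If moreover `h ^ p = f ∈ F`, then `p ∣ ord_v f` at every
place `v` of `F` over `x = 0`. -/
theorem FA_S29_PL_dvd (K F E Γ : Type) [Field K] [IsAlgClosed K] [CharZero K] [Field F]
    [Algebra K F] [Field E] [Algebra K E] [Algebra F E] [IsScalarTower K F E] [Group Γ]
    (φ : Γ →* (E ≃ₐ[K] E)) (hfin : (Set.range φ).Finite) (x : F) (hx : Transcendental K x)
    (hxΓ : ∀ γ : Γ, φ γ (algebraMap F E x) = algebraMap F E x)
    (hfixΓ : ∀ e : E, (∀ γ : Γ, φ γ e = e) →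
      ∃ f : F, f ∈ IntermediateField.adjoin K {x} ∧ algebraMap F E f = e)
    (H : Subgroup Γ) (hker : φ.ker ≤ H)
    (hH : ∀ γ ∈ H, ∀ f : F, φ γ (algebraMap F E f) = algebraMap F E f)
    (hfixH : ∀ e : E, (∀ γ ∈ H, φ γ e = e) → e ∈ Set.range (algebraMap F E))
    (I : Subgroup Γ) (w : Place K E) (hw : 0 < w.ord (algebraMap F E x))
    (hI : ∀ γ ∈ I, ∀ e : E, w.ord (φ γ e) = w.ord e)
    (he : w.ord (algebraMap F E x) ≤ (Nat.card (I.map φ) : ℤ))
    (h : E) (hh : h ≠ 0)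
    (hχ : ∀ γ : Γ, ∀ i ∈ I, γ * i * γ⁻¹ ∈ H → φ (γ * i * γ⁻¹) h = h)
    (p : ℕ) (f : F) (hf : h ^ p = algebraMap F E f) :
    ∀ v : Place K F, 0 < v.ord x → (p : ℤ) ∣ v.ord f := by
  intro v hv
  have hG2 : IsGaloisGroup (H.map φ) F E := FA_S24_isGaloisGroup_map φ F H hH hfixH
  haveI hfinH : Finite (H.map φ) := FA_S24_finite_map φ hfin H
  haveI : FiniteDimensional F E := IsGaloisGroup.finiteDimensional (H.map φ) F E
  obtain ⟨w', rfl⟩ := FA_S24_exists_restrict_eq (E := E) v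
  have hepos := w'.ramificationIndex_pos (F := F)
  have hw' : 0 < w'.ord (algebraMap F E x) := by
    rw [w'.ord_restrict x]
    exact mul_pos (by exact_mod_cast hepos) hv
  obtain ⟨k, hk⟩ := FA_S29_PL_unr K F E Γ φ hfin x hx hxΓ hfixΓ H hker hH hfixH I w hw hI he
    h hh hχ w' hw'
  have h1 : w'.ord (algebraMap F E f) = (p : ℤ) * w'.ord h := by
    rw [← hf, ← zpow_natCast, Place.ord_zpow]
  rw [w'.ord_restrict f, hk] at h1
  refine ⟨k, ?_⟩
  have he0 : ((w'.ramificationIndex F : ℕ) : ℤ) ≠ 0 := by exact_mod_cast hepos.ne'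
  apply mul_left_cancel₀ he0
  rw [h1]
  ring

end Model

end Fermat.Agent.S29

end
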