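import Fermat.Agent.S24.DModelFinal
import Fermat.Agent.Lib.Mero5

/-!
# S29 (item 87), leaf L2, level one (G1)

A meromorphic function on `ℍ` (element of `FA_Mero_Field`) which is `SL(2, ℤ)`-invariant and
`M`-good at `∞` is a rational function of `j`.
-/

set_option autoImplicit false

noncomputable section

open UpperHalfPlane ModularForm Complex MatrixGroups Filter
open scoped Manifold Topology

namespace Fermat.Agent.S29

open Fermat.Agent.Mero Fermat.Agent.S24

local notation "ι" => algebraMap FA_Mero_Hol FA_Mero_Field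

/-- A nonzero element of `𝓗⁺_M` has no zero high up. -/
theorem FA_S29_RT_no_zero_high (M : ℕ) [NeZero M] (b : FA_S24_HolPlus M) (hb : b ≠ 0) :
    ∃ T : ℝ, ∀ z : ℍ, T ≤ z.im → (b : ℍ → ℂ) z ≠ 0 := by
  have hM : (0 : ℝ) < (M : ℝ) := FA_S24_Npos M
  have hF := FA_S24_HolPlus_analytic b
  have hcusp : ∀ τ : ℍ, cuspFunction (M : ℝ) (b : ℍ → ℂ) (Function.Periodic.qParam (M : ℝ) τ)
      = (b : ℍ → ℂ) τ := fun τ => eq_cuspFunction τ hM.ne' (FA_S24_HolPlus_per b)
  rcases hF.eventually_eq_zero_or_eventually_ne_zero with h0 | hne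
  · exfalso
    have h1 : ∀ᶠ τ : ℍ in atImInfty, (b : ℍ → ℂ) τ = 0 := by
      have := (qParam_tendsto_atImInfty hM).eventually h0
      filter_upwards [this] with τ hτ
      rw [← hcusp τ]; exact hτ
    obtain ⟨A, hA⟩ := (atImInfty_mem _).mp h1
    apply hb
    apply Subtype.ext
    set A' : ℝ := max A 0 + 1 with hA'
    have hA'pos : 0 < A' := by positivity
    let z₀ : ℍ := ⟨⟨0, A'⟩, hA'pos⟩
    refine FA_Mero_eq_zero_of_eventually (FA_S24_HolPlus_mdiff b) z₀ ?_
    have hopen : IsOpen {w : ℂ | max A 0 < w.im} :=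
      isOpen_lt continuous_const Complex.continuous_im
    have hz₀ : (z₀ : ℂ) ∈ {w : ℂ | max A 0 < w.im} := by
      show max A 0 < (z₀ : ℂ).im
      have : (z₀ : ℂ).im = A' := rfl
      rw [this, hA']; linarith
    filter_upwards [hopen.mem_nhds hz₀] with w hw
    have hw' : 0 < w.im := lt_of_le_of_lt (le_max_right A 0) hw
    rw [FA_Mero_ext_apply_of_im_pos _ hw']
    apply hA
    show A ≤ w.im
    exact le_trans (le_max_left A 0) hw.le
  · have h1 : ∀ᶠ τ : ℍ in atImInfty, (b : ℍ → ℂ) τ ≠ 0 := by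
      have ht : Tendsto (fun τ : ℍ => Function.Periodic.qParam (M : ℝ) τ) atImInfty (𝓝[≠] 0) :=
        (Function.Periodic.qParam_tendsto hM).comp tendsto_coe_atImInfty
      have := ht.eventually hne
      filter_upwards [this] with τ hτ
      rw [← hcusp τ]; exact hτ
    exact (atImInfty_mem _).mp h1

/-- The compact part of the closed fundamental domain, as a subset of `ℂ`. -/
def FA_S29_RT_K (T : ℝ) : Set ℂ :=
  {w | 1 ≤ Complex.normSq w ∧ |w.re| ≤ 1 / 2 ∧ 0 ≤ w.im ∧ w.im ≤ T}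

theorem FA_S29_RT_K_im_pos {T : ℝ} {w : ℂ} (hw : w ∈ FA_S29_RT_K T) : 0 < w.im := by
  obtain ⟨h1, h2, h3, -⟩ := hw
  rw [Complex.normSq_apply] at h1
  rcases h3.lt_or_eq with h | h
  · exact h
  · exfalso
    rw [← h] at h1
    have h4 : w.re * w.re ≤ 1 / 4 := by
      have := abs_le.mp h2
      nlinarith [this.1, this.2]
    nlinarith

theorem FA_S29_RT_K_isCompact (T : ℝ) : IsCompact (FA_S29_RT_K T) := by
  apply Metric.isCompact_of_isClosed_isBounded
  · have h1 : IsClosed {w : ℂ | 1 ≤ Complex.normSq w} :=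
      isClosed_le continuous_const Complex.continuous_normSq
    have h2 : IsClosed {w : ℂ | |w.re| ≤ 1 / 2} :=
      isClosed_le (continuous_abs.comp Complex.continuous_re) continuous_const
    have h3 : IsClosed {w : ℂ | 0 ≤ w.im} :=
      isClosed_le continuous_const Complex.continuous_im
    have h4 : IsClosed {w : ℂ | w.im ≤ T} :=
      isClosed_le Complex.continuous_im continuous_const
    exact h1.inter (h2.inter (h3.inter h4))
  · rw [Metric.isBounded_iff_subset_closedBall (0 : ℂ)]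
    refine ⟨1 / 2 + |T|, ?_⟩
    intro w hw
    obtain ⟨-, h2, h3, h4⟩ := hw
    rw [mem_closedBall_zero_iff]
    calc ‖w‖ ≤ |w.re| + |w.im| := Complex.norm_le_abs_re_add_abs_im w
      _ ≤ 1 / 2 + |T| := by
        have : |w.im| ≤ |T| := by
          rw [abs_of_nonneg h3]
          exact h4.trans (le_abs_self T)
        linarith

/-- A nonzero holomorphic function has finitely many zeros in the compact part of the
fundamental domain. -/
theorem FA_S29_RT_zeros_finite (b : FA_Mero_Hol) (hb : b ≠ 0) (T : ℝ) :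
    {z : ℍ | z ∈ ModularGroup.fd ∧ z.im ≤ T ∧ (b : ℍ → ℂ) z = 0}.Finite := by
  set B : ℂ → ℂ := FA_Mero_ext (b : ℍ → ℂ) with hB
  set Z : Set ℂ := {w | w ∈ FA_S29_RT_K T ∧ B w = 0} with hZ
  have hZfin : Z.Finite := by
    by_contra hinf
    obtain ⟨w₀, hw₀K, hacc⟩ :=
      Set.Infinite.exists_accPt_of_subset_isCompact (s := Z) hinf (FA_S29_RT_K_isCompact T)
        (fun w hw => hw.1)
    have hw₀ : 0 < w₀.im := FA_S29_RT_K_im_pos hw₀K
    let z₀ : ℍ := ⟨w₀, hw₀⟩
    have han : AnalyticAt ℂ B w₀ := FA_Mero_ext_analyticAt b.2 z₀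
    have hfreq : ∃ᶠ w in 𝓝[≠] w₀, B w = 0 := by
      rw [accPt_iff_frequently_nhdsNE] at hacc
      exact hacc.mono fun w hw => hw.2
    have hev := han.frequently_zero_iff_eventually_zero.mp hfreq
    apply hb
    apply Subtype.ext
    exact FA_Mero_eq_zero_of_eventually b.2 z₀ hev
  refine Set.Finite.of_finite_image (f := fun z : ℍ => (z : ℂ)) (hZfin.subset ?_) ?_
  · rintro w ⟨z, ⟨hz1, hz2, hz3⟩, rfl⟩
    refine ⟨⟨hz1.1, hz1.2, z.im_pos.le, hz2⟩, ?_⟩
    show FA_Mero_ext (b : ℍ → ℂ) (z : ℂ) = 0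
    rw [FA_Mero_ext_apply]
    exact hz3
  · intro z _ z' _ h
    exact UpperHalfPlane.ext h

/-- A nonzero polynomial in `j` is a nonzero function. -/
theorem FA_S29_RT_aeval_ne_zero {Q : Polynomial ℂ} (hQ : Q ≠ 0) :
    Polynomial.aeval FA_S24_jHol Q ≠ 0 := by
  intro h
  apply hQ
  apply Polynomial.funext
  intro c
  obtain ⟨z, rfl⟩ := FA_S24_j_surjective c
  rw [Polynomial.eval_zero, ← FA_S24_aeval_jHol_apply, h]
  rfl

theorem FA_S29_RT_iota_aeval (Q : Polynomial ℂ) :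
    ι (Polynomial.aeval FA_S24_jHol Q) = Polynomial.aeval (FA_S24_g 1) Q := by
  rw [FA_S24_g_one, Polynomial.aeval_algebraMap_apply]

theorem FA_S29_RT_g_one_good (M : ℕ) [NeZero M] : FA_S24_g 1 ∈ FA_S24_good M := by
  have h1 : 0 < ((1 : ℕ) : ℤ) := by norm_num
  rw [FA_S24_g_eq h1]
  exact FA_S24_jaffM_mem_good FA_S24_QE M _ 0 1 h1 one_pos M (by push_cast; ring)

theorem FA_S29_RT_aeval_good (M : ℕ) [NeZero M] (Q : Polynomial ℂ) :
    ι (Polynomial.aeval FA_S24_jHol Q) ∈ FA_S24_good M := by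
  rw [FA_S29_RT_iota_aeval]
  exact (FA_S24_Qinf_aeval M (FA_S29_RT_g_one_good M) Q).1

theorem FA_S29_RT_aeval_smul (γ : SL(2, ℤ)) (Q : Polynomial ℂ) :
    γ • ι (Polynomial.aeval FA_S24_jHol Q) = ι (Polynomial.aeval FA_S24_jHol Q) := by
  rw [FA_Mero_smul_algebraMap]
  congr 1
  apply Subtype.ext
  funext z
  rw [FA_Mero_Hol_smul_apply, FA_S24_aeval_jHol_apply, FA_S24_aeval_jHol_apply, FA_S24_j_smul]

theorem FA_S29_RT_aeval_mem (Q : Polynomial ℂ) :
    ι (Polynomial.aeval FA_S24_jHol Q) ∈ IntermediateField.adjoin ℂ {FA_S24_g 1} := by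
  rw [FA_S29_RT_iota_aeval]
  exact IntermediateField.algebra_adjoin_le_adjoin ℂ _
    (Polynomial.aeval_mem_adjoin_singleton ℂ _)

/-- `ord_z (f ^ m) = m * ord_z f`. -/
theorem FA_S29_RT_ordHol_pow (z : ℍ) {f : FA_Mero_Hol} (hf : f ≠ 0) (m : ℕ) :
    FA_Mero_ordHol z (f ^ m) = m * FA_Mero_ordHol z f := by
  induction m with
  | zero => simp [FA_Mero_ordHol_one]
  | succ m ih =>
    rw [pow_succ, FA_Mero_ordHol_mul z (pow_ne_zero m hf) hf, ih]
    ring

/-- If `(X - j(z))^m ∣ P` then `m ≤ ord_z P(j)`. -/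
theorem FA_S29_RT_le_ordHol_aeval (z : ℍ) (m : ℕ) {P : Polynomial ℂ} (hP : P ≠ 0)
    (hdvd : (Polynomial.X - Polynomial.C (FA_S24_j z)) ^ m ∣ P) :
    m ≤ FA_Mero_ordHol z (Polynomial.aeval FA_S24_jHol P) := by
  obtain ⟨R, rfl⟩ := hdvd
  have hR : R ≠ 0 := right_ne_zero_of_mul hP
  have hL : (Polynomial.X - Polynomial.C (FA_S24_j z) : Polynomial ℂ) ≠ 0 :=
    Polynomial.X_sub_C_ne_zero _
  have h1 := FA_S29_RT_aeval_ne_zero hL
  have h2 := FA_S29_RT_aeval_ne_zero hR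
  rw [map_mul, map_pow, FA_Mero_ordHol_mul z (pow_ne_zero m h1) h2, FA_S29_RT_ordHol_pow z h1]
  have h3 : 1 ≤ FA_Mero_ordHol z (Polynomial.aeval FA_S24_jHol
      (Polynomial.X - Polynomial.C (FA_S24_j z))) := by
    rw [Nat.one_le_iff_ne_zero]
    intro h0
    have := (FA_Mero_ordHol_eq_zero_iff z h1).mp h0
    apply this
    rw [FA_S24_aeval_jHol_apply]
    simp
  nlinarith

/-- **G1 (level one).**  A meromorphic function on `ℍ` which is `SL(2, ℤ)`-invariant and
`M`-good at `∞` is a rational function of `j`. -/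
theorem FA_S29_RT_levelOne (M : ℕ) [NeZero M] (x : FA_Mero_Field)
    (hinv : ∀ γ : SL(2, ℤ), γ • x = x) (hgood : x ∈ FA_S24_good M) :
    x ∈ IntermediateField.adjoin ℂ {FA_S24_g 1} := by
  classical
  have hgood' := hgood
  obtain ⟨y, hy⟩ := hgood'
  obtain ⟨a, b, hb, hab⟩ := IsFractionRing.div_surjective (A := FA_S24_HolPlus M) y
  have hb0 : b ≠ 0 := nonZeroDivisors.ne_zero hb
  rw [← hab, map_div₀, FA_S24_kappa_algebraMap, FA_S24_kappa_algebraMap] at hy
  set a' : FA_Mero_Hol := FA_S24_toHol M a with ha'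
  set b' : FA_Mero_Hol := FA_S24_toHol M b with hb'
  have hb'0 : b' ≠ 0 := fun h => hb0 (FA_S24_toHol_injective (h.trans (map_zero _).symm))
  have hιb : ι b' ≠ 0 := FA_Mero_algebraMap_ne_zero hb'0
  rcases eq_or_ne a' 0 with ha0 | ha0
  · rw [← hy, ha0, map_zero, zero_div]
    exact zero_mem _
  obtain ⟨T, hT⟩ := FA_S29_RT_no_zero_high M b hb0
  have hfin := FA_S29_RT_zeros_finite b' hb'0 T
  set P : Polynomial ℂ := ∏ z ∈ hfin.toFinset,
    (Polynomial.X - Polynomial.C (FA_S24_j z)) ^ (FA_Mero_ordHol z b') with hPdef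
  have hP : P ≠ 0 :=
    Finset.prod_ne_zero_iff.mpr fun z _ => pow_ne_zero _ (Polynomial.X_sub_C_ne_zero _)
  have hPj := FA_S29_RT_aeval_ne_zero hP
  have hιP : ι (Polynomial.aeval FA_S24_jHol P) ≠ 0 := FA_Mero_algebraMap_ne_zero hPj
  have key : ∀ z ∈ ModularGroup.fd,
      FA_Mero_ordHol z b' ≤ FA_Mero_ordHol z (Polynomial.aeval FA_S24_jHol P) := by
    intro z hz
    by_cases hbz : (b' : ℍ → ℂ) z = 0
    · have hzT : z.im ≤ T := by
        by_contra h
        exact hT z (not_le.mp h).le hbz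
      have hmem : z ∈ hfin.toFinset := hfin.mem_toFinset.mpr ⟨hz, hzT, hbz⟩
      exact FA_S29_RT_le_ordHol_aeval z _ hP (Finset.dvd_prod_of_mem _ hmem)
    · rw [(FA_Mero_ordHol_eq_zero_iff z hb'0).mpr hbz]
      exact Nat.zero_le _
  set yv : FA_Mero_Field := ι (Polynomial.aeval FA_S24_jHol P) * x with hyv
  have hyinv : ∀ γ : SL(2, ℤ), γ • yv = yv := by
    intro γ
    rw [hyv, smul_mul', FA_S29_RT_aeval_smul, hinv]
  have hyv' : yv = ι (Polynomial.aeval FA_S24_jHol P * a') / ι b' := by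
    rw [hyv, ← hy, map_mul, mul_div_assoc]
  have hval_fd : ∀ z ∈ ModularGroup.fd, FA_Mero_val z yv ≤ 1 := by
    intro z hz
    rw [hyv', map_div₀, FA_Mero_val_algebraMap, FA_Mero_val_algebraMap,
      FA_Mero_valHol_apply z (mul_ne_zero hPj ha0), FA_Mero_valHol_apply z hb'0,
      ← WithZero.exp_sub, ← WithZero.exp_zero, WithZero.exp_le_exp,
      FA_Mero_ordHol_mul z hPj ha0]
    have := key z hz
    push_cast
    omega
  have hval : ∀ z : ℍ, FA_Mero_val z yv ≤ 1 := by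
    intro z
    obtain ⟨γ, hγ⟩ := ModularGroup.exists_smul_mem_fd z
    have h1 := hval_fd (γ • z) hγ
    have h2 := FA_Mero_val_smul γ⁻¹ yv z
    rw [hyinv, inv_inv] at h2
    rw [h2]
    exact h1
  obtain ⟨h, hh⟩ := FA_Mero_exists_hol_of_val_le_one yv hval
  have hhgood : ι h ∈ FA_S24_good M := by
    rw [hh, hyv]
    exact mul_mem (FA_S29_RT_aeval_good M P) hgood
  have hhinv : ∀ γ : SL(2, ℤ), γ • ι h = ι h := by
    intro γ
    rw [hh]
    exact hyinv γ
  obtain ⟨Q, hQ⟩ := FA_S24_invariant_eq_poly FA_S24_QE FA_S24_BDD FA_S24_HOL M h hhgood hhinv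
  have hx : x = ι (Polynomial.aeval FA_S24_jHol Q) / ι (Polynomial.aeval FA_S24_jHol P) := by
    rw [eq_div_iff hιP, mul_comm, ← hQ, hh]
  rw [hx]
  exact div_mem (FA_S29_RT_aeval_mem Q) (FA_S29_RT_aeval_mem P)

end Fermat.Agent.S29
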