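import Fermat.Agent.S29.ModFix
import Fermat.Agent.S29.PlacesUnr
import Fermat.Agent.S29.RatioL1

/-!
# Item 87, leaf L3* (concrete half): the places of `E_S` over `j = c` and `j = ∞`

For a family `S` (see `ModPkg.lean`), `E_S = ℂ(S)`:

* `FA_S29_MOD_levelOne` : the level one statement (from `FA_S29_RT_levelOne`);
* `FA_S29_MOD_isVal_pt`, `FA_S29_MOD_isVal_inf` : the valuations at a point of `ℍ` and at `∞`;
* `FA_S29_MOD_Fam.card_ST`, `.card_S`, `.card_T`, `.eBound_le_card` : sizes of inertia images;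
* `FA_S29_MOD_Fam.dvd_fin`, `.dvd_inf`, `.dvd` : if `h ∈ E_S` is fixed by the elliptic and
  parabolic elements of `Γ₀(N)` and `h ^ p = f ∈ F₀`, then `p ∣ ord_v f` for every place `v`
  of `F₀`.
-/

set_option autoImplicit false
set_option linter.style.haveILetI false

noncomputable section

open UpperHalfPlane Complex MatrixGroups
open scoped Manifold Topology

namespace Fermat.Agent.S29

open Fermat.Agent.Mero Fermat.Agent.S24 AlgebraicCurve IntermediateField

/-- The level one statement holds (helper5's `FA_S29_RT_levelOne`). -/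
theorem FA_S29_MOD_levelOne (N : ℕ) [NeZero N] : FA_S29_MOD_LevelOne N :=
  fun x hinv hgood => FA_S29_RT_levelOne N x hinv hgood

/-! ### Valuations -/

section vals

variable (L : IntermediateField ℂ FA_Mero_Field)

theorem FA_S29_MOD_ord_g_one_sub_pos (c : ℂ) :
    0 < FA_Mero_ord (FA_S24_pt ℂ c) (FA_S24_g 1 - algebraMap ℂ FA_Mero_Field c) := by
  rw [FA_S24_ord_g_one_sub ℂ FA_S24_tower_complex]
  exact_mod_cast FA_S24_eJ_pos _

theorem FA_S29_MOD_ord_g_one_sub_le (c : ℂ) :
    FA_Mero_ord (FA_S24_pt ℂ c) (FA_S24_g 1 - algebraMap ℂ FA_Mero_Field c)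
      ≤ FA_S24_eBound c := by
  rw [FA_S24_ord_g_one_sub ℂ FA_S24_tower_complex]
  exact FA_S24_eJ_le ℂ c

/-- The valuation at a point over `j = c` on an intermediate field containing `j`. -/
theorem FA_S29_MOD_isVal_pt (hg : FA_S24_g 1 ∈ L) (c : ℂ) :
    FA_S24_IsVal ℂ (fun e : L => FA_Mero_ord (FA_S24_pt ℂ c) (e : FA_Mero_Field)) := by
  have hpos := FA_S29_MOD_ord_g_one_sub_pos c
  refine ⟨?_, ?_, ?_, ?_⟩
  · intro a b ha hb
    have ha' : (a : FA_Mero_Field) ≠ 0 := fun h => ha (Subtype.ext h)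
    have hb' : (b : FA_Mero_Field) ≠ 0 := fun h => hb (Subtype.ext h)
    exact FA_Mero_ord_mul _ ha' hb'
  · intro a b ha hb hab
    have ha' : (a : FA_Mero_Field) ≠ 0 := fun h => ha (Subtype.ext h)
    have hb' : (b : FA_Mero_Field) ≠ 0 := fun h => hb (Subtype.ext h)
    have hab' : (a : FA_Mero_Field) + (b : FA_Mero_Field) ≠ 0 := fun h => hab (Subtype.ext h)
    exact FA_Mero_ord_add _ hab' ha' hb'
  · intro c' _
    show FA_Mero_ord (FA_S24_pt ℂ c) (algebraMap ℂ FA_Mero_Field c') = 0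
    rw [FA_S24_tower_complex c', FA_Mero_ord_algebraMap]
  · refine ⟨⟨FA_S24_g 1 - algebraMap ℂ FA_Mero_Field c, ?_⟩, ?_, ?_⟩
    · exact sub_mem hg (IntermediateField.algebraMap_mem _ _)
    · intro h
      have h1 := congrArg Subtype.val h
      have h2 : FA_S24_g 1 - algebraMap ℂ FA_Mero_Field c = 0 := h1
      rw [h2, FA_Mero_ord_zero] at hpos
      exact lt_irrefl _ hpos
    · exact hpos.ne'

variable (N : ℕ) [NeZero N]

theorem FA_S29_MOD_order_g_one : (FA_S24_Qinf N (FA_S24_g 1)).order = -(N : ℤ) :=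
  FA_S24_order_Qinf_g_one FA_S24_QE N

/-- The valuation at `∞` on an intermediate field of good functions containing `j`. -/
theorem FA_S29_MOD_isVal_inf (hg : FA_S24_g 1 ∈ L) (hgood : ∀ e ∈ L, e ∈ FA_S24_good N) :
    FA_S24_IsVal ℂ (fun e : L => (FA_S24_Qinf N (e : FA_Mero_Field)).order) := by
  have hN0 : (0 : ℤ) < N := by exact_mod_cast Nat.pos_of_ne_zero (NeZero.ne N)
  have hg1 := FA_S29_MOD_order_g_one N
  refine ⟨?_, ?_, ?_, ?_⟩
  · intro a b ha hb
    have ha' : (a : FA_Mero_Field) ≠ 0 := fun h => ha (Subtype.ext h)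
    have hb' : (b : FA_Mero_Field) ≠ 0 := fun h => hb (Subtype.ext h)
    have hag := hgood _ a.2
    have hbg := hgood _ b.2
    show (FA_S24_Qinf N ((a : FA_Mero_Field) * (b : FA_Mero_Field))).order = _
    rw [FA_S24_Qinf_mul hag hbg,
      HahnSeries.order_mul (FA_S24_Qinf_ne_zero hag ha') (FA_S24_Qinf_ne_zero hbg hb')]
  · intro a b ha hb hab
    have hag := hgood _ a.2
    have hbg := hgood _ b.2
    have hab' : (a : FA_Mero_Field) + (b : FA_Mero_Field) ≠ 0 := fun h => hab (Subtype.ext h)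
    show min _ _ ≤ (FA_S24_Qinf N ((a : FA_Mero_Field) + (b : FA_Mero_Field))).order
    have h1 := FA_S24_Qinf_ne_zero (add_mem hag hbg) hab'
    rw [FA_S24_Qinf_add hag hbg] at h1 ⊢
    exact HahnSeries.min_order_le_order_add h1
  · intro c _
    show (FA_S24_Qinf N (algebraMap ℂ FA_Mero_Field c)).order = 0
    rw [FA_S24_tower_complex c, FA_S24_Qinf_const, HahnSeries.order_C]
  · refine ⟨⟨FA_S24_g 1, hg⟩, ?_, ?_⟩
    · intro h
      have h1 : FA_S24_g 1 = 0 := congrArg Subtype.val h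
      exact FA_S24_transc ℂ FA_S24_tower_complex (h1 ▸ isAlgebraic_zero)
    · show (FA_S24_Qinf N (FA_S24_g 1)).order ≠ 0
      rw [hg1]
      omega

end vals

/-! ### The package -/

variable {N : ℕ} [NeZero N] {S : Set FA_Mero_Field}

namespace FA_S29_MOD_Fam

variable (hS : FA_S29_MOD_Fam N S)

include hS

theorem card_ST (hN : 2 ≤ N) :
    (3 : ℤ) ≤ Nat.card ((Subgroup.zpowers (ModularGroup.S * ModularGroup.T)).map hS.phi) := by
  have := FA_S24_le_card_map_zpowers hS.phi hS.finite_range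
    (ModularGroup.S * ModularGroup.T) 3 (by
      intro m hm0 hm3 hmem
      have hmem' := hS.ker_le hmem
      interval_cases m
      · rw [pow_one] at hmem'
        exact FA_S24_ST_not_mem hN hmem'
      · exact FA_S24_ST_sq_not_mem hN hmem')
  exact_mod_cast this

theorem card_S (hN : 2 ≤ N) :
    (2 : ℤ) ≤ Nat.card ((Subgroup.zpowers ModularGroup.S).map hS.phi) := by
  have := FA_S24_le_card_map_zpowers hS.phi hS.finite_range
    ModularGroup.S 2 (by
      intro m hm0 hm3 hmem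
      have hmem' := hS.ker_le hmem
      interval_cases m
      rw [pow_one] at hmem'
      exact FA_S24_S_not_mem hN hmem')
  exact_mod_cast this

theorem card_T :
    (N : ℤ) ≤ Nat.card ((Subgroup.zpowers ModularGroup.T).map hS.phi) := by
  have hmemE : FA_S29_MOD_rho ModularGroup.S (FA_S24_g N) ∈ FA_S29_MOD_E S :=
    hS.E_le (FA_S24_gen_mem_E FA_S29_MOD_rho FA_S24_g N dvd_rfl ModularGroup.S)
  have := FA_S24_le_card_map_zpowers hS.phi hS.finite_range
    ModularGroup.T N (by
      intro m hm0 hmN hmem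
      rw [MonoidHom.mem_ker] at hmem
      have h1 := congrArg (fun σ : FA_S29_MOD_E S ≃ₐ[ℂ] FA_S29_MOD_E S =>
        ((σ ⟨FA_S29_MOD_rho ModularGroup.S (FA_S24_g N), hmemE⟩ :
          FA_S29_MOD_E S) : FA_Mero_Field)) hmem
      have h2 : FA_S29_MOD_rho (ModularGroup.T ^ m)
          (FA_S29_MOD_rho ModularGroup.S (FA_S24_g N))
            = FA_S29_MOD_rho ModularGroup.S (FA_S24_g N) := h1
      have h3 : FA_S29_MOD_rho (ModularGroup.S⁻¹ * ModularGroup.T ^ m * ModularGroup.S)
          (FA_S24_g N) = FA_S24_g N := by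
        rw [map_mul, map_mul, AlgEquiv.mul_apply, AlgEquiv.mul_apply, h2,
          ← AlgEquiv.mul_apply, ← map_mul, inv_mul_cancel, map_one]
        rfl
      have h4 := FA_S24_conj_T_pow_mem ((FA_S29_MOD_props N).stab _ h3)
      exact absurd (Nat.le_of_dvd hm0 h4) (by omega))
  exact_mod_cast this

theorem eBound_le_card (hN : 2 ≤ N) (c : ℂ) :
    FA_S24_eBound c ≤ Nat.card ((FA_S24_IK c).map hS.phi) := by
  classical
  unfold FA_S24_eBound FA_S24_IK
  by_cases h0 : c = 0
  · rw [if_pos h0, if_pos h0]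
    exact hS.card_ST hN
  · rw [if_neg h0, if_neg h0]
    by_cases h1 : c = 1728
    · rw [if_pos h1, if_pos h1]
      exact hS.card_S hN
    · rw [if_neg h1, if_neg h1]
      exact_mod_cast FA_S24_one_le_card_map hS.phi hS.finite_range ⊥

/-- The inclusion `F₀ → E_S`. -/
def incl : ↥(FA_S24_F0 ℂ FA_S24_g N) →ₐ[ℂ] ↥(FA_S29_MOD_E S) :=
  IntermediateField.inclusion hS.F0_le

/-- The `F₀`-algebra structure of `E_S`. -/
@[reducible]
def alg : Algebra ↥(FA_S24_F0 ℂ FA_S24_g N) ↥(FA_S29_MOD_E S) :=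
  hS.incl.toRingHom.toAlgebra

theorem tower :
    letI := hS.alg
    IsScalarTower ℂ ↥(FA_S24_F0 ℂ FA_S24_g N) ↥(FA_S29_MOD_E S) :=
  letI := hS.alg
  IsScalarTower.of_algebraMap_eq (fun c => (hS.incl.commutes c).symm)

end FA_S29_MOD_Fam

end Fermat.Agent.S29

end
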