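import Mathlib
import Fermat.Prelude.Def_FreyPackage_EigenformResidualAttachment
import Fermat.Agent.S29.GlueRep
import Fermat.Agent.S29.FreyLevel

/-!
# S42 from the output of leaf L10

`FA_S29_GL_ModuleAll N p` : the output of L10 for all normalised eigenforms of level `N` and all
algebraically closed coefficient fields of characteristic `p`.

`FA_S29_S42_of_module` : `FA_S29_GL_ModuleAll M P.p → P.EigenformResidualAttachmentAt M`.
-/

set_option autoImplicit false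
set_option linter.unusedSectionVars false
set_option linter.unusedVariables false
set_option linter.style.haveILetI false

namespace Fermat.Agent.S29

noncomputable section

local notation "Qb" => AlgebraicClosure ℚ
local notation "Γ" => (AlgebraicClosure ℚ ≃ₐ[ℚ] AlgebraicClosure ℚ)
local notation "Zbar" => integralClosure ℤ ℂ

open Polynomial CongruenceSubgroup CuspForm
open WeierstrassCurve WeierstrassCurve.Affine WeierstrassCurve.Affine.Point

/-- The output of leaf L10, for all eigenforms of level `N` and all algebraically closed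
coefficient fields of characteristic `p`. -/
def FA_S29_GL_ModuleAll (N p : ℕ) : Prop :=
  ∀ (g : CuspForm (Gamma0 N) 2), g.IsNormalizedEigenform →
    ∀ (k₀ : Type) [Field k₀] [IsAlgClosed k₀] [CharP k₀ p] (φ : Zbar →+* k₀),
      FA_S29_GL_Module N p g φ

/-- The characteristic of `ℤ̄ ⧸ 𝔪` for a maximal ideal `𝔪` containing `p`. -/
theorem FA_S29_GL_charP_quot (p : ℕ) (hp : p.Prime) (𝔪 : Ideal Zbar) [h𝔪 : 𝔪.IsMaximal]
    (hp𝔪 : (p : Zbar) ∈ 𝔪) : CharP (Zbar ⧸ 𝔪) p := by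
  letI : Field (Zbar ⧸ 𝔪) := Ideal.Quotient.field 𝔪
  have h0 : ((p : ℕ) : Zbar ⧸ 𝔪) = 0 := by
    have : (Ideal.Quotient.mk 𝔪) (p : Zbar) = 0 := Ideal.Quotient.eq_zero_iff_mem.mpr hp𝔪
    rwa [map_natCast] at this
  have h1 : ringChar (Zbar ⧸ 𝔪) = p := CharP.ringChar_of_prime_eq_zero hp h0
  have h2 := ringChar.charP (Zbar ⧸ 𝔪)
  rwa [h1] at h2

/-- An automorphism in the kernel of the restriction to `L` fixes `L` pointwise. -/
theorem FA_S29_GL_fix_of_ker (L : IntermediateField ℚ Qb) [Normal ℚ L] (σ : Γ)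
    (hσ : σ ∈ (AlgEquiv.restrictNormalHom (F := ℚ) (K₁ := Qb) L).ker) :
    ∀ x ∈ L, σ x = x := by
  intro x hx
  have h1 := AlgEquiv.restrictNormal_commutes σ L ⟨x, hx⟩
  have h2 : AlgEquiv.restrictNormalHom (F := ℚ) (K₁ := Qb) L σ = 1 := MonoidHom.mem_ker.mp hσ
  have h3 : σ.restrictNormal L = 1 := h2
  rw [h3] at h1
  exact h1.symm

set_option maxHeartbeats 1000000 in
/-- **S42 from L10.** -/
theorem FA_S29_S42_of_module (P : FreyPackage) (M : ℕ) (hM : 0 < M)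
    (hmod : FA_S29_GL_ModuleAll M P.p) : P.EigenformResidualAttachmentAt M := by
  classical
  intro g hg 𝔪 h𝔪 hp𝔪
  haveI := h𝔪
  letI : Field (Zbar ⧸ 𝔪) := Ideal.Quotient.field 𝔪
  haveI hchar : CharP (Zbar ⧸ 𝔪) P.p := FA_S29_GL_charP_quot P.p P.pp 𝔪 hp𝔪
  haveI hcharK : CharP (AlgebraicClosure (Zbar ⧸ 𝔪)) P.p :=
    charP_of_injective_algebraMap
      (algebraMap (Zbar ⧸ 𝔪) (AlgebraicClosure (Zbar ⧸ 𝔪))).injective P.p
  letI : Algebra (ZMod P.p) (AlgebraicClosure (Zbar ⧸ 𝔪)) := ZMod.algebra _ P.p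
  set ψ : Zbar →+* AlgebraicClosure (Zbar ⧸ 𝔪) :=
    (algebraMap (Zbar ⧸ 𝔪) (AlgebraicClosure (Zbar ⧸ 𝔪))).comp (Ideal.Quotient.mk 𝔪) with hψ
  obtain ⟨ρ', ⟨L₁, hL₁, h1⟩, -, hfr⟩ := FA_S29_GL_rep (N := M) (p := P.p) hM.ne' P.pp ψ
    (hmod g hg (AlgebraicClosure (Zbar ⧸ 𝔪)) ψ) (RingHom.id (AlgebraicClosure (Zbar ⧸ 𝔪)))
  obtain ⟨L₂, hL₂, h2⟩ := FA_S29_FL_frey P
  obtain ⟨L, hL, hLG, hL₁L, hL₂L⟩ := FA_S29_GL_common_level L₁ L₂
  haveI : NumberField ↥L := NumberField.of_module_finite ℚ ↥L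
  refine ⟨AlgebraicClosure (Zbar ⧸ 𝔪), inferInstance, inferInstance,
    Fin 2 → AlgebraicClosure (Zbar ⧸ 𝔪), inferInstance, inferInstance, ρ', ψ,
    ↥L, inferInstance, inferInstance, hLG, inferInstance, inferInstance, ?_, ?_, ?_, ?_, ?_⟩
  · intro x hx
    rw [RingHom.mem_ker, hψ, RingHom.comp_apply, Ideal.Quotient.eq_zero_iff_mem.mpr hx,
      _root_.map_zero]
  · exact Module.finrank_fin_fun _
  · intro σ hσ
    have hfix := FA_S29_GL_fix_of_ker L σ hσ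
    refine ⟨?_, ?_⟩
    · show σ ∈ MonoidHom.ker _
      rw [MonoidHom.mem_ker]
      convert h2 σ fun x hx => hfix x (hL₂L hx)
    · show σ ∈ MonoidHom.ker _
      rw [MonoidHom.mem_ker]
      exact h1 σ fun x hx => hfix x (hL₁L hx)
  · intro ℓ hℓ hℓM hℓp A hA τ hτ
    have hℓB : ¬ ℓ ∣ M * P.p := by
      intro h
      rcases (Nat.Prime.dvd_mul hℓ).mp h with h | h
      · exact hℓM h
      · exact hℓp ((Nat.prime_dvd_prime_iff_eq hℓ P.pp).mp h)
    obtain ⟨a, ha, -, htr, -⟩ := hfr ℓ hℓ hℓB A hA τ hτ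
    exact ⟨a, ha, htr⟩
  · intro ℓ hℓ hℓM hℓp A hA τ hτ
    have hℓB : ¬ ℓ ∣ M * P.p := by
      intro h
      rcases (Nat.Prime.dvd_mul hℓ).mp h with h | h
      · exact hℓM h
      · exact hℓp ((Nat.prime_dvd_prime_iff_eq hℓ P.pp).mp h)
    obtain ⟨a, ha, -, -, hdet⟩ := hfr ℓ hℓ hℓB A hA τ hτ
    exact hdet

end

end Fermat.Agent.S29
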