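import Mathlib

/-!
# S29: the residue fields of `ℤ̄` are algebraically closed

`FA_S29_ZB_isAlgClosed` : for a maximal ideal `𝔪` of `ℤ̄ = integralClosure ℤ ℂ` the field
`ℤ̄ ⧸ 𝔪` is algebraically closed.
-/

set_option autoImplicit false
set_option linter.unusedSectionVars false
set_option linter.unusedVariables false
set_option linter.style.haveILetI false

namespace Fermat.Agent.S29

noncomputable section

local notation "Zbar" => integralClosure ℤ ℂ

open Polynomial

/-- Every monic polynomial of positive degree over `ℤ̄` has a root in `ℤ̄`. -/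
theorem FA_S29_ZB_exists_root (F : Zbar[X]) (hF : F.Monic) (hdeg : F.degree ≠ 0) :
    ∃ x : Zbar, F.eval x = 0 := by
  have hmap : (F.map (algebraMap Zbar ℂ)).degree ≠ 0 := by
    rw [Polynomial.degree_map_eq_of_injective (Subtype.val_injective)]
    exact hdeg
  obtain ⟨z, hz⟩ := IsAlgClosed.exists_root (F.map (algebraMap Zbar ℂ)) hmap
  have hz' : Polynomial.eval₂ (algebraMap Zbar ℂ) z F = 0 := by
    rwa [Polynomial.IsRoot.def, Polynomial.eval_map] at hz
  have hint : IsIntegral Zbar z := ⟨F, hF, hz'⟩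
  have hint' : IsIntegral ℤ z := isIntegral_trans z hint
  refine ⟨⟨z, hint'⟩, ?_⟩
  apply Subtype.val_injective
  have h1 : ((F.eval (⟨z, hint'⟩ : Zbar) : Zbar) : ℂ) =
      Polynomial.eval₂ (algebraMap Zbar ℂ) z F := by
    have := Polynomial.hom_eval₂ F (RingHom.id Zbar) (algebraMap Zbar ℂ) (⟨z, hint'⟩ : Zbar)
    simp only [RingHom.comp_id, Polynomial.eval₂_id] at this
    exact this
  rw [h1, hz']
  rfl

/-- The residue fields of `ℤ̄` are algebraically closed. -/
theorem FA_S29_ZB_isAlgClosed (𝔪 : Ideal Zbar) [h𝔪 : 𝔪.IsMaximal] :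
    letI : Field (Zbar ⧸ 𝔪) := Ideal.Quotient.field 𝔪
    IsAlgClosed (Zbar ⧸ 𝔪) := by
  letI : Field (Zbar ⧸ 𝔪) := Ideal.Quotient.field 𝔪
  apply IsAlgClosed.of_exists_root
  intro f hf hirr
  obtain ⟨F, hFmap, hFdeg, hFmonic⟩ :=
    Polynomial.lifts_and_degree_eq_and_monic
      ((Polynomial.mem_lifts f).mpr
        (Polynomial.map_surjective (Ideal.Quotient.mk 𝔪) Ideal.Quotient.mk_surjective f)) hf
  have hdeg : F.degree ≠ 0 := by
    rw [hFdeg]
    exact (Polynomial.degree_pos_of_irreducible hirr).ne'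
  obtain ⟨x, hx⟩ := FA_S29_ZB_exists_root F hFmonic hdeg
  refine ⟨Ideal.Quotient.mk 𝔪 x, ?_⟩
  rw [← hFmap, Polynomial.eval_map, Polynomial.eval₂_hom, hx, map_zero]

end

end Fermat.Agent.S29
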