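import Mathlib
import Fermat.Prelude.Def_GaloisRep_Residual
import Fermat.Agent.S29.S42Core
import Fermat.Agent.S29.ZbarClosed

/-!
# S29 from the output of leaf L10

`FA_S29_S29_of_module` : `(N ≠ 0 → FA_S29_GL_ModuleAll N p) →` the statement of S29 for
`(N, p)`.
-/

set_option autoImplicit false
set_option linter.unusedSectionVars false
set_option linter.unusedVariables false
set_option linter.style.haveILetI false

namespace Fermat.Agent.S29

noncomputable section

local notation "Qb" => AlgebraicClosure ℚ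
local notation "Γ" => (AlgebraicClosure ℚ ≃ₐ[ℚ] AlgebraicClosure ℚ)
local notation "Zbar" => integralClosure ℤ ℂ

open Polynomial CongruenceSubgroup CuspForm

/-- The kernel of a ring homomorphism from `ℤ̄` to a field of positive characteristic is
maximal. -/
theorem FA_S29_GL_ker_isMaximal {p : ℕ} (hp : p.Prime) {k : Type*} [Field k] [CharP k p]
    (φ : Zbar →+* k) : (RingHom.ker φ).IsMaximal := by
  haveI : (RingHom.ker φ).IsPrime := RingHom.ker_isPrime φ
  haveI : Algebra.IsIntegral ℤ Zbar := inferInstance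
  apply Ideal.isMaximal_of_isIntegral_of_isMaximal_comap (R := ℤ) (RingHom.ker φ)
  have hprime : (Ideal.comap (algebraMap ℤ Zbar) (RingHom.ker φ)).IsPrime :=
    Ideal.comap_isPrime _ _
  have hne : Ideal.comap (algebraMap ℤ Zbar) (RingHom.ker φ) ≠ ⊥ := by
    intro h
    have hpmem : (p : ℤ) ∈ Ideal.comap (algebraMap ℤ Zbar) (RingHom.ker φ) := by
      rw [Ideal.mem_comap, RingHom.mem_ker, map_natCast, map_natCast]
      exact CharP.cast_eq_zero k p
    rw [h, Ideal.mem_bot] at hpmem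
    exact hp.ne_zero (by exact_mod_cast hpmem)
  exact hprime.isMaximal hne

/-- The trivial two-dimensional residual representation. -/
def FA_S29_GL_trivial (k : Type) [Field k] : ResidualGaloisRep k where
  V := Fin 2 → k
  finrank_eq := Module.finrank_fin_fun k
  ρ := 1
  factorsThroughFiniteLevel := ⟨⊥, inferInstance, fun _ _ => rfl⟩

set_option maxHeartbeats 1000000 in
/-- **S29 from L10.** -/
theorem FA_S29_S29_of_module {N : ℕ} {g : CuspForm (Gamma0 N) 2} (hg : g.IsNormalizedEigenform)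
    {p : ℕ} (hp : p.Prime) {k : Type} [Field k] [CharP k p] (φ : Zbar →+* k)
    (hmod : N ≠ 0 → FA_S29_GL_ModuleAll N p) :
    ∃ ρ : ResidualGaloisRep k, ρ.IsAttachedTo g φ ∧
      ∀ ℓ : ℕ, ℓ.Prime → ¬ ℓ ∣ N * p → ρ.IsUnramifiedAt ℓ := by
  classical
  by_cases hN : N = 0
  · subst hN
    refine ⟨FA_S29_GL_trivial k, ?_, ?_⟩
    · intro ℓ hℓ hℓN
      exact absurd (dvd_zero ℓ) hℓN
    · intro ℓ hℓ hℓN
      rw [zero_mul] at hℓN
      exact absurd (dvd_zero ℓ) hℓN
  · haveI h𝔪 : (RingHom.ker φ).IsMaximal := FA_S29_GL_ker_isMaximal hp φ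
    letI : Field (Zbar ⧸ RingHom.ker φ) := Ideal.Quotient.field (RingHom.ker φ)
    have hpmem : (p : Zbar) ∈ RingHom.ker φ := by
      rw [RingHom.mem_ker, map_natCast]
      exact CharP.cast_eq_zero k p
    haveI : CharP (Zbar ⧸ RingHom.ker φ) p := FA_S29_GL_charP_quot p hp (RingHom.ker φ) hpmem
    haveI : IsAlgClosed (Zbar ⧸ RingHom.ker φ) := FA_S29_ZB_isAlgClosed (RingHom.ker φ)
    set φ₀ : Zbar →+* Zbar ⧸ RingHom.ker φ := Ideal.Quotient.mk (RingHom.ker φ) with hφ₀
    set ι : Zbar ⧸ RingHom.ker φ →+* k :=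
      Ideal.Quotient.lift (RingHom.ker φ) φ (fun a ha => ha) with hι
    have hιφ : ∀ a : Zbar, ι (φ₀ a) = φ a := fun a => Ideal.Quotient.lift_mk _ _ _
    obtain ⟨ρ', hlev, hin, hfr⟩ := FA_S29_GL_rep (N := N) (p := p) hN hp φ₀
      (hmod hN g hg (Zbar ⧸ RingHom.ker φ) φ₀) ι
    refine ⟨{ V := Fin 2 → k
              finrank_eq := Module.finrank_fin_fun k
              ρ := ρ'
              factorsThroughFiniteLevel := hlev }, ?_, ?_⟩
    · intro ℓ hℓ hℓN hℓk A hA σ hσ
      have hℓp : ℓ ≠ p := by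
        rintro rfl
        exact hℓk (CharP.cast_eq_zero k ℓ)
      have hℓB : ¬ ℓ ∣ N * p := by
        intro h
        rcases (Nat.Prime.dvd_mul hℓ).mp h with h | h
        · exact hℓN h
        · exact hℓp ((Nat.prime_dvd_prime_iff_eq hℓ hp).mp h)
      obtain ⟨a, ha, hcp, -, -⟩ := hfr ℓ hℓ hℓB A hA σ hσ
      refine ⟨a, ha, ?_⟩
      rw [hιφ] at hcp
      exact hcp
    · intro ℓ hℓ hℓB A hA σ hσ
      exact hin ℓ hℓ hℓB A hA σ hσ

end

end Fermat.Agent.S29
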