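import Mathlib
import Fermat.Agent.S29.StabB

/-!
# S29 / S42 (item 87), leaf L10 (b), add-on: Galois orbits in `J₀(N)` are finite

* `FA_S29_STB_orbit_of_fixed` : abstract form — an element of a `G_ℚ`-set fixed by
  `Gal(ℚ̄ / E)`, `E` a number field, has a finite orbit;
* `FA_S29_STB_orbit_finite` : orbits in `J₀(N)` are finite;
* `FA_S29_STB_orbit_finite_torsion` : orbits in `J₀(N)[n]` are finite.
-/

set_option autoImplicit false
set_option linter.unusedSectionVars false
set_option linter.unusedVariables false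
set_option linter.style.haveILetI false
set_option synthInstance.maxHeartbeats 400000
set_option maxHeartbeats 1000000

noncomputable section

namespace Fermat.Agent.S29

open ModularCurve AlgebraicCurve IntermediateField

/-- An element fixed by `Gal(ℚ̄ / E)`, `E` a number field, has a finite orbit. -/
theorem FA_S29_STB_orbit_of_fixed {X : Type*}
    [MulAction (AlgebraicClosure ℚ ≃ₐ[ℚ] AlgebraicClosure ℚ) X] (y : X)
    (E : IntermediateField ℚ (AlgebraicClosure ℚ)) (hE : FiniteDimensional ℚ E)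
    (h : ∀ σ : AlgebraicClosure ℚ ≃ₐ[ℚ] AlgebraicClosure ℚ, σ ∈ E.fixingSubgroup → σ • y = y) :
    (Set.range fun σ : AlgebraicClosure ℚ ≃ₐ[ℚ] AlgebraicClosure ℚ => σ • y).Finite := by
  classical
  haveI := hE
  haveI : Finite (↥E →ₐ[ℚ] AlgebraicClosure ℚ) := inferInstance
  let r : (AlgebraicClosure ℚ ≃ₐ[ℚ] AlgebraicClosure ℚ) → (↥E →ₐ[ℚ] AlgebraicClosure ℚ) :=
    fun σ => (σ : AlgebraicClosure ℚ →ₐ[ℚ] AlgebraicClosure ℚ).comp E.val
  have key : ∀ σ τ : AlgebraicClosure ℚ ≃ₐ[ℚ] AlgebraicClosure ℚ, r σ = r τ →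
      σ • y = τ • y := by
    intro σ τ hr
    have hmem : τ⁻¹ * σ ∈ E.fixingSubgroup := by
      rw [IntermediateField.mem_fixingSubgroup_iff]
      intro x hx
      have h1 : σ x = τ x := DFunLike.congr_fun hr ⟨x, hx⟩
      show τ⁻¹ (σ x) = x
      rw [h1]
      exact τ.symm_apply_apply x
    have h2 := h _ hmem
    rw [mul_smul] at h2
    calc σ • y = τ • (τ⁻¹ • (σ • y)) := (smul_inv_smul τ _).symm
      _ = τ • y := by rw [h2]
  let g : (↥E →ₐ[ℚ] AlgebraicClosure ℚ) → X := fun a =>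
    if ha : ∃ σ, r σ = a then ha.choose • y else y
  refine (Set.finite_range g).subset ?_
  rintro _ ⟨σ, rfl⟩
  refine ⟨r σ, ?_⟩
  have ha : ∃ τ, r τ = r σ := ⟨σ, rfl⟩
  show (if ha : ∃ τ, r τ = r σ then ha.choose • y else y) = σ • y
  rw [dif_pos ha]
  exact key _ _ ha.choose_spec

/-- Galois orbits in `J₀(N)` are finite. -/
theorem FA_S29_STB_orbit_finite (N : ℕ) [NeZero N] (y : JZero N) :
    (Set.range fun σ : AlgebraicClosure ℚ ≃ₐ[ℚ] AlgebraicClosure ℚ => σ • y).Finite := by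
  obtain ⟨E, hE, h⟩ := FA_S29_STB_main N y
  exact FA_S29_STB_orbit_of_fixed y E hE h

/-- Every finite set of points of `J₀(N)` is fixed by an open normal subgroup: there is a finite
Galois extension `E / ℚ` inside `ℚ̄` with `Gal(ℚ̄ / E)` fixing the set pointwise. -/
theorem FA_S29_STB_finset_normal (N : ℕ) [NeZero N] (S : Finset (JZero N)) :
    ∃ E : IntermediateField ℚ (AlgebraicClosure ℚ), FiniteDimensional ℚ E ∧ Normal ℚ E ∧
      ∀ σ : AlgebraicClosure ℚ ≃ₐ[ℚ] AlgebraicClosure ℚ, σ ∈ E.fixingSubgroup →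
        ∀ x ∈ S, σ • x = x := by
  obtain ⟨E, hE, h⟩ := FA_S29_STB_finset N S
  haveI := hE
  haveI : Algebra.IsAlgebraic ℚ (AlgebraicClosure ℚ) := AlgebraicClosure.isAlgebraic ℚ
  haveI : IsAlgClosure ℚ (AlgebraicClosure ℚ) := ⟨inferInstance, inferInstance⟩
  haveI : Normal ℚ (AlgebraicClosure ℚ) := IsAlgClosure.normal ℚ (AlgebraicClosure ℚ)
  refine ⟨IntermediateField.normalClosure ℚ E (AlgebraicClosure ℚ), ?_, ?_, fun σ hσ => ?_⟩
  · exact normalClosure.is_finiteDimensional ℚ E (AlgebraicClosure ℚ)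
  · exact normalClosure.normal ℚ E (AlgebraicClosure ℚ)
  · refine h σ ?_
    exact IntermediateField.fixingSubgroup_le
      (IntermediateField.le_normalClosure E) hσ

end Fermat.Agent.S29

end
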