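import Mathlib
import Fermat.Agent.S29.DescentInst
import Fermat.Agent.S29.Kummer

/-!
# S29 (AN), piece P6, abstract part: the map `Θ` from a family of Selmer functions over `L`

`K ⊂ L` algebraically closed of characteristic zero, `F_K`, `F_L` the function fields.  Given
`x : H → F_L` with `x ψ ∈ Sel`, `x (ψ + ψ') ~ x ψ · x ψ'` and (`x ψ ~ 1 → ψ ∈ p H`), and the
finiteness of `Sel(F_L) / ~`, the descended Kummer classes give `Θ : H →+ Pic⁰(F_K)` with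
`p Θ = 0`, `ker Θ ⊆ p H`, and `Θ` is equivariant for every pair of operators compatible on
representatives.
-/

set_option autoImplicit false
set_option linter.style.haveILetI false
set_option linter.unusedSectionVars false
set_option linter.unusedVariables false

noncomputable section

namespace Fermat.Agent.S29

open AlgebraicCurve FA_RR ModularCurve

section rel

variable {L F : Type*} [Field L] [Field F] [Algebra L F]

theorem FA_S29_TH_rel_mul {p : ℕ} {a a' b b' : F} (h : FA_S29_DS_Rel L p a a')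
    (h' : FA_S29_DS_Rel L p b b') : FA_S29_DS_Rel L p (a * b) (a' * b') := by
  obtain ⟨c, u, hc, hu, rfl⟩ := h
  obtain ⟨c', u', hc', hu', rfl⟩ := h'
  refine ⟨c * c', u * u', mul_ne_zero hc hc', mul_ne_zero hu hu', ?_⟩
  rw [map_mul, mul_pow]
  ring

end rel

section

variable {K L : Type*} [Field K] [Field L] [Algebra K L] [Algebra ℚ K] [Algebra ℚ L]
  [IsScalarTower ℚ K L] [IsAlgClosed K] [IsAlgClosed L] [CharZero K] [CharZero L]
variable (F₀ : IntermediateField ℚ (LaurentSeries ℚ))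

/-- **The abstract `Θ`.** -/
theorem FA_S29_TH_abstract (hFK : FA_RR_IsFF K (laurentBaseChange K F₀))
    {p : ℕ} (hp : 0 < p)
    (hdesc : ∀ f : laurentBaseChange L F₀, FA_S29_DS_Sel L p f →
      ∃ f₀ : laurentBaseChange K F₀, FA_S29_DS_Sel K p f₀ ∧
        FA_S29_DS_Rel L p f (FA_S29_DS_iota (L := L) F₀ f₀))
    {H : Type*} [AddCommGroup H] (x : H → laurentBaseChange L F₀)
    (hsel : ∀ ψ, FA_S29_DS_Sel L p (x ψ))
    (hadd : ∀ ψ ψ', FA_S29_DS_Rel L p (x ψ * x ψ') (x (ψ + ψ')))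
    (hker : ∀ ψ, FA_S29_DS_Rel L p 1 (x ψ) → ∃ ψ', ψ = (p : ℤ) • ψ') :
    ∃ Θ : H →+ Pic0 K (laurentBaseChange K F₀),
      (∀ ψ, (p : ℤ) • Θ ψ = 0) ∧ (∀ ψ, Θ ψ = 0 → ∃ ψ', ψ = (p : ℤ) • ψ') ∧
      (∀ (TH : H → H) (TJ : Pic0 K (laurentBaseChange K F₀) → Pic0 K (laurentBaseChange K F₀)),
        (∀ (ψ : H) (f₀ : laurentBaseChange K F₀), FA_S29_DS_Sel K p f₀ →
          FA_S29_DS_Rel L p (x ψ) (FA_S29_DS_iota (L := L) F₀ f₀) →
          ∃ g₀ : laurentBaseChange K F₀, g₀ ≠ 0 ∧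
            TJ (FA_S29_KU_kappa hFK p f₀) = FA_S29_KU_kappa hFK p g₀ ∧
            FA_S29_DS_Rel L p (x (TH ψ)) (FA_S29_DS_iota (L := L) F₀ g₀)) →
        ∀ ψ, Θ (TH ψ) = TJ (Θ ψ)) := by
  classical
  have hex : ∀ ψ, ∃ f₀ : laurentBaseChange K F₀, FA_S29_DS_Sel K p f₀ ∧
      FA_S29_DS_Rel L p (x ψ) (FA_S29_DS_iota (L := L) F₀ f₀) := fun ψ => hdesc _ (hsel ψ)
  choose f hfsel hfrel using hex
  -- independence of the representative
  have huniq : ∀ (ψ : H) (g₀ : laurentBaseChange K F₀), g₀ ≠ 0 →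
      FA_S29_DS_Rel L p (x ψ) (FA_S29_DS_iota (L := L) F₀ g₀) →
      FA_S29_KU_kappa hFK p g₀ = FA_S29_KU_kappa hFK p (f ψ) := by
    intro ψ g₀ hg₀ hg
    have h1 : FA_S29_DS_Rel L p (FA_S29_DS_iota (L := L) F₀ (f ψ))
        (FA_S29_DS_iota (L := L) F₀ g₀) := (hfrel ψ).symm.trans hg
    have h2 := (FA_S29_DS_rel_iff (L := L) F₀ hp (f ψ) g₀ (hfsel ψ).1).mp h1
    exact (FA_S29_KU_kappa_rel hFK hp (hfsel ψ) h2).2
  have hmap_add : ∀ ψ ψ', FA_S29_KU_kappa hFK p (f (ψ + ψ'))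
      = FA_S29_KU_kappa hFK p (f ψ) + FA_S29_KU_kappa hFK p (f ψ') := by
    intro ψ ψ'
    have h1 : FA_S29_DS_Rel L p (x (ψ + ψ'))
        (FA_S29_DS_iota (L := L) F₀ (f ψ * f ψ')) := by
      rw [map_mul]
      exact (hadd ψ ψ').symm.trans (FA_S29_TH_rel_mul (hfrel ψ) (hfrel ψ'))
    rw [← huniq (ψ + ψ') (f ψ * f ψ') (mul_ne_zero (hfsel ψ).1 (hfsel ψ').1) h1,
      FA_S29_KU_kappa_mul hFK hp (hfsel ψ) (hfsel ψ')]
  let Θ : H →+ Pic0 K (laurentBaseChange K F₀) :=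
    AddMonoidHom.mk' (fun ψ => FA_S29_KU_kappa hFK p (f ψ)) hmap_add
  refine ⟨Θ, ?_, ?_, ?_⟩
  · intro ψ
    show (p : ℤ) • FA_S29_KU_kappa hFK p (f ψ) = 0
    rw [natCast_zsmul]
    exact FA_S29_KU_kappa_nsmul hFK p (f ψ)
  · intro ψ hψ
    have hψ' : FA_S29_KU_kappa hFK p (f ψ) = 0 := hψ
    obtain ⟨c, u, hc, hu, hcu⟩ := FA_S29_KU_kappa_eq_zero hFK hp (hfsel ψ) hψ'
    apply hker
    have h1 : FA_S29_DS_Rel K p (1 : laurentBaseChange K F₀) (f ψ) :=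
      ⟨c, u, hc, hu, by rw [hcu, mul_one]⟩
    have h2 := (FA_S29_DS_rel_iff (L := L) F₀ hp 1 (f ψ) one_ne_zero).mpr h1
    rw [map_one] at h2
    exact h2.trans (hfrel ψ).symm
  · intro TH TJ hT ψ
    show FA_S29_KU_kappa hFK p (f (TH ψ)) = TJ (FA_S29_KU_kappa hFK p (f ψ))
    obtain ⟨g₀, hg₀, hTJ, hrel⟩ := hT ψ (f ψ) (hfsel ψ) (hfrel ψ)
    rw [hTJ, huniq (TH ψ) g₀ hg₀ hrel]

end

end Fermat.Agent.S29

end
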