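import Fermat.Agent.S29.EigAsm
import Fermat.Agent.S29.StabB
import Fermat.Agent.S29.S42Core
import Fermat.Agent.S29.S29Core

/-!
# S29/S42: the final wiring, conditional on the two remaining leaves

* `FA_S29_WI_AN N p`  : the statement of (AN) (the analytic map `Θ`), equivariance at `ℓ ∤ N p`;
* `FA_S29_WI_GH N p`  : the statement of L10(a) (Hecke commutes with Galois on `J₀(N)[p]`);
* `FA_S29_WI_all`  : (AN) + L10(a) ⟹ `FA_S29_GL_ModuleAll N p`  (L10(b) = `FA_S29_STB_main`);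
* `FA_S29_WI_S42`, `FA_S29_WI_S29` : the two frozen statements from (AN) + L10(a).
-/

set_option autoImplicit false
set_option linter.unusedSectionVars false
set_option linter.unusedVariables false
set_option linter.style.haveILetI false

noncomputable section

namespace Fermat.Agent.S29

local notation "Qb" => AlgebraicClosure ℚ
local notation "Γ" => (AlgebraicClosure ℚ ≃ₐ[ℚ] AlgebraicClosure ℚ)
local notation "Zbar" => integralClosure ℤ ℂ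

open CuspForm ModularFormClass CongruenceSubgroup ModularCurve ModularCurve.Period
open scoped MatrixGroups

/-- The statement of (AN), with Hecke equivariance at the primes `ℓ ∤ N p`. -/
def FA_S29_WI_AN (N : ℕ) [NeZero N] (p : ℕ) : Prop :=
  ∃ Θ : ↥(parabolicHoms ℤ (Gamma0 N) ℤ) →+ JZero N,
    (∀ ψ, (p : ℤ) • Θ ψ = 0) ∧ (∀ ψ, Θ ψ = 0 → ∃ ψ', ψ = (p : ℤ) • ψ') ∧
    (∀ ℓ : Nat.Primes, ¬ (ℓ : ℕ) ∣ N * p → ∀ ψ,
      Θ (FA_S29_EIG_TH N ℓ ψ) = heckeOperatorBar N ℓ (Θ ψ))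

/-- The statement of (AN), with Hecke equivariance at all primes `ℓ ∤ N`. -/
def FA_S29_WI_AN' (N : ℕ) [NeZero N] (p : ℕ) : Prop :=
  ∃ Θ : ↥(parabolicHoms ℤ (Gamma0 N) ℤ) →+ JZero N,
    (∀ ψ, (p : ℤ) • Θ ψ = 0) ∧ (∀ ψ, Θ ψ = 0 → ∃ ψ', ψ = (p : ℤ) • ψ') ∧
    (∀ ℓ : Nat.Primes, ¬ (ℓ : ℕ) ∣ N → ∀ ψ,
      Θ (FA_S29_EIG_TH N ℓ ψ) = heckeOperatorBar N ℓ (Θ ψ))

theorem FA_S29_WI_AN_of (N : ℕ) [NeZero N] (p : ℕ) (h : FA_S29_WI_AN' N p) : FA_S29_WI_AN N p := by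
  obtain ⟨Θ, h1, h2, h3⟩ := h
  exact ⟨Θ, h1, h2, fun ℓ hℓ ψ => h3 ℓ (fun hd => hℓ (Dvd.dvd.mul_right hd p)) ψ⟩

/-- The statement of L10(a), on the `p`-torsion and at the primes `ℓ ∤ N p`. -/
def FA_S29_WI_GH (N : ℕ) [NeZero N] (p : ℕ) : Prop :=
  ∀ (ℓ : Nat.Primes), ¬ (ℓ : ℕ) ∣ N * p → ∀ (τ : Γ) (x : JZero N), p • x = 0 →
    heckeOperatorBar N ℓ (τ • x) = τ • heckeOperatorBar N ℓ x

/-- (AN) + L10(a) ⟹ the output of L10 for all eigenforms. -/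
theorem FA_S29_WI_all (N p : ℕ) (hN : N ≠ 0) (hp : p.Prime)
    (hAN : ∀ [NeZero N], FA_S29_WI_AN N p) (hGH : ∀ [NeZero N], FA_S29_WI_GH N p) :
    FA_S29_GL_ModuleAll N p := by
  haveI : NeZero N := ⟨hN⟩
  intro g hg k₀ _ _ _ φ
  exact FA_S29_EA_module_tors N p hp hAN hGH (fun x _ => FA_S29_STB_main N x) hg φ

/-- **S42** from (AN) + L10(a). -/
theorem FA_S29_WI_S42
    (hAN : ∀ (N : ℕ) [NeZero N] (p : ℕ), p.Prime → FA_S29_WI_AN N p)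
    (hGH : ∀ (N : ℕ) [NeZero N] (p : ℕ), p.Prime → FA_S29_WI_GH N p)
    (P : FreyPackage) : ∀ M : ℕ, 0 < M → P.EigenformResidualAttachmentAt M := by
  intro M hM
  exact FA_S29_S42_of_module P M hM
    (FA_S29_WI_all M P.p hM.ne' P.pp (hAN M P.p P.pp) (hGH M P.p P.pp))

/-- **S29** from (AN) + L10(a). -/
theorem FA_S29_WI_S29
    (hAN : ∀ (N : ℕ) [NeZero N] (p : ℕ), p.Prime → FA_S29_WI_AN N p)
    (hGH : ∀ (N : ℕ) [NeZero N] (p : ℕ), p.Prime → FA_S29_WI_GH N p)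
    {N : ℕ} {g : CuspForm (CongruenceSubgroup.Gamma0 N) 2} (hg : g.IsNormalizedEigenform)
    {p : ℕ} (hp : p.Prime) {k : Type} [Field k] [CharP k p]
    (φ : integralClosure ℤ ℂ →+* k) :
    ∃ ρ : ResidualGaloisRep k, ρ.IsAttachedTo g φ ∧
      ∀ ℓ : ℕ, ℓ.Prime → ¬ ℓ ∣ N * p → ρ.IsUnramifiedAt ℓ :=
  FA_S29_S29_of_module hg hp φ
    (fun hN => FA_S29_WI_all N p hN hp (hAN N p hp) (hGH N p hp))

end Fermat.Agent.S29
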